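/-
S28 (Igusa), package W (helper1), part 3: the degree bound `[F : ℚ(j)] ≤ ψ(N)` over `ℚ`, in the
instance-free form "any `ψ(N) + 1` elements of `F = modularFunctionFieldFull N` satisfy a
nontrivial `ℚ[j]`-linear relation".  Proof: S24's `IfaceDegree N` over `Q̄` + formal descent
(`ffk_linearIndependent_coeffMap`).
-/
import Fermat.Agent.Lib.FF.BridgePsi
import Fermat.Agent.Lib.FF.DegreeBridgeModel
import Fermat.Agent.Lib.FF.SqueezeOrbits
import Fermat.Agent.Lib.FF.Descent

set_option autoImplicit false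

namespace Fermat.Agent.Lib.S28

open ModularCurve Fermat.Agent.Lib.FF IntermediateField Polynomial
open scoped IntermediateField.algebraAdjoinAdjoin

noncomputable section

variable (N : ℕ) [NeZero N]

/-- S24's degree theorem, unconditional. -/
theorem s28w_ifaceDegree : IfaceDegree N :=
  ffg_ifaceDegree_of_bridge
    (ffg_isBridge_phi ffb_iota (ffb_psi N : ffg_A N →+* ffm_R N) (ffb_psi_isLaurent N))

theorem s28w_finrank_bar :
    Module.finrank (ffi_K)⟮ffd_jBar N⟯ (ffi_F N) = dedekindPsi N := by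
  rw [(s28w_ifaceDegree N).2.2]
  exact (ffs_ifaceOrbitCounts N).2.2.2

/-- Step 1: a nontrivial `Q̄[j]`-relation between the coefficient extensions. -/
theorem s28w_exists_relation_bar {n : ℕ} (hn : dedekindPsi N < n) (b : Fin n → LaurentSeries ℚ)
    (hb : ∀ i, b i ∈ modularFunctionFieldFull N) :
    ∃ p : Fin n → Polynomial ffi_K, (∃ i, p i ≠ 0) ∧
      ∑ i, Polynomial.aeval ffd_jSeries (p i) * coeffEmb ffi_K (b i) = 0 := by
  classical
  haveI : FiniteDimensional (ffi_K)⟮ffd_jBar N⟯ (ffi_F N) := (s28w_ifaceDegree N).2.1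
  let bbar : Fin n → ffi_F N := fun i =>
    ⟨coeffEmb ffi_K (b i), coeffEmb_mem_laurentBaseChange ffi_K (hb i)⟩
  have hdep : ¬ LinearIndependent (ffi_K)⟮ffd_jBar N⟯ bbar := by
    intro hli
    have h1 := hli.fintype_card_le_finrank
    rw [Fintype.card_fin, s28w_finrank_bar] at h1
    omega
  obtain ⟨g, hg, i₀, hi₀⟩ := Fintype.not_linearIndependent_iff.mp hdep
  -- clear denominators
  obtain ⟨d, hd⟩ := IsLocalization.exist_integer_multiples_of_finite
    (nonZeroDivisors (Algebra.adjoin ffi_K {ffd_jBar N})) g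
  choose a ha using hd
  have hrange : ∀ i, ∃ p : Polynomial ffi_K, Polynomial.aeval (ffd_jBar N) p =
      ((a i : Algebra.adjoin ffi_K {ffd_jBar N}) : ffi_F N) := by
    intro i
    have h1 : ((a i : Algebra.adjoin ffi_K {ffd_jBar N}) : ffi_F N) ∈
        (Polynomial.aeval (R := ffi_K) (ffd_jBar N)).range := by
      rw [← Algebra.adjoin_singleton_eq_range_aeval]
      exact (a i).2
    exact h1
  choose p hp using hrange
  have hd0 : ((d : Algebra.adjoin ffi_K {ffd_jBar N}) : ffi_F N) ≠ 0 := by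
    intro h0
    have : (d : Algebra.adjoin ffi_K {ffd_jBar N}) = 0 := Subtype.ext h0
    exact nonZeroDivisors.coe_ne_zero d this
  -- the value of `a i` in `F`
  have hval : ∀ i, ((a i : Algebra.adjoin ffi_K {ffd_jBar N}) : ffi_F N) =
      ((d : Algebra.adjoin ffi_K {ffd_jBar N}) : ffi_F N) * ((g i : (ffi_K)⟮ffd_jBar N⟯) : ffi_F N) := by
    intro i
    have h1 := ha i
    have h2 := congrArg (fun e : (ffi_K)⟮ffd_jBar N⟯ => (e : ffi_F N)) h1
    simp only [Algebra.smul_def] at h2
    exact h2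
  refine ⟨p, ⟨i₀, ?_⟩, ?_⟩
  · intro hp0
    have h1 := hp i₀
    rw [hp0, map_zero] at h1
    have h2 := hval i₀
    rw [← h1] at h2
    rcases mul_eq_zero.mp h2.symm with h3 | h3
    · exact hd0 h3
    · exact hi₀ (Subtype.ext h3)
  · -- the relation in `F`
    have hrel : ∑ i, Polynomial.aeval (ffd_jBar N) (p i) * bbar i = 0 := by
      have h1 : ∀ i, Polynomial.aeval (ffd_jBar N) (p i) * bbar i =
          ((d : Algebra.adjoin ffi_K {ffd_jBar N}) : ffi_F N) * (g i • bbar i) := by
        intro i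
        rw [hp i, hval i, mul_assoc]
        rfl
      rw [Finset.sum_congr rfl fun i _ => h1 i, ← Finset.mul_sum, hg, mul_zero]
    have h2 : ((∑ i, Polynomial.aeval (ffd_jBar N) (p i) * bbar i : ffi_F N) :
        LaurentSeries ffi_K) = 0 := by
      rw [hrel]; rfl
    rw [← h2]
    rw [AddSubmonoidClass.coe_finset_sum]
    refine Finset.sum_congr rfl fun i _ => ?_
    rw [MulMemClass.coe_mul]
    congr 1
    have h3 := Polynomial.aeval_algHom_apply (modularFunctionFieldBar N).val (ffd_jBar N) (p i)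
    exact h3

end

end Fermat.Agent.Lib.S28
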