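/-
S28 (Igusa), package W (helper1), part 1: the FRICKE involution on the function field
`modularFunctionFieldFull N = ℚ(j(q^d) : d ∣ N) ⊆ ℚ((q))`.

`s28w_fricke N : modularFunctionFieldFull N ≃ₐ[ℚ] modularFunctionFieldFull N` sends
`j(q^d) ↦ j(q^(N/d))`.  Proof: polynomial relations between the functions `z ↦ j(d z)` on the
upper half plane are preserved by `z ↦ -1/(N z)` (since `j(d · (-1/(N z))) = j(-1/((N/d) z)) =
j((N/d) z)`), and a function is determined by its Laurent `q`-expansion (Lib/FF bridge).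
-/
import Fermat.Agent.Lib.FF.BridgeJ

set_option autoImplicit false

namespace Fermat.Agent.Lib.S28

open UpperHalfPlane hiding I
open Complex ModularCurve Fermat.Agent.Lib.FF
open scoped MatrixGroups

noncomputable section

set_option linter.unusedSectionVars false

variable (N : ℕ) [NeZero N]

/-- The index type: divisors of `N`. -/
abbrev s28w_Idx : Type := {d : ℕ // d ∣ N}

instance s28w_neZero (d : s28w_Idx N) : NeZero d.1 :=
  ⟨fun h => NeZero.ne N (by have := d.2; rw [h] at this; exact Nat.eq_zero_of_zero_dvd this)⟩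

/-- The complementary divisor `d ↦ N / d`. -/
def s28w_co (d : s28w_Idx N) : s28w_Idx N := ⟨N / d.1, Nat.div_dvd_of_dvd d.2⟩

@[simp] theorem s28w_co_val (d : s28w_Idx N) : (s28w_co N d).1 = N / d.1 := rfl

theorem s28w_co_co (d : s28w_Idx N) : s28w_co N (s28w_co N d) = d := by
  apply Subtype.ext
  show N / (N / d.1) = d.1
  exact Nat.div_div_self d.2 (NeZero.ne N)

theorem s28w_mul_co (d : s28w_Idx N) : d.1 * (s28w_co N d).1 = N :=
  Nat.mul_div_cancel' d.2

/-- The generators `j(q^d)`. -/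
def s28w_gen (d : s28w_Idx N) : LaurentSeries ℚ := qExpand ℚ d.1 jq

/-- Evaluation `X_d ↦ j(q^d)`. -/
def s28w_ev : MvPolynomial (s28w_Idx N) ℚ →ₐ[ℚ] LaurentSeries ℚ :=
  MvPolynomial.aeval (s28w_gen N)

/-- Evaluation `X_d ↦ j(q^(N/d))`. -/
def s28w_ev' : MvPolynomial (s28w_Idx N) ℚ →ₐ[ℚ] LaurentSeries ℚ :=
  MvPolynomial.aeval (fun d => s28w_gen N (s28w_co N d))

/-- The functions `z ↦ P(j(d z))`. -/
def s28w_fn (P : MvPolynomial (s28w_Idx N) ℚ) : ℍ → ℂ := fun z =>
  MvPolynomial.eval₂ (algebraMap ℚ ℂ) (fun d : s28w_Idx N => ffb_jd d.1 z) P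

/-- The functions `z ↦ P(j((N/d) z))`. -/
def s28w_fn' (P : MvPolynomial (s28w_Idx N) ℚ) : ℍ → ℂ := fun z =>
  MvPolynomial.eval₂ (algebraMap ℚ ℂ) (fun d : s28w_Idx N => ffb_jd (s28w_co N d).1 z) P

theorem s28w_coeffMap_algebraMap (a : ℚ) :
    coeffMap (algebraMap ℚ ℂ) (algebraMap ℚ (LaurentSeries ℚ) a) =
      HahnSeries.C ((algebraMap ℚ ℂ) a) := by
  rw [algebraMap_laurentSeries_eq_single, coeffMap_single]
  rfl

theorem s28w_isLaurent_fn (P : MvPolynomial (s28w_Idx N) ℚ) :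
    ffb_IsLaurent (s28w_fn N P) (coeffMap (algebraMap ℚ ℂ) (s28w_ev N P)) := by
  induction P using MvPolynomial.induction_on with
  | C a =>
    have h1 : s28w_fn N (MvPolynomial.C a) = fun _ => (algebraMap ℚ ℂ) a := by
      funext z
      simp [s28w_fn]
    have h2 : s28w_ev N (MvPolynomial.C a) = algebraMap ℚ (LaurentSeries ℚ) a := by
      simp [s28w_ev]
    rw [h1, h2, s28w_coeffMap_algebraMap]
    exact ffb_IsLaurent.const _
  | add p q hp hq =>
    have h1 : s28w_fn N (p + q) = s28w_fn N p + s28w_fn N q := by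
      funext z
      simp [s28w_fn]
    rw [h1, map_add, map_add]
    exact hp.add hq
  | mul_X p d hp =>
    have h1 : s28w_fn N (p * MvPolynomial.X d) = s28w_fn N p * ffb_jd d.1 := by
      funext z
      simp [s28w_fn]
    have h2 : s28w_ev N (p * MvPolynomial.X d) = s28w_ev N p * qExpand ℚ d.1 jq := by
      simp [s28w_ev, s28w_gen]
    rw [h1, h2, map_mul]
    exact hp.mul (ffb_isLaurent_jd d.1)

theorem s28w_isLaurent_fn' (P : MvPolynomial (s28w_Idx N) ℚ) :
    ffb_IsLaurent (s28w_fn' N P) (coeffMap (algebraMap ℚ ℂ) (s28w_ev' N P)) := by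
  induction P using MvPolynomial.induction_on with
  | C a =>
    have h1 : s28w_fn' N (MvPolynomial.C a) = fun _ => (algebraMap ℚ ℂ) a := by
      funext z
      simp [s28w_fn']
    have h2 : s28w_ev' N (MvPolynomial.C a) = algebraMap ℚ (LaurentSeries ℚ) a := by
      simp [s28w_ev']
    rw [h1, h2, s28w_coeffMap_algebraMap]
    exact ffb_IsLaurent.const _
  | add p q hp hq =>
    have h1 : s28w_fn' N (p + q) = s28w_fn' N p + s28w_fn' N q := by
      funext z
      simp [s28w_fn']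
    rw [h1, map_add, map_add]
    exact hp.add hq
  | mul_X p d hp =>
    have h1 : s28w_fn' N (p * MvPolynomial.X d) = s28w_fn' N p * ffb_jd (s28w_co N d).1 := by
      funext z
      simp [s28w_fn']
    have h2 : s28w_ev' N (p * MvPolynomial.X d) =
        s28w_ev' N p * qExpand ℚ (s28w_co N d).1 jq := by
      simp [s28w_ev', s28w_gen]
    rw [h1, h2, map_mul]
    exact hp.mul (ffb_isLaurent_jd (s28w_co N d).1)

/-- The Fricke map `z ↦ -1/(N z)` on the upper half plane. -/
def s28w_frickeH (z : ℍ) : ℍ := ModularGroup.S • ffb_dmul N z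

theorem s28w_dmul_frickeH (d : s28w_Idx N) (z : ℍ) :
    ffb_dmul d.1 (s28w_frickeH N z) = ModularGroup.S • ffb_dmul (s28w_co N d).1 z := by
  apply UpperHalfPlane.ext
  have e1 : ((ModularGroup.S • ffb_dmul N z : ℍ) : ℂ) = (-((N : ℂ) * (z : ℂ)))⁻¹ := by
    rw [modular_S_smul]; rfl
  have e2 : ((ModularGroup.S • ffb_dmul (s28w_co N d).1 z : ℍ) : ℂ) =
      (-(((s28w_co N d).1 : ℂ) * (z : ℂ)))⁻¹ := by
    rw [modular_S_smul]; rfl
  rw [ffb_dmul_coe, s28w_frickeH, e1, e2]
  have hN : ((N : ℕ) : ℂ) = (d.1 : ℂ) * ((s28w_co N d).1 : ℂ) := by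
    rw [← Nat.cast_mul, s28w_mul_co]
  have hd : (d.1 : ℂ) ≠ 0 := Nat.cast_ne_zero.mpr (NeZero.ne d.1)
  have hc : ((s28w_co N d).1 : ℂ) ≠ 0 := Nat.cast_ne_zero.mpr (NeZero.ne _)
  have hz : (z : ℂ) ≠ 0 := UpperHalfPlane.ne_zero z
  rw [hN]
  field_simp

theorem s28w_jd_frickeH (d : s28w_Idx N) (z : ℍ) :
    ffb_jd d.1 (s28w_frickeH N z) = ffb_jd (s28w_co N d).1 z := by
  rw [ffb_jd_apply, ffb_jd_apply, s28w_dmul_frickeH, ffj_smul]

theorem s28w_fn'_eq (P : MvPolynomial (s28w_Idx N) ℚ) (z : ℍ) :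
    s28w_fn' N P z = s28w_fn N P (s28w_frickeH N z) := by
  unfold s28w_fn' s28w_fn
  simp only [s28w_jd_frickeH]

theorem s28w_coeffMap_injective :
    Function.Injective (coeffMap (algebraMap ℚ ℂ) : LaurentSeries ℚ → LaurentSeries ℂ) := by
  intro x y h
  ext k
  have := congrArg (fun s : LaurentSeries ℂ => s.coeff k) h
  simp only [coeffMap_coeff] at this
  exact (algebraMap ℚ ℂ).injective this

/-- **Key**: relations between the `j(q^d)` are relations between the `j(q^(N/d))`. -/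
theorem s28w_ker_le (P : MvPolynomial (s28w_Idx N) ℚ) (h : s28w_ev N P = 0) :
    s28w_ev' N P = 0 := by
  have h1 := s28w_isLaurent_fn N P
  rw [h, map_zero] at h1
  have h2 : s28w_fn N P = 0 := h1.eq_zero
  have h3 : s28w_fn' N P = 0 := by
    funext z
    rw [s28w_fn'_eq, h2]
    rfl
  have h4 := s28w_isLaurent_fn' N P
  rw [h3] at h4
  have h5 : ffb_IsLaurent (0 : ℍ → ℂ) (0 : LaurentSeries ℂ) := by
    have := ffb_IsLaurent.const 0
    rw [map_zero] at this
    exact this
  have h6 := h4.unique h5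
  apply s28w_coeffMap_injective
  rw [h6, map_zero]

end

end Fermat.Agent.Lib.S28
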