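/-
S28 (Igusa), package W (helper1), part 2: the Fricke involution as a `ℚ`-algebra automorphism of
`modularFunctionFieldFull N`, from `s28w_ker_le` (WFricke.lean).
-/
import Fermat.Agent.Lib.S28.WFricke

set_option autoImplicit false

namespace Fermat.Agent.Lib.S28

open ModularCurve Fermat.Agent.Lib.FF IntermediateField
open scoped IntermediateField.algebraAdjoinAdjoin

noncomputable section

set_option linter.unusedSectionVars false

variable (N : ℕ) [NeZero N]

theorem s28w_range_gen : Set.range (s28w_gen N) = divisorExpansions N := by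
  ext x
  constructor
  · rintro ⟨d, rfl⟩
    exact ⟨d.1, inferInstance, d.2, rfl⟩
  · rintro ⟨d, hne, hd, rfl⟩
    exact ⟨⟨d, hd⟩, rfl⟩

theorem s28w_range_gen_co :
    Set.range (fun d => s28w_gen N (s28w_co N d)) = divisorExpansions N := by
  rw [← s28w_range_gen]
  ext x
  constructor
  · rintro ⟨d, rfl⟩
    exact ⟨s28w_co N d, rfl⟩
  · rintro ⟨d, rfl⟩
    exact ⟨s28w_co N d, by simp only [s28w_co_co]⟩

theorem s28w_ev_range : (s28w_ev N).range = Algebra.adjoin ℚ (divisorExpansions N) := by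
  rw [s28w_ev, ← Algebra.adjoin_range_eq_range_aeval, s28w_range_gen]

theorem s28w_ev'_range : (s28w_ev' N).range = Algebra.adjoin ℚ (divisorExpansions N) := by
  rw [s28w_ev', ← Algebra.adjoin_range_eq_range_aeval, s28w_range_gen_co]

/-- Renaming `X_d ↦ X_{N/d}`. -/
def s28w_ren : MvPolynomial (s28w_Idx N) ℚ →ₐ[ℚ] MvPolynomial (s28w_Idx N) ℚ :=
  MvPolynomial.rename (s28w_co N)

theorem s28w_ev_ren (P : MvPolynomial (s28w_Idx N) ℚ) :
    s28w_ev N (s28w_ren N P) = s28w_ev' N P := by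
  simp only [s28w_ev, s28w_ev', s28w_ren, MvPolynomial.aeval_rename]
  rfl

theorem s28w_ev'_ren (P : MvPolynomial (s28w_Idx N) ℚ) :
    s28w_ev' N (s28w_ren N P) = s28w_ev N P := by
  simp only [s28w_ev, s28w_ev', s28w_ren, MvPolynomial.aeval_rename]
  have h : ((fun d => s28w_gen N (s28w_co N d)) ∘ s28w_co N) = s28w_gen N := by
    funext d
    simp only [Function.comp_apply, s28w_co_co]
  rw [h]

theorem s28w_ker_ge (P : MvPolynomial (s28w_Idx N) ℚ) (h : s28w_ev' N P = 0) :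
    s28w_ev N P = 0 := by
  rw [← s28w_ev'_ren]
  apply s28w_ker_le
  rw [s28w_ev_ren, h]

/-- The subalgebra `ℚ[j(q^d) : d ∣ N]`. -/
abbrev s28w_B : Subalgebra ℚ (LaurentSeries ℚ) := Algebra.adjoin ℚ (divisorExpansions N)

/-- `ev` with codomain `B`. -/
def s28w_evB : MvPolynomial (s28w_Idx N) ℚ →ₐ[ℚ] s28w_B N :=
  (s28w_ev N).codRestrict (s28w_B N) fun P => by
    show _ ∈ Algebra.adjoin ℚ (divisorExpansions N)
    rw [← s28w_ev_range]; exact ⟨P, rfl⟩

theorem s28w_evB_coe (P : MvPolynomial (s28w_Idx N) ℚ) : (s28w_evB N P : LaurentSeries ℚ) =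
    s28w_ev N P := rfl

theorem s28w_evB_surjective : Function.Surjective (s28w_evB N) := by
  rintro ⟨b, hb⟩
  have hb' : b ∈ (s28w_ev N).range := by rw [s28w_ev_range]; exact hb
  obtain ⟨P, rfl⟩ := hb'
  exact ⟨P, rfl⟩

/-- The Fricke map on `B`. -/
def s28w_gB : s28w_B N →ₐ[ℚ] LaurentSeries ℚ :=
  AlgHom.liftOfSurjective (s28w_evB N) (s28w_evB_surjective N) (s28w_ev' N) (by
    intro P hP
    rw [RingHom.mem_ker] at hP ⊢
    have h1 : s28w_ev N P = 0 := by
      have := congrArg (fun b : s28w_B N => (b : LaurentSeries ℚ)) hP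
      exact this
    exact s28w_ker_le N P h1)

theorem s28w_gB_evB (P : MvPolynomial (s28w_Idx N) ℚ) :
    s28w_gB N (s28w_evB N P) = s28w_ev' N P :=
  AlgHom.liftOfSurjective_apply _ _ _ _ P

theorem s28w_gB_injective : Function.Injective (s28w_gB N) := by
  rw [injective_iff_map_eq_zero]
  intro b hb
  obtain ⟨P, rfl⟩ := s28w_evB_surjective N b
  rw [s28w_gB_evB] at hb
  apply Subtype.ext
  rw [s28w_evB_coe, s28w_ker_ge N P hb]
  rfl

theorem s28w_gB_range : (s28w_gB N).range = Algebra.adjoin ℚ (divisorExpansions N) := by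
  rw [← s28w_ev'_range]
  ext x
  constructor
  · rintro ⟨b, rfl⟩
    obtain ⟨P, rfl⟩ := s28w_evB_surjective N b
    exact ⟨P, (s28w_gB_evB N P).symm⟩
  · rintro ⟨P, rfl⟩
    exact ⟨s28w_evB N P, s28w_gB_evB N P⟩

/-- The field `F = ℚ(j(q^d) : d ∣ N)`, in the syntactic form for which Mathlib's fraction-field
instances fire; `modularFunctionFieldFull N` is definitionally this. -/
abbrev s28w_F : IntermediateField ℚ (LaurentSeries ℚ) :=
  IntermediateField.adjoin ℚ (divisorExpansions N)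

theorem s28w_F_eq : s28w_F N = modularFunctionFieldFull N := rfl

theorem s28w_B_le_F : s28w_B N ≤ (s28w_F N).toSubalgebra :=
  IntermediateField.algebra_adjoin_le_adjoin ℚ _

/-- The Fricke map `F → ℚ((q))` (ring hom). -/
def s28w_frickeHom : s28w_F N →+* LaurentSeries ℚ :=
  IsFractionRing.lift (A := s28w_B N) (K := s28w_F N) (g := (s28w_gB N : s28w_B N →+* _))
    (s28w_gB_injective N)

theorem s28w_frickeHom_algebraMap (b : s28w_B N) :
    s28w_frickeHom N (algebraMap (s28w_B N) (s28w_F N) b) = s28w_gB N b := by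
  unfold s28w_frickeHom
  rw [IsFractionRing.lift_algebraMap]
  rfl

theorem s28w_gB_mem (b : s28w_B N) : s28w_gB N b ∈ s28w_B N := by
  have : s28w_gB N b ∈ (s28w_gB N).range := ⟨b, rfl⟩
  rw [s28w_gB_range] at this
  exact this

theorem s28w_frickeHom_mem (x : s28w_F N) : s28w_frickeHom N x ∈ s28w_F N := by
  obtain ⟨a, b, -, rfl⟩ := IsFractionRing.div_surjective (A := s28w_B N) x
  rw [map_div₀, s28w_frickeHom_algebraMap, s28w_frickeHom_algebraMap]
  exact div_mem (s28w_B_le_F N (s28w_gB_mem N a)) (s28w_B_le_F N (s28w_gB_mem N b))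

/-- The Fricke endomorphism of `F`. -/
def s28w_frickeEnd : s28w_F N →+* s28w_F N :=
  (s28w_frickeHom N).codRestrict (s28w_F N).toSubfield.toSubring (s28w_frickeHom_mem N)

theorem s28w_frickeEnd_coe (x : s28w_F N) :
    ((s28w_frickeEnd N x : s28w_F N) : LaurentSeries ℚ) = s28w_frickeHom N x := rfl

/-- `g ∘ g = id` on `B`. -/
theorem s28w_gB_gB (b : s28w_B N) :
    s28w_gB N ⟨s28w_gB N b, s28w_gB_mem N b⟩ = (b : LaurentSeries ℚ) := by
  obtain ⟨P, rfl⟩ := s28w_evB_surjective N b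
  have h1 : (⟨s28w_gB N (s28w_evB N P), s28w_gB_mem N _⟩ : s28w_B N) =
      s28w_evB N (s28w_ren N P) := by
    apply Subtype.ext
    rw [s28w_evB_coe, s28w_ev_ren]
    exact s28w_gB_evB N P
  rw [h1, s28w_gB_evB, s28w_ev'_ren, s28w_evB_coe]

theorem s28w_frickeEnd_algebraMap (b : s28w_B N) :
    s28w_frickeEnd N (algebraMap (s28w_B N) (s28w_F N) b) =
      algebraMap (s28w_B N) (s28w_F N) ⟨s28w_gB N b, s28w_gB_mem N b⟩ := by
  apply Subtype.ext
  rw [s28w_frickeEnd_coe, s28w_frickeHom_algebraMap]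
  rfl

theorem s28w_frickeEnd_frickeEnd (x : s28w_F N) :
    s28w_frickeEnd N (s28w_frickeEnd N x) = x := by
  obtain ⟨a, b, -, rfl⟩ := IsFractionRing.div_surjective (A := s28w_B N) x
  rw [map_div₀, map_div₀, s28w_frickeEnd_algebraMap, s28w_frickeEnd_algebraMap,
    s28w_frickeEnd_algebraMap, s28w_frickeEnd_algebraMap]
  congr 1
  · apply Subtype.ext
    exact s28w_gB_gB N a
  · apply Subtype.ext
    exact s28w_gB_gB N b

/-- **The Fricke involution** of `F = ℚ(j(q^d) : d ∣ N)` as a ring automorphism. -/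
def s28w_frickeEquiv : s28w_F N ≃+* s28w_F N :=
  RingEquiv.ofRingHom (s28w_frickeEnd N) (s28w_frickeEnd N)
    (RingHom.ext (s28w_frickeEnd_frickeEnd N)) (RingHom.ext (s28w_frickeEnd_frickeEnd N))

theorem s28w_gen_mem_B (d : s28w_Idx N) : s28w_gen N d ∈ s28w_B N :=
  Algebra.subset_adjoin (by rw [← s28w_range_gen]; exact ⟨d, rfl⟩)

theorem s28w_gB_gen (d : s28w_Idx N) :
    s28w_gB N ⟨s28w_gen N d, s28w_gen_mem_B N d⟩ = s28w_gen N (s28w_co N d) := by
  have h1 : (⟨s28w_gen N d, s28w_gen_mem_B N d⟩ : s28w_B N) =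
      s28w_evB N (MvPolynomial.X d) := by
    apply Subtype.ext
    rw [s28w_evB_coe]
    simp [s28w_ev]
  rw [h1, s28w_gB_evB]
  simp [s28w_ev']

/-- **Fricke on generators**: `j(q^d) ↦ j(q^(N/d))`. -/
theorem s28w_frickeEquiv_gen {d : ℕ} [NeZero d] (hd : d ∣ N)
    (x : s28w_F N) (hx : (x : LaurentSeries ℚ) = qExpand ℚ d jq) :
    ((s28w_frickeEquiv N x : s28w_F N) : LaurentSeries ℚ) =
      @qExpand ℚ _ (N / d) ⟨(NeZero.ne (s28w_co N ⟨d, hd⟩).1)⟩ jq := by
  have h1 : x = algebraMap (s28w_B N) (s28w_F N)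
      ⟨s28w_gen N ⟨d, hd⟩, s28w_gen_mem_B N ⟨d, hd⟩⟩ := by
    apply Subtype.ext
    rw [hx]
    rfl
  show ((s28w_frickeEnd N x : s28w_F N) : LaurentSeries ℚ) = _
  rw [h1, s28w_frickeEnd_coe, s28w_frickeHom_algebraMap, s28w_gB_gen]
  rfl

end

end Fermat.Agent.Lib.S28
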