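/-
S28 (Igusa), package W (helper1), part 4: descent of the degree bound to `ℚ`:
any `ψ(N) + 1` elements of `F = modularFunctionFieldFull N` satisfy a nontrivial `ℚ[j]`-linear
relation, i.e. `[F : ℚ(j)] ≤ ψ(N)`; and the same over `ℚ[j(q^N)]` (by the Fricke involution).
-/
import Fermat.Agent.Lib.S28.WDegree
import Fermat.Agent.Lib.S28.WFrickeAlg

set_option autoImplicit false

namespace Fermat.Agent.Lib.S28

open ModularCurve Fermat.Agent.Lib.FF IntermediateField Polynomial

noncomputable section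

theorem s28w_algebraMap_eq_C {K : Type*} [Field K] (c : K) :
    algebraMap K (LaurentSeries K) c = HahnSeries.C c := by
  rw [algebraMap_laurentSeries_eq_single]; rfl

theorem s28w_aeval_eq_sum {K : Type*} [Field K] (P : Polynomial K) (y : LaurentSeries K) {M : ℕ}
    (hM : P.natDegree < M) :
    Polynomial.aeval y P = ∑ m : Fin M, HahnSeries.C (P.coeff (m : ℕ)) * y ^ (m : ℕ) := by
  rw [Polynomial.aeval_def, Polynomial.eval₂_eq_sum_range' _ hM,
    Fin.sum_univ_eq_sum_range (fun m => HahnSeries.C (P.coeff m) * y ^ m) M]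
  refine Finset.sum_congr rfl fun m _ => ?_
  rw [s28w_algebraMap_eq_C]

theorem s28w_aeval_sum_monomial {K : Type*} [Field K] (y : LaurentSeries K) {M : ℕ}
    (g : Fin M → K) :
    Polynomial.aeval y (∑ m : Fin M, Polynomial.monomial (m : ℕ) (g m)) =
      ∑ m : Fin M, HahnSeries.C (g m) * y ^ (m : ℕ) := by
  rw [map_sum]
  refine Finset.sum_congr rfl fun m _ => ?_
  rw [Polynomial.aeval_monomial, s28w_algebraMap_eq_C]

variable (N : ℕ) [NeZero N]

/-- **W2**: any `ψ(N) + 1` elements of `F = modularFunctionFieldFull N` satisfy a nontrivial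
`ℚ[j]`-linear relation, i.e. `[F : ℚ(j)] ≤ ψ(N)`. -/
theorem s28w_exists_relation {n : ℕ} (hn : dedekindPsi N < n) (b : Fin n → LaurentSeries ℚ)
    (hb : ∀ i, b i ∈ modularFunctionFieldFull N) :
    ∃ c : Fin n → Polynomial ℚ, c ≠ 0 ∧ ∑ i, Polynomial.aeval jq (c i) * b i = 0 := by
  classical
  obtain ⟨p, ⟨i₀, hi₀⟩, hrel⟩ := s28w_exists_relation_bar N hn b hb
  -- a common degree bound
  set M : ℕ := (Finset.univ.sup fun i => (p i).natDegree) + 1 with hM
  have hdeg : ∀ i, (p i).natDegree < M := fun i =>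
    Nat.lt_succ_of_le (Finset.le_sup (f := fun i => (p i).natDegree) (Finset.mem_univ i))
  -- the family `j^m b_i`
  let x : Fin n × Fin M → LaurentSeries ℚ := fun im => jq ^ (im.2 : ℕ) * b im.1
  have hx : ∀ im, coeffMap (algebraMap ℚ ffi_K) (x im) =
      ffd_jSeries ^ (im.2 : ℕ) * coeffEmb ffi_K (b im.1) := by
    intro im
    simp only [x, map_mul, map_pow]
    rfl
  have hnot : ¬ LinearIndependent ℚ x := by
    intro hli
    have h1 := ffk_linearIndependent_coeffMap (algebraMap ℚ ffi_K) x hli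
    rw [Fintype.linearIndependent_iff] at h1
    have h2 := h1 (fun im => (p im.1).coeff (im.2 : ℕ)) (by
      rw [Fintype.sum_prod_type, ← hrel]
      refine Finset.sum_congr rfl fun i _ => ?_
      rw [s28w_aeval_eq_sum (p i) ffd_jSeries (hdeg i), Finset.sum_mul]
      refine Finset.sum_congr rfl fun m _ => ?_
      rw [hx, ← HahnSeries.C_mul_eq_smul, mul_assoc])
    -- some coefficient of `p i₀` is nonzero
    apply hi₀
    ext m
    rw [Polynomial.coeff_zero]
    by_cases hm : m < M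
    · exact h2 (i₀, ⟨m, hm⟩)
    · exact Polynomial.coeff_eq_zero_of_natDegree_lt (lt_of_lt_of_le (hdeg i₀) (not_lt.mp hm))
  obtain ⟨g, hg, ⟨i₁, m₁⟩, hne⟩ := Fintype.not_linearIndependent_iff.mp hnot
  refine ⟨fun i => ∑ m : Fin M, Polynomial.monomial (m : ℕ) (g (i, m)), ?_, ?_⟩
  · intro h0
    have h1 := congrFun h0 i₁
    have h2 := congrArg (fun q : Polynomial ℚ => q.coeff (m₁ : ℕ)) h1
    simp only [Pi.zero_apply, Polynomial.coeff_zero, Polynomial.finset_sum_coeff,
      Polynomial.coeff_monomial] at h2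
    rw [Finset.sum_eq_single m₁] at h2
    · rw [if_pos rfl] at h2
      exact hne h2
    · intro m _ hm
      rw [if_neg]
      exact fun h => hm (Fin.ext h)
    · intro h
      exact absurd (Finset.mem_univ _) h
  · rw [← hg, Fintype.sum_prod_type]
    refine Finset.sum_congr rfl fun i _ => ?_
    rw [s28w_aeval_sum_monomial, Finset.sum_mul]
    refine Finset.sum_congr rfl fun m _ => ?_
    rw [← HahnSeries.C_mul_eq_smul, mul_assoc]

/-- `j` as an element of `F`. -/
def s28w_jF : s28w_F N := ⟨jq, by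
  have h := jqd_mem_full N (one_dvd N)
  rwa [qExpand_one_apply] at h⟩

/-- `j(q^N)` as an element of `F`. -/
def s28w_jNF : s28w_F N := ⟨qExpand ℚ N jq, jqd_mem_full N dvd_rfl⟩

theorem s28w_frickeEquiv_jF : s28w_frickeEquiv N (s28w_jF N) = s28w_jNF N := by
  apply Subtype.ext
  have h := s28w_frickeEquiv_gen N (d := 1) (one_dvd N) (s28w_jF N)
    (by rw [qExpand_one_apply]; rfl)
  rw [h]
  haveI : NeZero (N / 1) := ⟨by rw [Nat.div_one]; exact NeZero.ne N⟩
  show qExpand ℚ (N / 1) jq = qExpand ℚ N jq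
  exact qExpand_congr (Nat.div_one N) jq

theorem s28w_coe_aeval (y : s28w_F N) (P : Polynomial ℚ) :
    ((Polynomial.aeval y P : s28w_F N) : LaurentSeries ℚ) =
      Polynomial.aeval (y : LaurentSeries ℚ) P := by
  rw [Polynomial.aeval_def, Polynomial.aeval_def]
  have h := Polynomial.hom_eval₂ P (algebraMap ℚ (s28w_F N))
    ((s28w_F N).toSubfield.subtype : s28w_F N →+* LaurentSeries ℚ) y
  have h2 : (((s28w_F N).toSubfield.subtype : s28w_F N →+* LaurentSeries ℚ).comp
      (algebraMap ℚ (s28w_F N))) = algebraMap ℚ (LaurentSeries ℚ) := RingHom.ext_rat _ _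
  rw [h2] at h
  exact h

theorem s28w_frickeEquiv_aeval (y : s28w_F N) (P : Polynomial ℚ) :
    s28w_frickeEquiv N (Polynomial.aeval y P) = Polynomial.aeval (s28w_frickeEquiv N y) P := by
  rw [Polynomial.aeval_def, Polynomial.aeval_def]
  have h := Polynomial.hom_eval₂ P (algebraMap ℚ (s28w_F N))
    (s28w_frickeEquiv N : s28w_F N →+* s28w_F N) y
  have h2 : ((s28w_frickeEquiv N : s28w_F N →+* s28w_F N).comp (algebraMap ℚ (s28w_F N))) =
      algebraMap ℚ (s28w_F N) := RingHom.ext_rat _ _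
  rw [h2] at h
  exact h

/-- **W2 over `ℚ[j(q^N)]`**: any `ψ(N) + 1` elements of `F` satisfy a nontrivial
`ℚ[j(q^N)]`-linear relation, i.e. `[F : ℚ(j(q^N))] ≤ ψ(N)`. -/
theorem s28w_exists_relation_ZN {n : ℕ} (hn : dedekindPsi N < n) (b : Fin n → LaurentSeries ℚ)
    (hb : ∀ i, b i ∈ modularFunctionFieldFull N) :
    ∃ c : Fin n → Polynomial ℚ, c ≠ 0 ∧
      ∑ i, Polynomial.aeval (qExpand ℚ N jq) (c i) * b i = 0 := by
  let bF : Fin n → s28w_F N := fun i => ⟨b i, hb i⟩
  obtain ⟨c, hc, hrel⟩ := s28w_exists_relation N hn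
    (fun i => ((s28w_frickeEquiv N (bF i) : s28w_F N) : LaurentSeries ℚ))
    (fun i => (s28w_frickeEquiv N (bF i)).2)
  refine ⟨c, hc, ?_⟩
  have h1 : ∑ i, Polynomial.aeval (s28w_jF N) (c i) * s28w_frickeEquiv N (bF i) = 0 := by
    apply Subtype.ext
    rw [AddSubmonoidClass.coe_finset_sum, ZeroMemClass.coe_zero, ← hrel]
    refine Finset.sum_congr rfl fun i _ => ?_
    rw [MulMemClass.coe_mul, s28w_coe_aeval]
    rfl
  have h2 := congrArg (s28w_frickeEquiv N) h1
  rw [map_sum, map_zero] at h2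
  have h3 : ∑ i, Polynomial.aeval (s28w_jNF N) (c i) * bF i = 0 := by
    rw [← h2]
    refine Finset.sum_congr rfl fun i _ => ?_
    rw [map_mul, s28w_frickeEquiv_aeval, s28w_frickeEquiv_jF]
    congr 1
    exact (s28w_frickeEnd_frickeEnd N (bF i)).symm
  have h4 : ((∑ i, Polynomial.aeval (s28w_jNF N) (c i) * bF i : s28w_F N) :
      LaurentSeries ℚ) = 0 := by
    rw [h3]; rfl
  rw [AddSubmonoidClass.coe_finset_sum] at h4
  rw [← h4]
  refine Finset.sum_congr rfl fun i _ => ?_
  rw [MulMemClass.coe_mul, s28w_coe_aeval]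
  rfl

end

end Fermat.Agent.Lib.S28
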