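import Mathlib

set_option autoImplicit false
open Polynomial
noncomputable section

namespace Fermat.Agent.Lib.S28

section Abstract

variable {R : Type*} [CommRing R] (ℓ : R)

/-- Finite `ℓ`-content of nonzero polynomials from finite `ℓ`-multiplicity in `R`. -/
theorem s28d_exists_not_C_pow_dvd (hfin : ∀ r : R, r ≠ 0 → ∃ n : ℕ, ¬ ℓ ^ (n + 1) ∣ r)
    {Q : R[X]} (hQ : Q ≠ 0) : ∃ n : ℕ, ¬ (C ℓ) ^ (n + 1) ∣ Q := by
  obtain ⟨i, hi⟩ : ∃ i, Q.coeff i ≠ 0 := by
    by_contra h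
    push Not at h
    exact hQ (Polynomial.ext fun i => by simpa using h i)
  obtain ⟨n, hn⟩ := hfin _ hi
  refine ⟨n, fun hdvd => hn ?_⟩
  rw [← C_pow, C_dvd_iff_dvd_coeff] at hdvd
  exact hdvd i

variable {S : Type*} [CommRing S] [IsDomain S] [Algebra R S]
  {D : Type*} [CommRing D] [IsDomain D] [Algebra R D]
  {ι : Type*} [Fintype ι]

/-- Normalisation (descent on the `ℓ`-content of `Q`) of a relation
`Q(t) u = z ∑ P_i(t) b_i` using independence of the reductions of the `b_i`. -/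
theorem s28d_normalise (hℓS : algebraMap R S ℓ ≠ 0) (hℓD : algebraMap R D ℓ = 0)
    (red : S →ₐ[R] D) (t : S) (b : ι → S)
    (hind : ∀ P : ι → R[X], ∑ i, aeval (red t) (P i) * red (b i) = 0 → ∀ i, C ℓ ∣ P i)
    (u z : S) (hzred : red z ≠ 0) :
    ∀ (n : ℕ) (Q : R[X]) (P : ι → R[X]), ¬ (C ℓ) ^ (n + 1) ∣ Q →
      aeval t Q * u = z * ∑ i, aeval t (P i) * b i →
      ∃ (Q' : R[X]) (P' : ι → R[X]), ¬ C ℓ ∣ Q' ∧
        aeval t Q' * u = z * ∑ i, aeval t (P' i) * b i := by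
  intro n
  induction n with
  | zero =>
    intro Q P hQ h
    exact ⟨Q, P, by simpa using hQ, h⟩
  | succ n ih =>
    intro Q P hQ h
    by_cases hdvd : C ℓ ∣ Q
    · obtain ⟨Q₁, rfl⟩ := hdvd
      rw [map_mul, aeval_C] at h
      have hrel' := congrArg red h
      rw [map_mul red, map_mul red, map_mul red, AlgHom.commutes, hℓD, zero_mul, zero_mul] at hrel'
      have hsum0 : red (∑ i, aeval t (P i) * b i) = 0 := by
        rcases mul_eq_zero.mp hrel'.symm with h0 | h0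
        · exact absurd h0 hzred
        · exact h0
      have hsum1 : red (∑ i, aeval t (P i) * b i) =
          ∑ i, aeval (red t) (P i) * red (b i) := by
        rw [map_sum]
        refine Finset.sum_congr rfl fun i _ => ?_
        rw [map_mul, Polynomial.aeval_algHom_apply]
      rw [hsum1] at hsum0
      have hP := hind P hsum0
      choose P₁ hP₁ using hP
      have hQ₁ : ¬ (C ℓ) ^ (n + 1) ∣ Q₁ := by
        intro hd
        apply hQ
        rw [pow_succ']
        exact mul_dvd_mul_left _ hd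
      refine ih Q₁ P₁ hQ₁ ?_
      have hrw : ∑ i, aeval t (P i) * b i = algebraMap R S ℓ * ∑ i, aeval t (P₁ i) * b i := by
        rw [Finset.mul_sum]
        refine Finset.sum_congr rfl fun i _ => ?_
        rw [hP₁ i, map_mul, aeval_C]
        ring
      rw [hrw] at h
      have h4 : algebraMap R S ℓ * (aeval t Q₁ * u) =
          algebraMap R S ℓ * (z * ∑ i, aeval t (P₁ i) * b i) := by
        rw [← mul_assoc, h]; ring
      exact mul_left_cancel₀ hℓS h4
    · exact ⟨Q, P, hdvd, h⟩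

/-- Coercion of a relation `Q(T) U = Z ∑ P_i(T) B_i` between a subalgebra and the ambient ring. -/
theorem s28d_rel_coe {F : Type*} [CommRing F] [Algebra R F] (O' : Subalgebra R F)
    (T U Z : O') (b : ι → O') (Q : R[X]) (P : ι → R[X]) :
    (aeval T Q * U = Z * ∑ i, aeval T (P i) * b i) ↔
      (aeval (T : F) Q * (U : F) = (Z : F) * ∑ i, aeval (T : F) (P i) * (b i : F)) := by
  rw [← Subtype.coe_inj]
  simp only [Subalgebra.coe_mul, AddSubmonoidClass.coe_finsetSum, aeval_subalgebra_coe]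

theorem s28d_aeval_mem {F : Type*} [CommRing F] [Algebra R F] (B : Subalgebra R F) {t : F}
    (ht : t ∈ B) (Q : R[X]) : aeval t Q ∈ B := by
  have := (aeval (⟨t, ht⟩ : B) Q).2
  rwa [aeval_subalgebra_coe] at this

/-- **Abstract purity lemma.** `(O', red')` is a reduction datum for which the reductions of the
`b_i` are independent over polynomials in the reduction of `t`; `(O, red)` is a second reduction
datum in which the reduction of `t` is transcendental.  Then for `y ∈ O` with `ℓ y ∈ B` there is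
a polynomial `Q`, not divisible by `ℓ`, with `Q(t) y ∈ B`. -/
theorem s28d_exists_primitive_mul_mem
    {F : Type*} [Field F] [Algebra R F]
    {D' : Type*} [CommRing D'] [IsDomain D'] [Algebra R D']
    (hfin : ∀ r : R, r ≠ 0 → ∃ n : ℕ, ¬ ℓ ^ (n + 1) ∣ r)
    (hℓF : algebraMap R F ℓ ≠ 0) (hℓD : algebraMap R D ℓ = 0) (hℓD' : algebraMap R D' ℓ = 0)
    (O O' : Subalgebra R F) (red : O →ₐ[R] D) (red' : O' →ₐ[R] D')
    (hdiv' : ∀ x : O', red' x = 0 → ∃ y : O', (x : F) = algebraMap R F ℓ * y)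
    (t : F) (ht : t ∈ O) (ht' : t ∈ O')
    (htr : ∀ Q : R[X], aeval (red ⟨t, ht⟩) Q = 0 → C ℓ ∣ Q)
    (b : ι → F) (hb' : ∀ i, b i ∈ O')
    (hind : ∀ P : ι → R[X],
      ∑ i, aeval (red' ⟨t, ht'⟩) (P i) * red' ⟨b i, hb' i⟩ = 0 → ∀ i, C ℓ ∣ P i)
    (hspan : ∀ y : F, ∃ (Q : R[X]) (P : ι → R[X]),
      Q ≠ 0 ∧ aeval t Q * y = ∑ i, aeval t (P i) * b i)
    (B : Subalgebra R F) (hBO : B ≤ O) (hBO' : B ≤ O') (htB : t ∈ B) (hbB : ∀ i, b i ∈ B)
    (y : F) (hy : y ∈ O) (hyB : algebraMap R F ℓ * y ∈ B) :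
    ∃ Q : R[X], ¬ C ℓ ∣ Q ∧ aeval t Q * y ∈ B := by
  have hℓO' : algebraMap R O' ℓ ≠ 0 := fun h => hℓF (by
    have := congrArg (Subtype.val) h
    simpa using this)
  have hsumB : ∀ P : ι → R[X], ∑ i, aeval t (P i) * b i ∈ B := fun P =>
    Subalgebra.sum_mem _ fun i _ => mul_mem (s28d_aeval_mem B htB _) (hbB i)
  set z : F := algebraMap R F ℓ * y with hz
  have hzO' : z ∈ O' := hBO' hyB
  by_cases hzred : red' ⟨z, hzO'⟩ = 0
  · -- then `y ∈ O'`
    obtain ⟨y', hy'⟩ := hdiv' _ hzred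
    have hyy' : y = y' := mul_left_cancel₀ hℓF hy'
    obtain ⟨Q, P, hQ0, hrel⟩ := hspan y
    obtain ⟨n, hn⟩ := s28d_exists_not_C_pow_dvd ℓ hfin hQ0
    have hone : red' (1 : O') ≠ 0 := by rw [map_one]; exact one_ne_zero
    have hrel' : aeval (⟨t, ht'⟩ : O') Q * y' =
        1 * ∑ i, aeval (⟨t, ht'⟩ : O') (P i) * (⟨b i, hb' i⟩ : O') := by
      rw [s28d_rel_coe]
      simpa [← hyy'] using hrel
    obtain ⟨Q', P', hQ', hrel''⟩ := s28d_normalise ℓ hℓO' hℓD' red' ⟨t, ht'⟩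
      (fun i => ⟨b i, hb' i⟩) hind y' 1 hone n Q P hn hrel'
    refine ⟨Q', hQ', ?_⟩
    rw [s28d_rel_coe] at hrel''
    simp only [OneMemClass.coe_one, one_mul, ← hyy'] at hrel''
    rw [hrel'']
    exact hsumB P'
  · -- then `z` is a unit, contradiction with `red z = 0`
    exfalso
    have hz0 : z ≠ 0 := by
      rintro h0
      apply hzred
      have : (⟨z, hzO'⟩ : O') = 0 := Subtype.ext h0
      rw [this, map_zero]
    obtain ⟨Q, P, hQ0, hrel⟩ := hspan z⁻¹
    obtain ⟨n, hn⟩ := s28d_exists_not_C_pow_dvd ℓ hfin hQ0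
    have hrel' : aeval (⟨t, ht'⟩ : O') Q * 1 =
        ⟨z, hzO'⟩ * ∑ i, aeval (⟨t, ht'⟩ : O') (P i) * (⟨b i, hb' i⟩ : O') := by
      rw [s28d_rel_coe]
      simp only [OneMemClass.coe_one, mul_one]
      rw [← hrel, ← mul_assoc, mul_comm z, mul_assoc, mul_inv_cancel₀ hz0, mul_one]
    obtain ⟨Q', P', hQ', hrel''⟩ := s28d_normalise ℓ hℓO' hℓD' red' ⟨t, ht'⟩
      (fun i => ⟨b i, hb' i⟩) hind 1 ⟨z, hzO'⟩ hzred n Q P hn hrel'
    rw [s28d_rel_coe] at hrel''
    simp only [OneMemClass.coe_one, mul_one] at hrel''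
    -- now reduce in `O`
    apply hQ'
    apply htr
    have hβ : ∑ i, aeval t (P' i) * b i ∈ O := hBO (hsumB P')
    have hzO : z ∈ O := hBO hyB
    have h1 : (aeval (⟨t, ht⟩ : O) Q') = ⟨z, hzO⟩ * ⟨_, hβ⟩ := by
      apply Subtype.ext
      rw [aeval_subalgebra_coe]
      exact hrel''
    have h2 : (⟨z, hzO⟩ : O) = algebraMap R O ℓ * ⟨y, hy⟩ := Subtype.ext (by simp [hz])
    rw [Polynomial.aeval_algHom_apply, h1, h2, map_mul, map_mul, AlgHom.commutes, hℓD,
      zero_mul, zero_mul]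

end Abstract
end Fermat.Agent.Lib.S28
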