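/-
S28 (Igusa), package (E4b) (helper5): the concrete valuation data on `LaurentSeries k` for the
tower bound: the order valuation, the subfields `k((q^m))`, and the orders of `j(q^d)`.
-/
import Mathlib
import Fermat.Prelude.Def_ModularCurve_X0ModL

set_option autoImplicit false

noncomputable section

namespace Fermat.Agent.Lib.S28

open HahnSeries ModularCurve

variable (k : Type*) [Field k]

/-- The order valuation on Laurent series. -/
def s28e_val : AddValuation (LaurentSeries k) (WithTop ℤ) := HahnSeries.addVal ℤ k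

theorem s28e_val_apply (x : LaurentSeries k) : s28e_val k x = x.orderTop :=
  HahnSeries.addVal_apply

/-- The subfield `k((q^m))` of `k((q))` (the constants for `m = 0`). -/
def s28e_sub (m : ℕ) : Subfield (LaurentSeries k) :=
  if h : m = 0 then (HahnSeries.C : k →+* LaurentSeries k).fieldRange
  else (@qExpand k _ m ⟨h⟩).fieldRange

theorem s28e_sub_eq (m : ℕ) [NeZero m] : s28e_sub k m = (qExpand k m).fieldRange := by
  rw [s28e_sub, dif_neg (NeZero.ne m)]

theorem s28e_sub_zero : s28e_sub k 0 = (HahnSeries.C : k →+* LaurentSeries k).fieldRange := by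
  rw [s28e_sub, dif_pos rfl]

theorem s28e_orderTop_qExpand (m : ℕ) [NeZero m] (b : LaurentSeries k) :
    (qExpand k m b).orderTop = WithTop.map (fun c : ℤ => (m : ℤ) * c) b.orderTop := by
  have := HahnSeries.orderTop_embDomain (R := k) (x := b)
    (f := (⟨⟨AddMonoidHom.mulLeft (m : ℤ),
      mul_right_injective₀ (by exact_mod_cast NeZero.ne m)⟩,
      fun {g g'} => mul_le_mul_iff_of_pos_left
        (by exact_mod_cast Nat.pos_of_ne_zero (NeZero.ne m))⟩ : ℤ ↪o ℤ))
  exact this

theorem s28e_qExpand_mem_sub (m : ℕ) [NeZero m] (b : LaurentSeries k) :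
    qExpand k m b ∈ s28e_sub k m := by
  rw [s28e_sub_eq]
  exact ⟨b, rfl⟩

theorem s28e_hsub (m : ℕ) (a : LaurentSeries k) (ha : a ∈ s28e_sub k m) (ha0 : a ≠ 0) :
    ∃ c : ℤ, s28e_val k a = (((m : ℤ) * c : ℤ) : WithTop ℤ) := by
  rcases Nat.eq_zero_or_pos m with rfl | hm
  · rw [s28e_sub_zero] at ha
    obtain ⟨c, rfl⟩ := ha
    have hc : c ≠ 0 := by
      rintro rfl
      exact ha0 (map_zero _)
    refine ⟨0, ?_⟩
    rw [s28e_val_apply]
    have : (HahnSeries.C c : LaurentSeries k) = HahnSeries.single 0 c := rfl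
    rw [this, HahnSeries.orderTop_single hc]
    simp
  · haveI : NeZero m := ⟨hm.ne'⟩
    rw [s28e_sub_eq] at ha
    obtain ⟨b, rfl⟩ := ha
    have hb : b ≠ 0 := by
      rintro rfl
      exact ha0 (map_zero _)
    refine ⟨b.order, ?_⟩
    rw [s28e_val_apply, s28e_orderTop_qExpand, ← HahnSeries.order_eq_orderTop_of_ne_zero hb]
    rfl

theorem s28e_hmono (m m' : ℕ) (h : m' ∣ m) : s28e_sub k m ≤ s28e_sub k m' := by
  rcases Nat.eq_zero_or_pos m with rfl | hm
  · rcases Nat.eq_zero_or_pos m' with rfl | hm'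
    · exact le_rfl
    · haveI : NeZero m' := ⟨hm'.ne'⟩
      rw [s28e_sub_zero, s28e_sub_eq]
      rintro _ ⟨c, rfl⟩
      exact ⟨HahnSeries.C c, qExpand_C m' c⟩
  · obtain ⟨d, rfl⟩ := h
    have hm'0 : m' ≠ 0 := by
      rintro rfl
      simp at hm
    have hd0 : d ≠ 0 := by
      rintro rfl
      simp at hm
    haveI : NeZero m' := ⟨hm'0⟩
    haveI : NeZero d := ⟨hd0⟩
    haveI : NeZero (m' * d) := ⟨hm.ne'⟩
    rw [s28e_sub_eq, s28e_sub_eq]
    rintro _ ⟨b, rfl⟩
    exact ⟨qExpand k d b, qExpand_qExpand d m' b⟩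

/-- `j` has a simple pole. -/
theorem s28e_orderTop_jqModC : (jqModC k).orderTop = ((-1 : ℤ) : WithTop ℤ) := by
  refine HahnSeries.orderTop_eq_of_le ?_ ?_
  · rw [HahnSeries.mem_support, coeff_jqModC_neg_one]
    exact one_ne_zero
  · intro g hg
    by_contra hlt
    rw [not_le] at hlt
    exact hg (coeff_jqModC_of_lt k hlt)

theorem s28e_val_jqModC : s28e_val k (jqModC k) = ((-1 : ℤ) : WithTop ℤ) := by
  rw [s28e_val_apply, s28e_orderTop_jqModC]

theorem s28e_val_qExpand_jqModC (d : ℕ) [NeZero d] :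
    s28e_val k (qExpand k d (jqModC k)) = ((-(d : ℤ) : ℤ) : WithTop ℤ) := by
  rw [s28e_val_apply, s28e_orderTop_qExpand, s28e_orderTop_jqModC, WithTop.map_coe]
  congr 1
  ring

end Fermat.Agent.Lib.S28
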