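/-
S28 (Igusa), package (E4c) (helper5): two abstract field-theory lemmas for the concrete tower:
transitivity of integrality along intermediate fields given as subtypes, and extraction of a
linearly independent family of monomials in the generators of a finite algebraic extension.
-/
import Mathlib

set_option autoImplicit false

namespace Fermat.Agent.Lib.S28

open Module IntermediateField Polynomial

section Chain

variable {k E : Type*} [Field k] [Field E] [Algebra k E]

/-- If every element of `K2` is integral over `K1` and `x` is integral over `K2`, then `x` is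
integral over `K1`. -/
theorem s28e_isIntegral_trans (K1 K2 : IntermediateField k E)
    (h21 : ∀ a ∈ K2, IsIntegral ↥K1 a) (x : E) (hx : IsIntegral ↥K2 x) : IsIntegral ↥K1 x := by
  let A : IntermediateField ↥K1 E := algebraicClosure ↥K1 E
  have hmemA : ∀ a : ↥K2, algebraMap ↥K2 E a ∈ A := fun a =>
    (mem_algebraicClosure_iff').2 (h21 a.1 a.2)
  let ι : ↥K2 →+* ↥A := (algebraMap ↥K2 E).codRestrict A hmemA
  obtain ⟨P, hPm, hPx⟩ := hx
  have hxA : IsIntegral ↥A x := by
    refine ⟨P.map ι, hPm.map ι, ?_⟩
    rw [Polynomial.eval₂_map]
    have hcomp : (algebraMap ↥A E).comp ι = algebraMap ↥K2 E := by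
      ext a
      rfl
    rw [hcomp]
    exact hPx
  exact isIntegral_trans x hxA

end Chain

section Extract

variable {F E : Type*} [Field F] [Field E] [Algebra F E]

/-- A finite-dimensional extension generated by algebraic elements has a basis consisting of
monomials in the generators. -/
theorem s28e_exists_monomial_family (S : Set E) (hS : ∀ x ∈ S, IsAlgebraic F x)
    [FiniteDimensional F ↥(IntermediateField.adjoin F S)] :
    ∃ (n : ℕ) (θ : Fin n → E), n = finrank F ↥(IntermediateField.adjoin F S) ∧
      (∀ i, θ i ∈ Submonoid.closure S) ∧ LinearIndependent F θ := by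
  classical
  set L := IntermediateField.adjoin F S with hL
  have hsub : L.toSubalgebra = Algebra.adjoin F S :=
    IntermediateField.adjoin_toSubalgebra_of_isAlgebraic hS
  have hspan : Subalgebra.toSubmodule L.toSubalgebra
      = Submodule.span F (Submonoid.closure S : Set E) := by
    rw [hsub, Algebra.adjoin_eq_span]
  obtain ⟨b, hbM, hbspan, hbli⟩ := exists_linearIndependent F (Submonoid.closure S : Set E)
  have hspanb : Submodule.span F b = Subalgebra.toSubmodule L.toSubalgebra := by
    rw [hbspan, hspan]
  -- `b` is finite
  have hfg : (Subalgebra.toSubmodule L.toSubalgebra).FG := by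
    have : Module.Finite F ↥(Subalgebra.toSubmodule L.toSubalgebra) :=
      inferInstanceAs (Module.Finite F ↥L)
    exact Module.Finite.iff_fg.1 this
  obtain ⟨w, hw⟩ := hfg
  haveI : Finite ↥b := by
    refine LinearIndependent.finite_of_le_span_finite _ hbli (↑w : Set E) ?_
    rw [hw, ← hspanb, Subtype.range_coe]
    exact Submodule.subset_span
  haveI : Fintype ↥b := Fintype.ofFinite _
  refine ⟨Fintype.card ↥b, fun i => ((Fintype.equivFin ↥b).symm i : E), ?_, ?_, ?_⟩
  · have h1 : finrank F ↥(Submodule.span F b) = b.toFinset.card :=
      finrank_span_set_eq_card hbli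
    have h2 : finrank F ↥(Submodule.span F b) = finrank F ↥L := by
      rw [hspanb]
      rfl
    rw [← h2, h1, Set.toFinset_card]
  · intro i
    exact hbM ((Fintype.equivFin ↥b).symm i).2
  · exact hbli.comp _ (Equiv.injective _)

end Extract

end Fermat.Agent.Lib.S28
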