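/-
S28 (Igusa), package (E4a) (helper5): abstract wrapper turning polynomial-level information
(a monic irreducible separable polynomial splitting in the big field, all of whose roots lie in a
given subfield) into the per-prime hypotheses of `s28e_dedekindPsi_le_finrank`.
-/
import Mathlib

set_option autoImplicit false

namespace Fermat.Agent.Lib.S28

open Module IntermediateField Polynomial

variable {F E : Type*} [Field F] [Field E] [Algebra F E]

/-- The degree of a simple extension generated by a root of a monic irreducible polynomial. -/
theorem s28e_finrank_adjoin_of_irreducible (P : F[X]) (hm : P.Monic) (hirr : Irreducible P)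
    (z : E) (hz : aeval z P = 0) : finrank F ↥F⟮z⟯ = P.natDegree := by
  have hint : IsIntegral F z := ⟨P, hm, hz⟩
  have hmin : P = minpoly F z := minpoly.eq_of_irreducible_of_monic hirr hz hm
  rw [IntermediateField.adjoin.finrank hint, ← hmin]

/-- The splitting field inside `E` of a separable polynomial which splits in `E`: it is a finite
Galois extension containing every root, and it is contained in any subfield of `E` containing the
base field and the roots. -/
theorem s28e_exists_galois_of_poly (P : F[X]) (hsep : P.Separable)
    (hsplit : (P.map (algebraMap F E)).Splits) (z : E) (hz : aeval z P = 0)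
    (S : Subfield E) (hFS : ∀ a : F, algebraMap F E a ∈ S) (hroots : ∀ a ∈ P.rootSet E, a ∈ S) :
    ∃ G : IntermediateField F E, IsGalois F ↥G ∧ FiniteDimensional F ↥G ∧ z ∈ G ∧
      ∀ a ∈ G, a ∈ S := by
  have hP0 : P ≠ 0 := hsep.ne_zero
  refine ⟨IntermediateField.adjoin F (P.rootSet E), ?_, ?_, ?_, ?_⟩
  · haveI := IntermediateField.adjoin_rootSet_isSplittingField hsplit
    exact IsGalois.of_separable_splitting_field (p := P) hsep
  · haveI := IntermediateField.adjoin_rootSet_isSplittingField hsplit
    exact Polynomial.IsSplittingField.finiteDimensional _ P
  · exact IntermediateField.subset_adjoin F _ ((Polynomial.mem_rootSet_of_ne hP0).2 hz)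
  · -- the intermediate field with carrier `S`
    let S' : IntermediateField F E := { S with algebraMap_mem' := hFS }
    have hle : IntermediateField.adjoin F (P.rootSet E) ≤ S' :=
      IntermediateField.adjoin_le_iff.2 fun a ha => hroots a ha
    intro a ha
    exact hle ha

end Fermat.Agent.Lib.S28
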