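/-
S28 (Igusa), package (E2) (helper5): a Galois extension `G/F` and a finite extension `A/F` of degree
`< 2e` containing an element `x` whose powers `1, x, …, x^(e-1)` are `G`-linearly independent are
linearly disjoint over `F`.

(Used with `e = r`, `[A : F] = r + 1`, the independence coming from ramification, `EIndep.lean`.)
-/
import Mathlib

set_option autoImplicit false

namespace Fermat.Agent.Lib.S28

open Module IntermediateField

variable {F E : Type*} [Field F] [Field E] [Algebra F E]

/-- Independence over a bigger intermediate field gives independence over a smaller one. -/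
theorem s28e_linearIndependent_of_le {D G : IntermediateField F E} (h : D ≤ G) {ι : Type*}
    [Fintype ι] {w : ι → E} (hw : LinearIndependent ↥G w) : LinearIndependent ↥D w := by
  rw [Fintype.linearIndependent_iff] at hw ⊢
  intro g hg i
  have := hw (fun j => (⟨(g j : E), h (g j).2⟩ : ↥G)) (by
    rw [← hg]
    exact Finset.sum_congr rfl fun j _ => rfl) i
  exact Subtype.ext (by simpa using congrArg Subtype.val this)

/-- `e` elements of `A`, linearly independent over `D ≤ A`, bound the relative degree from below. -/
theorem s28e_le_relfinrank {D A : IntermediateField F E} [FiniteDimensional F A] (h : D ≤ A)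
    {e : ℕ} {w : Fin e → E} (hwA : ∀ i, w i ∈ A) (hw : LinearIndependent ↥D w) :
    e ≤ relfinrank D A := by
  rw [relfinrank_eq_finrank_of_le h]
  have : FiniteDimensional F ↥(extendScalars h) := by
    change FiniteDimensional F ↥A
    infer_instance
  have : FiniteDimensional ↥D ↥(extendScalars h) := Module.Finite.of_restrictScalars_finite F _ _
  let w' : Fin e → ↥(extendScalars h) := fun i => ⟨w i, hwA i⟩
  have hw' : LinearIndependent ↥D w' :=
    LinearIndependent.of_comp (extendScalars h).val.toLinearMap (by exact hw)
  simpa using hw'.fintype_card_le_finrank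

/-- **(E2)** Galois + large relative degree ⇒ linearly disjoint. -/
theorem s28e_linearDisjoint_of_pow_indep (G A : IntermediateField F E) [IsGalois F ↥G]
    [FiniteDimensional F ↥G] [FiniteDimensional F ↥A] (x : E) (hx : x ∈ A) (e : ℕ)
    (hind : LinearIndependent ↥G (fun i : Fin e => x ^ (i : ℕ)))
    (he : finrank F ↥A < 2 * e) : G.LinearDisjoint A := by
  refine LinearDisjoint.of_inf_eq_bot ?_
  set D : IntermediateField F E := G ⊓ A with hD
  have hDG : D ≤ G := inf_le_left
  have hDA : D ≤ A := inf_le_right
  have hindD : LinearIndependent ↥D (fun i : Fin e => x ^ (i : ℕ)) :=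
    s28e_linearIndependent_of_le hDG hind
  have h1 : e ≤ relfinrank D A :=
    s28e_le_relfinrank hDA (fun i => pow_mem hx _) hindD
  have h2 : finrank F ↥D * relfinrank D A = finrank F ↥A := finrank_bot_mul_relfinrank hDA
  have : FiniteDimensional F ↥D := Module.Finite.of_injective
    (IntermediateField.inclusion hDA).toLinearMap (IntermediateField.inclusion hDA).injective
  have hpos : 0 < finrank F ↥D := finrank_pos
  have hrel : 0 < relfinrank D A := by
    rcases Nat.eq_zero_or_pos (relfinrank D A) with h0 | h0
    · rw [h0, mul_zero] at h2
      have : 0 < finrank F ↥A := finrank_pos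
      omega
    · exact h0
  have hone : finrank F ↥D = 1 := by
    by_contra hne
    have h2le : 2 ≤ finrank F ↥D := by omega
    have : 2 * relfinrank D A ≤ finrank F ↥D * relfinrank D A := Nat.mul_le_mul_right _ h2le
    omega
  exact IntermediateField.finrank_eq_one_iff.mp hone

/-- Consequence: the degree of the compositum over `G`, in the multiplicative form. -/
theorem s28e_finrank_sup_of_pow_indep (G A : IntermediateField F E) [IsGalois F ↥G]
    [FiniteDimensional F ↥G] [FiniteDimensional F ↥A] (x : E) (hx : x ∈ A) (e : ℕ)
    (hind : LinearIndependent ↥G (fun i : Fin e => x ^ (i : ℕ)))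
    (he : finrank F ↥A < 2 * e) (C : IntermediateField F E) (hC : C ≤ G) :
    finrank F ↥(C ⊔ A) = finrank F ↥C * finrank F ↥A := by
  have hGA : G.LinearDisjoint A := s28e_linearDisjoint_of_pow_indep G A x hx e hind he
  have hCA : C.LinearDisjoint A := LinearDisjoint.of_le_left hGA hC
  exact hCA.finrank_sup

end Fermat.Agent.Lib.S28
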