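/-
S28 (Igusa), package (E1) (helper5): ramification forces linear independence.

`s28e_sum_ne_zero`      : a finite sum of elements with pairwise distinct finite valuations is `≠ 0`.
`s28e_linearIndependent_pow` : if the valuations of the nonzero elements of the base field `K` lie in
  `m ℤ` and `v x = n` with `m ∤ i * n` for `0 < i < e`, then `1, x, …, x^(e-1)` are `K`-linearly
  independent.
`s28e_le_finrank`       : hence `e ≤ finrank K E` for every finite-dimensional `E`.
-/
import Mathlib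

set_option autoImplicit false

namespace Fermat.Agent.Lib.S28

open Module

/-- A finite nonempty sum of elements with pairwise distinct, finite valuations is nonzero. -/
theorem s28e_sum_ne_zero {E ι : Type*} [Field E] (v : AddValuation E (WithTop ℤ))
    (s : Finset ι) (f : ι → E) (hs : s.Nonempty)
    (hne : ∀ i ∈ s, f i ≠ 0)
    (hinj : ∀ i ∈ s, ∀ j ∈ s, v (f i) = v (f j) → i = j) :
    ∑ i ∈ s, f i ≠ 0 := by
  classical
  obtain ⟨j, hj, hmin⟩ := s.exists_min_image (fun i => v (f i)) hs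
  have hjtop : v (f j) ≠ ⊤ := (AddValuation.ne_top_iff v).mpr (hne j hj)
  have hlt : ∀ i ∈ s.erase j, v (f j) < v (f i) := by
    intro i hi
    have hi' := Finset.mem_erase.mp hi
    refine lt_of_le_of_ne (hmin i hi'.2) ?_
    intro h
    exact hi'.1 (hinj i hi'.2 j hj h.symm)
  have hsum : v (f j) < v (∑ i ∈ s.erase j, f i) := AddValuation.map_lt_sum v hjtop hlt
  have hval : v (∑ i ∈ s, f i) = v (f j) := by
    rw [← Finset.add_sum_erase s f hj]
    exact AddValuation.map_add_eq_of_lt_left v hsum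
  intro h0
  rw [h0, AddValuation.map_zero] at hval
  exact hjtop hval.symm

/-- Ramification forces linear independence of powers. -/
theorem s28e_linearIndependent_pow {K E : Type*} [Field K] [Field E] [Algebra K E]
    (v : AddValuation E (WithTop ℤ)) (m : ℤ)
    (hK : ∀ a : K, a ≠ 0 → ∃ c : ℤ, v (algebraMap K E a) = ((m * c : ℤ) : WithTop ℤ))
    (x : E) (n : ℤ) (hx : v x = (n : WithTop ℤ)) (e : ℕ)
    (he : ∀ i : ℕ, 0 < i → i < e → ¬ m ∣ (i : ℤ) * n) :
    LinearIndependent K (fun i : Fin e => x ^ (i : ℕ)) := by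
  classical
  rw [Fintype.linearIndependent_iff]
  intro g hg
  by_contra hcon
  push Not at hcon
  obtain ⟨i₀, hi₀⟩ := hcon
  have hx0 : x ≠ 0 := by
    intro h
    rw [h, AddValuation.map_zero] at hx
    exact WithTop.top_ne_coe hx
  set s : Finset (Fin e) := Finset.univ.filter (fun i => g i ≠ 0) with hs
  have hsne : s.Nonempty := ⟨i₀, by simp [hs, hi₀]⟩
  have hsum : ∑ i ∈ s, g i • x ^ (i : ℕ) = 0 := by
    rw [← hg, hs, Finset.sum_filter]
    refine Finset.sum_congr rfl fun i _ => ?_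
    by_cases h : g i = 0
    · simp [h]
    · simp [h]
  -- the valuation of each term
  have hval : ∀ i ∈ s, ∃ c : ℤ, v (g i • x ^ (i : ℕ)) = ((m * c + (i : ℕ) * n : ℤ) : WithTop ℤ) := by
    intro i hi
    have hgi : g i ≠ 0 := by simpa [hs] using hi
    obtain ⟨c, hc⟩ := hK (g i) hgi
    refine ⟨c, ?_⟩
    rw [Algebra.smul_def, AddValuation.map_mul, AddValuation.map_pow, hc, hx]
    push_cast
    rfl
  refine s28e_sum_ne_zero v s (fun i => g i • x ^ (i : ℕ)) hsne ?_ ?_ hsum
  · intro i hi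
    have hgi : g i ≠ 0 := by simpa [hs] using hi
    exact smul_ne_zero hgi (pow_ne_zero _ hx0)
  · intro i hi j hj hij
    obtain ⟨c, hc⟩ := hval i hi
    obtain ⟨d, hd⟩ := hval j hj
    have hij' : v (g i • x ^ (i : ℕ)) = v (g j • x ^ (j : ℕ)) := hij
    rw [hc, hd] at hij'
    have hZ : m * c + ((i : ℕ) : ℤ) * n = m * d + ((j : ℕ) : ℤ) * n := WithTop.coe_injective hij'
    by_contra hne
    rcases lt_or_gt_of_ne (fun h => hne (Fin.ext h) : (i : ℕ) ≠ (j : ℕ)) with hlt | hlt
    · refine he ((j : ℕ) - (i : ℕ)) (by omega) (by have := j.2; omega) ⟨c - d, ?_⟩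
      have : (((j : ℕ) - (i : ℕ) : ℕ) : ℤ) = ((j : ℕ) : ℤ) - ((i : ℕ) : ℤ) := by
        rw [Nat.cast_sub hlt.le]
      rw [this]
      linarith
    · refine he ((i : ℕ) - (j : ℕ)) (by omega) (by have := i.2; omega) ⟨d - c, ?_⟩
      have : (((i : ℕ) - (j : ℕ) : ℕ) : ℤ) = ((i : ℕ) : ℤ) - ((j : ℕ) : ℤ) := by
        rw [Nat.cast_sub hlt.le]
      rw [this]
      linarith

/-- Ramification bounds the degree from below. -/
theorem s28e_le_finrank {K E : Type*} [Field K] [Field E] [Algebra K E] [FiniteDimensional K E]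
    (v : AddValuation E (WithTop ℤ)) (m : ℤ)
    (hK : ∀ a : K, a ≠ 0 → ∃ c : ℤ, v (algebraMap K E a) = ((m * c : ℤ) : WithTop ℤ))
    (x : E) (n : ℤ) (hx : v x = (n : WithTop ℤ)) (e : ℕ)
    (he : ∀ i : ℕ, 0 < i → i < e → ¬ m ∣ (i : ℤ) * n) :
    e ≤ finrank K E := by
  have h := (s28e_linearIndependent_pow v m hK x n hx e he).fintype_card_le_finrank
  simpa using h

end Fermat.Agent.Lib.S28
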