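/-
S28 (Igusa), package (E3) (helper5): the tower assembly.

Abstract form of the degree count `[k(j̄(q^d) : d ∣ N) : k(j̄(q^N))] ≥ ψ(N)`:
* `E` a field with an additive valuation `v` (the `q`-order on `k((q))`);
* `sub m` the subfield of "series in `q^m`": nonzero elements have valuation in `m ℤ`, and
  `sub m ≤ sub m'` for `m' ∣ m`;
* the base field `F` lands in `sub N`;
* for every prime `r ∣ N` an element `z r` (`= j̄(q^(N/r))`) of valuation `-(N/r)`, of degree
  `r + 1` over `F`, contained in a finite Galois extension `G r ⊆ sub (N/r)` of `F`;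
* an element `x` (`= j̄(q)`) of valuation `-1`.
Then every finite-dimensional intermediate field containing all `z r` and `x` has degree
`≥ (N / rad N) * ∏_{r ∣ N} (r + 1)`.
-/
import Fermat.Agent.Lib.S28.EIndep
import Fermat.Agent.Lib.S28.EDisjoint

set_option autoImplicit false

namespace Fermat.Agent.Lib.S28

open Module IntermediateField

variable {F E : Type*} [Field F] [Field E] [Algebra F E]

/-- Elementary arithmetic: for a squarefree product `P` of primes dividing `N` and a new prime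
`r ∣ N`, `N / P` does not divide `i * (N / r)` for `0 < i < r`. -/
theorem s28e_not_dvd_aux {N P r i : ℕ} (hN : N ≠ 0) (hr : r.Prime) (hPr : (P * r) ∣ N)
    (hcop : Nat.Coprime r P) (hi0 : 0 < i) (hir : i < r) :
    ¬ ((N / P : ℕ) : ℤ) ∣ (i : ℤ) * (-((N / r : ℕ) : ℤ)) := by
  obtain ⟨M, rfl⟩ := hPr
  have hP0 : P ≠ 0 := by rintro rfl; simp at hN
  have hr0 : r ≠ 0 := hr.ne_zero
  have hM0 : M ≠ 0 := by rintro rfl; simp at hN
  have h1 : P * r * M / P = r * M := by
    rw [mul_assoc, Nat.mul_div_cancel_left _ (Nat.pos_of_ne_zero hP0)]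
  have h2 : P * r * M / r = P * M := by
    rw [mul_comm P r, mul_assoc, Nat.mul_div_cancel_left _ hr.pos]
  rw [h1, h2, mul_neg, Int.dvd_neg]
  intro hdvd
  have hdvd' : r * M ∣ i * (P * M) := by exact_mod_cast hdvd
  have h3 : r * M ∣ (i * P) * M := by rwa [mul_assoc]
  have h4 : r ∣ i * P := Nat.dvd_of_mul_dvd_mul_right (Nat.pos_of_ne_zero hM0) h3
  have h5 : r ∣ i := (Nat.Coprime.dvd_mul_right hcop).mp h4
  exact absurd (Nat.le_of_dvd hi0 h5) (by omega)

/-- The squarefree part of the tower, by induction on the set of primes. -/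
theorem s28e_squarefree_tower
    (v : AddValuation E (WithTop ℤ)) (sub : ℕ → Subfield E)
    (hsub : ∀ m : ℕ, ∀ a ∈ sub m, a ≠ 0 → ∃ c : ℤ, v a = (((m : ℤ) * c : ℤ) : WithTop ℤ))
    (hmono : ∀ m m' : ℕ, m' ∣ m → sub m ≤ sub m')
    (N : ℕ) (hN : N ≠ 0) (hF : ∀ a : F, algebraMap F E a ∈ sub N)
    (z : ℕ → E)
    (hzv : ∀ r ∈ N.primeFactors, v (z r) = ((-((N / r : ℕ) : ℤ) : ℤ) : WithTop ℤ))
    (hzdeg : ∀ r ∈ N.primeFactors, finrank F ↥F⟮z r⟯ = r + 1)
    (G : ℕ → IntermediateField F E)
    (hGgal : ∀ r ∈ N.primeFactors, IsGalois F ↥(G r))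
    (hGfin : ∀ r ∈ N.primeFactors, FiniteDimensional F ↥(G r))
    (hGz : ∀ r ∈ N.primeFactors, z r ∈ G r)
    (hGsub : ∀ r ∈ N.primeFactors, ∀ a ∈ G r, a ∈ sub (N / r))
    (S : Finset ℕ) (hS : S ⊆ N.primeFactors) :
    ∃ C G' : IntermediateField F E, IsGalois F ↥G' ∧ FiniteDimensional F ↥G' ∧ C ≤ G' ∧
      (C = ⨆ r ∈ S, F⟮z r⟯) ∧ finrank F ↥C = ∏ r ∈ S, (r + 1) ∧
      ∀ a ∈ G', a ∈ sub (N / ∏ r ∈ S, r) := by
  classical
  induction S using Finset.induction_on with
  | empty =>
    refine ⟨⊥, ⊥, inferInstance, inferInstance, le_rfl, by simp, by simp, ?_⟩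
    intro a ha
    obtain ⟨b, rfl⟩ := IntermediateField.mem_bot.mp ha
    simpa using hF b
  | insert r S hrS ih =>
    have hS' : S ⊆ N.primeFactors := fun a ha => hS (Finset.mem_insert_of_mem ha)
    have hrN : r ∈ N.primeFactors := hS (Finset.mem_insert_self r S)
    obtain ⟨C, G', hgal, hfin, hCG, hCdef, hCdeg, hG'sub⟩ := ih hS'
    have hrp : r.Prime := Nat.prime_of_mem_primeFactors hrN
    set P : ℕ := ∏ q ∈ S, q with hP
    have hPprimes : ∀ q ∈ S, q.Prime := fun q hq => Nat.prime_of_mem_primeFactors (hS' hq)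
    have hcop : Nat.Coprime r P := by
      rw [hP]
      refine Nat.Coprime.prod_right fun q hq => ?_
      rw [Nat.coprime_primes hrp (hPprimes q hq)]
      rintro rfl
      exact hrS hq
    have hPrN : P * r ∣ N := by
      have h1 : P ∣ N := by
        rw [hP]
        exact (Finset.prod_dvd_prod_of_subset S N.primeFactors id hS').trans
          (Nat.prod_primeFactors_dvd N)
      have h2 : r ∣ N := Nat.dvd_of_mem_primeFactors hrN
      exact Nat.Coprime.mul_dvd_of_dvd_of_dvd hcop.symm h1 h2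
    have := hgal
    have := hfin
    have : IsGalois F ↥(G r) := hGgal r hrN
    have : FiniteDimensional F ↥(G r) := hGfin r hrN
    -- the new simple extension
    set A : IntermediateField F E := F⟮z r⟯ with hA
    have hAdeg : finrank F ↥A = r + 1 := hzdeg r hrN
    have : FiniteDimensional F ↥A := by
      refine Module.finite_of_finrank_pos ?_
      rw [hAdeg]; omega
    have hzA : z r ∈ A := mem_adjoin_simple_self F (z r)
    -- ramification: independence of powers over G'
    have hind : LinearIndependent ↥G' (fun i : Fin r => z r ^ (i : ℕ)) := by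
      refine s28e_linearIndependent_pow v ((N / P : ℕ) : ℤ) ?_ (z r) (-((N / r : ℕ) : ℤ))
        (hzv r hrN) r ?_
      · intro a ha
        have ha' : (a : E) ≠ 0 := by
          intro h; exact ha (Subtype.ext h)
        exact hsub (N / P) (a : E) (hG'sub a a.2) ha'
      · intro i hi0 hir
        exact s28e_not_dvd_aux hN hrp hPrN hcop hi0 hir
    have hlt : finrank F ↥A < 2 * r := by rw [hAdeg]; have := hrp.two_le; omega
    have hsup : finrank F ↥(C ⊔ A) = finrank F ↥C * finrank F ↥A :=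
      s28e_finrank_sup_of_pow_indep G' A (z r) hzA r hind hlt C hCG
    refine ⟨C ⊔ A, G' ⊔ G r, inferInstance, inferInstance, ?_, ?_, ?_, ?_⟩
    · refine sup_le_sup hCG ?_
      rw [hA, adjoin_simple_le_iff]
      exact hGz r hrN
    · rw [hCdef, Finset.iSup_insert, sup_comm]
    · rw [hsup, hCdeg, hAdeg, Finset.prod_insert hrS, mul_comm]
    · -- the compositum stays inside `sub (N / (r * P))`
      rw [Finset.prod_insert hrS]
      have hdiv1 : N / (r * P) ∣ N / P := by
        obtain ⟨M, hM⟩ := hPrN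
        have hP0 : 0 < P := Nat.pos_of_ne_zero (by rintro h0; rw [h0] at hM; simp at hM; exact hN hM)
        have e1 : N / (r * P) = M := by
          rw [hM, mul_comm r P]
          exact Nat.mul_div_cancel_left M (Nat.mul_pos hP0 hrp.pos)
        have e2 : N / P = r * M := by
          rw [hM, mul_assoc]
          exact Nat.mul_div_cancel_left _ hP0
        rw [e1, e2]
        exact dvd_mul_left M r
      have hdiv2 : N / (r * P) ∣ N / r := by
        obtain ⟨M, hM⟩ := hPrN
        have hP0 : 0 < P := Nat.pos_of_ne_zero (by rintro h0; rw [h0] at hM; simp at hM; exact hN hM)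
        have e1 : N / (r * P) = M := by
          rw [hM, mul_comm r P]
          exact Nat.mul_div_cancel_left M (Nat.mul_pos hP0 hrp.pos)
        have e2 : N / r = P * M := by
          rw [hM, mul_comm P r, mul_assoc]
          exact Nat.mul_div_cancel_left _ hrp.pos
        rw [e1, e2]
        exact dvd_mul_left M P
      have hdivN : N / (r * P) ∣ N := Nat.div_dvd_of_dvd (by rw [mul_comm]; exact hPrN)
      let T : IntermediateField F E :=
        (sub (N / (r * P))).toIntermediateField fun a => hmono N _ hdivN (hF a)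
      have hT1 : G' ≤ T := fun a ha => hmono _ _ hdiv1 (hG'sub a ha)
      have hT2 : G r ≤ T := fun a ha => hmono _ _ hdiv2 (hGsub r hrN a ha)
      intro a ha
      exact (sup_le hT1 hT2) ha

/-- **(E3)** the tower assembly. -/
theorem s28e_tower
    (v : AddValuation E (WithTop ℤ)) (sub : ℕ → Subfield E)
    (hsub : ∀ m : ℕ, ∀ a ∈ sub m, a ≠ 0 → ∃ c : ℤ, v a = (((m : ℤ) * c : ℤ) : WithTop ℤ))
    (hmono : ∀ m m' : ℕ, m' ∣ m → sub m ≤ sub m')
    (N : ℕ) (hN : N ≠ 0) (hF : ∀ a : F, algebraMap F E a ∈ sub N)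
    (z : ℕ → E)
    (hzv : ∀ r ∈ N.primeFactors, v (z r) = ((-((N / r : ℕ) : ℤ) : ℤ) : WithTop ℤ))
    (hzdeg : ∀ r ∈ N.primeFactors, finrank F ↥F⟮z r⟯ = r + 1)
    (G : ℕ → IntermediateField F E)
    (hGgal : ∀ r ∈ N.primeFactors, IsGalois F ↥(G r))
    (hGfin : ∀ r ∈ N.primeFactors, FiniteDimensional F ↥(G r))
    (hGz : ∀ r ∈ N.primeFactors, z r ∈ G r)
    (hGsub : ∀ r ∈ N.primeFactors, ∀ a ∈ G r, a ∈ sub (N / r))
    (x : E) (hxv : v x = ((-1 : ℤ) : WithTop ℤ))
    (L : IntermediateField F E) [FiniteDimensional F ↥L]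
    (hzL : ∀ r ∈ N.primeFactors, z r ∈ L) (hxL : x ∈ L) :
    (N / ∏ r ∈ N.primeFactors, r) * ∏ r ∈ N.primeFactors, (r + 1) ≤ finrank F ↥L := by
  classical
  obtain ⟨C, G', hgal, hfin, hCG, hCdef, hCdeg, hG'sub⟩ :=
    s28e_squarefree_tower v sub hsub hmono N hN hF z hzv hzdeg G hGgal hGfin hGz hGsub
      N.primeFactors (Finset.Subset.refl _)
  set m : ℕ := N / ∏ r ∈ N.primeFactors, r with hm
  have hCL : C ≤ L := by
    rw [hCdef]
    refine iSup₂_le fun r hr => ?_
    rw [adjoin_simple_le_iff]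
    exact hzL r hr
  have hmpos : 0 < m := Nat.div_pos (Nat.le_of_dvd (Nat.pos_of_ne_zero hN)
    (Nat.prod_primeFactors_dvd N)) (Finset.prod_pos fun r hr => (Nat.prime_of_mem_primeFactors hr).pos)
  have hind : LinearIndependent ↥C (fun i : Fin m => x ^ (i : ℕ)) := by
    refine s28e_linearIndependent_pow v ((m : ℕ) : ℤ) ?_ x (-1) hxv m ?_
    · intro a ha
      have ha' : (a : E) ≠ 0 := by
        intro h; exact ha (Subtype.ext h)
      exact hsub m (a : E) (hG'sub a (hCG a.2)) ha'
    · intro i hi0 him hdvd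
      rw [mul_neg, mul_one, Int.dvd_neg] at hdvd
      have : m ∣ i := by exact_mod_cast hdvd
      exact absurd (Nat.le_of_dvd hi0 this) (by omega)
  have h1 : m ≤ relfinrank C L := s28e_le_relfinrank hCL (fun i => pow_mem hxL _) hind
  have h2 : finrank F ↥C * relfinrank C L = finrank F ↥L := finrank_bot_mul_relfinrank hCL
  rw [← h2, hCdeg, mul_comm]
  exact Nat.mul_le_mul_left _ h1

end Fermat.Agent.Lib.S28
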