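/-
S28 (Igusa), package (E3') (helper5): the product formula
`dedekindPsi N = (N / rad N) * ∏_{r ∣ N prime} (r + 1)` and the final form of the tower bound.
-/
import Fermat.Agent.Lib.S28.ETower
import Fermat.Agent.Lib.RR.CosetsIndex

set_option autoImplicit false

namespace Fermat.Agent.Lib.S28

open Module IntermediateField ModularCurve Fermat.Agent.Lib.RR.Cosets

/-- The right-hand side of the product formula. -/
def s28e_psiProd (N : ℕ) : ℕ := (N / ∏ r ∈ N.primeFactors, r) * ∏ r ∈ N.primeFactors, (r + 1)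

theorem s28e_psiProd_prime_pow {p k : ℕ} (hp : p.Prime) (hk : 0 < k) :
    s28e_psiProd (p ^ k) = p ^ k + p ^ (k - 1) := by
  obtain ⟨j, rfl⟩ : ∃ j, k = j + 1 := ⟨k - 1, by omega⟩
  rw [s28e_psiProd, Nat.primeFactors_prime_pow (by omega) hp, Finset.prod_singleton,
    Finset.prod_singleton, pow_succ, Nat.mul_div_cancel _ hp.pos, Nat.add_sub_cancel]
  ring

theorem s28e_psiProd_mul {a b : ℕ} (hab : a.Coprime b) :
    s28e_psiProd (a * b) = s28e_psiProd a * s28e_psiProd b := by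
  classical
  rcases Nat.eq_zero_or_pos a with rfl | ha
  · have hb1 : b = 1 := by simpa using hab
    subst hb1
    simp [s28e_psiProd]
  rcases Nat.eq_zero_or_pos b with rfl | hb
  · have ha1 : a = 1 := by simpa using hab
    subst ha1
    simp [s28e_psiProd]
  have hdisj : Disjoint a.primeFactors b.primeFactors := hab.disjoint_primeFactors
  have hpf : (a * b).primeFactors = a.primeFactors ∪ b.primeFactors :=
    Nat.primeFactors_mul ha.ne' hb.ne'
  have hPa : (∏ r ∈ a.primeFactors, r) ∣ a := Nat.prod_primeFactors_dvd a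
  have hPb : (∏ r ∈ b.primeFactors, r) ∣ b := Nat.prod_primeFactors_dvd b
  simp only [s28e_psiProd]
  rw [hpf, Finset.prod_union hdisj, Finset.prod_union hdisj, Nat.mul_div_mul_comm hPa hPb]
  ring

theorem s28e_dedekindPsi_eq (N : ℕ) : dedekindPsi N = s28e_psiProd N := by
  induction N using Nat.recOnPosPrimePosCoprime with
  | prime_pow p n hp hn =>
    rw [dedekindPsi_prime_pow hp hn, s28e_psiProd_prime_pow hp hn]
  | zero => simp [dedekindPsi, s28e_psiProd]
  | one => simp [s28e_psiProd]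
  | coprime a b ha hb hab iha ihb =>
    rw [dedekindPsi_mul hab, s28e_psiProd_mul hab, iha, ihb]

variable {F E : Type*} [Field F] [Field E] [Algebra F E]

/-- **(E3), final form**: `ψ(N) ≤ [L : F]`. -/
theorem s28e_dedekindPsi_le_finrank
    (v : AddValuation E (WithTop ℤ)) (sub : ℕ → Subfield E)
    (hsub : ∀ m : ℕ, ∀ a ∈ sub m, a ≠ 0 → ∃ c : ℤ, v a = (((m : ℤ) * c : ℤ) : WithTop ℤ))
    (hmono : ∀ m m' : ℕ, m' ∣ m → sub m ≤ sub m')
    (N : ℕ) (hN : N ≠ 0) (hF : ∀ a : F, algebraMap F E a ∈ sub N)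
    (z : ℕ → E)
    (hzv : ∀ r ∈ N.primeFactors, v (z r) = ((-((N / r : ℕ) : ℤ) : ℤ) : WithTop ℤ))
    (hzdeg : ∀ r ∈ N.primeFactors, finrank F ↥F⟮z r⟯ = r + 1)
    (G : ℕ → IntermediateField F E)
    (hGgal : ∀ r ∈ N.primeFactors, IsGalois F ↥(G r))
    (hGfin : ∀ r ∈ N.primeFactors, FiniteDimensional F ↥(G r))
    (hGz : ∀ r ∈ N.primeFactors, z r ∈ G r)
    (hGsub : ∀ r ∈ N.primeFactors, ∀ a ∈ G r, a ∈ sub (N / r))
    (x : E) (hxv : v x = ((-1 : ℤ) : WithTop ℤ))
    (L : IntermediateField F E) [FiniteDimensional F ↥L]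
    (hzL : ∀ r ∈ N.primeFactors, z r ∈ L) (hxL : x ∈ L) :
    dedekindPsi N ≤ finrank F ↥L := by
  rw [s28e_dedekindPsi_eq]
  exact s28e_tower v sub hsub hmono N hN hF z hzv hzdeg G hGgal hGfin hGz hGsub x hxv L hzL hxL

end Fermat.Agent.Lib.S28
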