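/-
S28 (Igusa), package (E4) (helper5): the concrete tower bound in `k((q))`:
`ψ(N) ≤ [k(j(q^d) : d ∣ N) : k(j(q^N))]`, given the prime-level input (modular equation +
exclusion of the Kronecker shape), and extraction of `≥ ψ(N)` independent monomials.
-/
import Fermat.Agent.Lib.S28.EPsi
import Fermat.Agent.Lib.S28.EGalois
import Fermat.Agent.Lib.S28.EConcVal
import Fermat.Agent.Lib.S28.EExtract

set_option autoImplicit false

noncomputable section

namespace Fermat.Agent.Lib.S28

open Module IntermediateField Polynomial HahnSeries ModularCurve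

variable (k : Type*) [Field k]

/-- **Prime-level input**: `j(q^m)` has degree `r + 1` over `k(j(q^(m r)))`, with separable
minimal polynomial all of whose roots lie in `k((q^m))`. -/
def s28e_PrimeLevel (r m : ℕ) [NeZero r] [NeZero m] : Prop :=
  ∃ P : Polynomial ↥(IntermediateField.adjoin k {qExpand k (m * r) (jqModC k)}),
    P.Monic ∧ Irreducible P ∧ P.natDegree = r + 1 ∧ P.Separable ∧
    Polynomial.aeval (qExpand k m (jqModC k)) P = 0 ∧
    (P.map (algebraMap _ (LaurentSeries k))).Splits ∧
    ∀ a ∈ P.rootSet (LaurentSeries k), a ∈ (qExpand k m).fieldRange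

/-- `d ↦ j(q^d)` as a plain function of `d : ℕ` (junk value `0` at `d = 0`). -/
def s28e_Zfun (d : ℕ) : LaurentSeries k :=
  if h : d = 0 then 0 else @qExpand k _ d ⟨h⟩ (jqModC k)

theorem s28e_Zfun_eq (d : ℕ) [NeZero d] : s28e_Zfun k d = qExpand k d (jqModC k) := by
  rw [s28e_Zfun, dif_neg (NeZero.ne d)]

/-- The base field `k(j(q^N))`. -/
abbrev s28e_base (N : ℕ) [NeZero N] : IntermediateField k (LaurentSeries k) :=
  IntermediateField.adjoin k {qExpand k N (jqModC k)}

/-- `k((q^m))` as an intermediate field of `k((q)) / k`. -/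
def s28e_subI (m : ℕ) : IntermediateField k (LaurentSeries k) :=
  { s28e_sub k m with
    algebraMap_mem' := fun c => by
      have hC : algebraMap k (LaurentSeries k) c = HahnSeries.C c :=
        algebraMap_laurentSeries_eq_single k c
      rw [hC]
      rcases Nat.eq_zero_or_pos m with rfl | hm
      · show HahnSeries.C c ∈ s28e_sub k 0
        rw [s28e_sub_zero]
        exact ⟨c, rfl⟩
      · haveI : NeZero m := ⟨hm.ne'⟩
        show HahnSeries.C c ∈ s28e_sub k m
        rw [s28e_sub_eq]
        exact ⟨HahnSeries.C c, qExpand_C m c⟩ }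

theorem s28e_mem_subI (m : ℕ) (a : LaurentSeries k) : a ∈ s28e_subI k m ↔ a ∈ s28e_sub k m :=
  Iff.rfl

theorem s28e_base_le_subI (N : ℕ) [NeZero N] : s28e_base k N ≤ s28e_subI k N := by
  rw [s28e_base, IntermediateField.adjoin_le_iff]
  rintro _ rfl
  exact s28e_qExpand_mem_sub k N _

/-- Per-prime data for the tower. -/
theorem s28e_prime_data (r m : ℕ) [NeZero r] [NeZero m] [NeZero (m * r)]
    (hP : s28e_PrimeLevel k r m) :
    finrank ↥(s28e_base k (m * r)) ↥(↥(s28e_base k (m * r)))⟮qExpand k m (jqModC k)⟯ = r + 1 ∧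
    ∃ G : IntermediateField ↥(s28e_base k (m * r)) (LaurentSeries k),
      IsGalois ↥(s28e_base k (m * r)) ↥G ∧ FiniteDimensional ↥(s28e_base k (m * r)) ↥G ∧
      qExpand k m (jqModC k) ∈ G ∧ ∀ a ∈ G, a ∈ s28e_sub k m := by
  obtain ⟨P, hm, hirr, hdeg, hsep, hz, hsplit, hroots⟩ := hP
  refine ⟨?_, ?_⟩
  · rw [← hdeg]
    exact s28e_finrank_adjoin_of_irreducible P hm hirr _ hz
  · refine s28e_exists_galois_of_poly P hsep hsplit _ hz (s28e_sub k m) ?_ ?_
    · intro a
      have h1 : (a : LaurentSeries k) ∈ s28e_subI k (m * r) := s28e_base_le_subI k (m * r) a.2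
      exact s28e_hmono k (m * r) m (Dvd.intro _ rfl) h1
    · intro a ha
      rw [s28e_sub_eq]
      exact hroots a ha


/-- The family of prime-level inputs needed at level `N`. -/
def s28e_PrimeLevelAll (N : ℕ) : Prop :=
  ∀ (r m : ℕ) [NeZero r] [NeZero m], r.Prime → m * r ∣ N → s28e_PrimeLevel k r m

/-- every `j(q^d)`, `d ∣ N`, is integral over `k(j(q^N))`. -/
theorem s28e_isIntegral_qExpand (N : ℕ) [NeZero N] (hPL : s28e_PrimeLevelAll k N) :
    ∀ (e d : ℕ) [NeZero d], d ∣ N → N / d = e →
      IsIntegral ↥(s28e_base k N) (qExpand k d (jqModC k)) := by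
  intro e
  induction e using Nat.strong_induction_on with
  | _ e ih =>
    intro d _ hdN hde
    obtain ⟨c, hc⟩ := hdN
    have hd0 : 0 < d := Nat.pos_of_ne_zero (NeZero.ne d)
    have hc0 : c ≠ 0 := by
      rintro rfl
      exact NeZero.ne N (by rw [hc, mul_zero])
    have hce : c = e := by
      rw [← hde, hc, Nat.mul_div_cancel_left _ hd0]
    by_cases hc1 : c = 1
    · -- `d = N`
      have hdN' : d = N := by rw [hc, hc1, mul_one]
      have hmem : qExpand k d (jqModC k) ∈ s28e_base k N := by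
        rw [qExpand_congr hdN']
        exact IntermediateField.subset_adjoin k _ rfl
      have : qExpand k d (jqModC k)
          = algebraMap ↥(s28e_base k N) (LaurentSeries k) ⟨_, hmem⟩ := rfl
      rw [this]
      exact isIntegral_algebraMap
    · -- a prime `r ∣ c`
      have hrp : (c.minFac).Prime := Nat.minFac_prime hc1
      obtain ⟨c', hc'⟩ := Nat.minFac_dvd c
      set r := c.minFac with hr
      haveI : NeZero r := ⟨hrp.ne_zero⟩
      have hc'0 : c' ≠ 0 := by
        rintro rfl
        exact hc0 (by rw [hc', mul_zero])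
      have hdrN : d * r ∣ N := ⟨c', by rw [hc, hc', mul_assoc]⟩
      have hquot : N / (d * r) = c' := by
        rw [hc, hc', ← mul_assoc, Nat.mul_div_cancel_left _ (Nat.mul_pos hd0 hrp.pos)]
      have hlt : c' < e := by
        rw [← hce, hc']
        have : 1 < r := hrp.one_lt
        have hc'pos : 0 < c' := Nat.pos_of_ne_zero hc'0
        nlinarith
      have hIH : IsIntegral ↥(s28e_base k N) (qExpand k (d * r) (jqModC k)) :=
        ih c' hlt (d * r) hdrN hquot
      -- all of `k(j(q^(d r)))` is integral over the base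
      have h21 : ∀ a ∈ IntermediateField.adjoin k {qExpand k (d * r) (jqModC k)},
          IsIntegral ↥(s28e_base k N) a := by
        have hle : IntermediateField.adjoin k {qExpand k (d * r) (jqModC k)}
            ≤ (algebraicClosure ↥(s28e_base k N) (LaurentSeries k)).restrictScalars k := by
          rw [IntermediateField.adjoin_le_iff]
          rintro _ rfl
          exact (mem_algebraicClosure_iff').2 hIH
        intro a ha
        exact (mem_algebraicClosure_iff').1 (hle ha)
      obtain ⟨P, hPm, -, -, -, hPz, -, -⟩ := hPL r d hrp hdrN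
      exact s28e_isIntegral_trans (s28e_base k N) _ h21 _ ⟨P, hPm, hPz⟩

theorem s28e_isIntegral_of_mem_divisorExpansionsC (N : ℕ) [NeZero N]
    (hPL : s28e_PrimeLevelAll k N) (x : LaurentSeries k) (hx : x ∈ divisorExpansionsC k N) :
    IsIntegral ↥(s28e_base k N) x := by
  obtain ⟨d, hd, hdN, rfl⟩ := hx
  exact s28e_isIntegral_qExpand k N hPL (N / d) d hdN rfl

theorem s28e_finite_divisorExpansionsC (N : ℕ) [NeZero N] :
    (divisorExpansionsC k N).Finite := by
  refine Set.Finite.subset ((N.divisors : Set ℕ).toFinite.image (s28e_Zfun k)) ?_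
  rintro _ ⟨d, hd, hdN, rfl⟩
  refine ⟨d, ?_, ?_⟩
  · exact Finset.mem_coe.2 (Nat.mem_divisors.2 ⟨hdN, NeZero.ne N⟩)
  · exact s28e_Zfun_eq k d

/-- The full field `k(j(q^d) : d ∣ N)` as an extension of the base `k(j(q^N))`. -/
abbrev s28e_top (N : ℕ) [NeZero N] :
    IntermediateField ↥(s28e_base k N) (LaurentSeries k) :=
  IntermediateField.adjoin ↥(s28e_base k N) (divisorExpansionsC k N)

theorem s28e_finiteDimensional_top (N : ℕ) [NeZero N] (hPL : s28e_PrimeLevelAll k N) :
    FiniteDimensional ↥(s28e_base k N) ↥(s28e_top k N) := by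
  haveI : Finite ↥(divisorExpansionsC k N) := (s28e_finite_divisorExpansionsC k N).to_subtype
  exact IntermediateField.finiteDimensional_adjoin
    (fun x hx => s28e_isIntegral_of_mem_divisorExpansionsC k N hPL x hx)


/-- Per-prime data at level `N`, in the shape used by the abstract tower bound. -/
theorem s28e_prime_data_at (N : ℕ) [NeZero N] (hPL : s28e_PrimeLevelAll k N) (r : ℕ)
    (hr : r ∈ N.primeFactors) :
    finrank ↥(s28e_base k N) ↥(↥(s28e_base k N))⟮s28e_Zfun k (N / r)⟯ = r + 1 ∧
    ∃ G : IntermediateField ↥(s28e_base k N) (LaurentSeries k),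
      IsGalois ↥(s28e_base k N) ↥G ∧ FiniteDimensional ↥(s28e_base k N) ↥G ∧
      s28e_Zfun k (N / r) ∈ G ∧ ∀ a ∈ G, a ∈ s28e_sub k (N / r) := by
  have hrp : r.Prime := Nat.prime_of_mem_primeFactors hr
  obtain ⟨m, hm⟩ := Nat.dvd_of_mem_primeFactors hr
  have hm' : N = m * r := by rw [hm, mul_comm]
  subst hm'
  have hm0 : m ≠ 0 := by
    rintro rfl
    exact NeZero.ne (0 * r) (zero_mul r)
  haveI : NeZero m := ⟨hm0⟩
  haveI : NeZero r := ⟨hrp.ne_zero⟩
  rw [Nat.mul_div_cancel _ hrp.pos, s28e_Zfun_eq]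
  exact s28e_prime_data k r m (hPL r m hrp dvd_rfl)

/-- **The concrete tower bound**: `ψ(N) ≤ [k(j(q^d) : d ∣ N) : k(j(q^N))]`. -/
theorem s28e_dedekindPsi_le_finrank_top (N : ℕ) [NeZero N] (hPL : s28e_PrimeLevelAll k N) :
    dedekindPsi N ≤ finrank ↥(s28e_base k N) ↥(s28e_top k N) := by
  classical
  haveI := s28e_finiteDimensional_top k N hPL
  have hdata := s28e_prime_data_at k N hPL
  -- the Galois closures, chosen
  let G : ℕ → IntermediateField ↥(s28e_base k N) (LaurentSeries k) := fun r =>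
    if h : r ∈ N.primeFactors then Classical.choose (hdata r h).2 else ⊥
  have hG : ∀ r (h : r ∈ N.primeFactors), G r = Classical.choose (hdata r h).2 := fun r h =>
    dif_pos h
  have hGspec := fun r (h : r ∈ N.primeFactors) => Classical.choose_spec (hdata r h).2
  have hZmem : ∀ (d : ℕ), d ∣ N → s28e_Zfun k d ∈ s28e_top k N := by
    intro d hd
    have hd0 : d ≠ 0 := by
      rintro rfl
      exact NeZero.ne N (zero_dvd_iff.1 hd)
    haveI : NeZero d := ⟨hd0⟩
    rw [s28e_Zfun_eq]
    exact IntermediateField.subset_adjoin _ _ (mem_divisorExpansionsC k N hd)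
  refine s28e_dedekindPsi_le_finrank (s28e_val k) (s28e_sub k) (s28e_hsub k) (s28e_hmono k) N
    (NeZero.ne N) ?_ (fun r => s28e_Zfun k (N / r)) ?_ ?_ G ?_ ?_ ?_ ?_ (jqModC k)
    (s28e_val_jqModC k) (s28e_top k N) ?_ ?_
  · intro a
    exact s28e_base_le_subI k N a.2
  · intro r hr
    have hrp : r.Prime := Nat.prime_of_mem_primeFactors hr
    have hrN : r ∣ N := Nat.dvd_of_mem_primeFactors hr
    have h0 : N / r ≠ 0 := by
      have := Nat.div_pos (Nat.le_of_dvd (Nat.pos_of_ne_zero (NeZero.ne N)) hrN) hrp.pos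
      omega
    haveI : NeZero (N / r) := ⟨h0⟩
    show s28e_val k (s28e_Zfun k (N / r)) = _
    rw [s28e_Zfun_eq, s28e_val_qExpand_jqModC]
  · intro r hr
    exact (hdata r hr).1
  · intro r hr
    rw [hG r hr]
    exact (hGspec r hr).1
  · intro r hr
    rw [hG r hr]
    exact (hGspec r hr).2.1
  · intro r hr
    rw [hG r hr]
    exact (hGspec r hr).2.2.1
  · intro r hr
    rw [hG r hr]
    exact (hGspec r hr).2.2.2
  · intro r hr
    exact hZmem (N / r) (Nat.div_dvd_of_dvd (Nat.dvd_of_mem_primeFactors hr))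
  · have := hZmem 1 (one_dvd N)
    rwa [s28e_Zfun_eq, qExpand_one_apply] at this

end Fermat.Agent.Lib.S28
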