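/-
S28 (Igusa), package (E5) (helper5): `≥ ψ(N)` monomials in the `j(q^d)`, `d ∣ N`, linearly
independent over `k(j(q^N))` inside `k((q))`.
-/
import Fermat.Agent.Lib.S28.EConc

set_option autoImplicit false

noncomputable section

namespace Fermat.Agent.Lib.S28

open Module IntermediateField Polynomial HahnSeries ModularCurve

variable (k : Type*) [Field k]

/-- An element of nonzero valuation is transcendental over a subfield of valuation-zero
elements. -/
theorem s28e_eq_zero_of_aeval_eq_zero_aux {K E : Type*} [Field K] [Field E] [Algebra K E]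
    (v : AddValuation E (WithTop ℤ))
    (hK : ∀ a : K, a ≠ 0 → v (algebraMap K E a) = ((0 : ℤ) : WithTop ℤ))
    (x : E) (n : ℤ) (hx : v x = (n : WithTop ℤ)) (hn : n ≠ 0) (Q : K[X]) (h : aeval x Q = 0) :
    Q = 0 := by
  have hli := s28e_linearIndependent_pow (K := K) v 0 (fun a ha => ⟨0, by
      rw [hK a ha]
      simp⟩) x n hx (Q.natDegree + 1) (fun i hi _ => by
      rw [zero_dvd_iff]
      exact mul_ne_zero (by exact_mod_cast hi.ne') hn)
  rw [Fintype.linearIndependent_iff] at hli
  have hsum : ∑ i : Fin (Q.natDegree + 1), Q.coeff (i : ℕ) • x ^ (i : ℕ) = 0 := by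
    rw [Fin.sum_univ_eq_sum_range (fun i => Q.coeff i • x ^ i) (Q.natDegree + 1),
      ← Polynomial.aeval_eq_sum_range]
    exact h
  have hcoeff := hli (fun i => Q.coeff (i : ℕ)) hsum
  ext i
  rw [Polynomial.coeff_zero]
  by_cases hi : i < Q.natDegree + 1
  · exact hcoeff ⟨i, hi⟩
  · exact Polynomial.coeff_eq_zero_of_natDegree_lt (by omega)

/-- A Laurent series of nonzero order is transcendental over the constants. -/
theorem s28e_eq_zero_of_aeval_eq_zero (x : LaurentSeries k) (n : ℤ)
    (hx : s28e_val k x = (n : WithTop ℤ)) (hn : n ≠ 0) (Q : k[X]) (h : aeval x Q = 0) :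
    Q = 0 := by
  refine s28e_eq_zero_of_aeval_eq_zero_aux (s28e_val k) (fun a ha => ?_) x n hx hn Q h
  have hC : algebraMap k (LaurentSeries k) a = HahnSeries.single 0 a :=
    algebraMap_laurentSeries_eq_single k a
  rw [hC, s28e_val_apply, HahnSeries.orderTop_single ha]

/-- **Monomials, linear-independence form.** -/
theorem s28e_exists_monomials (N : ℕ) [NeZero N] (hPL : s28e_PrimeLevelAll k N) :
    ∃ (n : ℕ) (θ : Fin n → LaurentSeries k), dedekindPsi N ≤ n ∧
      (∀ i, θ i ∈ Submonoid.closure (divisorExpansionsC k N)) ∧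
      LinearIndependent ↥(s28e_base k N) θ := by
  haveI := s28e_finiteDimensional_top k N hPL
  obtain ⟨n, θ, hn, hθ, hli⟩ := s28e_exists_monomial_family (F := ↥(s28e_base k N))
    (divisorExpansionsC k N)
    (fun x hx => (s28e_isIntegral_of_mem_divisorExpansionsC k N hPL x hx).isAlgebraic)
  refine ⟨n, θ, ?_, hθ, hli⟩
  rw [hn]
  exact s28e_dedekindPsi_le_finrank_top k N hPL

/-- **Monomials, polynomial-coefficient form**: no nontrivial relation
`∑ P_i(j(q^N)) θ_i = 0` with `P_i ∈ k[X]`. -/
theorem s28e_exists_monomials_indep (N : ℕ) [NeZero N] (hPL : s28e_PrimeLevelAll k N) :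
    ∃ (n : ℕ) (θ : Fin n → LaurentSeries k), dedekindPsi N ≤ n ∧
      (∀ i, θ i ∈ Submonoid.closure (divisorExpansionsC k N)) ∧
      ∀ P : Fin n → Polynomial k,
        ∑ i, Polynomial.aeval (qExpand k N (jqModC k)) (P i) * θ i = 0 → P = 0 := by
  obtain ⟨n, θ, hn, hθ, hli⟩ := s28e_exists_monomials k N hPL
  refine ⟨n, θ, hn, hθ, ?_⟩
  intro P hP
  rw [Fintype.linearIndependent_iff] at hli
  have hmem : ∀ i, Polynomial.aeval (qExpand k N (jqModC k)) (P i) ∈ s28e_base k N := by
    intro i
    have hle : Algebra.adjoin k {qExpand k N (jqModC k)} ≤ (s28e_base k N).toSubalgebra :=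
      IntermediateField.algebra_adjoin_le_adjoin k _
    refine hle ?_
    rw [Algebra.adjoin_singleton_eq_range_aeval]
    exact ⟨P i, rfl⟩
  have h0 := hli (fun i => ⟨_, hmem i⟩) (by
    rw [← hP]
    rfl)
  funext i
  have h1 : Polynomial.aeval (qExpand k N (jqModC k)) (P i) = 0 := by
    have := congrArg Subtype.val (h0 i)
    exact this
  exact s28e_eq_zero_of_aeval_eq_zero k _ _ (s28e_val_qExpand_jqModC k N)
    (by
      have : (N : ℤ) ≠ 0 := by exact_mod_cast NeZero.ne N
      simpa using this) (P i) h1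

end Fermat.Agent.Lib.S28
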