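/-
S28 package (X1): the coefficientwise twist `t ↦ ζ t` on Laurent series over a field.
-/
import Mathlib
import Fermat.Prelude.Def_ModularCurve_X0

set_option autoImplicit false

noncomputable section

open HahnSeries ModularCurve

namespace Fermat.Agent.Lib.S28

variable {k : Type*} [Field k]

/-- underlying function of the twist `t ↦ ζ t`. -/
def s28c_twistFun (ζ : kˣ) (x : LaurentSeries k) : LaurentSeries k where
  coeff n := ((ζ ^ n : kˣ) : k) * x.coeff n
  isPWO_support' := x.isPWO_support.mono (fun n hn => by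
    simp only [Function.mem_support, ne_eq] at hn
    rw [HahnSeries.mem_support]
    intro h
    exact hn (by rw [h, mul_zero]))

@[simp]
theorem s28c_twistFun_coeff (ζ : kˣ) (x : LaurentSeries k) (n : ℤ) :
    (s28c_twistFun ζ x).coeff n = ((ζ ^ n : kˣ) : k) * x.coeff n := rfl

theorem s28c_twistFun_support (ζ : kˣ) (x : LaurentSeries k) :
    (s28c_twistFun ζ x).support = x.support := by
  ext n
  simp only [HahnSeries.mem_support, s28c_twistFun_coeff, ne_eq, mul_eq_zero, Units.ne_zero,
    false_or]

/-- the twist `t ↦ ζ t` as a ring homomorphism of `k((t))`. -/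
def s28c_twist (ζ : kˣ) : LaurentSeries k →+* LaurentSeries k where
  toFun := s28c_twistFun ζ
  map_one' := by
    ext n
    rw [s28c_twistFun_coeff, HahnSeries.coeff_one]
    split_ifs with h
    · subst h; simp
    · simp
  map_zero' := by
    ext n
    simp
  map_add' x y := by
    ext n
    simp [mul_add]
  map_mul' x y := by
    ext n
    rw [s28c_twistFun_coeff, HahnSeries.coeff_mul, HahnSeries.coeff_mul, Finset.mul_sum]
    have hanti : Finset.antidiagonal (s28c_twistFun ζ x).isPWO_support
        (s28c_twistFun ζ y).isPWO_support n =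
        Finset.antidiagonal x.isPWO_support y.isPWO_support n := by
      ext ij
      simp only [Finset.mem_antidiagonal, s28c_twistFun_support]
    rw [hanti]
    refine Finset.sum_congr rfl (fun ij hij => ?_)
    have h := (Finset.mem_antidiagonal.mp hij).2.2
    rw [s28c_twistFun_coeff, s28c_twistFun_coeff, ← h, zpow_add, Units.val_mul]
    ring

@[simp]
theorem s28c_twist_coeff (ζ : kˣ) (x : LaurentSeries k) (n : ℤ) :
    (s28c_twist ζ x).coeff n = ((ζ ^ n : kˣ) : k) * x.coeff n := rfl

theorem s28c_twist_single (ζ : kˣ) (n : ℤ) (a : k) :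
    s28c_twist ζ (HahnSeries.single n a) = HahnSeries.single n (((ζ ^ n : kˣ) : k) * a) := by
  ext m
  rw [s28c_twist_coeff]
  by_cases h : m = n
  · subst h
    rw [HahnSeries.coeff_single_same, HahnSeries.coeff_single_same]
  · rw [HahnSeries.coeff_single_of_ne h, HahnSeries.coeff_single_of_ne h, mul_zero]

theorem s28c_twist_C (ζ : kˣ) (a : k) :
    s28c_twist ζ (HahnSeries.C a) = HahnSeries.C a := by
  show s28c_twist ζ (HahnSeries.single 0 a) = HahnSeries.single 0 a
  rw [s28c_twist_single]
  simp

theorem s28c_twist_one_eq (x : LaurentSeries k) : s28c_twist (1 : kˣ) x = x := by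
  ext n
  simp

theorem s28c_twist_mul_eq (ζ ξ : kˣ) (x : LaurentSeries k) :
    s28c_twist (ζ * ξ) x = s28c_twist ζ (s28c_twist ξ x) := by
  ext n
  rw [s28c_twist_coeff, s28c_twist_coeff, s28c_twist_coeff, mul_zpow, Units.val_mul, mul_assoc]

theorem s28c_twist_pow_eq (ζ : kˣ) (b : ℕ) (x : LaurentSeries k) :
    s28c_twist (ζ ^ b) x = (s28c_twist ζ)^[b] x := by
  induction b with
  | zero => simp [s28c_twist_one_eq]
  | succ b ih =>
    rw [pow_succ', s28c_twist_mul_eq, ih, Function.iterate_succ_apply']

/-- the twist by an `r`-th root of unity fixes series in `t ^ r`. -/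
theorem s28c_twist_qExpand (ζ : kˣ) (r : ℕ) [NeZero r] (hζ : ζ ^ r = 1) (x : LaurentSeries k) :
    s28c_twist ζ (qExpand k r x) = qExpand k r x := by
  ext n
  rw [s28c_twist_coeff]
  by_cases hn : (r : ℤ) ∣ n
  · obtain ⟨m, rfl⟩ := hn
    rw [zpow_mul, zpow_natCast, hζ, one_zpow, Units.val_one, one_mul]
  · rw [qExpand_coeff_of_not_dvd r x hn, mul_zero]

theorem s28c_twist_injective (ζ : kˣ) : Function.Injective (s28c_twist (k := k) ζ) :=
  (s28c_twist ζ).injective

/-- compatibility of the twist with power series: it is `PowerSeries.rescale`. -/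
theorem s28c_twist_ofPowerSeries (ζ : kˣ) (p : PowerSeries k) :
    s28c_twist ζ (HahnSeries.ofPowerSeries ℤ k p) =
      HahnSeries.ofPowerSeries ℤ k (PowerSeries.rescale (ζ : k) p) := by
  ext n
  rw [s28c_twist_coeff]
  rcases le_or_gt 0 n with hn | hn
  · lift n to ℕ using hn
    rw [HahnSeries.ofPowerSeries_apply_coeff, HahnSeries.ofPowerSeries_apply_coeff,
      PowerSeries.coeff_rescale, zpow_natCast, Units.val_pow_eq_pow_val]
  · rw [ofPowerSeries_coeff_of_neg _ hn, ofPowerSeries_coeff_of_neg _ hn, mul_zero]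

end Fermat.Agent.Lib.S28

end
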