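/-
S28, package (M) (helper9), part 1: the twist `t ↦ c t` on Laurent series (`c` a unit),
its compatibility with coefficient maps, `qExpand` and `jqModC`.
-/
import Mathlib
import Fermat.Prelude.Def_ModularCurve_X0ModL

set_option autoImplicit false

namespace Fermat.Agent.Lib.S28

open ModularCurve HahnSeries

noncomputable section

variable {R : Type*} [CommRing R]

/-- The underlying function of the twist. -/
def s28m_twFun (c : Rˣ) (x : LaurentSeries R) : LaurentSeries R where
  coeff n := ((c ^ n : Rˣ) : R) * x.coeff n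
  isPWO_support' := x.isPWO_support.mono fun n hn => by
    simp only [Function.mem_support, ne_eq] at hn ⊢
    intro h
    exact hn (by rw [h, mul_zero])

@[simp] theorem s28m_twFun_coeff (c : Rˣ) (x : LaurentSeries R) (n : ℤ) :
    (s28m_twFun c x).coeff n = ((c ^ n : Rˣ) : R) * x.coeff n := rfl

theorem s28m_twFun_support (c : Rˣ) (x : LaurentSeries R) :
    (s28m_twFun c x).support = x.support := by
  ext n
  simp only [HahnSeries.mem_support, s28m_twFun_coeff, ne_eq]
  rw [Units.mul_right_eq_zero]

theorem s28m_twFun_mul (c : Rˣ) (x y : LaurentSeries R) :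
    s28m_twFun c (x * y) = s28m_twFun c x * s28m_twFun c y := by
  ext n
  rw [s28m_twFun_coeff, HahnSeries.coeff_mul, HahnSeries.coeff_mul, Finset.mul_sum]
  have hs : Finset.antidiagonal (s28m_twFun c x).isPWO_support (s28m_twFun c y).isPWO_support n
      = Finset.antidiagonal x.isPWO_support y.isPWO_support n := by
    ext ij
    simp only [Finset.mem_antidiagonal, s28m_twFun_support]
  rw [hs]
  refine Finset.sum_congr rfl fun ij hij => ?_
  have hn : ij.1 + ij.2 = n := (Finset.mem_antidiagonal.mp hij).2.2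
  rw [s28m_twFun_coeff, s28m_twFun_coeff, ← hn, zpow_add, Units.val_mul]
  ring

/-- The twist `t ↦ c t` as a ring endomorphism of `R((t))`. -/
def s28m_tw (c : Rˣ) : LaurentSeries R →+* LaurentSeries R where
  toFun := s28m_twFun c
  map_one' := by
    ext n
    rw [s28m_twFun_coeff, HahnSeries.coeff_one]
    split_ifs with h
    · subst h; simp
    · simp
  map_mul' := s28m_twFun_mul c
  map_zero' := by ext n; simp
  map_add' x y := by ext n; simp [mul_add]

@[simp] theorem s28m_tw_coeff (c : Rˣ) (x : LaurentSeries R) (n : ℤ) :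
    (s28m_tw c x).coeff n = ((c ^ n : Rˣ) : R) * x.coeff n := rfl

theorem s28m_tw_one (x : LaurentSeries R) : s28m_tw (1 : Rˣ) x = x := by
  ext n; simp

theorem s28m_tw_tw (c d : Rˣ) (x : LaurentSeries R) :
    s28m_tw c (s28m_tw d x) = s28m_tw (c * d) x := by
  ext n
  simp only [s28m_tw_coeff, mul_zpow, Units.val_mul]
  ring

theorem s28m_tw_injective (c : Rˣ) : Function.Injective (s28m_tw (R := R) c) := by
  intro x y h
  have := congrArg (s28m_tw c⁻¹) h
  rwa [s28m_tw_tw, s28m_tw_tw, inv_mul_cancel, s28m_tw_one, s28m_tw_one] at this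

theorem s28m_tw_single (c : Rˣ) (n : ℤ) (a : R) :
    s28m_tw c (HahnSeries.single n a) = HahnSeries.single n (((c ^ n : Rˣ) : R) * a) := by
  ext m
  rw [s28m_tw_coeff]
  rcases eq_or_ne m n with rfl | h
  · simp
  · simp [HahnSeries.coeff_single_of_ne h]

theorem s28m_tw_C (c : Rˣ) (a : R) :
    s28m_tw c (HahnSeries.C a) = HahnSeries.C a := by
  have : (HahnSeries.C a : LaurentSeries R) = HahnSeries.single 0 a := rfl
  rw [this, s28m_tw_single]
  simp

/-- If `c ^ N = 1`, the twist fixes series in `t ^ N`. -/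
theorem s28m_tw_qExpand (c : Rˣ) (N : ℕ) [NeZero N] (h : c ^ N = 1) (x : LaurentSeries R) :
    s28m_tw c (qExpand R N x) = qExpand R N x := by
  ext n
  rw [s28m_tw_coeff]
  by_cases hn : (N : ℤ) ∣ n
  · obtain ⟨m, rfl⟩ := hn
    rw [zpow_mul, zpow_natCast, h, one_zpow, Units.val_one, one_mul]
  · rw [qExpand_coeff_of_not_dvd N x hn, mul_zero]

theorem s28m_coeffMap_tw {S : Type*} [CommRing S] (f : R →+* S) (c : Rˣ) (x : LaurentSeries R) :
    coeffMap f (s28m_tw c x) = s28m_tw (Units.map (f : R →* S) c) (coeffMap f x) := by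
  ext n
  rw [coeffMap_coeff, s28m_tw_coeff, s28m_tw_coeff, coeffMap_coeff, map_mul, ← map_zpow]
  rfl

end

end Fermat.Agent.Lib.S28
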