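/-
S28, package (M) (helper9), part 2: the analytic/formal bridge for real translations:
if `f` has Laurent `q`-expansion `x`, then `z ↦ f (t + z)` (`t` real) has Laurent `q`-expansion
`s28m_tw (exp (2πit)) x`.
-/
import Fermat.Agent.Lib.FF.BridgeJ
import Fermat.Agent.Lib.S28.MTwist

set_option autoImplicit false

namespace Fermat.Agent.Lib.S28

open UpperHalfPlane hiding I
open Complex Filter Topology ModularForm Function ModularCurve
open Fermat.Agent.Lib.FF
open scoped Manifold MatrixGroups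

local notation "𝕢" => Periodic.qParam

noncomputable section

/-- The unit `exp (2 π i t)`. -/
def s28m_eUnit (t : ℝ) : ℂˣ := Units.mk0 (cexp (2 * Real.pi * I * t)) (Complex.exp_ne_zero _)

@[simp] theorem s28m_eUnit_coe (t : ℝ) : ((s28m_eUnit t : ℂˣ) : ℂ) = cexp (2 * Real.pi * I * t) := rfl

theorem s28m_Q_vadd (t : ℝ) (z : ℍ) : ffb_Q (t +ᵥ z) = cexp (2 * Real.pi * I * t) * ffb_Q z := by
  rw [ffb_Q_apply, ffb_Q_apply, ← Complex.exp_add]
  congr 1
  rw [UpperHalfPlane.coe_vadd]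
  ring

theorem s28m_vadd_ofComplex (t : ℝ) {w : ℂ} (hw : 0 < w.im) :
    t +ᵥ (ofComplex w) = ofComplex ((t : ℂ) + w) := by
  have hw' : 0 < ((t : ℂ) + w).im := by simpa using hw
  apply UpperHalfPlane.ext
  rw [UpperHalfPlane.coe_vadd, ofComplex_apply_of_im_pos hw, ofComplex_apply_of_im_pos hw']

theorem s28m_nice_vadd {f : ℍ → ℂ} (hf : ffb_Nice f) (t : ℝ) :
    ffb_Nice (fun z => f (t +ᵥ z)) where
  hol := by
    rw [UpperHalfPlane.mdifferentiable_iff]
    have h1 : DifferentiableOn ℂ (f ∘ ofComplex) {z | 0 < z.im} :=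
      UpperHalfPlane.mdifferentiable_iff.mp hf.hol
    have h2 : DifferentiableOn ℂ ((f ∘ ofComplex) ∘ fun w : ℂ => (t : ℂ) + w) {z | 0 < z.im} := by
      refine h1.comp (by fun_prop) fun w hw => ?_
      simpa using hw
    refine h2.congr fun w hw => ?_
    simp only [Function.comp_apply]
    rw [s28m_vadd_ofComplex t hw]
  per := by
    intro w
    simp only [Function.comp_apply]
    by_cases hw : 0 < w.im
    · have hw1 : 0 < (w + 1).im := by simpa using hw
      rw [s28m_vadd_ofComplex t hw, s28m_vadd_ofComplex t hw1]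
      have := hf.per ((t : ℂ) + w)
      simp only [Function.comp_apply] at this
      rw [← this]
      congr 2
      ring
    · have hw1 : ¬ 0 < (w + 1).im := by simpa using hw
      rw [ofComplex_apply_of_im_nonpos (not_lt.mp hw),
        ofComplex_apply_of_im_nonpos (not_lt.mp hw1)]
  bdd := by
    obtain ⟨C, A, h⟩ := isBoundedAtImInfty_iff.mp hf.bdd
    rw [isBoundedAtImInfty_iff]
    refine ⟨C, A, fun z hz => h _ ?_⟩
    rwa [UpperHalfPlane.vadd_im]

theorem s28m_qExpansion_vadd {f : ℍ → ℂ} (hf : ffb_Nice f) (t : ℝ) :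
    qExpansion 1 (fun z => f (t +ᵥ z)) =
      PowerSeries.mk fun m => cexp (2 * Real.pi * I * t) ^ m * (qExpansion 1 f).coeff m := by
  refine (s28m_nice_vadd hf t).qExpansion_eq_mk fun τ => ?_
  have h1 := hf.hasSum (t +ᵥ τ)
  have hq : 𝕢 1 (t +ᵥ τ) = cexp (2 * Real.pi * I * t) * 𝕢 1 τ := s28m_Q_vadd t τ
  rw [hq] at h1
  refine h1.congr_fun fun m => ?_
  simp only [smul_eq_mul]
  rw [mul_pow]
  ring

theorem s28m_isLaurent_vadd {f : ℍ → ℂ} {x : LaurentSeries ℂ} (h : ffb_IsLaurent f x) (t : ℝ) :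
    ffb_IsLaurent (fun z => f (t +ᵥ z)) (s28m_tw (s28m_eUnit t) x) := by
  obtain ⟨M, h1, rfl⟩ := h
  set c : ℂ := cexp (2 * Real.pi * I * t) with hc
  have hc0 : c ≠ 0 := Complex.exp_ne_zero _
  have e : ffb_Q ^ M * (fun z => f (t +ᵥ z)) =
      (fun _ : ℍ => (c ^ M)⁻¹) * fun z => (ffb_Q ^ M * f) (t +ᵥ z) := by
    funext z
    simp only [Pi.mul_apply, Pi.pow_apply]
    rw [s28m_Q_vadd, mul_pow, ← hc]
    field_simp
  have hn : ffb_Nice (fun z => (ffb_Q ^ M * f) (t +ᵥ z)) := s28m_nice_vadd h1 t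
  refine ⟨M, e ▸ (ffb_Nice.const _).mul hn, ?_⟩
  rw [e, (ffb_Nice.const _).qExpansion_mul hn, ffb_qExpansion_const, s28m_qExpansion_vadd h1 t]
  ext n
  rw [s28m_tw_coeff, HahnSeries.coeff_single_mul, HahnSeries.coeff_single_mul, one_mul, one_mul,
    sub_neg_eq_add]
  rcases lt_or_ge (n + (M : ℤ)) 0 with hk | hk
  · rw [ofPowerSeries_coeff_of_neg _ hk, ofPowerSeries_coeff_of_neg _ hk, mul_zero]
  · obtain ⟨m, hm⟩ := Int.eq_ofNat_of_zero_le hk
    rw [hm, HahnSeries.ofPowerSeries_apply_coeff, HahnSeries.ofPowerSeries_apply_coeff,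
      ← PowerSeries.smul_eq_C_mul, PowerSeries.coeff_smul, PowerSeries.coeff_mk, ← hc,
      smul_eq_mul, ← mul_assoc]
    congr 1
    have hn' : n = (m : ℤ) - (M : ℤ) := by omega
    rw [hn', zpow_sub, zpow_natCast, zpow_natCast, Units.val_mul, Units.val_inv_eq_inv_val,
      Units.val_pow_eq_pow_val, Units.val_pow_eq_pow_val, s28m_eUnit_coe, ← hc]
    ring

end

end Fermat.Agent.Lib.S28
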