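/-
S28, package (M) (helper9), part 3: the analytic input of the level-`r` modular equation
(`r` prime): a monic `Φ ∈ ℂ[Y][X]` of degree `r + 1` such that `Φ(·, j(r τ))` kills
`j(r² τ)` and `j(τ + b / r)`, first as functions on `ℍ`, then as formal Laurent series.
-/
import Fermat.Agent.Lib.FF.JAnalyticOrbit
import Fermat.Agent.Lib.FF.JAnalyticLevel
import Fermat.Agent.Lib.FF.BridgeJ
import Fermat.Agent.Lib.M2.TrCoset
import Fermat.Agent.Lib.S28.MBridge

set_option autoImplicit false

namespace Fermat.Agent.Lib.S28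

open UpperHalfPlane hiding I
open Complex Filter Topology ModularForm Function ModularCurve CongruenceSubgroup
open Matrix.SpecialLinearGroup
open Fermat.Agent.Lib.FF Fermat.Agent.Lib.RR
open scoped Manifold MatrixGroups Polynomial

noncomputable section

variable (r : ℕ) [hr : Fact r.Prime]

instance s28m_neZero : NeZero r := ⟨hr.out.ne_zero⟩

/-- `r` as a positive natural. -/
def s28m_rp : ℕ+ := ⟨r, hr.out.pos⟩

@[simp] theorem s28m_rp_coe : ((s28m_rp r : ℕ+) : ℕ) = r := rfl

/-- **Analytic modular equation**: a monic `Φ` of degree `r + 1` over `ℂ[Y]` with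
`Φ(j(r γ z), j(z)) = 0` for every `γ ∈ SL(2, ℤ)`. -/
theorem s28m_exists_poly :
    ∃ Φ : Polynomial (Polynomial ℂ), Φ.Monic ∧ Φ.natDegree = r + 1 ∧
      ∀ (γ : SL(2, ℤ)) (z : ℍ),
        (Φ.map (Polynomial.evalRingHom (ffj_j z))).eval (ffj_jd (s28m_rp r) (γ • z)) = 0 := by
  have hW : ffm_IsWH r (ffj_jd (s28m_rp r)) := ffj_jd_isWH (d := s28m_rp r) (N := r) dvd_rfl
  obtain ⟨Φ, hm, hd, -, h0⟩ := ffj_exists_orbit_poly_coset r (f := ffj_jd (s28m_rp r))
    hW.mdiff (fun γ hγ z => ffj_jd_smul_of_mem_Gamma0 (d := s28m_rp r) (N := r) dvd_rfl hγ z)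
    (fun γ => hW.growth γ)
  refine ⟨Φ, hm, ?_, fun γ z => ?_⟩
  · rw [hd]; exact Fermat.Agent.Lib.M2.Tr.m2t_card_Q r
  · have := h0 (γ • z)
    rwa [ffj_smul] at this

/-- `j(r · (S T^b) (r τ)) = j(τ + b / r)`. -/
theorem s28m_jd_ST (b : ℤ) (τ : ℍ) :
    ffj_jd (s28m_rp r) ((ModularGroup.S * ModularGroup.T ^ b) • ffb_dmul r τ)
      = ffj_j ((((b : ℝ) / (r : ℝ) : ℝ)) +ᵥ τ) := by
  have hr0 : (r : ℂ) ≠ 0 := Nat.cast_ne_zero.mpr hr.out.ne_zero
  rw [← ffj_smul ModularGroup.S ((((b : ℝ) / (r : ℝ) : ℝ)) +ᵥ τ)]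
  refine ffj_jd_eq (s28m_rp r) _ _ ?_
  rw [mul_smul, UpperHalfPlane.modular_T_zpow_smul, UpperHalfPlane.modular_S_smul,
    UpperHalfPlane.modular_S_smul]
  simp only [UpperHalfPlane.coe_mk, UpperHalfPlane.coe_vadd, ffb_dmul_coe, s28m_rp_coe]
  have hne : ((b : ℝ) : ℂ) + (r : ℂ) * (τ : ℂ) ≠ 0 := by
    intro h
    have := congrArg Complex.im h
    have hpos : 0 < (r : ℝ) * τ.im := mul_pos (Nat.cast_pos.mpr hr.out.pos) τ.im_pos
    simp at this
    rcases this with h1 | h1
    · exact hr.out.ne_zero h1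
    · exact τ.im_ne_zero h1
  have hne2 : ((((b : ℝ) / (r : ℝ) : ℝ)) : ℂ) + (τ : ℂ) ≠ 0 := by
    intro h
    apply hne
    have : ((b : ℝ) : ℂ) + (r : ℂ) * (τ : ℂ) = (r : ℂ) * (((((b : ℝ) / (r : ℝ) : ℝ)) : ℂ) + (τ : ℂ)) := by
      push_cast; field_simp
    rw [this, h, mul_zero]
  push_cast at hne2 ⊢
  field_simp

theorem s28m_jd_one (τ : ℍ) :
    ffj_jd (s28m_rp r) ((1 : SL(2, ℤ)) • ffb_dmul r τ) = ffb_jd (r * r) τ := by
  rw [one_smul, ffb_jd_apply]
  refine ffj_jd_eq (s28m_rp r) _ _ ?_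
  simp only [ffb_dmul_coe, s28m_rp_coe]
  push_cast
  ring

end

end Fermat.Agent.Lib.S28

namespace Fermat.Agent.Lib.S28

open UpperHalfPlane hiding I
open Complex Filter Topology ModularForm Function ModularCurve CongruenceSubgroup
open Matrix.SpecialLinearGroup
open Fermat.Agent.Lib.FF Fermat.Agent.Lib.RR
open scoped Manifold MatrixGroups Polynomial

noncomputable section

/-- The formal `j` over `ℂ`. -/
theorem s28m_coeffMap_jq : coeffMap (algebraMap ℚ ℂ) jq = jqModC ℂ := by
  rw [← jqModC_rat, coeffMap_jqModC]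

theorem s28m_isLaurent_j : ffb_IsLaurent ffj_j (jqModC ℂ) := by
  have := ffb_isLaurent_j
  rwa [s28m_coeffMap_jq] at this

theorem s28m_isLaurent_jd (d : ℕ) [NeZero d] :
    ffb_IsLaurent (ffb_jd d) (qExpand ℂ d (jqModC ℂ)) :=
  s28m_isLaurent_j.comp_dmul d

/-- Polynomial expressions in a function with a Laurent expansion. -/
theorem s28m_isLaurent_eval {f : ℍ → ℂ} {x : LaurentSeries ℂ} (h : ffb_IsLaurent f x)
    (P : Polynomial ℂ) :
    ffb_IsLaurent (fun z => P.eval (f z)) (Polynomial.aeval x P) := by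
  induction P using Polynomial.induction_on' with
  | add p q hp hq =>
    have := hp.add hq
    simp only [Polynomial.eval_add, map_add]
    exact this
  | monomial n a =>
    have h1 : ffb_IsLaurent (fun _ : ℍ => a) (HahnSeries.C a) := ffb_IsLaurent.const a
    have h2 : ffb_IsLaurent (f ^ n) (x ^ n) := by
      induction n with
      | zero =>
        simp only [pow_zero]
        have := ffb_IsLaurent.const 1
        rw [map_one] at this
        exact this
      | succ n ih =>
        rw [pow_succ, pow_succ]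
        exact ih.mul h
    have h3 := h1.mul h2
    have e1 : (fun z => (Polynomial.monomial n a).eval (f z)) = (fun _ : ℍ => a) * f ^ n := by
      funext z
      simp [Polynomial.eval_monomial]
    have e2 : Polynomial.aeval x (Polynomial.monomial n a) = HahnSeries.C a * x ^ n := by
      rw [Polynomial.aeval_monomial, algebraMap_laurentSeries_eq_single]
      rfl
    rw [e1, e2]
    exact h3

theorem s28m_isLaurent_eval₂ {f g : ℍ → ℂ} {x y : LaurentSeries ℂ} (hf : ffb_IsLaurent f x)
    (hg : ffb_IsLaurent g y) (p : Polynomial (Polynomial ℂ)) :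
    ffb_IsLaurent (fun z => (p.map (Polynomial.evalRingHom (f z))).eval (g z))
      ((p.map (Polynomial.aeval x).toRingHom).eval y) := by
  induction p using Polynomial.induction_on' with
  | add p q hp hq =>
    have := hp.add hq
    simp only [Polynomial.map_add, Polynomial.eval_add]
    exact this
  | monomial n a =>
    have h1 := s28m_isLaurent_eval hf a
    have h2 : ffb_IsLaurent (g ^ n) (y ^ n) := by
      induction n with
      | zero =>
        simp only [pow_zero]
        have := ffb_IsLaurent.const 1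
        rw [map_one] at this
        exact this
      | succ n ih =>
        rw [pow_succ, pow_succ]
        exact ih.mul hg
    have h3 := h1.mul h2
    have e1 : (fun z => ((Polynomial.monomial n a).map (Polynomial.evalRingHom (f z))).eval (g z))
        = (fun z => a.eval (f z)) * g ^ n := by
      funext z
      simp [Polynomial.map_monomial, Polynomial.eval_monomial]
    have e2 : ((Polynomial.monomial n a).map (Polynomial.aeval x).toRingHom).eval y
        = Polynomial.aeval x a * y ^ n := by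
      simp [Polynomial.map_monomial, Polynomial.eval_monomial]
    rw [e1, e2]
    exact h3

variable (r : ℕ) [hr : Fact r.Prime]

/-- **Formal modular equation over `ℂ`, root form.** -/
theorem s28m_exists_poly_formal :
    ∃ Φ : Polynomial (Polynomial ℂ), Φ.Monic ∧ Φ.natDegree = r + 1 ∧
      (Φ.map (Polynomial.aeval (qExpand ℂ r (jqModC ℂ))).toRingHom).eval
        (qExpand ℂ (r * r) (jqModC ℂ)) = 0 ∧
      ∀ b : ℤ, (Φ.map (Polynomial.aeval (qExpand ℂ r (jqModC ℂ))).toRingHom).eval
        (s28m_tw (s28m_eUnit ((b : ℝ) / (r : ℝ))) (jqModC ℂ)) = 0 := by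
  obtain ⟨Φ, hm, hd, h0⟩ := s28m_exists_poly r
  have hjr : ∀ τ : ℍ, ffj_j (ffb_dmul r τ) = ffb_jd r τ := fun τ => rfl
  refine ⟨Φ, hm, hd, ?_, fun b => ?_⟩
  · have hL := s28m_isLaurent_eval₂ (s28m_isLaurent_jd r) (s28m_isLaurent_jd (r * r)) Φ
    have hz : (fun z => (Φ.map (Polynomial.evalRingHom (ffb_jd r z))).eval (ffb_jd (r * r) z))
        = fun _ => (0 : ℂ) := by
      funext τ
      have := h0 1 (ffb_dmul r τ)
      rwa [s28m_jd_one, hjr] at this
    rw [hz] at hL
    have h1 := ffb_IsLaurent.const (0 : ℂ)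
    rw [map_zero] at h1
    exact hL.unique h1
  · have hL := s28m_isLaurent_eval₂ (s28m_isLaurent_jd r)
      (s28m_isLaurent_vadd s28m_isLaurent_j ((b : ℝ) / (r : ℝ))) Φ
    have hz : (fun z => (Φ.map (Polynomial.evalRingHom (ffb_jd r z))).eval
        (ffj_j ((((b : ℝ) / (r : ℝ) : ℝ)) +ᵥ z))) = fun _ => (0 : ℂ) := by
      funext τ
      have := h0 (ModularGroup.S * ModularGroup.T ^ b) (ffb_dmul r τ)
      rwa [s28m_jd_ST, hjr] at this
    rw [hz] at hL
    have h1 := ffb_IsLaurent.const (0 : ℂ)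
    rw [map_zero] at h1
    exact hL.unique h1

end

end Fermat.Agent.Lib.S28
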