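/-
S28, package (M) (helper9), part 4: purely formal lemmas:
* a monic polynomial with `natDegree` many distinct roots is the product of the linear factors;
* the `q`-expansion principle for polynomials in `j(t^r)`;
* functoriality of substitutions under coefficient maps.
-/
import Mathlib
import Fermat.Agent.Lib.S28.MTwist

set_option autoImplicit false

namespace Fermat.Agent.Lib.S28

open ModularCurve Polynomial

noncomputable section

/-- A monic polynomial of degree `card ι` with an injective family of roots splits. -/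
theorem s28m_eq_prod_of_roots {E : Type*} [CommRing E] [IsDomain E] {ι : Type*} [Fintype ι]
    (p : E[X]) (hp : p.Monic) (hdeg : p.natDegree = Fintype.card ι) (x : ι → E)
    (hx : Function.Injective x) (hroot : ∀ i, p.eval (x i) = 0) :
    p = ∏ i, (X - C (x i)) := by
  classical
  have hp0 : p ≠ 0 := hp.ne_zero
  set s : Multiset E := (Finset.univ : Finset ι).val.map x with hs
  have hnd : s.Nodup := (Multiset.nodup_map_iff_of_injective hx).mpr Finset.univ.nodup
  have hle : s ≤ p.roots := by
    rw [Multiset.le_iff_subset hnd]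
    intro a ha
    obtain ⟨i, -, rfl⟩ := Multiset.mem_map.mp ha
    exact (mem_roots hp0).mpr (hroot i)
  have hdvd : (s.map fun a => X - C a).prod ∣ p :=
    (Multiset.prod_X_sub_C_dvd_iff_le_roots hp0 s).mpr hle
  have hprod : (s.map fun a => X - C a).prod = ∏ i, (X - C (x i)) := by
    rw [hs, Multiset.map_map]
    rfl
  rw [hprod] at hdvd
  have hm : (∏ i, (X - C (x i)) : E[X]).Monic :=
    monic_prod_of_monic _ _ fun i _ => monic_X_sub_C _
  have hd : (∏ i, (X - C (x i)) : E[X]).natDegree = Fintype.card ι := by
    rw [natDegree_prod_of_monic _ _ fun i _ => monic_X_sub_C _]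
    simp
  exact eq_of_monic_of_dvd_of_natDegree_le hm hp hdvd (by rw [hdeg, hd])

section Subst

variable {R S : Type*} [CommRing R] [CommRing S]

/-- Substitution of a Laurent series into a polynomial (`Y ↦ x`). -/
def s28m_subst (x : LaurentSeries R) : R[X] →+* LaurentSeries R :=
  eval₂RingHom (HahnSeries.C : R →+* LaurentSeries R) x

@[simp] theorem s28m_subst_C (x : LaurentSeries R) (a : R) :
    s28m_subst x (C a) = HahnSeries.C a := by
  simp [s28m_subst]

@[simp] theorem s28m_subst_X (x : LaurentSeries R) : s28m_subst x X = x := by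
  simp [s28m_subst]

theorem s28m_subst_apply (x : LaurentSeries R) (P : R[X]) :
    s28m_subst x P = P.eval₂ (HahnSeries.C : R →+* LaurentSeries R) x := rfl

theorem s28m_subst_eq_aeval (x : LaurentSeries R) :
    s28m_subst x = (aeval x).toRingHom := by
  refine Polynomial.ringHom_ext (fun a => ?_) ?_
  · rw [s28m_subst_C]
    simp only [AlgHom.toRingHom_eq_coe, RingHom.coe_coe, aeval_C]
    have h1 : algebraMap R (PowerSeries R) a = PowerSeries.C a := by simp
    rw [HahnSeries.algebraMap_apply', h1, HahnSeries.ofPowerSeries_C]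
  · simp

theorem s28m_coeffMap_C (f : R →+* S) (a : R) :
    coeffMap f (HahnSeries.C a : LaurentSeries R) = HahnSeries.C (f a) := by
  have h1 : (HahnSeries.C a : LaurentSeries R) = HahnSeries.single 0 a := rfl
  have h2 : (HahnSeries.C (f a) : LaurentSeries S) = HahnSeries.single 0 (f a) := rfl
  rw [h1, h2, coeffMap_single]

theorem s28m_coeffMap_comp_subst (f : R →+* S) (x : LaurentSeries R) :
    (coeffMap f).comp (s28m_subst x) = (s28m_subst (coeffMap f x)).comp (mapRingHom f) := by
  refine Polynomial.ringHom_ext (fun a => ?_) ?_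
  · simp [s28m_coeffMap_C]
  · simp

theorem s28m_map_map_subst (f : R →+* S) (x : LaurentSeries R) (Φ : R[X][X]) :
    (Φ.map (s28m_subst x)).map (coeffMap f)
      = ((Φ.map (mapRingHom f)).map (s28m_subst (coeffMap f x))) := by
  rw [Polynomial.map_map, Polynomial.map_map, s28m_coeffMap_comp_subst]

theorem s28m_coeffMap_injective {f : R →+* S} (hf : Function.Injective f) :
    Function.Injective (coeffMap f) := by
  intro x y h
  ext n
  have := congrArg (fun z => z.coeff n) h
  simp only [coeffMap_coeff] at this
  exact hf this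

end Subst

section QExpPrinciple

variable {B : Type*} [CommRing B] (r : ℕ) [NeZero r]

/-- `j(t^r)` over `B`. -/
abbrev s28m_Xr : LaurentSeries B := qExpand B r (jqModC B)

theorem s28m_Xr_pow_coeff_of_lt (i : ℕ) {k : ℤ} (hk : k < -((r * i : ℕ) : ℤ)) :
    ((s28m_Xr (B := B) r) ^ i).coeff k = 0 := by
  rw [← map_pow]
  by_cases hd : (r : ℤ) ∣ k
  · obtain ⟨m, rfl⟩ := hd
    rw [qExpand_coeff_mul]
    refine coeff_jqModC_pow_of_lt B ?_
    have hr : (0 : ℤ) < r := by exact_mod_cast NeZero.pos r
    push_cast at hk
    by_contra hcon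
    rw [not_lt] at hcon
    have : (r : ℤ) * (-(i : ℤ)) ≤ r * m := mul_le_mul_of_nonneg_left hcon hr.le
    linarith
  · exact qExpand_coeff_of_not_dvd r _ hd

theorem s28m_Xr_pow_coeff_self (i : ℕ) :
    ((s28m_Xr (B := B) r) ^ i).coeff (-((r * i : ℕ) : ℤ)) = 1 := by
  rw [← map_pow]
  have : -((r * i : ℕ) : ℤ) = (r : ℤ) * (-(i : ℤ)) := by push_cast; ring
  rw [this, qExpand_coeff_mul]
  exact coeff_jqModC_pow_self B i

theorem s28m_Xr_eq_coeffMap :
    s28m_Xr (B := B) r = coeffMap (Int.castRingHom B) (s28m_Xr (B := ℤ) r) := by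
  rw [s28m_Xr, s28m_Xr, coeffMap_qExpand, coeffMap_jqModC]

theorem s28m_Xr_pow_coeff_mem (A : Subring B) (i : ℕ) (k : ℤ) :
    ((s28m_Xr (B := B) r) ^ i).coeff k ∈ A := by
  rw [s28m_Xr_eq_coeffMap, ← map_pow, coeffMap_coeff]
  exact intCast_mem A _

/-- **`q`-expansion principle.** If `P(j(t^r))` has all its coefficients in the subring `A`,
then so has `P`. -/
theorem s28m_qexp_principle (A : Subring B) :
    ∀ (d : ℕ) (P : B[X]), P.natDegree < d →
      (∀ k : ℤ, (s28m_subst (s28m_Xr r) P).coeff k ∈ A) → ∀ i, P.coeff i ∈ A := by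
  intro d
  induction d with
  | zero => intro P hP; omega
  | succ d ih =>
    intro P hP hA
    by_cases hP0 : P = 0
    · intro i; rw [hP0, coeff_zero]; exact A.zero_mem
    set n := P.natDegree with hn
    -- the leading coefficient is the coefficient of `t^(-r n)`
    have hlead : (s28m_subst (s28m_Xr r) P).coeff (-((r * n : ℕ) : ℤ)) = P.coeff n := by
      rw [s28m_subst_apply, eval₂_eq_sum_range, ← hn]
      have hc : ∀ m : ℕ, ((HahnSeries.C (P.coeff m) : LaurentSeries B)
          * (s28m_Xr (B := B) r) ^ m).coeff (-((r * n : ℕ) : ℤ))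
          = P.coeff m * ((s28m_Xr (B := B) r) ^ m).coeff (-((r * n : ℕ) : ℤ)) := by
        intro m
        have : (HahnSeries.C (P.coeff m) : LaurentSeries B) = HahnSeries.single 0 (P.coeff m) :=
          rfl
        rw [this, HahnSeries.coeff_single_zero_mul]
      have hsum : ∀ (s : Finset ℕ) (g : ℕ → LaurentSeries B) (k : ℤ),
          (∑ m ∈ s, g m).coeff k = ∑ m ∈ s, (g m).coeff k := by
        intro s g k
        induction s using Finset.induction_on with
        | empty => simp
        | insert a s ha ih' => rw [Finset.sum_insert ha, Finset.sum_insert ha, HahnSeries.coeff_add, ih']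
      rw [hsum, Finset.sum_eq_single n]
      · rw [hc, s28m_Xr_pow_coeff_self, mul_one]
      · intro m hm hmn
        rw [hc, s28m_Xr_pow_coeff_of_lt, mul_zero]
        have hm' : m < n := lt_of_le_of_ne (Nat.lt_succ_iff.mp (Finset.mem_range.mp hm)) hmn
        have hr : 0 < r := NeZero.pos r
        have : r * m < r * n := Nat.mul_lt_mul_of_pos_left hm' hr
        exact_mod_cast neg_lt_neg (by exact_mod_cast this)
      · intro h
        exact absurd (Finset.mem_range.mpr (Nat.lt_succ_self n)) h
    have han : P.coeff n ∈ A := hlead ▸ hA _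
    -- erase the leading term
    have hQ : ∀ k : ℤ, (s28m_subst (s28m_Xr r) P.eraseLead).coeff k ∈ A := by
      intro k
      have h1 : P.eraseLead = P - C (P.coeff n) * X ^ n := by
        rw [hn]
        exact (P.self_sub_C_mul_X_pow).symm
      rw [h1, map_sub, map_mul, map_pow, s28m_subst_C, s28m_subst_X, HahnSeries.coeff_sub]
      refine A.sub_mem (hA k) ?_
      have : (HahnSeries.C (P.coeff n) : LaurentSeries B) = HahnSeries.single 0 (P.coeff n) := rfl
      rw [this, HahnSeries.coeff_single_zero_mul]
      exact A.mul_mem han (s28m_Xr_pow_coeff_mem r A n k)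
    rcases Nat.eq_zero_or_pos n with h0 | hpos
    · intro i
      by_cases hin : i = n
      · rw [hin]; exact han
      · rw [coeff_eq_zero_of_natDegree_lt (by omega)]
        exact A.zero_mem
    have hdeg : P.eraseLead.natDegree < d := by
      have := P.eraseLead_natDegree_le
      omega
    have := ih P.eraseLead hdeg hQ
    intro i
    by_cases hin : i = n
    · rw [hin]; exact han
    · rw [← eraseLead_coeff_of_ne i (hn ▸ hin)]
      exact this i

end QExpPrinciple

end

end Fermat.Agent.Lib.S28
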