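/-
S28, package (M) (helper9), part 5: the level-`r` modular equation (`r` prime) in product form
over `ℂ`, its descent to `A = ℤ[ζ]` (`q`-expansion principle) and its transfer along any ring
homomorphism `A →+* k`.
-/
import Fermat.Agent.Lib.S28.MAnalytic
import Fermat.Agent.Lib.S28.MFormal
import Fermat.Agent.Lib.S28.CTwist

set_option autoImplicit false

namespace Fermat.Agent.Lib.S28

open ModularCurve Polynomial
open Fermat.Agent.Lib.FF

noncomputable section

/-! ### The right-hand side, functorially -/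

section RHS

variable {R S : Type*} [CommRing R] [CommRing S] (r : ℕ) [NeZero r]

/-- `(X − j(t^{r²})) ∏_{b<r} (X − j(ζ^b t))`. -/
def s28m_rhs (ζ : Rˣ) : (LaurentSeries R)[X] :=
  (X - C (qExpand R (r * r) (jqModC R))) *
    ∏ b ∈ Finset.range r, (X - C (s28m_tw (ζ ^ b) (jqModC R)))

theorem s28m_rhs_map (f : R →+* S) (ζ : Rˣ) :
    (s28m_rhs r ζ).map (coeffMap f) = s28m_rhs r (Units.map (f : R →* S) ζ) := by
  unfold s28m_rhs
  rw [Polynomial.map_mul, Polynomial.map_prod, Polynomial.map_sub, Polynomial.map_X,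
    Polynomial.map_C, coeffMap_qExpand, coeffMap_jqModC]
  congr 1
  refine Finset.prod_congr rfl fun b _ => ?_
  rw [Polynomial.map_sub, Polynomial.map_X, Polynomial.map_C, s28m_coeffMap_tw, coeffMap_jqModC,
    map_pow]

theorem s28m_rhs_monic (ζ : Rˣ) [Nontrivial R] : (s28m_rhs r ζ).Monic := by
  unfold s28m_rhs
  exact (monic_X_sub_C _).mul (monic_prod_of_monic _ _ fun b _ => monic_X_sub_C _)

end RHS

/-! ### Product form over `ℂ` -/

section Complex

variable (r : ℕ) [hr : Fact r.Prime]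

/-- `ζ = exp (2πi / r)` as a unit of `ℂ`. -/
def s28m_zetaC : ℂˣ := s28m_eUnit (1 / (r : ℝ))

theorem s28m_zetaC_coe : ((s28m_zetaC r : ℂˣ) : ℂ) = Complex.exp (2 * Real.pi * Complex.I / r) := by
  rw [s28m_zetaC, s28m_eUnit_coe]
  congr 1
  push_cast
  ring

theorem s28m_zetaC_primitive : IsPrimitiveRoot ((s28m_zetaC r : ℂˣ) : ℂ) r := by
  rw [s28m_zetaC_coe]
  exact Complex.isPrimitiveRoot_exp r hr.out.ne_zero

theorem s28m_eUnit_div (b : ℕ) : s28m_eUnit ((b : ℝ) / (r : ℝ)) = s28m_zetaC r ^ b := by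
  apply Units.ext
  rw [Units.val_pow_eq_pow_val, s28m_zetaC, s28m_eUnit_coe, s28m_eUnit_coe, ← Complex.exp_nat_mul]
  congr 1
  push_cast
  ring

/-- The `r + 1` formal roots. -/
def s28m_rootC : Option (Fin r) → LaurentSeries ℂ
  | none => qExpand ℂ (r * r) (jqModC ℂ)
  | some b => s28m_tw (s28m_zetaC r ^ (b : ℕ)) (jqModC ℂ)

theorem s28m_rootC_injective : Function.Injective (s28m_rootC r) := by
  have hr2 : 2 ≤ r := hr.out.two_le
  have hcoeff_some : ∀ b : Fin r, (s28m_rootC r (some b)).coeff (-1)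
      = (((s28m_zetaC r : ℂˣ) : ℂ) ^ (b : ℕ))⁻¹ := by
    intro b
    show (s28m_tw (s28m_zetaC r ^ (b : ℕ)) (jqModC ℂ)).coeff (-1) = _
    rw [s28m_tw_coeff, coeff_jqModC_neg_one, mul_one, zpow_neg_one, Units.val_inv_eq_inv_val,
      Units.val_pow_eq_pow_val]
  have hcoeff_none : (s28m_rootC r none).coeff (-1) = 0 := by
    show (qExpand ℂ (r * r) (jqModC ℂ)).coeff (-1) = 0
    refine qExpand_coeff_of_not_dvd (r * r) _ ?_
    intro h
    have h1 : ((r * r : ℕ) : ℤ) ∣ 1 := (dvd_neg (a := ((r * r : ℕ) : ℤ)) (b := (1 : ℤ))).mp h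
    have h2 : (r * r : ℕ) ∣ 1 := by exact_mod_cast h1
    have h3 := Nat.le_of_dvd one_pos h2
    nlinarith
  have hne : ∀ b : ℕ, (((s28m_zetaC r : ℂˣ) : ℂ) ^ b)⁻¹ ≠ 0 := fun b =>
    inv_ne_zero (pow_ne_zero _ (Units.ne_zero _))
  intro i j hij
  have hc : (s28m_rootC r i).coeff (-1) = (s28m_rootC r j).coeff (-1) := by rw [hij]
  cases i with
  | none =>
    cases j with
    | none => rfl
    | some b =>
      rw [hcoeff_none, hcoeff_some] at hc
      exact absurd hc.symm (hne _)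
  | some a =>
    cases j with
    | none =>
      rw [hcoeff_none, hcoeff_some] at hc
      exact absurd hc (hne _)
    | some b =>
      rw [hcoeff_some, hcoeff_some, inv_inj] at hc
      have := (s28m_zetaC_primitive r).pow_inj a.2 b.2 hc
      exact congrArg some (Fin.ext this)

/-- **Modular equation over `ℂ`, product form.** -/
theorem s28m_modEq_complex :
    ∃ Φ : Polynomial (Polynomial ℂ), Φ.Monic ∧ Φ.natDegree = r + 1 ∧
      Φ.map (s28m_subst (s28m_Xr (B := ℂ) r)) = s28m_rhs r (s28m_zetaC r) := by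
  obtain ⟨Φ, hm, hd, h0, hb⟩ := s28m_exists_poly_formal r
  refine ⟨Φ, hm, hd, ?_⟩
  rw [← s28m_subst_eq_aeval] at h0 hb
  have hm' : (Φ.map (s28m_subst (s28m_Xr (B := ℂ) r))).Monic := hm.map _
  have hd' : (Φ.map (s28m_subst (s28m_Xr (B := ℂ) r))).natDegree
      = Fintype.card (Option (Fin r)) := by
    rw [hm.natDegree_map, hd, Fintype.card_option, Fintype.card_fin]
  have key := s28m_eq_prod_of_roots _ hm' hd' (s28m_rootC r) (s28m_rootC_injective r) (by
    intro i
    cases i with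
    | none => exact h0
    | some b =>
      have := hb ((b : ℕ) : ℤ)
      rw [show (((b : ℕ) : ℤ) : ℝ) = ((b : ℕ) : ℝ) by push_cast; rfl, s28m_eUnit_div] at this
      exact this)
  rw [key, Fintype.prod_option, s28m_rhs]
  congr 1
  rw [← Fin.prod_univ_eq_prod_range (fun b => (X - C (s28m_tw (s28m_zetaC r ^ b) (jqModC ℂ))))]
  rfl

end Complex

end

end Fermat.Agent.Lib.S28
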