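/-
S28 package (1) ME, algebraic half "ME-b" (helper2, prefix `s28n_`).

Input (ME-a, analytic, over `ℂ` only): the level-`r` modular equation
  `Φ_ℂ(Y; J(q^r)) = (Y - J(q^{r²})) ∏_{b<r} (Y - J(ζ^b q))`,  `Φ_ℂ ∈ ℂ[X][Y]` monic of degree `r+1`.
Output: the same identity over EVERY field `k` with a primitive `r`-th root of unity.

Steps: `q`-expansion principle (`s28n_qexp_principle`) ⇒ `Φ_ℂ` has coefficients in `A = ℤ[ζ_ℂ]`;
ring hom `ψ : A → k`, `ζ_ℂ ↦ ζ_k` (`s28n_exists_psi`); functoriality of both sides in the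
coefficient ring (`s28n_rhs_map`, `s28n_coeffMap_comp_aeval`).
-/
import Mathlib
import Fermat.Prelude.Def_ModularCurve_X0ModL

set_option autoImplicit false

open Polynomial ModularCurve

namespace Fermat.Agent.Lib.S28

section General

variable {B B' : Type*} [CommRing B] [CommRing B']

theorem s28n_algebraMap_eq_single (c : B) :
    algebraMap B (LaurentSeries B) c = HahnSeries.single 0 c := by
  have h1 : algebraMap B (PowerSeries B) c = PowerSeries.C c := by simp
  rw [HahnSeries.algebraMap_apply', h1, HahnSeries.ofPowerSeries_C]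
  rfl

theorem s28n_coeff_algebraMap_mul (c : B) (x : LaurentSeries B) (m : ℤ) :
    (algebraMap B (LaurentSeries B) c * x).coeff m = c * x.coeff m := by
  rw [s28n_algebraMap_eq_single, HahnSeries.coeff_single_zero_mul]

/-- The twisted series `x(z·q)`: coefficient `n ↦ zⁿ xₙ`, for a unit `z`. -/
noncomputable def s28n_tw (z : Bˣ) (x : LaurentSeries B) : LaurentSeries B where
  coeff n := ((z ^ n : Bˣ) : B) * x.coeff n
  isPWO_support' := x.isPWO_support.mono (fun n hn => by
    intro h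
    apply hn
    show ((z ^ n : Bˣ) : B) * x.coeff n = 0
    rw [h, mul_zero])

@[simp]
theorem s28n_tw_coeff (z : Bˣ) (x : LaurentSeries B) (n : ℤ) :
    (s28n_tw z x).coeff n = ((z ^ n : Bˣ) : B) * x.coeff n := rfl

theorem s28n_coeffMap_tw (φ : B →+* B') (z : Bˣ) (x : LaurentSeries B) :
    coeffMap φ (s28n_tw z x) = s28n_tw (Units.map (φ : B →* B') z) (coeffMap φ x) := by
  ext n
  rw [coeffMap_coeff, s28n_tw_coeff, s28n_tw_coeff, coeffMap_coeff, map_mul, ← map_zpow]
  rfl

/-- The right-hand side of the level-`r` modular equation over `B`, for a unit `z`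
(to be a primitive `r`-th root of unity):
`(Y - J(q^{r²})) ∏_{b<r} (Y - J(z^b q))`. -/
noncomputable def s28n_rhs (r : ℕ) [NeZero r] (z : Bˣ) : Polynomial (LaurentSeries B) :=
  (X - C (qExpand B r (qExpand B r (jqModC B)))) *
    ∏ b ∈ Finset.range r, (X - C (s28n_tw (z ^ b) (jqModC B)))

theorem s28n_rhs_map (r : ℕ) [NeZero r] (φ : B →+* B') (z : Bˣ) :
    (s28n_rhs r z).map (coeffMap φ) = s28n_rhs r (Units.map (φ : B →* B') z) := by
  unfold s28n_rhs
  rw [Polynomial.map_mul, Polynomial.map_sub, Polynomial.map_X, Polynomial.map_C,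
    coeffMap_qExpand, coeffMap_qExpand, coeffMap_jqModC, Polynomial.map_prod]
  congr 1
  refine Finset.prod_congr rfl fun b _ => ?_
  rw [Polynomial.map_sub, Polynomial.map_X, Polynomial.map_C, s28n_coeffMap_tw, coeffMap_jqModC,
    map_pow]

/-- evaluation at `J(q^r)` commutes with change of coefficients. -/
theorem s28n_coeffMap_comp_aeval (r : ℕ) [NeZero r] (φ : B →+* B') :
    (coeffMap φ).comp (aeval (qExpand B r (jqModC B))).toRingHom =
      (aeval (qExpand B' r (jqModC B'))).toRingHom.comp (Polynomial.mapRingHom φ) := by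
  refine Polynomial.ringHom_ext (fun a => ?_) ?_
  · simp only [RingHom.coe_comp, Function.comp_apply, AlgHom.toRingHom_eq_coe, RingHom.coe_coe,
      aeval_C, Polynomial.coe_mapRingHom, Polynomial.map_C]
    rw [s28n_algebraMap_eq_single, s28n_algebraMap_eq_single, coeffMap_single]
  · simp only [RingHom.coe_comp, Function.comp_apply, AlgHom.toRingHom_eq_coe, RingHom.coe_coe,
      aeval_X, Polynomial.coe_mapRingHom, Polynomial.map_X]
    rw [coeffMap_qExpand, coeffMap_jqModC]

theorem s28n_coeffMap_injective {φ : B →+* B'} (hφ : Function.Injective φ) :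
    Function.Injective (coeffMap φ) := by
  intro x y h
  ext n
  apply hφ
  have := congrArg (fun s => HahnSeries.coeff s n) h
  simpa using this

end General

section QExp

/-- coefficients of `Q(T)` below `-d·n` vanish when `deg Q ≤ n`. -/
theorem s28n_aeval_coeff_low (T : LaurentSeries ℂ) (d : ℕ)
    (hlow : ∀ i : ℕ, ∀ m : ℤ, m < -((d * i : ℕ) : ℤ) → (T ^ i).coeff m = 0)
    (n : ℕ) (Q : ℂ[X]) (hQ : Q.natDegree ≤ n) (m : ℤ) (hm : m < -((d * n : ℕ) : ℤ)) :
    (aeval T Q).coeff m = 0 := by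
  rw [aeval_eq_sum_range' (Nat.lt_succ_of_le hQ), HahnSeries.coeff_sum]
  refine Finset.sum_eq_zero fun i hi => ?_
  rw [Algebra.smul_def]
  have hi' : i ≤ n := Nat.lt_succ_iff.mp (Finset.mem_range.mp hi)
  rw [s28n_coeff_algebraMap_mul, hlow i m ?_, mul_zero]
  have : ((d * i : ℕ) : ℤ) ≤ ((d * n : ℕ) : ℤ) := by
    exact_mod_cast Nat.mul_le_mul_left d hi'
  omega

/-- **`q`-expansion principle.** If `T = q^{-d} + …` has all powers with coefficients in the
subring `A ≤ ℂ` and `P(T)` has coefficients in `A`, then `P ∈ A[X]`. -/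
theorem s28n_qexp_principle (A : Subring ℂ) (T : LaurentSeries ℂ) (d : ℕ) (hd : 0 < d)
    (hT : ∀ i : ℕ, ∀ m : ℤ, (T ^ i).coeff m ∈ A)
    (hlead : ∀ i : ℕ, (T ^ i).coeff (-((d * i : ℕ) : ℤ)) = 1)
    (hlow : ∀ i : ℕ, ∀ m : ℤ, m < -((d * i : ℕ) : ℤ) → (T ^ i).coeff m = 0) :
    ∀ (n : ℕ) (P : ℂ[X]), P.natDegree ≤ n → (∀ m, (aeval T P).coeff m ∈ A) →
      ∀ i, P.coeff i ∈ A := by
  intro n
  induction n with
  | zero =>
    intro P hP hA i
    have hPC : P = C (P.coeff 0) := eq_C_of_natDegree_le_zero hP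
    have h0 := hA 0
    rw [hPC, aeval_C] at h0
    have hc : P.coeff 0 ∈ A := by
      have : (algebraMap ℂ (LaurentSeries ℂ) (P.coeff 0)).coeff 0 = P.coeff 0 := by
        rw [s28n_algebraMap_eq_single, HahnSeries.coeff_single_same]
      rwa [this] at h0
    rcases Nat.eq_zero_or_pos i with rfl | hi
    · exact hc
    · rw [hPC, coeff_C, if_neg (by omega)]
      exact A.zero_mem
  | succ n ih =>
    intro P hP hA i
    set a := P.coeff (n + 1) with ha
    set P' := P.erase (n + 1) with hP'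
    have hdecomp : P = monomial (n + 1) a + P' := (monomial_add_erase P (n + 1)).symm
    have hP'deg : P'.natDegree ≤ n := by
      rw [natDegree_le_iff_coeff_eq_zero]
      intro N hN
      rw [hP', coeff_erase]
      split_ifs with h
      · rfl
      · exact coeff_eq_zero_of_natDegree_lt (by omega)
    have haeval : aeval T P = algebraMap ℂ (LaurentSeries ℂ) a * T ^ (n + 1) + aeval T P' := by
      conv_lhs => rw [hdecomp]
      rw [map_add, aeval_monomial]
    have haA : a ∈ A := by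
      have h1 := hA (-((d * (n + 1) : ℕ) : ℤ))
      rw [haeval, HahnSeries.coeff_add, s28n_coeff_algebraMap_mul, hlead (n + 1), mul_one,
        s28n_aeval_coeff_low T d hlow n P' hP'deg _ ?_, add_zero] at h1
      · exact h1
      · have : ((d * n : ℕ) : ℤ) < ((d * (n + 1) : ℕ) : ℤ) := by
          exact_mod_cast Nat.mul_lt_mul_of_pos_left (Nat.lt_succ_self n) hd
        omega
    have hA' : ∀ m, (aeval T P').coeff m ∈ A := by
      intro m
      have h1 := hA m
      rw [haeval, HahnSeries.coeff_add, s28n_coeff_algebraMap_mul] at h1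
      have h2 : a * (T ^ (n + 1)).coeff m ∈ A := A.mul_mem haA (hT _ _)
      have := A.sub_mem h1 h2
      simpa using this
    have hrec := ih P' hP'deg hA' i
    by_cases hi : i = n + 1
    · rw [hi]; exact haA
    · rw [hP', coeff_erase, if_neg hi] at hrec
      exact hrec

end QExp

/-- ring hom `ℤ[ζ_ℂ] → k`, `ζ_ℂ ↦ ζ_k`. -/
theorem s28n_exists_psi {r : ℕ} (hr : 0 < r) {ζ : ℂ} (hζ : IsPrimitiveRoot ζ r)
    {k : Type*} [Field k] {ζk : k} (hζk : IsPrimitiveRoot ζk r) :
    ∃ ψ : ↥(Algebra.adjoin ℤ ({ζ} : Set ℂ)) →+* k,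
      ψ ⟨ζ, Algebra.subset_adjoin (Set.mem_singleton ζ)⟩ = ζk := by
  have hint : IsIntegral ℤ ζ := hζ.isIntegral hr
  set pb := Algebra.adjoin.powerBasis' hint with hpb
  have hgen : pb.gen = ⟨ζ, Algebra.subset_adjoin (Set.mem_singleton ζ)⟩ :=
    Algebra.adjoin.powerBasis'_gen hint
  have hmin : minpoly ℤ pb.gen = cyclotomic r ℤ := by
    rw [hgen, cyclotomic_eq_minpoly hζ hr]
    exact (minpoly.algebraMap_eq (A := ℤ) (B := ↥(Algebra.adjoin ℤ ({ζ} : Set ℂ))) (B' := ℂ)
      Subtype.val_injective ⟨ζ, Algebra.subset_adjoin (Set.mem_singleton ζ)⟩).symm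
  have hy : aeval ζk (minpoly ℤ pb.gen) = 0 := by
    rw [hmin, aeval_def, eval₂_eq_eval_map, map_cyclotomic]
    exact hζk.isRoot_cyclotomic hr
  refine ⟨(pb.lift ζk hy).toRingHom, ?_⟩
  rw [← hgen]
  exact pb.lift_gen ζk hy

end Fermat.Agent.Lib.S28
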