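/-
S28 package (1) ME, algebraic half "ME-b", assembly (helper2, prefix `s28n_`):
from the modular equation of prime level `r` over `ℂ` (`s28n_MEa r`, analytic input) to the
modular equation over every field `k` with a primitive `r`-th root of unity (`s28n_ME_of_MEa`).
-/
import Mathlib
import Fermat.Agent.Lib.S28.NDescent

set_option autoImplicit false

open Polynomial ModularCurve

namespace Fermat.Agent.Lib.S28

/-- **ME-a (analytic input).** The level-`r` modular equation over `ℂ`. -/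
def s28n_MEa (r : ℕ) [NeZero r] : Prop :=
  ∃ ζ : ℂˣ, IsPrimitiveRoot (ζ : ℂ) r ∧ ∃ Φ : Polynomial (Polynomial ℂ),
    Φ.Monic ∧ Φ.natDegree = r + 1 ∧
      Φ.map (aeval (qExpand ℂ r (jqModC ℂ))).toRingHom = s28n_rhs r ζ

/-- **ME over a field `k`** with the primitive `r`-th root of unity `ζ`. -/
def s28n_ME (r : ℕ) [NeZero r] (k : Type*) [Field k] (ζ : kˣ) : Prop :=
  ∃ Φ : Polynomial (Polynomial k),
    Φ.Monic ∧ Φ.natDegree = r + 1 ∧
      Φ.map (aeval (qExpand k r (jqModC k))).toRingHom = s28n_rhs r ζ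

section Powers

variable (B : Type*) [CommRing B] (r : ℕ) [NeZero r]

theorem s28n_T_pow (i : ℕ) :
    (qExpand B r (jqModC B)) ^ i = qExpand B r (jqModC B ^ i) := (map_pow _ _ _).symm

theorem s28n_T_pow_lead (i : ℕ) :
    ((qExpand B r (jqModC B)) ^ i).coeff (-((r * i : ℕ) : ℤ)) = 1 := by
  rw [s28n_T_pow, show (-((r * i : ℕ) : ℤ)) = (r : ℤ) * (-(i : ℤ)) by push_cast; ring,
    qExpand_coeff_mul, coeff_jqModC_pow_self]

theorem s28n_T_pow_low (i : ℕ) (m : ℤ) (hm : m < -((r * i : ℕ) : ℤ)) :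
    ((qExpand B r (jqModC B)) ^ i).coeff m = 0 := by
  rw [s28n_T_pow]
  by_cases hdvd : (r : ℤ) ∣ m
  · obtain ⟨m', rfl⟩ := hdvd
    rw [qExpand_coeff_mul]
    apply coeff_jqModC_pow_of_lt
    have hr : (0 : ℤ) < r := by exact_mod_cast Nat.pos_of_ne_zero (NeZero.ne r)
    push_cast at hm
    nlinarith
  · exact qExpand_coeff_of_not_dvd r _ hdvd

theorem s28n_T_pow_int (i : ℕ) (m : ℤ) :
    ∃ c : ℤ, ((qExpand B r (jqModC B)) ^ i).coeff m = (c : B) := by
  refine ⟨((qExpand ℤ r (jqModC ℤ)) ^ i).coeff m, ?_⟩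
  have h : (qExpand B r (jqModC B)) ^ i =
      coeffMap (Int.castRingHom B) ((qExpand ℤ r (jqModC ℤ)) ^ i) := by
    rw [map_pow, coeffMap_qExpand, coeffMap_jqModC]
  rw [h, coeffMap_coeff]
  rfl

end Powers

/-- **ME-b.** The modular equation over `ℂ` implies the modular equation over every field with a
primitive `r`-th root of unity. -/
theorem s28n_ME_of_MEa (r : ℕ) [NeZero r] (h : s28n_MEa r) (k : Type*) [Field k] (ζk : kˣ)
    (hζk : IsPrimitiveRoot (ζk : k) r) : s28n_ME r k ζk := by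
  obtain ⟨ζ, hζ, Φ, hmonic, hdeg, hΦ⟩ := h
  have hr : 0 < r := Nat.pos_of_ne_zero (NeZero.ne r)
  -- the coefficient ring `A = ℤ[ζ]`
  set A := Algebra.adjoin ℤ ({(ζ : ℂ)} : Set ℂ) with hA
  have hmem : (ζ : ℂ) ∈ A := Algebra.subset_adjoin (Set.mem_singleton _)
  let ι : ↥A →+* ℂ := A.val.toRingHom
  have hι : Function.Injective ι := Subtype.val_injective
  have hζr : (ζ : ℂ) ^ r = 1 := hζ.pow_eq_one
  -- `ζ` as a unit of `A`
  let zA : (↥A)ˣ :=
    { val := ⟨ζ, hmem⟩
      inv := ⟨(ζ : ℂ) ^ (r - 1), pow_mem hmem _⟩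
      val_inv := by
        apply Subtype.ext
        show (ζ : ℂ) * (ζ : ℂ) ^ (r - 1) = 1
        rw [← pow_succ', Nat.sub_add_cancel hr, hζr]
      inv_val := by
        apply Subtype.ext
        show (ζ : ℂ) ^ (r - 1) * (ζ : ℂ) = 1
        rw [← pow_succ, Nat.sub_add_cancel hr, hζr] }
  have hzA : Units.map (ι : ↥A →* ℂ) zA = ζ := Units.ext rfl
  obtain ⟨ψ, hψ⟩ := s28n_exists_psi hr hζ hζk
  have hzk : Units.map (ψ : ↥A →* k) zA = ζk := Units.ext hψ
  -- the right-hand side descends to `A`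
  have hrhs : s28n_rhs r ζ = (s28n_rhs r zA).map (coeffMap ι) := by
    rw [s28n_rhs_map, hzA]
  -- `q`-expansion principle: every coefficient of `Φ` lies in `A[X]`
  have hcoeff : ∀ n : ℕ, Φ.coeff n ∈ Set.range (Polynomial.mapRingHom ι) := by
    intro n
    have h1 : aeval (qExpand ℂ r (jqModC ℂ)) (Φ.coeff n) =
        coeffMap ι ((s28n_rhs r zA).coeff n) := by
      have := congrArg (fun p => Polynomial.coeff p n) hΦ
      simp only [Polynomial.coeff_map] at this
      rw [hrhs, Polynomial.coeff_map] at this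
      exact this
    have h2 : ∀ i, (Φ.coeff n).coeff i ∈ ι.range := by
      apply s28n_qexp_principle ι.range (qExpand ℂ r (jqModC ℂ)) r hr ?_
        (s28n_T_pow_lead ℂ r) (s28n_T_pow_low ℂ r) (Φ.coeff n).natDegree (Φ.coeff n) le_rfl
      · intro m
        rw [h1, coeffMap_coeff]
        exact ⟨_, rfl⟩
      · intro i m
        obtain ⟨c, hc⟩ := s28n_T_pow_int ℂ r i m
        rw [hc]
        exact ⟨(c : ↥A), by simp⟩
    have h3 : Φ.coeff n ∈ Polynomial.lifts ι :=
      (Polynomial.lifts_iff_coeff_lifts _).mpr fun i => h2 i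
    obtain ⟨Q, hQ⟩ := h3
    exact ⟨Q, hQ⟩
  have hlifts : Φ ∈ Polynomial.lifts (Polynomial.mapRingHom ι) :=
    (Polynomial.lifts_iff_coeff_lifts _).mpr hcoeff
  obtain ⟨ΦA, hΦA, hΦAdeg, hΦAmonic⟩ :=
    Polynomial.lifts_and_natDegree_eq_and_monic hlifts hmonic
  -- the identity over `A`
  have hidA : ΦA.map (aeval (qExpand ↥A r (jqModC ↥A))).toRingHom = s28n_rhs r zA := by
    apply Polynomial.map_injective (coeffMap ι) (s28n_coeffMap_injective hι)
    rw [Polynomial.map_map, s28n_coeffMap_comp_aeval, ← Polynomial.map_map, hΦA, hΦ, hrhs]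
  -- push forward to `k`
  refine ⟨ΦA.map (Polynomial.mapRingHom ψ), hΦAmonic.map _, ?_, ?_⟩
  · rw [hΦAmonic.natDegree_map, hΦAdeg, hdeg]
  · rw [Polynomial.map_map, ← s28n_coeffMap_comp_aeval, ← Polynomial.map_map, hidA, s28n_rhs_map,
      hzk]

end Fermat.Agent.Lib.S28
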