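/-
S28, package (M) (helper9), adapter: the analytic modular equation over `ℂ` (`s28m_modEq_complex`)
in the exact shape of helper2's hypothesis `s28n_MEa r` (for every prime `r`), hence helper2's
`s28n_ME r k ζ` over every field with a primitive `r`-th root of unity.
-/
import Fermat.Agent.Lib.S28.MEq
import Fermat.Agent.Lib.S28.NModEq

set_option autoImplicit false

namespace Fermat.Agent.Lib.S28

open ModularCurve Polynomial

noncomputable section

/-- helper9's and helper2's twists agree (same coefficient formula). -/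
theorem s28m_tw_eq_s28n_tw {R : Type*} [CommRing R] (c : Rˣ) (x : LaurentSeries R) :
    s28m_tw c x = s28n_tw c x := by
  ext n
  rfl

/-- helper9's and helper2's right-hand sides agree. -/
theorem s28m_rhs_eq_s28n_rhs {R : Type*} [CommRing R] (r : ℕ) [NeZero r] (ζ : Rˣ) :
    s28m_rhs r ζ = s28n_rhs r ζ := by
  unfold s28m_rhs s28n_rhs
  rw [qExpand_qExpand]
  congr 1

/-- **ME-a**: helper2's analytic input, for every prime `r`. -/
theorem s28m_MEa (r : ℕ) [Fact r.Prime] : s28n_MEa r := by
  obtain ⟨Φ, hm, hd, h⟩ := s28m_modEq_complex r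
  refine ⟨s28m_zetaC r, s28m_zetaC_primitive r, Φ, hm, hd, ?_⟩
  rw [← s28m_subst_eq_aeval, ← s28m_rhs_eq_s28n_rhs]
  exact h

/-- helper2's modular equation over every field with a primitive `r`-th root of unity. -/
theorem s28m_ME (r : ℕ) [Fact r.Prime] (k : Type*) [Field k] (ζ : kˣ)
    (hζ : IsPrimitiveRoot (ζ : k) r) : s28n_ME r k ζ :=
  s28n_ME_of_MEa r (s28m_MEa r) k ζ hζ

end

end Fermat.Agent.Lib.S28
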