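/-
S28 package (X3a): leading coefficients of polynomials evaluated at a Laurent series with a pole;
transport lemmas between `PowerSeries.expand`/`rescale` and `qExpand`/twist.
-/
import Mathlib
import Fermat.Prelude.Def_ModularCurve_X0
import Fermat.Prelude.Def_ModularCurve_LaurentCoeff
import Fermat.Agent.Lib.S28.CTwist

set_option autoImplicit false

noncomputable section

open HahnSeries ModularCurve Polynomial

namespace Fermat.Agent.Lib.S28

variable {k : Type*} [Field k]

/-- the series `t^(-a) * Q` -/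
def s28c_pole (a : ℕ) (Q : PowerSeries k) : LaurentSeries k :=
  HahnSeries.single (-(a : ℤ)) 1 * HahnSeries.ofPowerSeries ℤ k Q

theorem s28c_pole_pow (a : ℕ) (Q : PowerSeries k) (n : ℕ) :
    s28c_pole a Q ^ n = s28c_pole (a * n) (Q ^ n) := by
  have h : n • (-(a : ℤ)) = -((a * n : ℕ) : ℤ) := by
    push_cast; simp [mul_comm]
  rw [s28c_pole, s28c_pole, mul_pow, HahnSeries.single_pow, one_pow, h, ← map_pow]

theorem s28c_pole_coeff (a : ℕ) (Q : PowerSeries k) (m : ℤ) :
    (s28c_pole a Q).coeff m = (HahnSeries.ofPowerSeries ℤ k Q).coeff (m + a) := by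
  rw [s28c_pole, HahnSeries.coeff_single_mul, one_mul, sub_neg_eq_add]

theorem s28c_pole_coeff_of_lt (a : ℕ) (Q : PowerSeries k) {m : ℤ} (hm : m < -(a : ℤ)) :
    (s28c_pole a Q).coeff m = 0 := by
  rw [s28c_pole_coeff]
  exact ofPowerSeries_coeff_of_neg _ (by omega)

theorem s28c_pole_coeff_neg (a : ℕ) (Q : PowerSeries k) :
    (s28c_pole a Q).coeff (-(a : ℤ)) = PowerSeries.constantCoeff Q := by
  rw [s28c_pole_coeff, neg_add_cancel, show (0 : ℤ) = ((0 : ℕ) : ℤ) from rfl,
    HahnSeries.ofPowerSeries_apply_coeff, PowerSeries.coeff_zero_eq_constantCoeff]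

theorem s28c_pole_coeff_nat (a : ℕ) (Q : PowerSeries k) (n : ℕ) :
    (s28c_pole a Q).coeff ((n : ℤ) - a) = PowerSeries.coeff n Q := by
  rw [s28c_pole_coeff, sub_add_cancel, HahnSeries.ofPowerSeries_apply_coeff]

theorem s28c_pole_injective (a : ℕ) : Function.Injective (s28c_pole (k := k) a) := by
  intro Q Q' h
  ext n
  rw [← s28c_pole_coeff_nat a Q n, ← s28c_pole_coeff_nat a Q' n, h]

theorem s28c_aeval_eq_sum (x : LaurentSeries k) (G : k[X]) :
    Polynomial.aeval x G =
      ∑ i ∈ Finset.range (G.natDegree + 1), HahnSeries.single (0 : ℤ) (G.coeff i) * x ^ i := by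
  rw [Polynomial.aeval_eq_sum_range]
  refine Finset.sum_congr rfl (fun i _ => ?_)
  rw [Algebra.smul_def, ModularCurve.algebraMap_laurentSeries_eq_single]

theorem s28c_coeff_sum {ι : Type*} (s : Finset ι) (f : ι → LaurentSeries k) (m : ℤ) :
    (∑ i ∈ s, f i).coeff m = ∑ i ∈ s, (f i).coeff m := by
  classical
  induction s using Finset.induction_on with
  | empty => simp
  | insert a s ha ih => rw [Finset.sum_insert ha, Finset.sum_insert ha, HahnSeries.coeff_add, ih]

/-- coefficients of `G(x)` below `- a * deg G` vanish. -/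
theorem s28c_aeval_pole_coeff_of_lt (a : ℕ) (Q : PowerSeries k) (G : k[X]) {m : ℤ}
    (hm : m < -((a * G.natDegree : ℕ) : ℤ)) :
    (Polynomial.aeval (s28c_pole a Q) G).coeff m = 0 := by
  rw [s28c_aeval_eq_sum, s28c_coeff_sum]
  refine Finset.sum_eq_zero (fun i hi => ?_)
  have hi' : i ≤ G.natDegree := Nat.lt_succ_iff.mp (Finset.mem_range.mp hi)
  rw [HahnSeries.coeff_single_mul, sub_zero, s28c_pole_pow, s28c_pole_coeff_of_lt, mul_zero]
  have : ((a * i : ℕ) : ℤ) ≤ ((a * G.natDegree : ℕ) : ℤ) := by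
    exact_mod_cast Nat.mul_le_mul_left a hi'
  omega

/-- the coefficient of `G(x)` at `- a * deg G` is the leading coefficient of `G`. -/
theorem s28c_aeval_pole_coeff_lead (a : ℕ) (ha : 1 ≤ a) (Q : PowerSeries k)
    (hQ : PowerSeries.constantCoeff Q = 1) (G : k[X]) :
    (Polynomial.aeval (s28c_pole a Q) G).coeff (-((a * G.natDegree : ℕ) : ℤ)) = G.leadingCoeff := by
  rw [s28c_aeval_eq_sum, s28c_coeff_sum]
  rw [Finset.sum_eq_single G.natDegree]
  · rw [HahnSeries.coeff_single_mul, sub_zero, s28c_pole_pow,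
      s28c_pole_coeff_neg, map_pow, hQ, one_pow, mul_one]
    rfl
  · intro i hi hne
    have hi' : i < G.natDegree :=
      lt_of_le_of_ne (Nat.lt_succ_iff.mp (Finset.mem_range.mp hi)) hne
    rw [HahnSeries.coeff_single_mul, sub_zero, s28c_pole_pow,
      s28c_pole_coeff_of_lt, mul_zero]
    have : ((a * i : ℕ) : ℤ) < ((a * G.natDegree : ℕ) : ℤ) := by
      exact_mod_cast Nat.mul_lt_mul_of_pos_left hi' (by omega)
    omega
  · intro h
    exact absurd (Finset.mem_range.mpr (Nat.lt_succ_self _)) h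

/-- a series with a genuine pole is transcendental over the constants. -/
theorem s28c_aeval_pole_ne_zero (a : ℕ) (ha : 1 ≤ a) (Q : PowerSeries k)
    (hQ : PowerSeries.constantCoeff Q = 1) {G : k[X]} (hG : G ≠ 0) :
    Polynomial.aeval (s28c_pole a Q) G ≠ 0 := by
  intro h
  have h1 := s28c_aeval_pole_coeff_lead a ha Q hQ G
  rw [h, HahnSeries.coeff_zero] at h1
  exact hG (Polynomial.leadingCoeff_eq_zero.mp h1.symm)

theorem s28c_aeval_pole_injective (a : ℕ) (ha : 1 ≤ a) (Q : PowerSeries k)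
    (hQ : PowerSeries.constantCoeff Q = 1) :
    Function.Injective (Polynomial.aeval (R := k) (s28c_pole a Q)) := by
  rw [injective_iff_map_eq_zero]
  intro G hG
  by_contra hne
  exact s28c_aeval_pole_ne_zero a ha Q hQ hne hG

/-- degree and leading coefficient of `R` from `R(x) = y`, `y` with leading term `t^(-a r)`. -/
theorem s28c_natDegree_monic_of_aeval_pole (a : ℕ) (ha : 1 ≤ a) (Q : PowerSeries k)
    (hQ : PowerSeries.constantCoeff Q = 1) (R : k[X]) (r : ℕ) (y : LaurentSeries k)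
    (hy1 : y.coeff (-((a * r : ℕ) : ℤ)) = 1)
    (hy0 : ∀ m : ℤ, m < -((a * r : ℕ) : ℤ) → y.coeff m = 0)
    (hR : Polynomial.aeval (s28c_pole a Q) R = y) :
    R.natDegree = r ∧ R.Monic := by
  have hlead := s28c_aeval_pole_coeff_lead a ha Q hQ R
  rw [hR] at hlead
  have hR0 : R ≠ 0 := by
    rintro rfl
    rw [map_zero] at hR
    rw [← hR, HahnSeries.coeff_zero] at hy1
    exact zero_ne_one hy1
  have hlc : R.leadingCoeff ≠ 0 := Polynomial.leadingCoeff_ne_zero.mpr hR0
  have hdeg : R.natDegree = r := by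
    rcases lt_trichotomy R.natDegree r with h | h | h
    · exfalso
      have h2 := s28c_aeval_pole_coeff_of_lt a Q R (m := -((a * r : ℕ) : ℤ)) (by
        have : ((a * R.natDegree : ℕ) : ℤ) < ((a * r : ℕ) : ℤ) := by
          exact_mod_cast Nat.mul_lt_mul_of_pos_left h (by omega)
        omega)
      rw [hR, hy1] at h2
      exact one_ne_zero h2
    · exact h
    · exfalso
      have h2 := hy0 (-((a * R.natDegree : ℕ) : ℤ)) (by
        have : ((a * r : ℕ) : ℤ) < ((a * R.natDegree : ℕ) : ℤ) := by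
          exact_mod_cast Nat.mul_lt_mul_of_pos_left h (by omega)
        omega)
      rw [h2] at hlead
      exact hlc hlead.symm
  refine ⟨hdeg, ?_⟩
  rw [hdeg, hy1] at hlead
  exact hlead.symm

/-! ### transport lemmas -/

theorem s28c_qExpand_ofPowerSeries (r : ℕ) [NeZero r] (p : PowerSeries k) :
    qExpand k r (HahnSeries.ofPowerSeries ℤ k p) =
      HahnSeries.ofPowerSeries ℤ k (PowerSeries.expand r (NeZero.ne r) p) := by
  ext n
  by_cases hn : (r : ℤ) ∣ n
  · obtain ⟨m, rfl⟩ := hn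
    rw [qExpand_coeff_mul]
    rcases le_or_gt 0 m with hm | hm
    · lift m to ℕ using hm
      rw [HahnSeries.ofPowerSeries_apply_coeff, show ((r : ℤ) * (m : ℤ)) = ((r * m : ℕ) : ℤ) by
        push_cast; ring, HahnSeries.ofPowerSeries_apply_coeff, PowerSeries.coeff_expand_mul]
    · rw [ofPowerSeries_coeff_of_neg _ hm, ofPowerSeries_coeff_of_neg]
      have hr : (0 : ℤ) < r := by exact_mod_cast Nat.pos_of_ne_zero (NeZero.ne r)
      nlinarith
  · rw [qExpand_coeff_of_not_dvd r _ hn]
    rcases le_or_gt 0 n with hn0 | hn0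
    · lift n to ℕ using hn0
      rw [HahnSeries.ofPowerSeries_apply_coeff, PowerSeries.coeff_expand_of_not_dvd]
      exact fun h => hn (by exact_mod_cast h)
    · rw [ofPowerSeries_coeff_of_neg _ hn0]

theorem s28c_qExpand_pole (r : ℕ) [NeZero r] (a : ℕ) (Q : PowerSeries k) :
    qExpand k r (s28c_pole a Q) = s28c_pole (a * r) (PowerSeries.expand r (NeZero.ne r) Q) := by
  rw [s28c_pole, map_mul, qExpand_single, s28c_qExpand_ofPowerSeries, s28c_pole]
  congr 2
  push_cast; ring_nf

theorem s28c_twist_pole (ζ : kˣ) (a : ℕ) (Q : PowerSeries k) :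
    s28c_twist ζ (s28c_pole a Q) =
      HahnSeries.C (((ζ ^ (-(a : ℤ)) : kˣ) : k)) * s28c_pole a (PowerSeries.rescale (ζ : k) Q) := by
  rw [s28c_pole, map_mul, s28c_twist_single, s28c_twist_ofPowerSeries, s28c_pole, mul_one,
    ← mul_assoc]
  congr 1
  rw [HahnSeries.C_mul_eq_smul]
  ext m
  rw [HahnSeries.coeff_smul]
  by_cases h : m = -(a : ℤ)
  · subst h; simp
  · simp [HahnSeries.coeff_single_of_ne h]

end Fermat.Agent.Lib.S28

end
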