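/-
S28 package (X3): if `J(t^r) = R(J(t))` for a polynomial `R`, then `R` is monic of degree `r`
and `R(T) - J(t^r) = ∏_b (T - J(ζ^b t))`.
-/
import Mathlib
import Fermat.Agent.Lib.S28.CLead

set_option autoImplicit false

noncomputable section

open HahnSeries ModularCurve Polynomial

namespace Fermat.Agent.Lib.S28

variable {k : Type*} [Field k]

theorem s28c_twist_algebraMap (ζ : kˣ) (c : k) :
    s28c_twist ζ (algebraMap k (LaurentSeries k) c) = algebraMap k (LaurentSeries k) c := by
  rw [ModularCurve.algebraMap_laurentSeries_eq_single, s28c_twist_single]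
  simp

theorem s28c_qExpand_algebraMap (r : ℕ) [NeZero r] (c : k) :
    qExpand k r (algebraMap k (LaurentSeries k) c) = algebraMap k (LaurentSeries k) c := by
  rw [ModularCurve.algebraMap_laurentSeries_eq_single, qExpand_single, mul_zero]

theorem s28c_twist_aeval (ζ : kˣ) (x : LaurentSeries k) (G : k[X]) :
    s28c_twist ζ (Polynomial.aeval x G) = Polynomial.aeval (s28c_twist ζ x) G := by
  rw [Polynomial.aeval_def, Polynomial.hom_eval₂, Polynomial.aeval_def]
  congr 1
  exact RingHom.ext (fun c => s28c_twist_algebraMap ζ c)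

theorem s28c_qExpand_aeval (r : ℕ) [NeZero r] (x : LaurentSeries k) (G : k[X]) :
    qExpand k r (Polynomial.aeval x G) = Polynomial.aeval (qExpand k r x) G := by
  rw [Polynomial.aeval_def, Polynomial.hom_eval₂, Polynomial.aeval_def]
  congr 1
  exact RingHom.ext (fun c => s28c_qExpand_algebraMap r c)

theorem s28c_constantCoeff_expand (r : ℕ) (hr : r ≠ 0) (Q : PowerSeries k) :
    PowerSeries.constantCoeff (PowerSeries.expand r hr Q) = PowerSeries.constantCoeff Q := by
  have h := PowerSeries.coeff_expand_mul (p := r) (hp := hr) (φ := Q) 0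
  simpa using h

/-- the conjugates `J(ζ^b t)`. -/
def s28c_conj (ζ : kˣ) (P : PowerSeries k) (b : ℕ) : LaurentSeries k :=
  s28c_twist (ζ ^ b) (s28c_pole 1 P)

theorem s28c_conj_coeff_neg_one (ζ : kˣ) (P : PowerSeries k)
    (hP : PowerSeries.constantCoeff P = 1) (b : ℕ) :
    (s28c_conj ζ P b).coeff (-1) = (((ζ ^ b)⁻¹ : kˣ) : k) := by
  rw [s28c_conj, s28c_twist_coeff, zpow_neg_one]
  have := s28c_pole_coeff_neg 1 P
  rw [Nat.cast_one] at this
  rw [this, hP, mul_one]

theorem s28c_conj_injOn (ζ : kˣ) {r : ℕ} (hζ : IsPrimitiveRoot ζ r) (P : PowerSeries k)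
    (hP : PowerSeries.constantCoeff P = 1) :
    Set.InjOn (s28c_conj ζ P) (Finset.range r : Set ℕ) := by
  intro b hb b' hb' h
  have h1 := congrArg (fun x : LaurentSeries k => x.coeff (-1)) h
  simp only [s28c_conj_coeff_neg_one ζ P hP] at h1
  have h2 : (ζ ^ b)⁻¹ = (ζ ^ b')⁻¹ := Units.ext h1
  rw [inv_inj] at h2
  exact hζ.pow_inj (Finset.mem_range.mp hb) (Finset.mem_range.mp hb') h2

theorem s28c_aeval_conj (ζ : kˣ) {r : ℕ} [NeZero r] (hζ : ζ ^ r = 1) (P : PowerSeries k)
    (R : k[X])
    (hR : qExpand k r (s28c_pole 1 P) = Polynomial.aeval (s28c_pole 1 P) R) (b : ℕ) :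
    Polynomial.aeval (s28c_conj ζ P b) R = qExpand k r (s28c_pole 1 P) := by
  rw [s28c_conj, ← s28c_twist_aeval, ← hR, s28c_twist_qExpand]
  rw [← pow_mul, mul_comm, pow_mul, hζ, one_pow]

/-- **(X3)** degree, leading coefficient and root decomposition. -/
theorem s28c_roots (ζ : kˣ) {r : ℕ} [NeZero r] (hζ : IsPrimitiveRoot ζ r) (P : PowerSeries k)
    (hP : PowerSeries.constantCoeff P = 1) (R : k[X])
    (hR : qExpand k r (s28c_pole 1 P) = Polynomial.aeval (s28c_pole 1 P) R) :
    R.natDegree = r ∧ R.Monic ∧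
      ∀ s : k, ∏ b ∈ Finset.range r, (algebraMap k (LaurentSeries k) s - s28c_conj ζ P b) =
        algebraMap k (LaurentSeries k) (R.eval s) - qExpand k r (s28c_pole 1 P) := by
  set J := s28c_pole 1 P with hJ
  set Y := qExpand k r J with hY
  have hr0 : r ≠ 0 := NeZero.ne r
  have hYpole : Y = s28c_pole (1 * r) (PowerSeries.expand r hr0 P) := s28c_qExpand_pole r 1 P
  have hdm : R.natDegree = r ∧ R.Monic := by
    refine s28c_natDegree_monic_of_aeval_pole 1 le_rfl P hP R r Y ?_ ?_ hR.symm
    · rw [hYpole, s28c_pole_coeff_neg, s28c_constantCoeff_expand, hP]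
    · intro m hm
      rw [hYpole]
      exact s28c_pole_coeff_of_lt _ _ hm
  refine ⟨hdm.1, hdm.2, ?_⟩
  -- the polynomial identity over `k((t))`
  set Rpoly : (LaurentSeries k)[X] :=
    R.map (algebraMap k (LaurentSeries k)) - Polynomial.C Y with hRpoly
  set Q : (LaurentSeries k)[X] :=
    ∏ b ∈ Finset.range r, (Polynomial.X - Polynomial.C (s28c_conj ζ P b)) with hQ
  have hr1 : 1 ≤ r := Nat.pos_of_ne_zero hr0
  have hRmap_monic : (R.map (algebraMap k (LaurentSeries k))).Monic := hdm.2.map _
  have hRmap_deg : (R.map (algebraMap k (LaurentSeries k))).natDegree = r := by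
    rw [hdm.2.natDegree_map, hdm.1]
  have hRpoly_monic : Rpoly.Monic := by
    apply Polynomial.Monic.sub_of_left hRmap_monic
    rw [Polynomial.degree_eq_natDegree hRmap_monic.ne_zero, hRmap_deg]
    exact lt_of_le_of_lt Polynomial.degree_C_le (by exact_mod_cast hr1)
  have hRpoly_deg : Rpoly.natDegree = r := by
    rw [hRpoly, Polynomial.natDegree_sub_eq_left_of_natDegree_lt, hRmap_deg]
    rw [Polynomial.natDegree_C, hRmap_deg]
    exact hr1
  have hQ_monic : Q.Monic := Polynomial.monic_prod_of_monic _ _ (fun b _ =>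
    Polynomial.monic_X_sub_C _)
  have hQ_deg : Q.natDegree = r := by
    rw [hQ, Polynomial.natDegree_prod_of_monic _ _ (fun b _ => Polynomial.monic_X_sub_C _)]
    simp
  have hζr : ζ ^ r = 1 := hζ.pow_eq_one
  have hEq : Rpoly = Q := by
    classical
    refine Polynomial.eq_of_degree_sub_lt_of_eval_finset_eq
      ((Finset.range r).image (s28c_conj ζ P)) ?_ ?_
    · rw [Finset.card_image_of_injOn (s28c_conj_injOn ζ hζ P hP), Finset.card_range]
      have h1 : (Rpoly - Q).degree < Rpoly.degree := by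
        apply Polynomial.degree_sub_lt_left
        · rw [Polynomial.degree_eq_natDegree hRpoly_monic.ne_zero,
            Polynomial.degree_eq_natDegree hQ_monic.ne_zero, hRpoly_deg, hQ_deg]
        · exact hRpoly_monic.ne_zero
        · rw [hRpoly_monic.leadingCoeff, hQ_monic.leadingCoeff]
      rwa [Polynomial.degree_eq_natDegree hRpoly_monic.ne_zero, hRpoly_deg] at h1
    · intro x hx
      obtain ⟨b, hb, rfl⟩ := Finset.mem_image.mp hx
      have e1 : Rpoly.eval (s28c_conj ζ P b) = 0 := by
        rw [hRpoly, Polynomial.eval_sub, Polynomial.eval_C, Polynomial.eval_map,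
          ← Polynomial.aeval_def, s28c_aeval_conj ζ hζr P R hR b, sub_self]
      have e2 : Q.eval (s28c_conj ζ P b) = 0 := by
        rw [hQ, Polynomial.eval_prod]
        refine Finset.prod_eq_zero hb ?_
        rw [Polynomial.eval_sub, Polynomial.eval_X, Polynomial.eval_C, sub_self]
      rw [e1, e2]
  intro s
  have h := congrArg (Polynomial.eval (algebraMap k (LaurentSeries k) s)) hEq
  rw [hRpoly, hQ, Polynomial.eval_sub, Polynomial.eval_C, Polynomial.eval_map,
    Polynomial.eval₂_at_apply, Polynomial.eval_prod] at h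
  rw [h]
  refine Finset.prod_congr rfl (fun b _ => ?_)
  rw [Polynomial.eval_sub, Polynomial.eval_X, Polynomial.eval_C]

end Fermat.Agent.Lib.S28

end
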