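/-
S28 package (X4): from the Hasse identity `D^m * F(J) = 1`, the eta-norm identity for `D`
and the Kronecker shape `J(t^r) = R(J(t))`, the polynomial identity
`F^(r+1) = c * F(R) * ∏_{s ∈ roots F} (T - R(s))`.
-/
import Mathlib
import Fermat.Agent.Lib.S28.CRoots

set_option autoImplicit false

noncomputable section

open HahnSeries ModularCurve Polynomial

namespace Fermat.Agent.Lib.S28

variable {k : Type*} [Field k]

theorem s28c_prod_multiset_swap {ι α M : Type*} [CommMonoid M] (s : Finset ι) (m : Multiset α)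
    (f : ι → α → M) :
    ∏ b ∈ s, (m.map (f b)).prod = (m.map (fun a => ∏ b ∈ s, f b a)).prod := by
  induction m using Multiset.induction_on with
  | empty => simp
  | cons a m ih =>
    simp only [Multiset.map_cons, Multiset.prod_cons]
    rw [Finset.prod_mul_distrib, ih]

theorem s28c_aeval_of_roots [IsAlgClosed k] (F : k[X]) (x : LaurentSeries k) :
    Polynomial.aeval x F = algebraMap k (LaurentSeries k) F.leadingCoeff *
      (F.roots.map (fun s => x - algebraMap k (LaurentSeries k) s)).prod := by
  conv_lhs => rw [← Polynomial.C_leadingCoeff_mul_prod_multiset_X_sub_C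
    (IsAlgClosed.card_roots_eq_natDegree (p := F))]
  rw [map_mul, Polynomial.aeval_C, map_multiset_prod, Multiset.map_map]
  congr 2
  refine Multiset.map_congr rfl (fun s _ => ?_)
  simp

/-- transport of the norm identity to Laurent series. -/
theorem s28c_norm_laurent (ζ : kˣ) {r : ℕ} [NeZero r] (D : PowerSeries k) (ε : k)
    (hnorm : (∏ b ∈ Finset.range r, PowerSeries.rescale ((ζ : k) ^ b) D) *
      PowerSeries.expand (r * r) (Nat.mul_ne_zero (NeZero.ne r) (NeZero.ne r)) D =
        PowerSeries.C ε * (PowerSeries.expand r (NeZero.ne r) D) ^ (r + 1)) :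
    (∏ b ∈ Finset.range r, s28c_twist (ζ ^ b) (HahnSeries.ofPowerSeries ℤ k D)) *
      qExpand k r (qExpand k r (HahnSeries.ofPowerSeries ℤ k D)) =
        algebraMap k (LaurentSeries k) ε *
          (qExpand k r (HahnSeries.ofPowerSeries ℤ k D)) ^ (r + 1) := by
  have h := congrArg (HahnSeries.ofPowerSeries ℤ k) hnorm
  rw [map_mul, map_prod, map_mul, map_pow] at h
  haveI : NeZero (r * r) := ⟨Nat.mul_ne_zero (NeZero.ne r) (NeZero.ne r)⟩
  rw [qExpand_qExpand, s28c_qExpand_ofPowerSeries, s28c_qExpand_ofPowerSeries]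
  rw [ModularCurve.algebraMap_laurentSeries_eq_single]
  have hC : HahnSeries.ofPowerSeries ℤ k (PowerSeries.C ε) = HahnSeries.single 0 ε := by
    rw [HahnSeries.ofPowerSeries_C]; rfl
  rw [hC] at h
  rw [← h]
  congr 1
  refine Finset.prod_congr rfl (fun b _ => ?_)
  rw [s28c_twist_ofPowerSeries, Units.val_pow_eq_pow_val]

/-- **(X4)** the polynomial identity. -/
theorem s28c_identity [IsAlgClosed k] (ζ : kˣ) {r : ℕ} [NeZero r] (hζ : IsPrimitiveRoot ζ r)
    (P D : PowerSeries k) (hP : PowerSeries.constantCoeff P = 1) (ε : k) (hε : ε ≠ 0)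
    (hnorm : (∏ b ∈ Finset.range r, PowerSeries.rescale ((ζ : k) ^ b) D) *
      PowerSeries.expand (r * r) (Nat.mul_ne_zero (NeZero.ne r) (NeZero.ne r)) D =
        PowerSeries.C ε * (PowerSeries.expand r (NeZero.ne r) D) ^ (r + 1))
    (m : ℕ) (F : k[X])
    (hF : (HahnSeries.ofPowerSeries ℤ k D) ^ m * Polynomial.aeval (s28c_pole 1 P) F = 1)
    (R : k[X])
    (hR : qExpand k r (s28c_pole 1 P) = Polynomial.aeval (s28c_pole 1 P) R) :
    ∃ c : k, c ≠ 0 ∧ F ^ (r + 1) =
      Polynomial.C c * F.comp R * (F.roots.map (fun s => Polynomial.X - Polynomial.C (R.eval s))).prod := by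
  set J := s28c_pole 1 P with hJ
  set Y := qExpand k r J with hY
  set Dl := HahnSeries.ofPowerSeries ℤ k D with hDl
  have hr0 : r ≠ 0 := NeZero.ne r
  have hζr : ζ ^ r = 1 := hζ.pow_eq_one
  obtain ⟨hdeg, hmonic, hroots⟩ := s28c_roots ζ hζ P hP R hR
  have hF0 : F ≠ 0 := by
    rintro rfl
    rw [map_zero, mul_zero] at hF
    exact zero_ne_one hF
  -- the three specialisations of the Hasse identity
  have h1 : (qExpand k r Dl) ^ m * Polynomial.aeval Y F = 1 := by
    have := congrArg (qExpand k r) hF
    rwa [map_mul, map_pow, map_one, s28c_qExpand_aeval] at this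
  have h2 : ∀ b : ℕ, (s28c_twist (ζ ^ b) Dl) ^ m * Polynomial.aeval (s28c_conj ζ P b) F = 1 := by
    intro b
    have := congrArg (s28c_twist (ζ ^ b)) hF
    rwa [map_mul, map_pow, map_one, s28c_twist_aeval] at this
  have hYR : qExpand k r Y = Polynomial.aeval Y R := by
    have h := s28c_qExpand_aeval r J R
    rw [← hR] at h
    exact h
  have h3 : (qExpand k r (qExpand k r Dl)) ^ m * Polynomial.aeval (Polynomial.aeval Y R) F = 1 := by
    have := congrArg (qExpand k r) h1
    rwa [map_mul, map_pow, map_one, s28c_qExpand_aeval, hYR] at this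
  have hN := s28c_norm_laurent ζ D ε hnorm
  rw [← hDl] at hN
  -- abbreviations
  set A := Polynomial.aeval Y F with hA
  set B : ℕ → LaurentSeries k := fun b => Polynomial.aeval (s28c_conj ζ P b) F with hB
  set Cc := Polynomial.aeval (Polynomial.aeval Y R) F with hCc
  have hNm : (∏ b ∈ Finset.range r, (s28c_twist (ζ ^ b) Dl) ^ m) *
      (qExpand k r (qExpand k r Dl)) ^ m =
        algebraMap k (LaurentSeries k) (ε ^ m) * ((qExpand k r Dl) ^ m) ^ (r + 1) := by
    have h := congrArg (fun x => x ^ m) hN
    beta_reduce at h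
    rw [mul_pow, mul_pow, ← Finset.prod_pow, ← map_pow (algebraMap k (LaurentSeries k)),
      ← pow_mul, mul_comm (r + 1) m, pow_mul] at h
    exact h
  have key : A ^ (r + 1) = algebraMap k (LaurentSeries k) (ε ^ m) *
      (∏ b ∈ Finset.range r, B b) * Cc := by
    have e1 : (∏ b ∈ Finset.range r, (s28c_twist (ζ ^ b) Dl) ^ m) * (∏ b ∈ Finset.range r, B b) = 1 := by
      rw [← Finset.prod_mul_distrib]
      exact Finset.prod_eq_one (fun b _ => h2 b)
    have e2 : ((qExpand k r Dl) ^ m) ^ (r + 1) * A ^ (r + 1) = 1 := by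
      rw [← mul_pow, h1, one_pow]
    calc A ^ (r + 1)
        = ((∏ b ∈ Finset.range r, (s28c_twist (ζ ^ b) Dl) ^ m) *
            (qExpand k r (qExpand k r Dl)) ^ m) * ((∏ b ∈ Finset.range r, B b) * Cc) *
              A ^ (r + 1) := by
          have : ((∏ b ∈ Finset.range r, (s28c_twist (ζ ^ b) Dl) ^ m) *
            (qExpand k r (qExpand k r Dl)) ^ m) * ((∏ b ∈ Finset.range r, B b) * Cc) = 1 := by
            calc _ = ((∏ b ∈ Finset.range r, (s28c_twist (ζ ^ b) Dl) ^ m) *
                  (∏ b ∈ Finset.range r, B b)) * ((qExpand k r (qExpand k r Dl)) ^ m * Cc) := by ring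
              _ = 1 := by rw [e1, h3, one_mul]
          rw [this, one_mul]
      _ = algebraMap k (LaurentSeries k) (ε ^ m) * ((∏ b ∈ Finset.range r, B b) * Cc) *
            (((qExpand k r Dl) ^ m) ^ (r + 1) * A ^ (r + 1)) := by rw [hNm]; ring
      _ = _ := by rw [e2, mul_one, mul_assoc]
  -- expand the product of the `B b` through the roots of `F`
  have hlc : F.leadingCoeff ≠ 0 := Polynomial.leadingCoeff_ne_zero.mpr hF0
  set n := Multiset.card F.roots with hn
  have hBprod : ∏ b ∈ Finset.range r, B b =
      algebraMap k (LaurentSeries k) (F.leadingCoeff ^ r * ((-1) ^ (r + 1)) ^ n) *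
        Polynomial.aeval Y
          (F.roots.map (fun s => Polynomial.X - Polynomial.C (R.eval s))).prod := by
    simp only [hB, s28c_aeval_of_roots F]
    rw [Finset.prod_mul_distrib, Finset.prod_const, Finset.card_range, s28c_prod_multiset_swap]
    have hfactor : ∀ s : k, ∏ b ∈ Finset.range r,
        (s28c_conj ζ P b - algebraMap k (LaurentSeries k) s) =
          algebraMap k (LaurentSeries k) ((-1) ^ (r + 1)) *
            (Y - algebraMap k (LaurentSeries k) (R.eval s)) := by
      intro s
      have h := hroots s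
      have : ∏ b ∈ Finset.range r, (s28c_conj ζ P b - algebraMap k (LaurentSeries k) s) =
          (-1) ^ r * ∏ b ∈ Finset.range r, (algebraMap k (LaurentSeries k) s - s28c_conj ζ P b) := by
        calc ∏ b ∈ Finset.range r, (s28c_conj ζ P b - algebraMap k (LaurentSeries k) s)
            = ∏ b ∈ Finset.range r,
                ((-1) * (algebraMap k (LaurentSeries k) s - s28c_conj ζ P b)) := by
              refine Finset.prod_congr rfl (fun b _ => ?_)
              ring
          _ = (∏ _b ∈ Finset.range r, (-1 : LaurentSeries k)) *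
                ∏ b ∈ Finset.range r, (algebraMap k (LaurentSeries k) s - s28c_conj ζ P b) :=
              Finset.prod_mul_distrib
          _ = _ := by rw [Finset.prod_const, Finset.card_range]
      rw [this, h, map_pow, map_neg, map_one, pow_succ]
      ring
    simp only [hfactor]
    rw [Multiset.prod_map_mul, Multiset.map_const', Multiset.prod_replicate, map_multiset_prod,
      Multiset.map_map, map_mul, map_pow, map_pow, map_pow, map_pow, map_neg, map_one]
    have : (F.roots.map ((Polynomial.aeval Y) ∘ fun s =>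
        (Polynomial.X - Polynomial.C (R.eval s) : k[X]))) =
        F.roots.map (fun s => Y - algebraMap k (LaurentSeries k) (R.eval s)) := by
      refine Multiset.map_congr rfl (fun s _ => ?_)
      simp
    rw [this]
    ring
  have hYpole : Y = s28c_pole (1 * r) (PowerSeries.expand r hr0 P) := s28c_qExpand_pole r 1 P
  have hinj : Function.Injective (Polynomial.aeval (R := k) Y) := by
    rw [hYpole]
    refine s28c_aeval_pole_injective (1 * r) ?_ _ ?_
    · rw [one_mul]; exact Nat.pos_of_ne_zero hr0
    · rw [s28c_constantCoeff_expand, hP]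
  refine ⟨ε ^ m * (F.leadingCoeff ^ r * ((-1) ^ (r + 1)) ^ n), ?_, ?_⟩
  · refine mul_ne_zero (pow_ne_zero _ hε) (mul_ne_zero (pow_ne_zero _ hlc) ?_)
    exact pow_ne_zero _ (pow_ne_zero _ (neg_ne_zero.mpr one_ne_zero))
  · apply hinj
    have e : Polynomial.aeval Y
        (Polynomial.C (ε ^ m * (F.leadingCoeff ^ r * ((-1) ^ (r + 1)) ^ n)) * F.comp R *
          (F.roots.map (fun s => Polynomial.X - Polynomial.C (R.eval s))).prod) =
        algebraMap k (LaurentSeries k) (ε ^ m * (F.leadingCoeff ^ r * ((-1) ^ (r + 1)) ^ n)) * Cc *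
          Polynomial.aeval Y
            (F.roots.map (fun s => Polynomial.X - Polynomial.C (R.eval s))).prod := by
      rw [map_mul, map_mul, Polynomial.aeval_C, Polynomial.aeval_comp]
    rw [map_pow, e, ← hA, key, hBprod, map_mul (algebraMap k (LaurentSeries k)) (ε ^ m)]
    ring

end Fermat.Agent.Lib.S28

end
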