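/-
S28 package (X6): rigidity lemmas for power series with constant term `1` over a field:
* `f ^ n = 1`, `(n : k) ≠ 0`  ⇒  `f = 1`;
* `f ^ n = 1`, `n ≥ 1`, `CharP k ℓ`  ⇒  `f = 1`  (Frobenius stripping);
* `P ^ r = P(t ^ r)`, `(r : k) ≠ 0`, `r ≥ 2`  ⇒  `P = 1`.
-/
import Mathlib

set_option autoImplicit false

noncomputable section

open PowerSeries

namespace Fermat.Agent.Lib.S28

variable {k : Type*} [Field k]

/-- binomial expansion up to second order. -/
theorem s28c_one_add_pow (g : PowerSeries k) (n : ℕ) :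
    ∃ u : PowerSeries k, (1 + g) ^ n = 1 + (n : PowerSeries k) * g + g ^ 2 * u := by
  induction n with
  | zero => exact ⟨0, by simp⟩
  | succ n ih =>
    obtain ⟨u, hu⟩ := ih
    refine ⟨(n : PowerSeries k) + u + g * u, ?_⟩
    rw [pow_succ, hu]
    push_cast
    ring

theorem s28c_constantCoeff_natCast (n : ℕ) :
    PowerSeries.constantCoeff ((n : PowerSeries k)) = (n : k) := by
  rw [← map_natCast (PowerSeries.C (R := k)) n, PowerSeries.constantCoeff_C]

/-- **Lemma A**: `f ^ n = 1` with `n` invertible forces `f = 1`. -/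
theorem s28c_eq_one_of_pow_eq_one (f : PowerSeries k) (hf : PowerSeries.constantCoeff f = 1)
    (n : ℕ) (hn : (n : k) ≠ 0) (h : f ^ n = 1) : f = 1 := by
  set g := f - 1 with hg
  have hf' : f = 1 + g := by rw [hg]; ring
  have hg0 : PowerSeries.constantCoeff g = 0 := by rw [hg, map_sub, hf, map_one, sub_self]
  obtain ⟨u, hu⟩ := s28c_one_add_pow g n
  rw [hf'] at h
  rw [h] at hu
  have h2 : g * ((n : PowerSeries k) + g * u) = 0 := by
    have : (n : PowerSeries k) * g + g ^ 2 * u = 0 := by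
      have := hu
      linear_combination -this
    rw [← this]; ring
  rcases mul_eq_zero.mp h2 with h3 | h3
  · rw [hf', h3, add_zero]
  · exfalso
    have := congrArg (PowerSeries.constantCoeff (R := k)) h3
    rw [map_add, map_mul, hg0, zero_mul, add_zero, s28c_constantCoeff_natCast, map_zero] at this
    exact hn this

/-- **Lemma B**: in characteristic `ℓ`, `f ^ n = 1` with `n ≥ 1` forces `f = 1`. -/
theorem s28c_eq_one_of_pow_eq_one_charP (ℓ : ℕ) [Fact ℓ.Prime] [CharP k ℓ] (f : PowerSeries k)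
    (hf : PowerSeries.constantCoeff f = 1) (n : ℕ) (hn : n ≠ 0) (h : f ^ n = 1) : f = 1 := by
  haveI : CharP (PowerSeries k) ℓ :=
    charP_of_injective_ringHom (PowerSeries.C_injective (R := k)) ℓ
  have hℓ : ℓ.Prime := Fact.out
  obtain ⟨e, n', hn', hnn⟩ := Nat.exists_eq_pow_mul_and_not_dvd hn ℓ hℓ.ne_one
  have h1 : (f ^ n' - 1) ^ ℓ ^ e = 0 := by
    rw [sub_pow_char_pow, one_pow, ← pow_mul, mul_comm, ← hnn, h, sub_self]
  have h2 : f ^ n' = 1 := sub_eq_zero.mp (pow_eq_zero_iff (pow_ne_zero _ hℓ.ne_zero) |>.mp h1)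
  refine s28c_eq_one_of_pow_eq_one f hf n' ?_ h2
  rw [Ne, CharP.cast_eq_zero_iff k ℓ]
  exact hn'

theorem s28c_rigid_aux (g : PowerSeries k) (hg0 : PowerSeries.constantCoeff g = 0) (r : ℕ)
    (hr : 2 ≤ r) (hrk : (r : k) ≠ 0)
    (h : (1 + g) ^ r = PowerSeries.expand r (by omega) (1 + g)) : g = 0 := by
  classical
  by_contra hgne
  have hex : ∃ n : ℕ, PowerSeries.coeff n g ≠ 0 := by
    by_contra hall
    push_neg at hall
    exact hgne (PowerSeries.ext (fun n => by rw [hall n, map_zero]))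
  obtain ⟨n, hcn, hlt⟩ : ∃ n : ℕ, PowerSeries.coeff n g ≠ 0 ∧ ∀ m < n, PowerSeries.coeff m g = 0 :=
    ⟨Nat.find hex, Nat.find_spec hex, fun m hm => by
      by_contra h'
      exact Nat.find_min hex hm h'⟩
  have hn1 : 1 ≤ n := by
    rcases Nat.eq_zero_or_pos n with h0 | h0
    · exfalso
      rw [h0, PowerSeries.coeff_zero_eq_constantCoeff] at hcn
      exact hcn hg0
    · exact h0
  have hdvd : (PowerSeries.X : PowerSeries k) ^ n ∣ g := PowerSeries.X_pow_dvd_iff.mpr hlt
  obtain ⟨u, hu⟩ := s28c_one_add_pow g r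
  -- coefficient `n` of the left-hand side
  have hL : PowerSeries.coeff n ((1 + g) ^ r) = (r : k) * PowerSeries.coeff n g := by
    rw [hu, map_add, map_add, PowerSeries.coeff_one, if_neg (by omega), zero_add]
    have h2 : PowerSeries.coeff n (g ^ 2 * u) = 0 := by
      have hd2 : (PowerSeries.X : PowerSeries k) ^ (2 * n) ∣ g ^ 2 * u := by
        rw [two_mul, pow_add, pow_two]
        exact Dvd.dvd.mul_right (mul_dvd_mul hdvd hdvd) u
      exact PowerSeries.X_pow_dvd_iff.mp hd2 n (by omega)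
    rw [h2, add_zero, ← map_natCast (PowerSeries.C (R := k)) r, PowerSeries.coeff_C_mul]
  -- coefficient `n` of the right-hand side
  have hR : PowerSeries.coeff n (PowerSeries.expand r (by omega) (1 + g)) = 0 := by
    rw [map_add, map_one, map_add, PowerSeries.coeff_one, if_neg (by omega), zero_add,
      PowerSeries.coeff_expand]
    split_ifs with hd
    · apply hlt
      exact Nat.div_lt_self (by omega) (by omega)
    · rfl
  rw [h, hR] at hL
  rcases mul_eq_zero.mp hL.symm with h1 | h1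
  · exact hrk h1
  · exact hcn h1

/-- **(X6)** rigidity: `P ^ r = P(t ^ r)` forces `P = 1`. -/
theorem s28c_rigid (P : PowerSeries k) (hP : PowerSeries.constantCoeff P = 1) (r : ℕ) (hr : 2 ≤ r)
    (hrk : (r : k) ≠ 0) (h : P ^ r = PowerSeries.expand r (by omega) P) : P = 1 := by
  obtain ⟨g, rfl⟩ : ∃ g, P = 1 + g := ⟨P - 1, by ring⟩
  have hg0 : PowerSeries.constantCoeff g = 0 := by
    rw [map_add, map_one] at hP
    exact add_eq_left.mp hP
  rw [s28c_rigid_aux g hg0 r hr hrk h, add_zero]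

end Fermat.Agent.Lib.S28

end
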