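/-
S28 package (X5): the root count.  Over an algebraically closed field, if `R` is monic of degree
`r ≥ 2` with `(r : k) ≠ 0`, `F` is nonconstant and `F(R(y)) = 0 → F(y) = 0`, then `F` has a single
root `c` and `R = (T - c)^r + c`.
-/
import Mathlib

set_option autoImplicit false

noncomputable section

open Polynomial

namespace Fermat.Agent.Lib.S28

variable {k : Type*} [Field k]

/-- a monic polynomial over an algebraically closed field with a single root is a power. -/
theorem s28c_eq_pow_of_unique_root [IsAlgClosed k] (G : k[X]) (hG : G.Monic) (t : k)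
    (h : ∀ y : k, G.eval y = 0 → y = t) : G = (X - C t) ^ G.natDegree := by
  have hroots : G.roots = Multiset.replicate G.natDegree t := by
    rw [Multiset.eq_replicate]
    refine ⟨IsAlgClosed.card_roots_eq_natDegree, fun y hy => ?_⟩
    exact h y ((Polynomial.mem_roots hG.ne_zero).mp hy)
  have h1 := Polynomial.C_leadingCoeff_mul_prod_multiset_X_sub_C
    (IsAlgClosed.card_roots_eq_natDegree (p := G))
  rw [hG.leadingCoeff, map_one, one_mul, hroots, Multiset.map_replicate,
    Multiset.prod_replicate] at h1
  exact h1.symm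

/-- **(X5)** the root count. -/
theorem s28c_shape [IsAlgClosed k] {r : ℕ} (hr2 : 2 ≤ r) (hrk : (r : k) ≠ 0) (F R : k[X])
    (hFdeg : 0 < F.natDegree) (hRm : R.Monic) (hRd : R.natDegree = r)
    (hpre : ∀ y : k, F.eval (R.eval y) = 0 → F.eval y = 0) :
    ∃ c : k, R = (X - C c) ^ r + C c ∧ ∀ s : k, F.eval s = 0 → s = c := by
  classical
  have hF0 : F ≠ 0 := fun h => by rw [h, natDegree_zero] at hFdeg; exact lt_irrefl _ hFdeg
  -- the finite root set of `F`
  set S : Finset k := F.roots.toFinset with hS
  have hmemS : ∀ y : k, y ∈ S ↔ F.eval y = 0 := fun y => by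
    rw [hS, Multiset.mem_toFinset, Polynomial.mem_roots hF0, Polynomial.IsRoot.def]
  -- every value has a preimage under `R`
  have hsurj : ∀ s : k, ∃ y : k, R.eval y = s := by
    intro s
    have hdeg : (R - C s).degree ≠ 0 := by
      have : (R - C s).natDegree = r := by
        rw [Polynomial.natDegree_sub_C, hRd]
      intro h0
      have := Polynomial.natDegree_eq_of_degree_eq_some (n := 0) (by simpa using h0)
      omega
    obtain ⟨y, hy⟩ := IsAlgClosed.exists_root (R - C s) hdeg
    refine ⟨y, ?_⟩
    rw [Polynomial.IsRoot.def, Polynomial.eval_sub, Polynomial.eval_C, sub_eq_zero] at hy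
    exact hy
  -- a section `g : S → S` of `R`
  have hg : ∀ s : S, ∃ y : S, R.eval (y : k) = (s : k) := by
    intro s
    obtain ⟨y, hy⟩ := hsurj (s : k)
    have hyS : y ∈ S := by
      rw [hmemS]
      apply hpre
      rw [hy]
      exact (hmemS _).mp s.2
    exact ⟨⟨y, hyS⟩, hy⟩
  choose g hgs using hg
  have hginj : Function.Injective g := by
    intro s s' h
    apply Subtype.ext
    rw [← hgs s, ← hgs s', h]
  have hgsurj : Function.Surjective g := Finite.injective_iff_surjective.mp hginj
  -- fibres over `S` are singletons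
  have hfib : ∀ s : S, ∀ y : k, R.eval y = (s : k) → y = (g s : k) := by
    intro s y hy
    have hyS : y ∈ S := by
      rw [hmemS]
      apply hpre
      rw [hy]
      exact (hmemS _).mp s.2
    obtain ⟨s', hs'⟩ := hgsurj ⟨y, hyS⟩
    have h1 : (s' : k) = (s : k) := by
      rw [← hgs s', hs']
      exact hy
    have h2 : s' = s := Subtype.ext h1
    rw [← h2, hs']
  -- hence `R - s = (T - g s)^r` for `s ∈ S`
  have hpow : ∀ s : S, R - C (s : k) = (X - C (g s : k)) ^ r := by
    intro s
    have hm : (R - C (s : k)).Monic := by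
      apply Polynomial.Monic.sub_of_left hRm
      rw [Polynomial.degree_eq_natDegree hRm.ne_zero, hRd]
      exact lt_of_le_of_lt Polynomial.degree_C_le (by exact_mod_cast (by omega : 0 < r))
    have hd : (R - C (s : k)).natDegree = r := by rw [Polynomial.natDegree_sub_C, hRd]
    have := s28c_eq_pow_of_unique_root (R - C (s : k)) hm (g s : k) (fun y hy => by
      apply hfib s y
      rw [Polynomial.eval_sub, Polynomial.eval_C, sub_eq_zero] at hy
      exact hy)
    rw [hd] at this
    exact this
  -- two elements of `S` coincide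
  have hsub : ∀ s s' : S, s = s' := by
    intro s s'
    have h1 := hpow s
    have h2 := hpow s'
    have hder : Polynomial.derivative (R - C (s : k)) = Polynomial.derivative (R - C (s' : k)) := by
      rw [Polynomial.derivative_sub, Polynomial.derivative_sub, Polynomial.derivative_C,
        Polynomial.derivative_C]
    rw [h1, h2, Polynomial.derivative_X_sub_C_pow, Polynomial.derivative_X_sub_C_pow] at hder
    have hC : (C (r : k) : k[X]) ≠ 0 := by
      rw [Ne, Polynomial.C_eq_zero]; exact hrk
    have hder' := mul_left_cancel₀ hC hder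
    have h3 := congrArg (Polynomial.eval (g s : k)) hder'
    rw [Polynomial.eval_pow, Polynomial.eval_pow, Polynomial.eval_sub, Polynomial.eval_sub,
      Polynomial.eval_X, Polynomial.eval_C, Polynomial.eval_C, sub_self,
      zero_pow (by omega : r - 1 ≠ 0)] at h3
    have h4 : (g s : k) = (g s' : k) := by
      have := pow_eq_zero_iff (by omega : r - 1 ≠ 0) |>.mp h3.symm
      exact sub_eq_zero.mp this
    apply Subtype.ext
    rw [← hgs s, ← hgs s', h4]
  -- `S` is nonempty
  obtain ⟨c, hc⟩ : ∃ c : k, F.eval c = 0 := by
    have hdeg : F.degree ≠ 0 := by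
      intro h0
      have := Polynomial.natDegree_eq_of_degree_eq_some (n := 0) (by simpa using h0)
      omega
    exact IsAlgClosed.exists_root F hdeg
  have hcS : c ∈ S := (hmemS c).mpr hc
  refine ⟨c, ?_, ?_⟩
  · have h1 := hpow ⟨c, hcS⟩
    have h2 : g ⟨c, hcS⟩ = ⟨c, hcS⟩ := hsub _ _
    rw [h2] at h1
    rw [← h1]
    ring
  · intro s hs
    have := hsub ⟨s, (hmemS s).mpr hs⟩ ⟨c, hcS⟩
    exact congrArg Subtype.val this

end Fermat.Agent.Lib.S28

end
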