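/-
S28 package (Q), part A (helper2, prefix `s28q_`): the **Hasse-invariant identity** mod `ℓ`.

For a prime `ℓ ≥ 5` put `k = ℓ - 1`.  `G := num(B_k) · E_k` has the integral `q`-expansion
`num(B_k) - 2 k den(B_k) ∑ σ_{k-1}(n) qⁿ`, which is `≡ num(B_k)` mod `ℓ` by von Staudt–Clausen
(`ℓ ∣ den(B_k)`).  `G¹²` has weight `12 k`; expanding it in the Miller basis
`Δ^c E₄^{3(k-c)}` (`0 ≤ c ≤ k`) with INTEGER coefficients gives
`∑_c λ_c Δ^c E₄^{3(k-c)} ≡ u¹²  (mod ℓ)`, `u = num(B_k)` prime to `ℓ`, `λ_0 = u¹²`.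
-/
import Mathlib
import Fermat.Agent.Lib.S16.BLevel1

set_option autoImplicit false

open UpperHalfPlane hiding I
open Real Complex Filter Topology
open scoped Manifold MatrixGroups ModularForm
open EisensteinSeries ModularForm ModularGroup Matrix.SpecialLinearGroup
open Fermat.Agent.Lib.FF Fermat.Agent.Lib.S16
open Finset

namespace Fermat.Agent.Lib.S28

/-- **Miller expansion.** A level-one form of weight `12 m` with `q`-coefficients in a subring
`R ≤ ℂ` is an `R`-linear combination of `Δ^i E₄^{3(m-i)}`, `0 ≤ i ≤ m` (on `q`-expansions). -/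
theorem s28q_miller_expand_aux (R : Subring ℂ) (m : ℕ) {w : ℤ} (hw : w = 12 * (m : ℤ)) :
    ∀ k c : ℕ, c + k = m + 1 → ∀ f : ModularForm 𝒮ℒ w,
      (∀ n, n < c → (qExpansion 1 f).coeff n = 0) →
      (∀ n, (qExpansion 1 f).coeff n ∈ R) →
      ∃ lam : ℕ → ℂ, (∀ i, lam i ∈ R) ∧ (∀ i, i < c → lam i = 0) ∧
        ∀ n, (qExpansion 1 f).coeff n =
          ∑ i ∈ Finset.range (m + 1), lam i * ((s16b_basisZ i (3 * (m - i))).coeff n : ℂ) := by
  have hwm : w.toNat / 12 = m := by
    subst hw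
    have : (12 * (m : ℤ)).toNat = 12 * m := by omega
    rw [this]; omega
  intro k
  induction k with
  | zero =>
    intro c hc f h0 _
    have hf : f = 0 := by
      apply sturm_bound_levelOne
      have h1 : ((w.toNat / 12 + 1 : ℕ) : ℕ∞) ≤ (qExpansion 1 f).order :=
        PowerSeries.nat_le_order _ _ fun i hi => h0 i (by omega)
      refine lt_of_lt_of_le ?_ h1
      exact_mod_cast Nat.lt_succ_self _
    refine ⟨fun _ => 0, fun _ => R.zero_mem, fun _ _ => rfl, fun n => ?_⟩
    rw [hf]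
    simp [UpperHalfPlane.qExpansion_zero]
  | succ k ih =>
    intro c hc f h0 hR
    have hcm : c ≤ m := by omega
    have ha : (c : ℤ) * 12 + ((3 * (m - c) : ℕ) : ℤ) * 4 = w := by
      subst hw
      have : ((3 * (m - c) : ℕ) : ℤ) = 3 * ((m : ℤ) - c) := by
        rw [Nat.cast_mul, Nat.cast_sub hcm]; norm_num
      rw [this]; ring
    set B := s16b_basis c (3 * (m - c)) ha with hB
    set l := (qExpansion 1 f).coeff c with hl
    have hlR : l ∈ R := hR c
    have hBq : ∀ j, (qExpansion 1 B).coeff j = ((s16b_basisZ c (3 * (m - c))).coeff j : ℂ) := by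
      intro j
      rw [hB, s16b_qExpansion_basis]
      simp
    have hg : ∀ j, (qExpansion 1 ⇑(f - l • B)).coeff j =
        (qExpansion 1 f).coeff j - l * ((s16b_basisZ c (3 * (m - c))).coeff j : ℂ) := by
      intro j
      rw [s16b_coeff_sub_smul, hBq]
    obtain ⟨lam', hlam'R, hlam'0, hlam'⟩ := ih (c + 1) (by omega) (f - l • B) (by
      intro j hj
      rw [hg]
      rcases Nat.lt_succ_iff_lt_or_eq.mp hj with hlt | rfl
      · rw [h0 j hlt, s16b_basisZ_coeff_lt c _ hlt]
        simp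
      · rw [s16b_basisZ_coeff_self]
        simp [hl]) (by
      intro j
      rw [hg]
      exact R.sub_mem (hR j) (R.mul_mem hlR (intCast_mem R _)))
    refine ⟨Function.update lam' c l, ?_, ?_, ?_⟩
    · intro i
      by_cases hi : i = c
      · subst hi; simpa using hlR
      · rw [Function.update_of_ne hi]; exact hlam'R i
    · intro i hi
      rw [Function.update_of_ne (by omega)]
      exact hlam'0 i (by omega)
    · intro n
      have h1 := hlam' n
      rw [hg] at h1
      have h2 : ∑ i ∈ Finset.range (m + 1),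
          Function.update lam' c l i * ((s16b_basisZ i (3 * (m - i))).coeff n : ℂ) =
          ∑ i ∈ Finset.range (m + 1), lam' i * ((s16b_basisZ i (3 * (m - i))).coeff n : ℂ) +
            l * ((s16b_basisZ c (3 * (m - c))).coeff n : ℂ) := by
        have hc' : c ∈ Finset.range (m + 1) := Finset.mem_range.mpr (by omega)
        rw [← Finset.add_sum_erase _ _ hc', ← Finset.add_sum_erase (Finset.range (m + 1)) _ hc']
        rw [Function.update_self, hlam'0 c (by omega)]
        have : ∑ x ∈ (Finset.range (m + 1)).erase c,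
            Function.update lam' c l x * ((s16b_basisZ x (3 * (m - x))).coeff n : ℂ) =
            ∑ x ∈ (Finset.range (m + 1)).erase c,
              lam' x * ((s16b_basisZ x (3 * (m - x))).coeff n : ℂ) := by
          refine Finset.sum_congr rfl fun x hx => ?_
          rw [Function.update_of_ne (Finset.ne_of_mem_erase hx)]
        rw [this]
        ring
      rw [h2, ← h1]
      ring

theorem s28q_miller_expand (R : Subring ℂ) (m : ℕ) {w : ℤ} (hw : w = 12 * (m : ℤ))
    (f : ModularForm 𝒮ℒ w) (hR : ∀ n, (qExpansion 1 f).coeff n ∈ R) :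
    ∃ lam : ℕ → ℂ, (∀ i, lam i ∈ R) ∧
      ∀ n, (qExpansion 1 f).coeff n =
        ∑ i ∈ Finset.range (m + 1), lam i * ((s16b_basisZ i (3 * (m - i))).coeff n : ℂ) := by
  obtain ⟨lam, h1, -, h3⟩ := s28q_miller_expand_aux R m hw (m + 1) 0 (by omega) f
    (fun n hn => absurd hn (Nat.not_lt_zero n)) hR
  exact ⟨lam, h1, h3⟩

/-- **von Staudt–Clausen** consequence: an odd prime `l` divides the denominator of `B_{l-1}`. -/
theorem s28q_prime_dvd_den_bernoulli {l : ℕ} (hl : l.Prime) (hl2 : l ≠ 2) :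
    l ∣ (bernoulli (l - 1)).den := by
  have hodd : Odd l := hl.odd_of_ne_two hl2
  obtain ⟨k, hk⟩ := hodd
  have hl1 : l - 1 = 2 * k := by omega
  obtain ⟨z, hz⟩ := Bernoulli.vonStaudt_clausen k
  rw [← hl1] at hz
  set T : Finset ℕ := (range (l - 1 + 2)).filter fun p => p.Prime ∧ (p - 1) ∣ l - 1 with hT
  have hlT : l ∈ T := by
    rw [hT, mem_filter, mem_range]
    exact ⟨by omega, hl, dvd_rfl⟩
  have hz' : (z : ℚ) = bernoulli (l - 1) + ∑ p ∈ T, (1 : ℚ) / p := hz
  rw [← Finset.add_sum_erase _ _ hlT] at hz'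
  set S' : ℚ := ∑ p ∈ T.erase l, (1 : ℚ) / p with hS'
  have key : (1 : ℚ) / l = (z : ℚ) + (-(bernoulli (l - 1)) + -S') := by
    rw [hz']; ring
  have hden1 : ((1 : ℚ) / l).den = l := by
    rw [one_div, Rat.inv_natCast_den, if_neg hl.ne_zero]
  have hdvd : l ∣ (bernoulli (l - 1)).den * S'.den := by
    have h1 : ((z : ℚ) + (-(bernoulli (l - 1)) + -S')).den ∣
        (z : ℚ).den * ((-(bernoulli (l - 1)) + -S').den) := Rat.add_den_dvd _ _
    have h2 : (-(bernoulli (l - 1)) + -S').den ∣ (-(bernoulli (l - 1))).den * (-S').den :=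
      Rat.add_den_dvd _ _
    rw [← key, hden1, Rat.den_intCast, one_mul] at h1
    rw [Rat.den_neg_eq_den, Rat.den_neg_eq_den] at h2
    exact h1.trans h2
  rcases (Nat.Prime.dvd_mul hl).mp hdvd with h | h
  · exact h
  · exfalso
    have h3 : S'.den ∣ ∏ p ∈ T.erase l, ((1 : ℚ) / p).den := Rat.den_sum_dvd_prod_den _ _
    have h4 := h.trans h3
    rw [Prime.dvd_finsetProd_iff (Nat.prime_iff.mp hl)] at h4
    obtain ⟨p, hp, hlp⟩ := h4
    have hpT := Finset.mem_of_mem_erase hp
    rw [hT, mem_filter] at hpT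
    have hpp : p.Prime := hpT.2.1
    rw [one_div, Rat.inv_natCast_den, if_neg hpp.ne_zero] at hlp
    have := (Nat.prime_dvd_prime_iff_eq hl hpp).mp hlp
    exact Finset.ne_of_mem_erase hp this.symm

/-- The integral `q`-expansion of `num(B_k) • E_k`. -/
noncomputable def s28q_GZ (k : ℕ) : PowerSeries ℤ :=
  PowerSeries.mk fun n => if n = 0 then (bernoulli k).num
    else -(2 * (k : ℤ) * ((bernoulli k).den : ℤ) * (ArithmeticFunction.sigma (k - 1) n : ℤ))

theorem s28q_qExpansion_G {k : ℕ} (hk : 3 ≤ k) (hk2 : Even k) (hB : bernoulli k ≠ 0) :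
    qExpansion 1 ⇑((((bernoulli k).num : ℤ) : ℂ) • E hk) =
      (s28q_GZ k).map (Int.castRingHom ℂ) := by
  ext m
  rw [FunLike.coe_smul, ModularForm.qExpansion_smul one_pos one_mem_strictPeriods_SL _ (E hk),
    PowerSeries.coeff_map]
  have h := EisensteinSeries.E_qExpansion_coeff hk hk2 m
  have h' : (PowerSeries.coeff m) (qExpansion 1 ⇑(E hk)) =
      if m = 0 then 1 else -(2 * ((k : ℕ) : ℂ) / ↑(bernoulli k)) *
        ↑((ArithmeticFunction.sigma (k - 1)) m) := h
  rw [PowerSeries.coeff_smul, h']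
  unfold s28q_GZ
  rw [PowerSeries.coeff_mk]
  split_ifs with hm
  · simp
  · have hden : ((bernoulli k).den : ℂ) ≠ 0 := by
      exact_mod_cast (bernoulli k).den_nz
    have hnum : ((bernoulli k).num : ℂ) ≠ 0 := by
      exact_mod_cast Rat.num_ne_zero.mpr hB
    have hcast : ((bernoulli k : ℚ) : ℂ) = ((bernoulli k).num : ℂ) / ((bernoulli k).den : ℂ) :=
      Rat.cast_def (bernoulli k)
    rw [hcast]
    simp only [eq_intCast, smul_eq_mul]
    push_cast
    field_simp

/-- **Integral Miller expansion of `(num(B_k) E_k)¹²`.** -/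
theorem s28q_hasse_int {k : ℕ} (hk : 3 ≤ k) (hk2 : Even k) (hB : bernoulli k ≠ 0) :
    ∃ lam : ℕ → ℤ, (s28q_GZ k) ^ 12 =
      ∑ i ∈ Finset.range (k + 1), PowerSeries.C (lam i) * s16b_basisZ i (3 * (k - i)) := by
  set G : ModularForm 𝒮ℒ (k : ℤ) := (((bernoulli k).num : ℤ) : ℂ) • E hk with hG
  have hw : ((12 : ℕ) : ℤ) * (k : ℤ) = 12 * (k : ℤ) := by norm_num
  set f : ModularForm 𝒮ℒ (12 * (k : ℤ)) := ModularForm.mcast hw (G.pow 12) with hf
  have hfq : qExpansion 1 f = ((s28q_GZ k) ^ 12).map (Int.castRingHom ℂ) := by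
    rw [hf, ModularForm.qExpansion_mcast,
      ModularForm.qExpansion_pow one_pos one_mem_strictPeriods_SL, hG,
      s28q_qExpansion_G hk hk2 hB, map_pow]
  obtain ⟨lam, hlamR, hlam⟩ := s28q_miller_expand (Int.castRingHom ℂ).range k rfl f (by
    intro n
    rw [hfq, PowerSeries.coeff_map]
    exact ⟨_, rfl⟩)
  choose z hz using hlamR
  refine ⟨z, ?_⟩
  ext n
  apply Int.cast_injective (α := ℂ)
  have h1 := hlam n
  rw [hfq, PowerSeries.coeff_map] at h1
  simp only [eq_intCast] at h1 hz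
  rw [h1, map_sum]
  push_cast
  refine Finset.sum_congr rfl fun i _ => ?_
  rw [PowerSeries.coeff_C_mul, ← hz i]
  push_cast
  rfl

theorem s28q_GZ_constantCoeff (k : ℕ) :
    PowerSeries.constantCoeff (s28q_GZ k) = (bernoulli k).num := by
  rw [← PowerSeries.coeff_zero_eq_constantCoeff_apply, s28q_GZ, PowerSeries.coeff_mk, if_pos rfl]

/-- `num(B_k) E_k` is constant modulo any `l` dividing `den(B_k)`. -/
theorem s28q_GZ_map {A : Type*} [CommRing A] {k l : ℕ} [CharP A l]
    (hl : l ∣ (bernoulli k).den) :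
    (s28q_GZ k).map (Int.castRingHom A) = PowerSeries.C (((bernoulli k).num : ℤ) : A) := by
  ext n
  rw [PowerSeries.coeff_map, s28q_GZ, PowerSeries.coeff_mk, PowerSeries.coeff_C]
  split_ifs with hn
  · simp
  · have : (((bernoulli k).den : ℤ) : A) = 0 := by
      rw [Int.cast_natCast]
      exact (CharP.cast_eq_zero_iff A l _).mpr hl
    simp only [eq_intCast, Int.cast_neg, Int.cast_mul, this]
    ring

/-- **Hasse-invariant identity, integral form.**  For a prime `l ≥ 5` there are integers `u`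
(prime to `l`) and `lam i` (`i < l`) with `lam 0 = u¹²` such that, in every commutative ring `A`
of characteristic `l`,  `∑_{i<l} lam i · Δ^i E₄^{3(l-1-i)} = u¹²` as power series over `A`. -/
theorem s28q_hasse.{v} {l : ℕ} (hl : l.Prime) (hl5 : 5 ≤ l) :
    ∃ (u : ℤ) (lam : ℕ → ℤ), ¬ (l : ℤ) ∣ u ∧ lam 0 = u ^ 12 ∧
      ∀ (A : Type v) [CommRing A] [CharP A l],
        ∑ i ∈ Finset.range l, PowerSeries.C ((lam i : ℤ) : A) *
          (s16b_basisZ i (3 * (l - 1 - i))).map (Int.castRingHom A) =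
        PowerSeries.C (((u : ℤ) : A) ^ 12) := by
  have hl2 : l ≠ 2 := by omega
  have hdvd := s28q_prime_dvd_den_bernoulli hl hl2
  have hk : 3 ≤ l - 1 := by omega
  have hk2 : Even (l - 1) := by
    have := hl.odd_of_ne_two hl2
    exact Nat.Prime.even_sub_one hl hl2
  have hB : bernoulli (l - 1) ≠ 0 := by
    intro h
    rw [h] at hdvd
    simp at hdvd
    omega
  obtain ⟨lam, hlam⟩ := s28q_hasse_int hk hk2 hB
  have hl1 : l - 1 + 1 = l := by omega
  rw [hl1] at hlam
  refine ⟨(bernoulli (l - 1)).num, lam, ?_, ?_, ?_⟩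
  · intro h
    have hcop := (bernoulli (l - 1)).reduced
    have h1 : l ∣ (bernoulli (l - 1)).num.natAbs := by
      exact Int.natCast_dvd.mp h
    have := Nat.eq_one_of_dvd_coprimes hcop h1 hdvd
    omega
  · have h0 := congrArg (PowerSeries.coeff 0) hlam
    rw [PowerSeries.coeff_zero_eq_constantCoeff, map_pow, s28q_GZ_constantCoeff, map_sum] at h0
    rw [h0]
    have hl0 : 0 ∈ Finset.range l := Finset.mem_range.mpr (by omega)
    rw [← Finset.add_sum_erase _ _ hl0]
    have hrest : ∑ x ∈ (Finset.range l).erase 0, PowerSeries.constantCoeff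
        (PowerSeries.C (lam x) * s16b_basisZ x (3 * (l - 1 - x))) = 0 := by
      refine Finset.sum_eq_zero fun x hx => ?_
      have hx0 : 0 < x := Nat.pos_of_ne_zero (Finset.ne_of_mem_erase hx)
      rw [map_mul, ← PowerSeries.coeff_zero_eq_constantCoeff_apply (s16b_basisZ _ _),
        s16b_basisZ_coeff_lt x _ hx0, mul_zero]
    rw [hrest, add_zero, map_mul, ← PowerSeries.coeff_zero_eq_constantCoeff_apply (s16b_basisZ _ _),
      s16b_basisZ_coeff_self]
    simp
  · intro A _ _
    have h1 := congrArg (PowerSeries.map (Int.castRingHom A)) hlam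
    rw [map_pow, s28q_GZ_map hdvd, map_sum] at h1
    rw [map_pow, h1]
    refine Finset.sum_congr rfl fun i _ => ?_
    rw [map_mul, PowerSeries.map_C]
    rfl

end Fermat.Agent.Lib.S28
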