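/-
S28 package (Q), part A' (helper2, prefix `s28q_`): the Hasse identity in `LaurentSeries k`,
`k` a field of characteristic `ℓ` (any prime `ℓ`):

  `∃ m ≥ 1, ∃ F ∈ k[X],  Δ̄^m · F(j̄) = 1`,   `j̄ = ModularCurve.jqModC k`,
  `Δ̄ = s28q_DeltaC k = q · ∏ (1 - qⁿ)²⁴`.

`ℓ ≥ 5`: `m = ℓ - 1` (from `s28q_hasse`);  `ℓ ∈ {2, 3}`: `m = 1`, `F = X` (`E₄ ≡ 1`).
-/
import Mathlib
import Fermat.Agent.Lib.S28.QHasse
import Fermat.Prelude.Def_ModularCurve_JqCoeff

set_option autoImplicit false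

open Fermat.Agent.Lib.S16 ModularCurve

namespace Fermat.Agent.Lib.S28

universe v

variable (k : Type v) [Field k]

theorem s28q_algebraMap_eq_C (c : k) :
    algebraMap k (LaurentSeries k) c = HahnSeries.C c := by
  have h1 : algebraMap k (PowerSeries k) c = PowerSeries.C c := by simp
  rw [HahnSeries.algebraMap_apply', h1, HahnSeries.ofPowerSeries_C]

/-- `Δ̄ = q ∏ (1 - qⁿ)²⁴` as a Laurent series over `k`. -/
noncomputable def s28q_DeltaC : LaurentSeries k :=
  HahnSeries.single (1 : ℤ) 1 *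
    HahnSeries.ofPowerSeries ℤ k (dedekindEtaUnit.map (Int.castRingHom k))

theorem s28q_DeltaC_eq :
    s28q_DeltaC k = HahnSeries.ofPowerSeries ℤ k (s16b_DeltaZ.map (Int.castRingHom k)) := by
  rw [s28q_DeltaC, s16b_DeltaZ, map_mul, map_mul, PowerSeries.map_X,
    HahnSeries.ofPowerSeries_X]
  rfl

/-- `Δ̄ · j̄ = E₄³`. -/
theorem s28q_DeltaC_mul_jqModC :
    s28q_DeltaC k * jqModC k =
      HahnSeries.ofPowerSeries ℤ k ((eisenstein4 ^ 3).map (Int.castRingHom k)) := by
  rw [s28q_DeltaC, jqModC]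
  have h1 : (HahnSeries.single (1 : ℤ) (1 : k)) * HahnSeries.single (-1 : ℤ) 1 = 1 := by
    rw [HahnSeries.single_mul_single]
    simp
  have h2 : HahnSeries.ofPowerSeries ℤ k (dedekindEtaUnit.map (Int.castRingHom k)) *
      HahnSeries.ofPowerSeries ℤ k (jNum.map (Int.castRingHom k)) =
      HahnSeries.ofPowerSeries ℤ k ((eisenstein4 ^ 3).map (Int.castRingHom k)) := by
    rw [← map_mul, ← map_mul, jNum,
      show dedekindEtaUnit * (eisenstein4 ^ 3 * dedekindEtaUnitInv) =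
        eisenstein4 ^ 3 * (dedekindEtaUnit * dedekindEtaUnitInv) by ring,
      dedekindEtaUnit_mul_inv, mul_one]
  calc _ = (HahnSeries.single (1 : ℤ) (1 : k) * HahnSeries.single (-1 : ℤ) 1) *
        (HahnSeries.ofPowerSeries ℤ k (dedekindEtaUnit.map (Int.castRingHom k)) *
          HahnSeries.ofPowerSeries ℤ k (jNum.map (Int.castRingHom k))) := by ring
    _ = _ := by rw [h1, h2, one_mul]

/-- `Δ̄^n · j̄^(n-i) = Δ^i E₄^{3(n-i)}` for `i ≤ n`. -/
theorem s28q_DeltaC_pow_mul_jqModC_pow {n i : ℕ} (hi : i ≤ n) :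
    s28q_DeltaC k ^ n * jqModC k ^ (n - i) =
      HahnSeries.ofPowerSeries ℤ k ((s16b_basisZ i (3 * (n - i))).map (Int.castRingHom k)) := by
  have h1 : s28q_DeltaC k ^ n = s28q_DeltaC k ^ i * s28q_DeltaC k ^ (n - i) := by
    rw [← pow_add]; congr 1; omega
  rw [h1, mul_assoc, ← mul_pow, s28q_DeltaC_mul_jqModC, s28q_DeltaC_eq, s16b_basisZ]
  simp only [map_mul, map_pow, pow_mul]

/-- the polynomial `a · ∑_{i<l} c_i X^{l-1-i}` is monic of degree `l - 1` when `a c_0 = 1`. -/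
theorem s28q_poly_monic {l : ℕ} (hl : 1 ≤ l) (a : k) (c : ℕ → k) (h : a * c 0 = 1) :
    (Polynomial.C a * ∑ i ∈ Finset.range l, Polynomial.C (c i) * Polynomial.X ^ (l - 1 - i)).Monic ∧
    (Polynomial.C a * ∑ i ∈ Finset.range l,
      Polynomial.C (c i) * Polynomial.X ^ (l - 1 - i)).natDegree = l - 1 := by
  set G : Polynomial k := ∑ i ∈ Finset.range l, Polynomial.C (c i) * Polynomial.X ^ (l - 1 - i)
    with hG
  have hle : (Polynomial.C a * G).natDegree ≤ l - 1 := by
    refine (Polynomial.natDegree_C_mul_le a G).trans ?_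
    refine Polynomial.natDegree_sum_le_of_forall_le _ _ fun i _ => ?_
    exact (Polynomial.natDegree_C_mul_X_pow_le _ _).trans (Nat.sub_le _ _)
  have hcoeff : (Polynomial.C a * G).coeff (l - 1) = 1 := by
    rw [Polynomial.coeff_C_mul, hG, Polynomial.finsetSum_coeff]
    have h0 : 0 ∈ Finset.range l := Finset.mem_range.mpr (by omega)
    rw [← Finset.add_sum_erase _ _ h0]
    have hrest : ∑ x ∈ (Finset.range l).erase 0,
        (Polynomial.C (c x) * Polynomial.X ^ (l - 1 - x)).coeff (l - 1) = 0 := by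
      refine Finset.sum_eq_zero fun x hx => ?_
      have hx0 : x ≠ 0 := Finset.ne_of_mem_erase hx
      have hxl : x < l := Finset.mem_range.mp (Finset.mem_of_mem_erase hx)
      rw [Polynomial.coeff_C_mul_X_pow, if_neg (by omega)]
    rw [hrest, add_zero, Polynomial.coeff_C_mul_X_pow, if_pos (by omega), h]
  have hdeg : (Polynomial.C a * G).natDegree = l - 1 :=
    Polynomial.natDegree_eq_of_le_of_coeff_ne_zero hle (by rw [hcoeff]; exact one_ne_zero)
  refine ⟨?_, hdeg⟩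
  rw [Polynomial.Monic, Polynomial.leadingCoeff, hdeg, hcoeff]

/-- **Hasse identity in `k((q))`, `ℓ ≥ 5`.** -/
theorem s28q_hasse_laurent_ge_five {l : ℕ} (hl : l.Prime) (hl5 : 5 ≤ l) [CharP k l] :
    ∃ F : Polynomial k, F.Monic ∧ F.natDegree = l - 1 ∧
      s28q_DeltaC k ^ (l - 1) * Polynomial.aeval (jqModC k) F = 1 := by
  obtain ⟨u, lam, hu, hlam0, h⟩ := s28q_hasse.{v} hl hl5
  have hA := h k
  have hu0 : ((u : ℤ) : k) ≠ 0 := by
    intro h0
    exact hu ((CharP.intCast_eq_zero_iff k l u).mp h0)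
  have hmon := s28q_poly_monic k (l := l) (by omega) ((((u : ℤ) : k) ^ 12)⁻¹)
    (fun i => ((lam i : ℤ) : k)) (by
      show (((u : ℤ) : k) ^ 12)⁻¹ * ((lam 0 : ℤ) : k) = 1
      rw [hlam0]
      push_cast
      exact inv_mul_cancel₀ (pow_ne_zero 12 hu0))
  refine ⟨Polynomial.C ((((u : ℤ) : k) ^ 12)⁻¹) *
    ∑ i ∈ Finset.range l, Polynomial.C ((lam i : ℤ) : k) * Polynomial.X ^ (l - 1 - i),
    hmon.1, hmon.2, ?_⟩
  rw [map_mul, Polynomial.aeval_C, map_sum, mul_left_comm, Finset.mul_sum]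
  have hterm : ∀ i ∈ Finset.range l,
      s28q_DeltaC k ^ (l - 1) * (Polynomial.aeval (jqModC k))
        (Polynomial.C ((lam i : ℤ) : k) * Polynomial.X ^ (l - 1 - i)) =
      HahnSeries.ofPowerSeries ℤ k (PowerSeries.C ((lam i : ℤ) : k) *
        (s16b_basisZ i (3 * (l - 1 - i))).map (Int.castRingHom k)) := by
    intro i hi
    have hi' : i ≤ l - 1 := by
      have := Finset.mem_range.mp hi; omega
    rw [map_mul, Polynomial.aeval_C, map_pow, Polynomial.aeval_X, mul_left_comm,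
      s28q_DeltaC_pow_mul_jqModC_pow k hi', map_mul, HahnSeries.ofPowerSeries_C,
      s28q_algebraMap_eq_C]
  rw [Finset.sum_congr rfl hterm, ← map_sum, hA, HahnSeries.ofPowerSeries_C]
  rw [s28q_algebraMap_eq_C, ← map_mul, inv_mul_cancel₀ (pow_ne_zero 12 hu0), map_one]

/-- `E₄ ≡ 1` in characteristic `2` or `3` (more generally when `240 = 0`). -/
theorem s28q_eisenstein4_map_eq_one (h240 : (240 : k) = 0) :
    eisenstein4.map (Int.castRingHom k) = 1 := by
  ext n
  rw [PowerSeries.coeff_map, eisenstein4, PowerSeries.coeff_mk, PowerSeries.coeff_one]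
  split_ifs with hn
  · simp
  · simp only [eq_intCast, Int.cast_mul, Int.cast_ofNat, h240, zero_mul]

/-- **Hasse identity in `k((q))`, `ℓ ∈ {2, 3, 5}`**: `Δ̄ · j̄ = 1`. -/
theorem s28q_hasse_laurent_small (h240 : (240 : k) = 0) :
    s28q_DeltaC k ^ 1 * Polynomial.aeval (jqModC k) (Polynomial.X : Polynomial k) = 1 := by
  rw [pow_one, Polynomial.aeval_X, s28q_DeltaC_mul_jqModC, map_pow,
    s28q_eisenstein4_map_eq_one k h240, one_pow, map_one]

/-- **Hasse identity in `k((q))`, every prime `ℓ`**: `Δ̄^m F(j̄) = 1` with `F` monic of degree `m`,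
`m ≥ 1` prime to `ℓ` (`m = 1`, `F = X` for `ℓ ≤ 3`; `m = ℓ - 1` for `ℓ ≥ 5`). -/
theorem s28q_hasse_laurent {l : ℕ} (hl : l.Prime) [CharP k l] :
    ∃ m : ℕ, 1 ≤ m ∧ ¬ l ∣ m ∧ ∃ F : Polynomial k, F.Monic ∧ F.natDegree = m ∧
      s28q_DeltaC k ^ m * Polynomial.aeval (jqModC k) F = 1 := by
  rcases Nat.lt_or_ge l 5 with h5 | h5
  · have h23 : l = 2 ∨ l = 3 := by
      have h2 := hl.two_le
      interval_cases l
      · exact Or.inl rfl
      · exact Or.inr rfl
      · exact absurd hl (by decide)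
    have h240 : (240 : k) = 0 := by
      have : ((240 : ℕ) : k) = 0 := by
        rw [CharP.cast_eq_zero_iff k l]
        rcases h23 with rfl | rfl <;> decide
      exact_mod_cast this
    refine ⟨1, le_rfl, ?_, Polynomial.X, Polynomial.monic_X, Polynomial.natDegree_X,
      s28q_hasse_laurent_small k h240⟩
    intro h
    have := Nat.le_of_dvd one_pos h
    have := hl.two_le
    omega
  · obtain ⟨F, hF1, hF2, hF⟩ := s28q_hasse_laurent_ge_five k hl h5
    refine ⟨l - 1, by omega, ?_, F, hF1, hF2, hF⟩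
    intro h
    have := Nat.le_of_dvd (by omega) h
    omega

end Fermat.Agent.Lib.S28
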