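/-
S28 package (Q), numerics (helper2, prefix `s28q_`): the coefficient of `q` in
`etaProd = ∏ (1 - qⁿ)` is `-1` (over `ℤ`, hence in every ring).
-/
import Mathlib
import Fermat.Prelude.Def_ModularCurve_X0

set_option autoImplicit false

open scoped PowerSeries.WithPiTopology
open PowerSeries ModularCurve Filter

namespace Fermat.Agent.Lib.S28

/-- finite products of factors `1 - X^(n+1)`, `n ≠ 0`, are `≡ 1 mod X²`. -/
theorem s28q_finprod_coeff (t : Finset ℕ) (ht : 0 ∉ t) :
    PowerSeries.coeff 0 (∏ n ∈ t, ((1 : PowerSeries ℤ) - X ^ (n + 1))) = 1 ∧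
      PowerSeries.coeff 1 (∏ n ∈ t, ((1 : PowerSeries ℤ) - X ^ (n + 1))) = 0 := by
  classical
  induction t using Finset.induction_on with
  | empty => simp
  | insert a s ha ih =>
    have hs : 0 ∉ s := fun h => ht (Finset.mem_insert_of_mem h)
    have ha0 : a ≠ 0 := fun h => ht (h ▸ Finset.mem_insert_self a s)
    obtain ⟨h0, h1⟩ := ih hs
    rw [Finset.prod_insert ha]
    have hf0 : PowerSeries.coeff 0 ((1 : PowerSeries ℤ) - X ^ (a + 1)) = 1 := by
      simp
    have hf1 : PowerSeries.coeff 1 ((1 : PowerSeries ℤ) - X ^ (a + 1)) = 0 := by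
      rw [map_sub, PowerSeries.coeff_one, PowerSeries.coeff_X_pow]
      simp [ha0]
    constructor
    · rw [PowerSeries.coeff_zero_eq_constantCoeff, map_mul,
        ← PowerSeries.coeff_zero_eq_constantCoeff_apply,
        ← PowerSeries.coeff_zero_eq_constantCoeff_apply, hf0, h0, mul_one]
    · rw [PowerSeries.coeff_mul, Finset.Nat.sum_antidiagonal_eq_sum_range_succ_mk,
        Finset.sum_range_succ, Finset.sum_range_one]
      simp only [Nat.sub_zero, Nat.sub_self, hf0, hf1, h0, h1]
      norm_num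

/-- **The coefficient of `q` in `∏ (1 - qⁿ)` is `-1`.** -/
theorem s28q_etaProd_coeff_one : PowerSeries.coeff 1 etaProd = (-1 : ℤ) := by
  classical
  have hmul := PowerSeries.WithPiTopology.multipliable_one_sub_X_pow ℤ
  have hprod : HasProd (fun n : ℕ => (1 : PowerSeries ℤ) - X ^ (n + 1)) etaProd := hmul.hasProd
  have hcont : Continuous (fun f : PowerSeries ℤ => PowerSeries.coeff 1 f) :=
    PowerSeries.WithPiTopology.continuous_coeff ℤ 1
  have h1 : Tendsto (fun s : Finset ℕ =>
      PowerSeries.coeff 1 (∏ n ∈ s, ((1 : PowerSeries ℤ) - X ^ (n + 1)))) atTop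
      (nhds (PowerSeries.coeff 1 etaProd)) := (hcont.tendsto _).comp hprod
  have h2 : Tendsto (fun s : Finset ℕ =>
      PowerSeries.coeff 1 (∏ n ∈ s, ((1 : PowerSeries ℤ) - X ^ (n + 1)))) atTop
      (nhds (-1 : ℤ)) := by
    refine Tendsto.congr' ?_ tendsto_const_nhds
    refine Filter.eventually_atTop.mpr ⟨{0}, fun s hs => ?_⟩
    have h0s : 0 ∈ s := hs (Finset.mem_singleton_self 0)
    show (-1 : ℤ) = PowerSeries.coeff 1 (∏ n ∈ s, ((1 : PowerSeries ℤ) - X ^ (n + 1)))
    rw [← Finset.mul_prod_erase s _ h0s]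
    obtain ⟨c0, c1⟩ := s28q_finprod_coeff (s.erase 0) (Finset.notMem_erase 0 s)
    rw [PowerSeries.coeff_mul, Finset.Nat.sum_antidiagonal_eq_sum_range_succ_mk,
      Finset.sum_range_succ, Finset.sum_range_one]
    simp only [Nat.sub_zero, Nat.sub_self, c0, c1]
    simp [PowerSeries.coeff_X, PowerSeries.coeff_one]
  exact tendsto_nhds_unique h1 h2

/-- the same in any commutative ring. -/
theorem s28q_etaProd_map_coeff_one (A : Type*) [CommRing A] :
    PowerSeries.coeff 1 (etaProd.map (Int.castRingHom A)) = -1 := by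
  rw [PowerSeries.coeff_map, s28q_etaProd_coeff_one]
  simp

end Fermat.Agent.Lib.S28
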