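/-
S28 package (X2): the eta norm identity in `k⟦X⟧`.

For a field `k`, a prime `r` and a primitive `r`-th root of unity `ζ ∈ k`, with
`Ek := etaProd mod k = ∏ (1 - Xⁿ)` and `Dk := X * Ek ^ 24`:

* `s28x_eta_norm`   : `(∏_{b<r} Ek(ζ^b X)) * Ek(X^(r²)) = Ek(X^r) ^ (r+1)`
* `s28x_delta_norm` : `(∏_{b<r} Dk(ζ^b X)) * Dk(X^(r²)) = ε · Dk(X^r) ^ (r+1)`, `ε = ∏_{b<r} ζ^b`, `ε² = 1`.
-/
import Mathlib
import Fermat.Prelude.Def_ModularCurve_X0

set_option autoImplicit false

noncomputable section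

namespace Fermat.Agent.Lib.S28

open PowerSeries Finset

/-- `∏_{b<r} (1 - ζ^b y) = 1 - y^r` in a domain with a primitive `r`-th root of unity. -/
theorem s28x_prod_one_sub_pow_mul {R : Type*} [CommRing R] [IsDomain R] {r : ℕ} (hr : 0 < r)
    {ζ : R} (hζ : IsPrimitiveRoot ζ r) (y : R) :
    ∏ b ∈ range r, (1 - ζ ^ b * y) = 1 - y ^ r := by
  classical
  have h1 := hζ.pow_sub_pow_eq_prod_sub_mul 1 y hr
  rw [one_pow] at h1
  rw [h1]
  have himg : Polynomial.nthRootsFinset r (1 : R) = (range r).image (fun b => ζ ^ b) := by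
    ext μ
    rw [Polynomial.mem_nthRootsFinset hr, mem_image]
    constructor
    · intro h
      have : NeZero r := ⟨hr.ne'⟩
      obtain ⟨i, hi, rfl⟩ := hζ.eq_pow_of_pow_eq_one h
      exact ⟨i, mem_range.mpr hi, rfl⟩
    · rintro ⟨i, -, rfl⟩
      rw [← pow_mul, mul_comm, pow_mul, hζ.pow_eq_one, one_pow]
  rw [himg, prod_image]
  intro a ha b hb hab
  exact hζ.pow_inj (mem_range.mp ha) (mem_range.mp hb) hab


variable {k : Type*} [Field k]

theorem s28x_rescale_one_sub_X_pow (a : k) (m : ℕ) :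
    rescale a ((1 : k⟦X⟧) - X ^ m) = 1 - C (a ^ m) * X ^ m := by
  rw [map_sub, map_one, map_pow, rescale_X, mul_pow, ← map_pow]

/-- The norm of `1 - X^m` under `X ↦ ζ^b X`, `b < r`. -/
theorem s28x_prod_rescale_one_sub {r : ℕ} (hr : r.Prime) {ζ : k} (hζ : IsPrimitiveRoot ζ r)
    (m : ℕ) :
    ∏ b ∈ range r, rescale (ζ ^ b) ((1 : k⟦X⟧) - X ^ m) =
      if r ∣ m then (1 - X ^ m) ^ r else 1 - X ^ (m * r) := by
  simp_rw [s28x_rescale_one_sub_X_pow]
  split_ifs with hdvd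
  · obtain ⟨c, rfl⟩ := hdvd
    have : ∀ b : ℕ, (ζ ^ b) ^ (r * c) = 1 := fun b => by
      rw [← pow_mul, mul_comm b, mul_assoc, pow_mul, hζ.pow_eq_one, one_pow]
    simp [this]
  · have hcop : Nat.Coprime m r := (Nat.Coprime.symm ((Nat.Prime.coprime_iff_not_dvd hr).mpr hdvd))
    have hξ : IsPrimitiveRoot (ζ ^ m) r := hζ.pow_of_coprime m hcop
    have hξ' : IsPrimitiveRoot (C (ζ ^ m) : k⟦X⟧) r :=
      hξ.map_of_injective (f := (C : k →+* k⟦X⟧)) C_injective
    have := s28x_prod_one_sub_pow_mul hr.pos hξ' ((X : k⟦X⟧) ^ m)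
    rw [← pow_mul] at this
    rw [← this]
    refine prod_congr rfl fun b _ => ?_
    rw [← map_pow, ← pow_mul, ← pow_mul, mul_comm b m]


/-! ### Finite truncations of the eta product -/

/-- The partial eta product `∏_{n<M} (1 - X^(n+1))` over `k`. -/
def s28x_etaPartial (k : Type*) [Field k] (M : ℕ) : k⟦X⟧ :=
  ∏ n ∈ range M, ((1 : k⟦X⟧) - X ^ (n + 1))

/-- The norm `x ↦ ∏_{b<r} x(ζ^b X)`. -/
def s28x_norm (r : ℕ) (ζ : k) (x : k⟦X⟧) : k⟦X⟧ := ∏ b ∈ range r, rescale (ζ ^ b) x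

theorem s28x_norm_mul (r : ℕ) (ζ : k) (x y : k⟦X⟧) :
    s28x_norm r ζ (x * y) = s28x_norm r ζ x * s28x_norm r ζ y := by
  simp only [s28x_norm, map_mul, prod_mul_distrib]

theorem s28x_norm_one (r : ℕ) (ζ : k) : s28x_norm r ζ (1 : k⟦X⟧) = 1 := by
  simp [s28x_norm]

theorem s28x_norm_prod (r : ℕ) (ζ : k) {ι : Type*} (s : Finset ι) (f : ι → k⟦X⟧) :
    s28x_norm r ζ (∏ i ∈ s, f i) = ∏ i ∈ s, s28x_norm r ζ (f i) := by
  simp only [s28x_norm, map_prod]
  exact prod_comm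

theorem s28x_norm_pow (r : ℕ) (ζ : k) (x : k⟦X⟧) (n : ℕ) :
    s28x_norm r ζ (x ^ n) = s28x_norm r ζ x ^ n := by
  simp only [s28x_norm, map_pow, prod_pow]

theorem s28x_expand_one_sub_X_pow {r : ℕ} (hr : r ≠ 0) (m : ℕ) :
    expand r hr ((1 : k⟦X⟧) - X ^ m) = 1 - X ^ (r * m) := by
  rw [map_sub, map_one, map_pow, expand_X, ← pow_mul]

/-- Reindexing the multiples of `r` in `[1, r M]`. -/
theorem s28x_prod_range_mul_dvd {A : Type*} [CommMonoid A] {r : ℕ} (hr : 0 < r) (h : ℕ → A)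
    (M : ℕ) :
    ∏ n ∈ range (r * M), (if r ∣ n + 1 then h (n + 1) else 1) =
      ∏ n ∈ range M, h (r * (n + 1)) := by
  induction M with
  | zero => simp
  | succ M ih =>
    rw [Nat.mul_succ, prod_range_add, ih, prod_range_succ]
    congr 1
    rw [prod_eq_single (r - 1)]
    · have h1 : r * M + (r - 1) + 1 = r * (M + 1) := by
        rw [Nat.mul_succ]; omega
      rw [h1, if_pos (dvd_mul_right _ _)]
    · intro b hb hne
      rw [mem_range] at hb
      rw [if_neg]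
      intro hdvd
      have h2 : r ∣ b + 1 := by
        have : r * M + b + 1 = r * M + (b + 1) := by ring
        rw [this] at hdvd
        exact (Nat.dvd_add_right (dvd_mul_right r M)).mp hdvd
      have := Nat.le_of_dvd (Nat.succ_pos b) h2
      omega
    · intro hnot
      exact absurd (mem_range.mpr (by omega)) hnot

/-- The exact finite form of the eta norm identity. -/
theorem s28x_eta_norm_partial {r : ℕ} (hr : r.Prime) {ζ : k} (hζ : IsPrimitiveRoot ζ r) (M : ℕ) :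
    s28x_norm r ζ (s28x_etaPartial k (r * M)) *
        expand r hr.ne_zero (expand r hr.ne_zero (s28x_etaPartial k M)) =
      expand r hr.ne_zero (s28x_etaPartial k (r * M)) *
        (expand r hr.ne_zero (s28x_etaPartial k M)) ^ r := by
  have hfac : ∀ m : ℕ,
      s28x_norm r ζ ((1 : k⟦X⟧) - X ^ m) *
          (if r ∣ m then expand r hr.ne_zero ((1 : k⟦X⟧) - X ^ m) else 1) =
        expand r hr.ne_zero ((1 : k⟦X⟧) - X ^ m) *
          (if r ∣ m then ((1 : k⟦X⟧) - X ^ m) ^ r else 1) := by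
    intro m
    rw [s28x_norm, s28x_prod_rescale_one_sub hr hζ m]
    split_ifs with hd
    · exact mul_comm _ _
    · rw [mul_one, mul_one, s28x_expand_one_sub_X_pow, mul_comm]
  have h1 : s28x_norm r ζ (s28x_etaPartial k (r * M)) *
        ∏ n ∈ range (r * M),
          (if r ∣ n + 1 then expand r hr.ne_zero ((1 : k⟦X⟧) - X ^ (n + 1)) else 1) =
      expand r hr.ne_zero (s28x_etaPartial k (r * M)) *
        ∏ n ∈ range (r * M), (if r ∣ n + 1 then ((1 : k⟦X⟧) - X ^ (n + 1)) ^ r else 1) := by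
    rw [s28x_etaPartial, s28x_norm_prod, map_prod, ← prod_mul_distrib, ← prod_mul_distrib]
    exact prod_congr rfl fun n _ => hfac (n + 1)
  rw [s28x_prod_range_mul_dvd hr.pos (fun m => expand r hr.ne_zero ((1 : k⟦X⟧) - X ^ m)),
    s28x_prod_range_mul_dvd hr.pos (fun m => ((1 : k⟦X⟧) - X ^ m) ^ r)] at h1
  have h2 : ∏ n ∈ range M, expand r hr.ne_zero ((1 : k⟦X⟧) - X ^ (r * (n + 1))) =
      expand r hr.ne_zero (expand r hr.ne_zero (s28x_etaPartial k M)) := by
    rw [s28x_etaPartial, map_prod, map_prod]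
    refine prod_congr rfl fun n _ => ?_
    rw [s28x_expand_one_sub_X_pow hr.ne_zero (n + 1)]
  have h3 : ∏ n ∈ range M, ((1 : k⟦X⟧) - X ^ (r * (n + 1))) ^ r =
      (expand r hr.ne_zero (s28x_etaPartial k M)) ^ r := by
    rw [s28x_etaPartial, map_prod, ← prod_pow]
    refine prod_congr rfl fun n _ => ?_
    rw [s28x_expand_one_sub_X_pow hr.ne_zero (n + 1)]
  rw [h2, h3] at h1
  exact h1


/-! ### Passing to the limit -/

section Limit

open Filter Topology
open scoped PowerSeries.WithPiTopology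

/-- Maps of power series that are determined coefficientwise preserve limits
(discrete coefficients). -/
theorem s28x_tendsto_of_coeffwise [TopologicalSpace k] [DiscreteTopology k] {ι : Type*}
    {l : Filter ι} (Φ : k⟦X⟧ → k⟦X⟧)
    (hΦ : ∀ d : ℕ, ∃ (d' : ℕ) (φ : k → k), ∀ x, coeff d (Φ x) = φ (coeff d' x))
    {u : ι → k⟦X⟧} {x : k⟦X⟧} (hu : Tendsto u l (𝓝 x)) :
    Tendsto (fun i => Φ (u i)) l (𝓝 (Φ x)) := by
  rw [WithPiTopology.tendsto_iff_coeff_tendsto] at hu ⊢
  intro d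
  obtain ⟨d', φ, hφ⟩ := hΦ d
  simp_rw [hφ]
  exact (continuous_of_discreteTopology (f := φ)).continuousAt.tendsto.comp (hu d')

theorem s28x_tendsto_rescale [TopologicalSpace k] [DiscreteTopology k] {ι : Type*}
    {l : Filter ι} (a : k) {u : ι → k⟦X⟧} {x : k⟦X⟧} (hu : Tendsto u l (𝓝 x)) :
    Tendsto (fun i => rescale a (u i)) l (𝓝 (rescale a x)) :=
  s28x_tendsto_of_coeffwise (fun y => rescale a y)
    (fun d => ⟨d, fun c => a ^ d * c, fun y => coeff_rescale y a d⟩) hu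

theorem s28x_tendsto_expand [TopologicalSpace k] [DiscreteTopology k] {ι : Type*}
    {l : Filter ι} {r : ℕ} (hr : r ≠ 0) {u : ι → k⟦X⟧} {x : k⟦X⟧} (hu : Tendsto u l (𝓝 x)) :
    Tendsto (fun i => expand r hr (u i)) l (𝓝 (expand r hr x)) :=
  s28x_tendsto_of_coeffwise (fun y => expand r hr y)
    (fun d => ⟨d / r, fun c => if r ∣ d then c else 0, fun y => coeff_expand r hr y⟩) hu

theorem s28x_tendsto_norm [TopologicalSpace k] [DiscreteTopology k] {ι : Type*}
    {l : Filter ι} (r : ℕ) (ζ : k) {u : ι → k⟦X⟧} {x : k⟦X⟧} (hu : Tendsto u l (𝓝 x)) :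
    Tendsto (fun i => s28x_norm r ζ (u i)) l (𝓝 (s28x_norm r ζ x)) := by
  unfold s28x_norm
  exact tendsto_finsetProd _ fun b _ => s28x_tendsto_rescale (ζ ^ b) hu

/-- The eta product over `k`. -/
def s28x_eta (k : Type*) [Field k] : k⟦X⟧ := ModularCurve.etaProd.map (Int.castRingHom k)

theorem s28x_etaPartial_eq_map (M : ℕ) :
    s28x_etaPartial k M =
      (∏ n ∈ range M, ((1 : ℤ⟦X⟧) - X ^ (n + 1))).map (Int.castRingHom k) := by
  rw [s28x_etaPartial, map_prod]
  refine prod_congr rfl fun n _ => ?_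
  simp

theorem s28x_tendsto_etaPartial [TopologicalSpace k] [DiscreteTopology k] :
    Tendsto (s28x_etaPartial k) atTop (𝓝 (s28x_eta k)) := by
  have h1 : HasProd (fun n : ℕ => (1 : ℤ⟦X⟧) - X ^ (n + 1)) ModularCurve.etaProd :=
    (WithPiTopology.multipliable_one_sub_X_pow ℤ).hasProd
  have h2 : Tendsto (fun M : ℕ => ∏ n ∈ range M, ((1 : ℤ⟦X⟧) - X ^ (n + 1))) atTop
      (𝓝 ModularCurve.etaProd) := h1.tendsto_prod_nat
  rw [WithPiTopology.tendsto_iff_coeff_tendsto] at h2 ⊢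
  intro d
  simp_rw [s28x_etaPartial_eq_map, s28x_eta, coeff_map]
  exact (continuous_of_discreteTopology (f := (Int.castRingHom k))).continuousAt.tendsto.comp (h2 d)

/-- **Eta norm identity**: `(∏_{b<r} η(ζ^b X)) * η(X^(r²)) = η(X^r)^(r+1)`. -/
theorem s28x_eta_norm {r : ℕ} (hr : r.Prime) {ζ : k} (hζ : IsPrimitiveRoot ζ r) :
    s28x_norm r ζ (s28x_eta k) * expand r hr.ne_zero (expand r hr.ne_zero (s28x_eta k)) =
      (expand r hr.ne_zero (s28x_eta k)) ^ (r + 1) := by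
  let _ : TopologicalSpace k := ⊥
  have : DiscreteTopology k := ⟨rfl⟩
  have hT : Tendsto (s28x_etaPartial k) atTop (𝓝 (s28x_eta k)) := s28x_tendsto_etaPartial
  have hT' : Tendsto (fun M => s28x_etaPartial k (r * M)) atTop (𝓝 (s28x_eta k)) :=
    hT.comp (tendsto_atTop_mono (fun M => Nat.le_mul_of_pos_left M hr.pos) tendsto_id)
  have hL : Tendsto (fun M => s28x_norm r ζ (s28x_etaPartial k (r * M)) *
        expand r hr.ne_zero (expand r hr.ne_zero (s28x_etaPartial k M))) atTop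
      (𝓝 (s28x_norm r ζ (s28x_eta k) *
        expand r hr.ne_zero (expand r hr.ne_zero (s28x_eta k)))) :=
    (s28x_tendsto_norm r ζ hT').mul
      (s28x_tendsto_expand hr.ne_zero (s28x_tendsto_expand hr.ne_zero hT))
  have hR : Tendsto (fun M => expand r hr.ne_zero (s28x_etaPartial k (r * M)) *
        (expand r hr.ne_zero (s28x_etaPartial k M)) ^ r) atTop
      (𝓝 (expand r hr.ne_zero (s28x_eta k) * (expand r hr.ne_zero (s28x_eta k)) ^ r)) :=
    (s28x_tendsto_expand hr.ne_zero hT').mul ((s28x_tendsto_expand hr.ne_zero hT).pow r)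
  have := tendsto_nhds_unique hL (hR.congr fun M => (s28x_eta_norm_partial hr hζ M).symm)
  rw [this, pow_succ']

end Limit

/-- Same identity with `X ↦ X^(r*r)` written as a single `expand`. -/
theorem s28x_eta_norm' {r : ℕ} (hr : r.Prime) {ζ : k} (hζ : IsPrimitiveRoot ζ r) :
    (∏ b ∈ range r, rescale (ζ ^ b) (s28x_eta k)) *
        expand (r * r) (Nat.mul_ne_zero hr.ne_zero hr.ne_zero) (s28x_eta k) =
      (expand r hr.ne_zero (s28x_eta k)) ^ (r + 1) := by
  rw [expand_mul r hr.ne_zero r hr.ne_zero]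
  exact s28x_eta_norm hr hζ

/-! ### The discriminant `Δ = X η²⁴` -/

/-- The formal discriminant over `k`. -/
def s28x_delta (k : Type*) [Field k] : k⟦X⟧ := X * s28x_eta k ^ 24

/-- The sign `ε = ∏_{b<r} ζ^b`. -/
def s28x_eps (r : ℕ) (ζ : k) : k := ∏ b ∈ range r, ζ ^ b

theorem s28x_eps_sq {r : ℕ} {ζ : k} (hζ : ζ ^ r = 1) : s28x_eps r ζ ^ 2 = 1 := by
  rw [s28x_eps, prod_pow_eq_pow_sum, ← pow_mul, Finset.sum_range_id_mul_two, pow_mul, hζ, one_pow]

theorem s28x_eps_ne_zero {r : ℕ} {ζ : k} (hζ : ζ ^ r = 1) : s28x_eps r ζ ≠ 0 := by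
  intro h
  have := s28x_eps_sq hζ
  rw [h] at this
  simp at this

theorem s28x_norm_X (r : ℕ) (ζ : k) :
    s28x_norm r ζ (X : k⟦X⟧) = C (s28x_eps r ζ) * X ^ r := by
  simp only [s28x_norm, rescale_X, prod_mul_distrib, prod_const, card_range, s28x_eps, map_prod]

/-- **Delta norm identity**:
`(∏_{b<r} Δ(ζ^b X)) * Δ(X^(r²)) = ε · Δ(X^r)^(r+1)`. -/
theorem s28x_delta_norm {r : ℕ} (hr : r.Prime) {ζ : k} (hζ : IsPrimitiveRoot ζ r) :
    s28x_norm r ζ (s28x_delta k) * expand r hr.ne_zero (expand r hr.ne_zero (s28x_delta k)) =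
      C (s28x_eps r ζ) * (expand r hr.ne_zero (s28x_delta k)) ^ (r + 1) := by
  have h := s28x_eta_norm hr hζ
  simp only [s28x_delta, s28x_norm_mul, s28x_norm_pow, s28x_norm_X, map_mul, map_pow, expand_X]
  calc C (s28x_eps r ζ) * X ^ r * s28x_norm r ζ (s28x_eta k) ^ 24 *
        ((X ^ r) ^ r * expand r hr.ne_zero (expand r hr.ne_zero (s28x_eta k)) ^ 24)
      = C (s28x_eps r ζ) * (X ^ r * (X ^ r) ^ r) *
          (s28x_norm r ζ (s28x_eta k) *
            expand r hr.ne_zero (expand r hr.ne_zero (s28x_eta k))) ^ 24 := by ring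
    _ = C (s28x_eps r ζ) * (X ^ r * expand r hr.ne_zero (s28x_eta k) ^ 24) ^ (r + 1) := by
        rw [h]; ring

/-- Unfolded form of the delta norm identity. -/
theorem s28x_delta_norm' {r : ℕ} (hr : r.Prime) {ζ : k} (hζ : IsPrimitiveRoot ζ r) :
    (∏ b ∈ range r, rescale (ζ ^ b) (s28x_delta k)) *
        expand (r * r) (Nat.mul_ne_zero hr.ne_zero hr.ne_zero) (s28x_delta k) =
      C (∏ b ∈ range r, ζ ^ b) * (expand r hr.ne_zero (s28x_delta k)) ^ (r + 1) := by
  rw [expand_mul r hr.ne_zero r hr.ne_zero]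
  exact s28x_delta_norm hr hζ


/-! ### Transport to Laurent series -/

section Laurent

open HahnSeries

/-- `ofPowerSeries` intertwines `expand r` with the Prelude's `qExpand`. -/
theorem s28x_ofPowerSeries_expand {r : ℕ} [NeZero r] (f : k⟦X⟧) :
    ModularCurve.qExpand k r (ofPowerSeries ℤ k f) =
      ofPowerSeries ℤ k (PowerSeries.expand r (NeZero.ne r) f) := by
  ext n
  by_cases hn : (r : ℤ) ∣ n
  · obtain ⟨m, rfl⟩ := hn
    rw [ModularCurve.qExpand_coeff_mul]
    rcases lt_or_ge m 0 with hm | hm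
    · rw [ModularCurve.ofPowerSeries_coeff_of_neg f hm, ModularCurve.ofPowerSeries_coeff_of_neg]
      exact mul_neg_of_pos_of_neg (by exact_mod_cast Nat.pos_of_ne_zero (NeZero.ne r)) hm
    · obtain ⟨c, rfl⟩ := Int.eq_ofNat_of_zero_le hm
      rw [ofPowerSeries_apply_coeff, show (r : ℤ) * (c : ℤ) = ((r * c : ℕ) : ℤ) by push_cast; ring,
        ofPowerSeries_apply_coeff, PowerSeries.coeff_expand_mul]
  · rw [ModularCurve.qExpand_coeff_of_not_dvd r _ hn]
    rcases lt_or_ge n 0 with hm | hm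
    · rw [ModularCurve.ofPowerSeries_coeff_of_neg _ hm]
    · obtain ⟨c, rfl⟩ := Int.eq_ofNat_of_zero_le hm
      rw [ofPowerSeries_apply_coeff, PowerSeries.coeff_expand_of_not_dvd]
      intro hd
      exact hn (by exact_mod_cast hd)

/-- The formal discriminant as a Laurent series over `k`. -/
def s28x_deltaL (k : Type*) [Field k] : LaurentSeries k := ofPowerSeries ℤ k (s28x_delta k)

theorem s28x_deltaL_eq :
    s28x_deltaL k = single (1 : ℤ) (1 : k) *
      ofPowerSeries ℤ k ((ModularCurve.etaProd.map (Int.castRingHom k)) ^ 24) := by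
  rw [s28x_deltaL, s28x_delta, map_mul, ofPowerSeries_X, s28x_eta]

/-- **Delta norm identity in `LaurentSeries k`**, for any family `T b` of ring endomorphisms of
`LaurentSeries k` that restrict to `t ↦ ζ^b t` on power series. -/
theorem s28x_delta_norm_laurent {r : ℕ} [NeZero r] (hr : r.Prime) {ζ : k}
    (hζ : IsPrimitiveRoot ζ r) (T : ℕ → LaurentSeries k →+* LaurentSeries k)
    (hT : ∀ (b : ℕ) (f : k⟦X⟧),
      T b (ofPowerSeries ℤ k f) = ofPowerSeries ℤ k (PowerSeries.rescale (ζ ^ b) f)) :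
    (∏ b ∈ range r, T b (s28x_deltaL k)) *
        ModularCurve.qExpand k r (ModularCurve.qExpand k r (s28x_deltaL k)) =
      HahnSeries.C (s28x_eps r ζ) * (ModularCurve.qExpand k r (s28x_deltaL k)) ^ (r + 1) := by
  have h := congrArg (ofPowerSeries ℤ k) (s28x_delta_norm hr hζ)
  rw [map_mul, map_mul, map_pow, s28x_norm, map_prod, ofPowerSeries_C] at h
  simp only [s28x_deltaL, s28x_ofPowerSeries_expand, hT]
  have e : NeZero.ne r = hr.ne_zero := rfl
  simpa only [e] using h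

end Laurent

end Fermat.Agent.Lib.S28
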