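/-
S28 package (X7): exclusion of the Kronecker shape at prime level `r ≠ ℓ`:
over an algebraically closed field `k` of characteristic `ℓ`, `j̄(q^r)` is not a polynomial
in `j̄(q)`.
-/
import Mathlib
import Fermat.Prelude.Def_ModularCurve_JqCoeff
import Fermat.Agent.Lib.S28.CIdentity
import Fermat.Agent.Lib.S28.CRigid
import Fermat.Agent.Lib.S28.CShape
import Fermat.Agent.Lib.S28.XEtaNorm
import Fermat.Agent.Lib.S28.QHasseL
import Fermat.Agent.Lib.S28.QNum

set_option autoImplicit false

noncomputable section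

open HahnSeries ModularCurve Polynomial

namespace Fermat.Agent.Lib.S28

theorem s28c_constantCoeff_eta (k : Type*) [Field k] :
    PowerSeries.constantCoeff (s28x_eta k) = 1 := by
  rw [s28x_eta, ← PowerSeries.coeff_zero_eq_constantCoeff, PowerSeries.coeff_map,
    PowerSeries.coeff_zero_eq_constantCoeff, constantCoeff_etaProd, map_one]

theorem s28c_constantCoeff_jNum_map (k : Type*) [Field k] :
    PowerSeries.constantCoeff (jNum.map (Int.castRingHom k)) = 1 := by
  rw [← PowerSeries.coeff_zero_eq_constantCoeff, PowerSeries.coeff_map,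
    PowerSeries.coeff_zero_eq_constantCoeff, constantCoeff_jNum, map_one]

/-- **(X7) exclusion of the Kronecker shape.** -/
theorem s28c_exclusion (k : Type*) [Field k] [IsAlgClosed k] (ℓ : ℕ) [Fact ℓ.Prime] [CharP k ℓ]
    (r : ℕ) [NeZero r] (hr : r.Prime) (hrl : r ≠ ℓ) :
    ¬ ∃ R : Polynomial k, qExpand k r (jqModC k) = Polynomial.aeval (jqModC k) R := by
  rintro ⟨R, hR⟩
  have hℓ : ℓ.Prime := Fact.out
  have hrk : (r : k) ≠ 0 := by
    rw [Ne, CharP.cast_eq_zero_iff k ℓ]
    intro hd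
    exact hrl ((Nat.prime_dvd_prime_iff_eq hℓ hr).mp hd).symm
  haveI : NeZero (r : k) := ⟨hrk⟩
  obtain ⟨ζ0, hζ0⟩ := HasEnoughRootsOfUnity.exists_primitiveRoot k r
  set ζ : kˣ := (hζ0.isUnit (NeZero.ne r)).unit with hζdef
  have hζv : (ζ : k) = ζ0 := IsUnit.unit_spec _
  have hζ : IsPrimitiveRoot ζ r := IsPrimitiveRoot.coe_units_iff.mp (by rw [hζv]; exact hζ0)
  set P : PowerSeries k := jNum.map (Int.castRingHom k) with hPdef
  have hP : PowerSeries.constantCoeff P = 1 := s28c_constantCoeff_jNum_map k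
  have hJ : jqModC k = s28c_pole 1 P := by rw [jqModC, s28c_pole, Nat.cast_one]
  rw [hJ] at hR
  -- Hasse identity
  obtain ⟨m, hm1, hlm, F, hFm, hFd, hF⟩ := s28q_hasse_laurent k hℓ
  have hD : s28q_DeltaC k = HahnSeries.ofPowerSeries ℤ k (s28x_delta k) := by
    rw [s28q_DeltaC, ← s28x_deltaL, s28x_deltaL_eq, dedekindEtaUnit, map_pow]
  rw [hD, hJ] at hF
  -- polynomial identity
  have hnorm := s28x_delta_norm' (k := k) hr hζ0
  rw [← hζv] at hnorm
  obtain ⟨c, hc, hid⟩ := s28c_identity ζ hζ P (s28x_delta k) hP (∏ b ∈ Finset.range r, (ζ : k) ^ b)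
    (by
      have := s28x_eps_ne_zero (k := k) (r := r) (ζ := (ζ : k)) (by rw [hζv]; exact hζ0.pow_eq_one)
      exact this) hnorm m F hF R hR
  obtain ⟨hRd, hRm, -⟩ := s28c_roots ζ hζ P hP R hR
  have hpre : ∀ y : k, F.eval (R.eval y) = 0 → F.eval y = 0 := by
    intro y hy
    have h1 := congrArg (Polynomial.eval y) hid
    rw [Polynomial.eval_pow, Polynomial.eval_mul, Polynomial.eval_mul, Polynomial.eval_C,
      Polynomial.eval_comp, hy, mul_zero, zero_mul] at h1
    exact (pow_eq_zero_iff (Nat.succ_ne_zero r)).mp h1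
  obtain ⟨c₀, hRc, hFc⟩ := s28c_shape hr.two_le hrk F R (by omega) hRm hRd hpre
  have hFpow : F = (Polynomial.X - Polynomial.C c₀) ^ m := by
    have h1 := s28c_eq_pow_of_unique_root F hFm c₀ hFc
    rwa [hFd] at h1
  -- the series `W = D (J - c₀)`
  set E24 : PowerSeries k := s28x_eta k ^ 24 with hE24def
  have hE24c : PowerSeries.constantCoeff E24 = 1 := by
    rw [hE24def, map_pow, s28c_constantCoeff_eta, one_pow]
  have hDX : s28x_delta k = PowerSeries.X * E24 := rfl
  set W : PowerSeries k := E24 * (P - PowerSeries.C c₀ * PowerSeries.X) with hWdef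
  have hW0 : PowerSeries.constantCoeff W = 1 := by
    rw [hWdef, map_mul, map_sub, map_mul, PowerSeries.constantCoeff_X, mul_zero, sub_zero, hE24c,
      hP, one_mul]
  set Jc : LaurentSeries k := s28c_pole 1 P - algebraMap k (LaurentSeries k) c₀ with hJc
  have hDJ : HahnSeries.ofPowerSeries ℤ k (s28x_delta k) * Jc = HahnSeries.ofPowerSeries ℤ k W := by
    have h1 : HahnSeries.single (1 : ℤ) (1 : k) * HahnSeries.single (-1 : ℤ) 1 = 1 := by
      rw [HahnSeries.single_mul_single]; simp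
    have h2 : algebraMap k (LaurentSeries k) c₀ = HahnSeries.ofPowerSeries ℤ k (PowerSeries.C c₀) := by
      rw [HahnSeries.ofPowerSeries_C, s28q_algebraMap_eq_C]
    rw [hJc, hDX, hWdef, s28c_pole, Nat.cast_one, h2, map_mul, map_mul, map_sub, map_mul,
      HahnSeries.ofPowerSeries_X]
    linear_combination (HahnSeries.ofPowerSeries ℤ k E24 * HahnSeries.ofPowerSeries ℤ k P) * h1
  have hW1 : W = 1 := by
    have h1 : Polynomial.aeval (s28c_pole 1 P) F = Jc ^ m := by
      rw [hFpow, map_pow, map_sub, Polynomial.aeval_X, Polynomial.aeval_C]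
    rw [h1, ← mul_pow, hDJ, ← map_pow] at hF
    have h2 : W ^ m = 1 := HahnSeries.ofPowerSeries_injective (by rw [hF, map_one])
    refine s28c_eq_one_of_pow_eq_one W hW0 m ?_ h2
    rw [Ne, CharP.cast_eq_zero_iff k ℓ]
    exact hlm
  have hE1 : HahnSeries.ofPowerSeries ℤ k (s28x_delta k) * Jc = 1 := by
    rw [hDJ, hW1, map_one]
  -- Kronecker shape for `Jc`
  have hK : qExpand k r Jc = Jc ^ r := by
    rw [hJc, map_sub, s28c_qExpand_algebraMap, hR, hRc, map_add, map_pow, map_sub,
      Polynomial.aeval_X, Polynomial.aeval_C]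
    ring
  have hVD : qExpand k r (HahnSeries.ofPowerSeries ℤ k (s28x_delta k)) =
      (HahnSeries.ofPowerSeries ℤ k (s28x_delta k)) ^ r := by
    have h1 := congrArg (qExpand k r) hE1
    rw [map_mul, map_one, hK] at h1
    have h2 : (HahnSeries.ofPowerSeries ℤ k (s28x_delta k)) ^ r * Jc ^ r = 1 := by
      rw [← mul_pow, hE1, one_pow]
    calc qExpand k r (HahnSeries.ofPowerSeries ℤ k (s28x_delta k))
        = qExpand k r (HahnSeries.ofPowerSeries ℤ k (s28x_delta k)) *
            ((HahnSeries.ofPowerSeries ℤ k (s28x_delta k)) ^ r * Jc ^ r) := by rw [h2, mul_one]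
      _ = (HahnSeries.ofPowerSeries ℤ k (s28x_delta k)) ^ r *
            (qExpand k r (HahnSeries.ofPowerSeries ℤ k (s28x_delta k)) * Jc ^ r) := by ring
      _ = _ := by rw [h1, mul_one]
  rw [s28c_qExpand_ofPowerSeries, ← map_pow] at hVD
  have hexp : PowerSeries.expand r (NeZero.ne r) (s28x_delta k) = s28x_delta k ^ r :=
    HahnSeries.ofPowerSeries_injective hVD
  rw [hDX, map_mul, PowerSeries.expand_X, mul_pow] at hexp
  have hE : PowerSeries.expand r (NeZero.ne r) E24 = E24 ^ r :=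
    mul_left_cancel₀ (pow_ne_zero r PowerSeries.X_ne_zero) hexp
  have hE24 : E24 = 1 := s28c_rigid E24 hE24c r hr.two_le hrk hE.symm
  have heta : s28x_eta k = 1 :=
    s28c_eq_one_of_pow_eq_one_charP ℓ (s28x_eta k) (s28c_constantCoeff_eta k) 24 (by norm_num) hE24
  have hcoef := s28q_etaProd_map_coeff_one k
  rw [← s28x_eta, heta, PowerSeries.coeff_one, if_neg one_ne_zero] at hcoef
  exact one_ne_zero (neg_eq_zero.mp hcoef.symm)

end Fermat.Agent.Lib.S28

end
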