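/-
S28 package (T1+T2): the prime-level wrapper.

From the level-`r` modular equation `Φ(X, j(t^r)) = (X - j(t^{r²})) ∏_b (X - j(ζ^b t))` in
`k((t))[X]`, the twist automorphisms `t ↦ ζ^b t` and the exclusion of the Kronecker shape
`j(t^r) = R(j(t))`, we get that `Φ` is irreducible over `k(Y)`; then, for every `m`, the element
`j(q^m)` has degree `r + 1` over `k(j(q^(m r)))` and all its conjugates are series in `q^m`.
-/
import Mathlib
import Fermat.Prelude.Def_ModularCurve_JqCoeff
import Fermat.Prelude.Thm_ModularCurve_coeff_jqModC_pow_self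
import Fermat.Prelude.Thm_ModularCurve_coeff_jqModC_pow_of_lt
import Fermat.Prelude.Thm_ModularCurve_coeff_jqModC_neg_one

set_option autoImplicit false

noncomputable section

namespace Fermat.Agent.Lib.S28

open Polynomial IntermediateField Finset

variable {k : Type*} [Field k]

/-- `qExpand` as a `k`-algebra endomorphism of `k((t))`. -/
def s28t_V (k : Type*) [Field k] (r : ℕ) [NeZero r] : LaurentSeries k →ₐ[k] LaurentSeries k where
  __ := ModularCurve.qExpand k r
  commutes' a := by
    show ModularCurve.qExpand k r (algebraMap k (LaurentSeries k) a) = algebraMap k _ a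
    rw [LaurentSeries.algebraMap_apply, ModularCurve.qExpand_C]

@[simp]
theorem s28t_V_apply (r : ℕ) [NeZero r] (f : LaurentSeries k) :
    s28t_V k r f = ModularCurve.qExpand k r f := rfl

theorem s28t_V_injective (r : ℕ) [NeZero r] : Function.Injective (s28t_V k r) :=
  ModularCurve.qExpand_injective r

/-- Roots of a polynomial over a field containing `r` pairwise distinct elements: the product of
the linear factors divides. -/
theorem s28t_prod_dvd_of_roots {L : Type*} [Field L] {r : ℕ} (Y : ℕ → L)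
    (hinj : ∀ b < r, ∀ b' < r, Y b = Y b' → b = b') (p : L[X])
    (hroot : ∀ b < r, p.eval (Y b) = 0) :
    ∏ b ∈ range r, (X - C (Y b)) ∣ p := by
  classical
  have h : ∏ b ∈ range r, (X - C (Y b)) = ∏ y ∈ (range r).image Y, (X - C y) := by
    rw [prod_image]
    intro a ha b hb hab
    exact hinj a (mem_range.mp ha) b (mem_range.mp hb) hab
  rw [h]
  refine Finset.prod_dvd_of_coprime ?_ ?_
  · intro a _ b _ hab
    exact Polynomial.isCoprime_X_sub_C_of_isUnit_sub (sub_ne_zero.mpr hab).isUnit
  · intro y hy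
    obtain ⟨b, hb, rfl⟩ := mem_image.mp hy
    exact Polynomial.dvd_iff_isRoot.mpr (hroot b (mem_range.mp hb))


/-- Transfer of irreducibility between `k(Y)` and `k⟮z⟯` for a transcendental `z`. -/
theorem s28t_irreducible_iff_ratFunc {L : Type*} [Field L] [Algebra k L] (z : L)
    (hz : Transcendental k z) (Φ : Polynomial (Polynomial k)) :
    Irreducible (Φ.map (aeval (AdjoinSimple.gen k z) : k[X] →ₐ[k] k⟮z⟯).toRingHom) ↔
      Irreducible (Φ.map (algebraMap k[X] (RatFunc k))) := by
  set e := RatFunc.algEquivOfTranscendental z hz with he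
  have hcomp : (e : RatFunc k →+* k⟮z⟯).comp (algebraMap k[X] (RatFunc k)) =
      (aeval (AdjoinSimple.gen k z) : k[X] →ₐ[k] k⟮z⟯).toRingHom := by
    ext a
    · have h1 : (RatFunc.C a : RatFunc k) = algebraMap k (RatFunc k) a :=
        (RatFunc.algebraMap_eq_C (K := k)) ▸ rfl
      simp only [RingHom.coe_comp, RingHom.coe_coe, Function.comp_apply,
        RatFunc.algebraMap_C, AlgHom.toRingHom_eq_coe, Polynomial.aeval_C]
      rw [h1, AlgEquiv.commutes]
    · simp [he, RatFunc.algEquivOfTranscendental_X]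
  have hmap : Polynomial.mapEquiv e.toRingEquiv (Φ.map (algebraMap k[X] (RatFunc k))) =
      Φ.map (aeval (AdjoinSimple.gen k z) : k[X] →ₐ[k] k⟮z⟯).toRingHom := by
    rw [Polynomial.mapEquiv_apply, Polynomial.map_map]
    congr 1
  rw [← hmap]
  exact (MulEquiv.irreducible_iff (Polynomial.mapEquiv e.toRingEquiv).toMulEquiv)


/-- `V ∘ aeval J = aeval (V J)` as ring homs, for an algebra hom `V`. -/
theorem s28t_comp_aeval {L : Type*} [Field L] [Algebra k L] (V : L →ₐ[k] L) (J : L) :
    (V : L →+* L).comp (aeval J : k[X] →ₐ[k] L).toRingHom =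
      (aeval (V J) : k[X] →ₐ[k] L).toRingHom := by
  ext a
  · simp
  · simp

theorem s28t_algebraMap_comp_aeval_gen {L : Type*} [Field L] [Algebra k L] (z : L) :
    (algebraMap k⟮z⟯ L).comp (aeval (AdjoinSimple.gen k z) : k[X] →ₐ[k] k⟮z⟯).toRingHom =
      (aeval z : k[X] →ₐ[k] L).toRingHom := by
  ext a
  · simp
  · simp

/-- **Stage 1 (abstract)**: irreducibility of the modular equation over `k⟮V J⟯`. -/
theorem s28t_irreducible_adjoin {L : Type*} [Field L] [Algebra k L] (V : L →ₐ[k] L)
    (J : L) (hJ : Transcendental k J) {r : ℕ} (hr : 0 < r)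
    (Φ : Polynomial (Polynomial k)) (hΦm : Φ.Monic) (hΦd : Φ.natDegree = r + 1)
    (Y : ℕ → L)
    (hΦ : Φ.map (aeval (V J) : k[X] →ₐ[k] L).toRingHom =
      (X - C (V (V J))) * ∏ b ∈ range r, (X - C (Y b)))
    (T : ℕ → L →+* L) (hTV : ∀ b f, T b (V f) = V f) (hTJ : ∀ b, b < r → T b J = Y b)
    (hY0 : Y 0 = J) (hYinj : ∀ b < r, ∀ b' < r, Y b = Y b' → b = b')
    (hEX : ¬ ∃ R : k[X], V J = aeval J R) :
    Irreducible (Φ.map (aeval (AdjoinSimple.gen k (V J)) : k[X] →ₐ[k] k⟮V J⟯).toRingHom) := by
  classical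
  have hVinj : Function.Injective V := V.toRingHom.injective
  set K' : IntermediateField k L := k⟮V J⟯ with hK'
  set Φ' : K'[X] := Φ.map (aeval (AdjoinSimple.gen k (V J)) : k[X] →ₐ[k] K').toRingHom with hΦ'
  set Ψ : L[X] := ∏ b ∈ range r, (X - C (Y b)) with hΨ
  have hΨmonic : Ψ.Monic := monic_prod_of_monic _ _ fun b _ => monic_X_sub_C _
  have hΨdeg : Ψ.natDegree = r := by
    rw [hΨ, natDegree_prod_of_monic _ _ fun b _ => monic_X_sub_C _]
    simp
  have hΦ'm : Φ'.Monic := hΦm.map _
  have hΦ'd : Φ'.natDegree = r + 1 := by rw [hΦ', hΦm.natDegree_map, hΦd]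
  have hΦ'L : Φ'.map (algebraMap K' L) = (X - C (V (V J))) * Ψ := by
    rw [hΦ', Polynomial.map_map, s28t_algebraMap_comp_aeval_gen, hΦ]
  -- `J` is a root
  have hJroot : aeval J Φ' = 0 := by
    rw [aeval_def, eval₂_eq_eval_map, hΦ'L, eval_mul, hΨ, eval_prod,
      Finset.prod_eq_zero (mem_range.mpr hr) (by rw [hY0]; simp), mul_zero]
  have hint : IsIntegral K' J := ⟨Φ', hΦ'm, hJroot⟩
  set μ : K'[X] := minpoly K' J with hμ
  have hμdvd : μ ∣ Φ' := minpoly.dvd K' J hJroot
  have hμm : μ.Monic := minpoly.monic hint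
  -- the twists fix `K'`
  have hfix : ∀ b (x : K'), T b (algebraMap K' L x) = algebraMap K' L x := by
    intro b x
    have hle : K' ≤ V.fieldRange := by
      rw [hK', adjoin_simple_le_iff]
      exact ⟨J, rfl⟩
    obtain ⟨f, hf⟩ := hle x.2
    show T b (x : L) = (x : L)
    rw [← hf]
    exact hTV b f
  have hμT : ∀ b, (μ.map (algebraMap K' L)).map (T b) = μ.map (algebraMap K' L) := by
    intro b
    rw [Polynomial.map_map]
    congr 1
    exact RingHom.ext fun x => hfix b x
  have hμroot : ∀ b < r, (μ.map (algebraMap K' L)).eval (Y b) = 0 := by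
    intro b hb
    rw [← hTJ b hb, ← hμT b, Polynomial.eval_map_apply, eval_map, ← aeval_def, hμ,
      minpoly.aeval, map_zero]
  have hΨdvd : Ψ ∣ μ.map (algebraMap K' L) :=
    s28t_prod_dvd_of_roots Y hYinj _ hμroot
  have hμLm : (μ.map (algebraMap K' L)).Monic := hμm.map _
  have hdeg_ge : r ≤ μ.natDegree := by
    have := natDegree_le_of_dvd hΨdvd hμLm.ne_zero
    rwa [hΨdeg, hμm.natDegree_map] at this
  have hdeg_le : μ.natDegree ≤ r + 1 := by
    have := natDegree_le_of_dvd hμdvd hΦ'm.ne_zero
    rwa [hΦ'd] at this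
  rcases Nat.lt_or_ge r μ.natDegree with hlt | hge
  · -- `μ = Φ'`
    have heq : Φ' = μ := by
      refine (eq_of_monic_of_dvd_of_natDegree_le hμm hΦ'm hμdvd ?_)
      rw [hΦ'd]; omega
    rw [heq]
    exact minpoly.irreducible hint
  · -- degenerate case: contradiction with the exclusion
    exfalso
    have hμdeg : μ.natDegree = r := le_antisymm hge hdeg_ge
    have hμL : μ.map (algebraMap K' L) = Ψ := by
      refine eq_of_monic_of_dvd_of_natDegree_le hΨmonic hμLm hΨdvd ?_
      rw [hμm.natDegree_map, hμdeg, hΨdeg]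
    obtain ⟨g, hg⟩ := hμdvd
    have hgm : g.Monic := by
      have := hΦ'm
      rw [hg] at this
      exact hμm.of_mul_monic_left this
    have hgdeg : g.natDegree = 1 := by
      have := congrArg natDegree hg
      rw [hμm.natDegree_mul hgm, hΦ'd, hμdeg] at this
      omega
    have hgL : g.map (algebraMap K' L) = X - C (V (V J)) := by
      have h1 : (X - C (V (V J))) * Ψ = Ψ * g.map (algebraMap K' L) := by
        rw [← hΦ'L, hg, Polynomial.map_mul, hμL]
      rw [mul_comm] at h1
      exact (mul_left_cancel₀ hΨmonic.ne_zero h1).symm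
    -- so `V (V J) ∈ K'`
    have hmem : V (V J) ∈ K' := by
      have h0 := congrArg (fun p => p.coeff 0) hgL
      simp only [coeff_map, coeff_sub, coeff_X_zero, coeff_C_zero, zero_sub] at h0
      have : V (V J) = -(algebraMap K' L (g.coeff 0)) := by rw [h0]; ring
      rw [this]
      exact neg_mem (g.coeff 0).2
    -- hence `V J ∈ k⟮J⟯`
    have hmap : K' = (k⟮J⟯).map V := by
      rw [hK', adjoin_map, Set.image_singleton]
    rw [hmap] at hmem
    obtain ⟨y, hy, hyV⟩ := hmem
    have hyJ : y = V J := hVinj hyV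
    rw [hyJ] at hy
    -- integrality over `k[J]`
    have hroot2 : (Φ.map (aeval J : k[X] →ₐ[k] L).toRingHom).eval (V J) = 0 := by
      apply hVinj
      rw [map_zero]
      have : V ((Φ.map (aeval J : k[X] →ₐ[k] L).toRingHom).eval (V J)) =
          ((Φ.map (aeval J : k[X] →ₐ[k] L).toRingHom).map (V : L →+* L)).eval (V (V J)) :=
        (Polynomial.eval_map_apply (V : L →+* L) (V J)).symm
      rw [this, Polynomial.map_map, s28t_comp_aeval, hΦ, eval_mul]
      simp
    set e := RatFunc.algEquivOfTranscendental J hJ with he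
    set x : RatFunc k := e.symm ⟨V J, hy⟩ with hx
    have hex : (e x : L) = V J := by rw [hx, AlgEquiv.apply_symm_apply]
    set ι : RatFunc k →+* L := (algebraMap k⟮J⟯ L).comp (e : RatFunc k →+* k⟮J⟯) with hι
    have hιinj : Function.Injective ι := ι.injective
    have hιcomp : ι.comp (algebraMap k[X] (RatFunc k)) = (aeval J : k[X] →ₐ[k] L).toRingHom := by
      ext a
      · have h1 : (RatFunc.C a : RatFunc k) = algebraMap k (RatFunc k) a :=
          (RatFunc.algebraMap_eq_C (K := k)) ▸ rfl
        simp only [hι, RingHom.coe_comp, RingHom.coe_coe, Function.comp_apply,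
          RatFunc.algebraMap_C, AlgHom.toRingHom_eq_coe, Polynomial.aeval_C]
        rw [h1, AlgEquiv.commutes]
        rfl
      · simp [hι, he, RatFunc.algEquivOfTranscendental_X]
    have hxint : IsIntegral k[X] x := by
      refine ⟨Φ, hΦm, ?_⟩
      apply hιinj
      rw [map_zero, Polynomial.hom_eval₂, hιcomp, eval₂_eq_eval_map]
      have : ι x = V J := by rw [hι]; exact hex
      rw [this, hroot2]
    obtain ⟨R, hR⟩ := IsIntegrallyClosed.isIntegral_iff.mp hxint
    refine hEX ⟨R, ?_⟩
    have h2 : ι x = ι (algebraMap k[X] (RatFunc k) R) := by rw [hR]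
    have h3 : ι (algebraMap k[X] (RatFunc k) R) = aeval J R := by
      have := congrArg (fun φ : k[X] →+* L => φ R) hιcomp
      exact this
    have h4 : ι x = V J := by rw [hι]; exact hex
    rw [← h4, h2, h3]


/-! ### The concrete `j`-series -/

open ModularCurve

/-- The `q^{-n}`-coefficient of `P(j)` is the leading coefficient of `P`. -/
theorem s28t_coeff_aeval_jqModC (P : k[X]) :
    (aeval (jqModC k) P).coeff (-(P.natDegree : ℤ)) = P.leadingCoeff := by
  rw [aeval_def, eval₂_eq_sum_range, HahnSeries.coeff_sum]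
  rw [Finset.sum_eq_single_of_mem P.natDegree (Finset.self_mem_range_succ _)]
  · rw [LaurentSeries.algebraMap_apply, HahnSeries.C_mul_eq_smul, HahnSeries.coeff_smul,
      coeff_jqModC_pow_self, smul_eq_mul, mul_one]
    rfl
  · intro i hi hne
    have hlt : i < P.natDegree := lt_of_le_of_ne (Nat.lt_succ_iff.mp (Finset.mem_range.mp hi)) hne
    rw [LaurentSeries.algebraMap_apply, HahnSeries.C_mul_eq_smul, HahnSeries.coeff_smul,
      coeff_jqModC_pow_of_lt k (by exact_mod_cast (neg_lt_neg (by exact_mod_cast hlt))),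
      smul_zero]

theorem s28t_transcendental_jqModC (k : Type*) [Field k] : Transcendental k (jqModC k) := by
  intro halg
  obtain ⟨P, hP0, hP⟩ := halg
  have h := s28t_coeff_aeval_jqModC P
  rw [hP] at h
  simp only [HahnSeries.coeff_zero] at h
  exact hP0 (leadingCoeff_eq_zero.mp h.symm)

/-- Injective algebra endomorphisms preserve transcendence. -/
theorem s28t_transcendental_map {L : Type*} [Field L] [Algebra k L] (W : L →ₐ[k] L) {z : L}
    (hz : Transcendental k z) : Transcendental k (W z) := by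
  intro halg
  obtain ⟨P, hP0, hP⟩ := halg
  refine hz ⟨P, hP0, ?_⟩
  apply W.toRingHom.injective
  rw [map_zero]
  show W (aeval z P) = 0
  rw [← Polynomial.aeval_algHom_apply, hP]



/-- **Abstract Galois package**: a monic irreducible polynomial over `F` which splits over `L`
into distinct linear factors `X - y b` (all `y b` in a subfield `S ⊇ F`): `y 0` has degree `n`
over `F` and lies in a finite Galois extension of `F` inside `S`. -/
theorem s28t_galois_package {F L : Type*} [Field F] [Field L] [Algebra F L] (P : F[X])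
    (hPm : P.Monic) (hPirr : Irreducible P) {n : ℕ} (y : ℕ → L)
    (hfact : P.map (algebraMap F L) = ∏ b ∈ range n, (X - C (y b)))
    (hinj : ∀ a < n, ∀ b < n, y a = y b → a = b) (hn : 0 < n)
    (S : Subfield L) (hFS : ∀ x : F, algebraMap F L x ∈ S) (hyS : ∀ b < n, y b ∈ S)
    (z₀ : L) (hz₀ : y 0 = z₀) :
    Module.finrank F F⟮z₀⟯ = n ∧
    ∃ G : IntermediateField F L, IsGalois F G ∧ FiniteDimensional F G ∧ z₀ ∈ G ∧
      ∀ x ∈ G, x ∈ S := by
  classical
  subst hz₀
  have hPd : P.natDegree = n := by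
    have h1 : (P.map (algebraMap F L)).natDegree = n := by
      rw [hfact, natDegree_prod_of_monic _ _ fun b _ => monic_X_sub_C _]
      simp
    rwa [hPm.natDegree_map] at h1
  have hroot : aeval (y 0) P = 0 := by
    rw [aeval_def, eval₂_eq_eval_map, hfact, eval_prod]
    exact Finset.prod_eq_zero (mem_range.mpr hn) (by simp)
  have hint : IsIntegral F (y 0) := ⟨P, hPm, hroot⟩
  have hmin : P = minpoly F (y 0) := minpoly.eq_of_irreducible_of_monic hPirr hroot hPm
  refine ⟨?_, ?_⟩
  · rw [IntermediateField.adjoin.finrank hint, ← hmin, hPd]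
  · have hsplits : (P.map (algebraMap F L)).Splits := by
      rw [hfact]
      exact Splits.prod fun b _ => Splits.X_sub_C _
    have hsep : P.Separable := by
      rw [← Polynomial.separable_map (algebraMap F L), hfact,
        Polynomial.separable_prod_X_sub_C_iff']
      intro a ha b hb hab
      exact hinj a (mem_range.mp ha) b (mem_range.mp hb) hab
    have hsf : P.IsSplittingField F (IntermediateField.adjoin F (P.rootSet L)) :=
      IntermediateField.adjoin_rootSet_isSplittingField hsplits
    refine ⟨IntermediateField.adjoin F (P.rootSet L),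
      IsGalois.of_separable_splitting_field hsep,
      Polynomial.IsSplittingField.finiteDimensional _ P, ?_, ?_⟩
    · refine IntermediateField.subset_adjoin F _ ?_
      rw [Polynomial.mem_rootSet]
      exact ⟨hPm.ne_zero, hroot⟩
    · have hle : IntermediateField.adjoin F (P.rootSet L) ≤
          Subfield.toIntermediateField S hFS := by
        rw [IntermediateField.adjoin_le_iff]
        intro x hx
        rw [Polynomial.mem_rootSet, aeval_def, eval₂_eq_eval_map, hfact, eval_prod] at hx
        obtain ⟨b, hb, hb0⟩ := Finset.prod_eq_zero_iff.mp hx.2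
        simp only [eval_sub, eval_X, eval_C] at hb0
        rw [sub_eq_zero.mp hb0]
        exact hyS b (mem_range.mp hb)
      intro x hx
      exact hle hx

/-- Transport of the factorisation along an algebra endomorphism `W`, in the form needed by
`s28t_galois_package` (a single product over `range (r + 1)`). -/
theorem s28t_fact_transport {L : Type*} [Field L] [Algebra k L] (W : L →ₐ[k] L) (z a : L)
    {r : ℕ} (Φ : Polynomial (Polynomial k)) (Y : ℕ → L)
    (hΦ : Φ.map (aeval z : k[X] →ₐ[k] L).toRingHom = (X - C a) * ∏ b ∈ range r, (X - C (Y b))) :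
    (Φ.map (aeval (AdjoinSimple.gen k (W z)) : k[X] →ₐ[k] k⟮W z⟯).toRingHom).map
        (algebraMap k⟮W z⟯ L) =
      ∏ b ∈ range (r + 1), (X - C (if b < r then W (Y b) else W a)) := by
  rw [Polynomial.map_map, s28t_algebraMap_comp_aeval_gen, ← s28t_comp_aeval W z,
    ← Polynomial.map_map, hΦ, Polynomial.map_mul, Polynomial.map_sub, Polynomial.map_X,
    Polynomial.map_C, Polynomial.map_prod, Finset.prod_range_succ, mul_comm]
  congr 1
  · refine Finset.prod_congr rfl fun b hb => ?_
    rw [Polynomial.map_sub, Polynomial.map_X, Polynomial.map_C, if_pos (mem_range.mp hb)]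
    rfl
  · rw [if_neg (lt_irrefl r)]
    rfl

/-- **Prime-level wrapper (T1 + T2).** For `m ≥ 1`: `j(q^m)` has degree `r + 1` over
`k(j(q^(m r)))`, and lies in a finite Galois extension of `k(j(q^(m r)))` consisting of series
in `q^m`. -/
theorem s28t_prime_level (k : Type*) [Field k] {r : ℕ} [NeZero r] (m : ℕ) [NeZero m]
    (Φ : Polynomial (Polynomial k)) (hΦm : Φ.Monic) (hΦd : Φ.natDegree = r + 1)
    (Y : ℕ → LaurentSeries k)
    (hΦ : Φ.map (aeval (qExpand k r (jqModC k)) : k[X] →ₐ[k] LaurentSeries k).toRingHom =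
      (X - C (qExpand k r (qExpand k r (jqModC k)))) * ∏ b ∈ range r, (X - C (Y b)))
    (T : ℕ → LaurentSeries k →+* LaurentSeries k)
    (hTV : ∀ b f, T b (qExpand k r f) = qExpand k r f)
    (hTJ : ∀ b, b < r → T b (jqModC k) = Y b)
    (hY0 : Y 0 = jqModC k)
    (hYinj : ∀ b < r, ∀ b' < r, Y b = Y b' → b = b')
    (hYa : ∀ b < r, Y b ≠ qExpand k r (qExpand k r (jqModC k)))
    (hEX : ¬ ∃ R : k[X], qExpand k r (jqModC k) = aeval (jqModC k) R) :
    Module.finrank k⟮qExpand k (m * r) (jqModC k)⟯
        (k⟮qExpand k (m * r) (jqModC k)⟯)⟮qExpand k m (jqModC k)⟯ = r + 1 ∧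
    ∃ G : IntermediateField k⟮qExpand k (m * r) (jqModC k)⟯ (LaurentSeries k),
      IsGalois k⟮qExpand k (m * r) (jqModC k)⟯ G ∧
      FiniteDimensional k⟮qExpand k (m * r) (jqModC k)⟯ G ∧
      qExpand k m (jqModC k) ∈ G ∧ ∀ x ∈ G, ∃ f, qExpand k m f = x := by
  classical
  have hr : 0 < r := Nat.pos_of_ne_zero (NeZero.ne r)
  have hJ : Transcendental k (jqModC k) := s28t_transcendental_jqModC k
  have hVJ : Transcendental k (s28t_V k r (jqModC k)) := s28t_transcendental_map _ hJ
  have hz₁W : qExpand k (m * r) (jqModC k) = s28t_V k m (s28t_V k r (jqModC k)) :=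
    (qExpand_qExpand r m (jqModC k)).symm
  have hWVJ : Transcendental k (s28t_V k m (s28t_V k r (jqModC k))) :=
    s28t_transcendental_map _ hVJ
  -- irreducibility
  have hirr1 := s28t_irreducible_adjoin (s28t_V k r) (jqModC k) hJ hr Φ hΦm hΦd Y hΦ T hTV hTJ
    hY0 hYinj hEX
  have hirrRF := (s28t_irreducible_iff_ratFunc _ hVJ Φ).mp hirr1
  have hirr2 := (s28t_irreducible_iff_ratFunc _ hWVJ Φ).mpr hirrRF
  have hfact := s28t_fact_transport (s28t_V k m) (s28t_V k r (jqModC k))
    (s28t_V k r (s28t_V k r (jqModC k))) Φ Y hΦ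
  have hWinj : Function.Injective (s28t_V k m) := s28t_V_injective m
  rw [hz₁W]
  have key := s28t_galois_package _ (hΦm.map _) hirr2
    (fun b => if b < r then s28t_V k m (Y b) else
      s28t_V k m (s28t_V k r (s28t_V k r (jqModC k)))) hfact ?_ (Nat.succ_pos r)
    (s28t_V k m).fieldRange.toSubfield ?_ ?_ (qExpand k m (jqModC k)) ?_
  · obtain ⟨h1, G, hG1, hG2, hG3, hG4⟩ := key
    refine ⟨h1, G, hG1, hG2, hG3, fun x hx => ?_⟩
    obtain ⟨f, hf⟩ := hG4 x hx
    exact ⟨f, hf⟩
  · intro a ha b hb hab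
    by_cases ha' : a < r <;> by_cases hb' : b < r
    · simp only [if_pos ha', if_pos hb'] at hab
      exact hYinj a ha' b hb' (hWinj hab)
    · simp only [if_pos ha', if_neg hb'] at hab
      exact absurd (hWinj hab) (hYa a ha')
    · simp only [if_neg ha', if_pos hb'] at hab
      exact absurd (hWinj hab).symm (hYa b hb')
    · omega
  · intro x
    have hle : k⟮s28t_V k m (s28t_V k r (jqModC k))⟯ ≤ (s28t_V k m).fieldRange := by
      rw [adjoin_simple_le_iff]
      exact ⟨_, rfl⟩
    exact hle x.2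
  · intro b _
    by_cases hb' : b < r
    · simp only [if_pos hb']; exact ⟨_, rfl⟩
    · simp only [if_neg hb']; exact ⟨_, rfl⟩
  · simp only [if_pos hr, hY0]; rfl

/-- **Prime-level wrapper, polynomial form** (abstract twist data): the minimal polynomial `P` of
`j(q^m)` over `k(j(q^(m r)))`. -/
theorem s28t_prime_level_poly_aux (k : Type*) [Field k] {r : ℕ} [NeZero r] (m : ℕ) [NeZero m]
    (Φ : Polynomial (Polynomial k)) (hΦm : Φ.Monic) (hΦd : Φ.natDegree = r + 1)
    (Y : ℕ → LaurentSeries k)
    (hΦ : Φ.map (aeval (qExpand k r (jqModC k)) : k[X] →ₐ[k] LaurentSeries k).toRingHom =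
      (X - C (qExpand k r (qExpand k r (jqModC k)))) * ∏ b ∈ range r, (X - C (Y b)))
    (T : ℕ → LaurentSeries k →+* LaurentSeries k)
    (hTV : ∀ b f, T b (qExpand k r f) = qExpand k r f)
    (hTJ : ∀ b, b < r → T b (jqModC k) = Y b)
    (hY0 : Y 0 = jqModC k)
    (hYinj : ∀ b < r, ∀ b' < r, Y b = Y b' → b = b')
    (hYa : ∀ b < r, Y b ≠ qExpand k r (qExpand k r (jqModC k)))
    (hEX : ¬ ∃ R : k[X], qExpand k r (jqModC k) = aeval (jqModC k) R) :
    ∃ P : Polynomial ↥(k⟮qExpand k (m * r) (jqModC k)⟯),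
      P.Monic ∧ Irreducible P ∧ P.natDegree = r + 1 ∧ P.Separable ∧
      aeval (qExpand k m (jqModC k)) P = 0 ∧
      (P.map (algebraMap ↥(k⟮qExpand k (m * r) (jqModC k)⟯) (LaurentSeries k))).Splits ∧
      ∀ a ∈ P.rootSet (LaurentSeries k), a ∈ (qExpand k m).fieldRange := by
  classical
  have hr : 0 < r := Nat.pos_of_ne_zero (NeZero.ne r)
  have hJ : Transcendental k (jqModC k) := s28t_transcendental_jqModC k
  have hVJ : Transcendental k (s28t_V k r (jqModC k)) := s28t_transcendental_map _ hJ
  have hz₁W : qExpand k (m * r) (jqModC k) = s28t_V k m (s28t_V k r (jqModC k)) :=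
    (qExpand_qExpand r m (jqModC k)).symm
  have hWVJ : Transcendental k (s28t_V k m (s28t_V k r (jqModC k))) :=
    s28t_transcendental_map _ hVJ
  have hirr1 := s28t_irreducible_adjoin (s28t_V k r) (jqModC k) hJ hr Φ hΦm hΦd Y hΦ T hTV hTJ
    hY0 hYinj hEX
  have hirrRF := (s28t_irreducible_iff_ratFunc _ hVJ Φ).mp hirr1
  have hirr2 := (s28t_irreducible_iff_ratFunc _ hWVJ Φ).mpr hirrRF
  have hfact := s28t_fact_transport (s28t_V k m) (s28t_V k r (jqModC k))
    (s28t_V k r (s28t_V k r (jqModC k))) Φ Y hΦ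
  have hWinj : Function.Injective (s28t_V k m) := s28t_V_injective m
  rw [hz₁W]
  refine ⟨_, hΦm.map _, hirr2, by rw [hΦm.natDegree_map, hΦd], ?_, ?_, ?_, ?_⟩
  · rw [← Polynomial.separable_map (algebraMap _ (LaurentSeries k)), hfact,
      Polynomial.separable_prod_X_sub_C_iff']
    intro a ha b hb hab
    rw [mem_range] at ha hb
    by_cases ha' : a < r <;> by_cases hb' : b < r
    · simp only [if_pos ha', if_pos hb'] at hab
      exact hYinj a ha' b hb' (hWinj hab)
    · simp only [if_pos ha', if_neg hb'] at hab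
      exact absurd (hWinj hab) (hYa a ha')
    · simp only [if_neg ha', if_pos hb'] at hab
      exact absurd (hWinj hab).symm (hYa b hb')
    · omega
  · rw [aeval_def, eval₂_eq_eval_map, hfact, eval_prod]
    refine Finset.prod_eq_zero (mem_range.mpr (Nat.succ_pos r)) ?_
    rw [if_pos hr, hY0]
    simp [s28t_V_apply]
  · rw [hfact]
    exact Splits.prod fun b _ => Splits.X_sub_C _
  · intro a ha
    rw [Polynomial.mem_rootSet', aeval_def, eval₂_eq_eval_map, hfact, eval_prod] at ha
    obtain ⟨b, _, hb0⟩ := Finset.prod_eq_zero_iff.mp ha.2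
    simp only [eval_sub, eval_X, eval_C] at hb0
    rw [sub_eq_zero.mp hb0]
    by_cases hb' : b < r
    · simp only [if_pos hb']; exact ⟨_, rfl⟩
    · simp only [if_neg hb']; exact ⟨_, rfl⟩

end Fermat.Agent.Lib.S28
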