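/-
S28 package (T1+T2), concrete form: the prime-level wrapper with helper3's twist `s28c_twist`,
in the polynomial-level shape consumed by the tower (helper5).
-/
import Fermat.Agent.Lib.S28.TPrime
import Fermat.Agent.Lib.S28.CTwist
import Fermat.Agent.Lib.S28.CFinal
import Fermat.Agent.Lib.S28.NModEq

set_option autoImplicit false

noncomputable section

namespace Fermat.Agent.Lib.S28

open Polynomial IntermediateField Finset ModularCurve

variable {k : Type*} [Field k]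

theorem s28t_twist_jqModC_coeff_neg_one (u : kˣ) :
    (s28c_twist u (jqModC k)).coeff (-1 : ℤ) = ((u⁻¹ : kˣ) : k) := by
  rw [s28c_twist_coeff, coeff_jqModC_neg_one, mul_one, zpow_neg_one]

/-- **Prime-level wrapper, polynomial form**, against the modular equation `hME` (helper9's
`s28m_modEq`) and the exclusion `hEX` (helper3's `s28c_exclusion`). -/
theorem s28t_prime_level_poly (k : Type*) [Field k] {r : ℕ} [NeZero r] (hr : r.Prime)
    (m : ℕ) [NeZero m] (ζ : kˣ) (hζ : IsPrimitiveRoot (ζ : k) r)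
    (hME : ∃ Φ : Polynomial (Polynomial k), Φ.Monic ∧ Φ.natDegree = r + 1 ∧
      Φ.map (aeval (qExpand k r (jqModC k)) : k[X] →ₐ[k] LaurentSeries k).toRingHom =
        (X - C (qExpand k (r * r) (jqModC k))) *
          ∏ b ∈ range r, (X - C (s28c_twist (ζ ^ b) (jqModC k))))
    (hEX : ¬ ∃ R : k[X], qExpand k r (jqModC k) = aeval (jqModC k) R) :
    ∃ P : Polynomial ↥(k⟮qExpand k (m * r) (jqModC k)⟯),
      P.Monic ∧ Irreducible P ∧ P.natDegree = r + 1 ∧ P.Separable ∧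
      aeval (qExpand k m (jqModC k)) P = 0 ∧
      (P.map (algebraMap ↥(k⟮qExpand k (m * r) (jqModC k)⟯) (LaurentSeries k))).Splits ∧
      ∀ a ∈ P.rootSet (LaurentSeries k), a ∈ (qExpand k m).fieldRange := by
  obtain ⟨Φ, hΦm, hΦd, hΦ⟩ := hME
  have hζu : IsPrimitiveRoot ζ r := IsPrimitiveRoot.coe_units_iff.mp hζ
  have hrr : qExpand k (r * r) (jqModC k) = qExpand k r (qExpand k r (jqModC k)) :=
    (qExpand_qExpand r r (jqModC k)).symm
  rw [hrr] at hΦ
  refine s28t_prime_level_poly_aux k m Φ hΦm hΦd (fun b => s28c_twist (ζ ^ b) (jqModC k)) hΦ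
    (fun b => s28c_twist (ζ ^ b)) ?_ (fun b _ => rfl) ?_ ?_ ?_ hEX
  · intro b f
    refine s28c_twist_qExpand (ζ ^ b) r ?_ f
    rw [← pow_mul, mul_comm, pow_mul, hζu.pow_eq_one, one_pow]
  · show s28c_twist (ζ ^ 0) (jqModC k) = jqModC k
    rw [pow_zero, s28c_twist_one_eq]
  · intro b hb b' hb' h
    have h1 := congrArg (fun x : LaurentSeries k => x.coeff (-1 : ℤ)) h
    simp only [s28t_twist_jqModC_coeff_neg_one] at h1
    have h2 : (ζ ^ b)⁻¹ = (ζ ^ b')⁻¹ := Units.ext h1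
    rw [inv_inj] at h2
    exact hζu.pow_inj hb hb' h2
  · intro b _ h
    have h1 := congrArg (fun x : LaurentSeries k => x.coeff (-1 : ℤ)) h
    simp only [s28t_twist_jqModC_coeff_neg_one] at h1
    rw [qExpand_coeff_of_not_dvd r _ (by
      intro hd
      have h2 : (r : ℤ) ∣ 1 := (Int.dvd_neg).mp hd
      have h3 : r ∣ 1 := by exact_mod_cast h2
      exact hr.one_lt.ne' (Nat.dvd_one.mp h3))] at h1
    exact Units.ne_zero _ h1

theorem s28t_tw_eq_twist (u : kˣ) (x : LaurentSeries k) : s28n_tw u x = s28c_twist u x := by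
  ext n
  rfl

/-- The wrapper against helper2's packaged modular equation `s28n_ME`. -/
theorem s28t_prime_level_poly_of_ME (k : Type*) [Field k] {r : ℕ} [NeZero r] (hr : r.Prime)
    (m : ℕ) [NeZero m] (ζ : kˣ) (hζ : IsPrimitiveRoot (ζ : k) r) (hME : s28n_ME r k ζ)
    (hEX : ¬ ∃ R : k[X], qExpand k r (jqModC k) = aeval (jqModC k) R) :
    ∃ P : Polynomial ↥(k⟮qExpand k (m * r) (jqModC k)⟯),
      P.Monic ∧ Irreducible P ∧ P.natDegree = r + 1 ∧ P.Separable ∧
      aeval (qExpand k m (jqModC k)) P = 0 ∧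
      (P.map (algebraMap ↥(k⟮qExpand k (m * r) (jqModC k)⟯) (LaurentSeries k))).Splits ∧
      ∀ a ∈ P.rootSet (LaurentSeries k), a ∈ (qExpand k m).fieldRange := by
  refine s28t_prime_level_poly k hr m ζ hζ ?_ hEX
  obtain ⟨Φ, hΦm, hΦd, hΦ⟩ := hME
  refine ⟨Φ, hΦm, hΦd, ?_⟩
  rw [hΦ, s28n_rhs, qExpand_qExpand r r (jqModC k)]
  simp only [s28t_tw_eq_twist]

/-- **Prime-level wrapper, final form**: `k` algebraically closed of characteristic `ℓ`,
`r ≠ ℓ` prime; the only remaining input is the modular equation of level `r` over `ℂ`. -/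
theorem s28t_prime_level_final (k : Type*) [Field k] [IsAlgClosed k] (ℓ : ℕ) [Fact ℓ.Prime]
    [CharP k ℓ] (r : ℕ) [NeZero r] (hr : r.Prime) (hrl : r ≠ ℓ) (hMEa : s28n_MEa r)
    (m : ℕ) [NeZero m] :
    ∃ P : Polynomial ↥(k⟮qExpand k (m * r) (jqModC k)⟯),
      P.Monic ∧ Irreducible P ∧ P.natDegree = r + 1 ∧ P.Separable ∧
      aeval (qExpand k m (jqModC k)) P = 0 ∧
      (P.map (algebraMap ↥(k⟮qExpand k (m * r) (jqModC k)⟯) (LaurentSeries k))).Splits ∧
      ∀ a ∈ P.rootSet (LaurentSeries k), a ∈ (qExpand k m).fieldRange := by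
  have hℓ : ℓ.Prime := Fact.out
  have hrk : (r : k) ≠ 0 := by
    rw [Ne, CharP.cast_eq_zero_iff k ℓ]
    intro hd
    exact hrl ((Nat.prime_dvd_prime_iff_eq hℓ hr).mp hd).symm
  have : NeZero (r : k) := ⟨hrk⟩
  obtain ⟨ζ0, hζ0⟩ := HasEnoughRootsOfUnity.exists_primitiveRoot k r
  have hζ0ne : ζ0 ≠ 0 := hζ0.ne_zero (NeZero.ne r)
  set ζ : kˣ := Units.mk0 ζ0 hζ0ne with hζdef
  have hζ : IsPrimitiveRoot (ζ : k) r := by rw [hζdef, Units.val_mk0]; exact hζ0
  exact s28t_prime_level_poly_of_ME k hr m ζ hζ (s28n_ME_of_MEa r hMEa k ζ hζ)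
    (s28c_exclusion k ℓ r hr hrl)

end Fermat.Agent.Lib.S28
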