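/-
S28 package (T1+T2), unconditional form: for `k` algebraically closed of characteristic `ℓ` and a
prime `r ≠ ℓ`, the series `j(q^m)` has a minimal polynomial of degree `r + 1` over
`k(j(q^(m r)))`, separable, split over `k((q))` with all roots series in `q^m`.
-/
import Fermat.Agent.Lib.S28.TPrimeConc
import Fermat.Agent.Lib.S28.MforN

set_option autoImplicit false

noncomputable section

namespace Fermat.Agent.Lib.S28

open Polynomial IntermediateField Finset ModularCurve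

/-- **Prime-level wrapper (T1 + T2), unconditional.** -/
theorem s28t_prime_level_uncond (k : Type*) [Field k] [IsAlgClosed k] (ℓ : ℕ) [Fact ℓ.Prime]
    [CharP k ℓ] (r : ℕ) [Fact r.Prime] (hrl : r ≠ ℓ) (m : ℕ) [NeZero m] :
    ∃ P : Polynomial ↥(k⟮qExpand k (m * r) (jqModC k)⟯),
      P.Monic ∧ Irreducible P ∧ P.natDegree = r + 1 ∧ P.Separable ∧
      aeval (qExpand k m (jqModC k)) P = 0 ∧
      (P.map (algebraMap ↥(k⟮qExpand k (m * r) (jqModC k)⟯) (LaurentSeries k))).Splits ∧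
      ∀ a ∈ P.rootSet (LaurentSeries k), a ∈ (qExpand k m).fieldRange :=
  s28t_prime_level_final k ℓ r Fact.out hrl (s28m_MEa r) m

/-- Degree form: `[k(j(q^(m r)))(j(q^m)) : k(j(q^(m r)))] = r + 1`. -/
theorem s28t_finrank_prime_level (k : Type*) [Field k] [IsAlgClosed k] (ℓ : ℕ) [Fact ℓ.Prime]
    [CharP k ℓ] (r : ℕ) [Fact r.Prime] (hrl : r ≠ ℓ) (m : ℕ) [NeZero m] :
    Module.finrank ↥(k⟮qExpand k (m * r) (jqModC k)⟯)
      ↥((k⟮qExpand k (m * r) (jqModC k)⟯)⟮qExpand k m (jqModC k)⟯) = r + 1 := by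
  obtain ⟨P, hPm, hPirr, hPd, -, hroot, -, -⟩ := s28t_prime_level_uncond k ℓ r hrl m
  have hint : IsIntegral ↥(k⟮qExpand k (m * r) (jqModC k)⟯) (qExpand k m (jqModC k)) :=
    ⟨P, hPm, hroot⟩
  have hmin : P = minpoly _ (qExpand k m (jqModC k)) :=
    minpoly.eq_of_irreducible_of_monic hPirr hroot hPm
  rw [IntermediateField.adjoin.finrank hint, ← hmin, hPd]

end Fermat.Agent.Lib.S28
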