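/-
S28: the prime-level input of the tower, for all primes dividing `N`:
`s28e_PrimeLevelAll k N` for `k` algebraically closed of characteristic `ℓ ∤ N`, and the resulting
residue independence `s28e_exists_monomials_indep` in closed form.
-/
import Fermat.Agent.Lib.S28.TPrimeFinal
import Fermat.Agent.Lib.S28.EMonomials

set_option autoImplicit false

noncomputable section

namespace Fermat.Agent.Lib.S28

open Polynomial IntermediateField Finset ModularCurve

/-- The prime-level input at every prime `r` with `m r ∣ N`, when `ℓ ∤ N`. -/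
theorem s28t_primeLevelAll (k : Type*) [Field k] [IsAlgClosed k] (ℓ : ℕ) [Fact ℓ.Prime]
    [CharP k ℓ] (N : ℕ) (hℓN : ¬ ℓ ∣ N) : s28e_PrimeLevelAll k N := by
  intro r m _ _ hr hdvd
  have : Fact r.Prime := ⟨hr⟩
  have hrl : r ≠ ℓ := by
    rintro rfl
    exact hℓN ((dvd_mul_left r m).trans hdvd)
  exact s28t_prime_level_uncond k ℓ r hrl m

/-- **Residue independence, closed form**: at least `ψ(N)` monomials in the `j(q^d)`, `d ∣ N`,
linearly independent over `k[j(q^N)]` inside `k((q))` (`k` alg. closed of char. `ℓ ∤ N`). -/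
theorem s28t_exists_monomials_indep (k : Type*) [Field k] [IsAlgClosed k] (ℓ : ℕ) [Fact ℓ.Prime]
    [CharP k ℓ] (N : ℕ) [NeZero N] (hℓN : ¬ ℓ ∣ N) :
    ∃ (n : ℕ) (θ : Fin n → LaurentSeries k), dedekindPsi N ≤ n ∧
      (∀ i, θ i ∈ Submonoid.closure (divisorExpansionsC k N)) ∧
      ∀ P : Fin n → Polynomial k,
        ∑ i, Polynomial.aeval (qExpand k N (jqModC k)) (P i) * θ i = 0 → P = 0 :=
  s28e_exists_monomials_indep k N (s28t_primeLevelAll k ℓ N hℓN)

end Fermat.Agent.Lib.S28
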