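import Fermat.Agent.Lib.S28.VAlg
import Fermat.Agent.Lib.S28.WFrickeAlg

set_option autoImplicit false

noncomputable section

namespace Fermat.Agent.Lib.S28

open GaloisRep ModularCurve HahnSeries ModularCurve.IgusaScheme Polynomial

variable (ℓ : ℕ) [Fact ℓ.Prime] (N : ℕ) [NeZero N]

/-- The Fricke embedding `F → ℚ((q))`, `j(q^d) ↦ j(q^(N/d))`. -/
def s28v_fricke : ↥(modularFunctionFieldFull N) →+* LaurentSeries ℚ := s28w_frickeHom N

theorem s28v_fricke_mem_Frac (x : modularFunctionFieldFull N) : s28v_fricke N x ∈ s28v_Frac ℓ :=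
  s28v_full_le_Frac ℓ N (s28w_frickeHom_mem N x)

theorem s28v_fricke_gen {d : ℕ} [NeZero d] (hd : d ∣ N) {e : ℕ} [NeZero e] (hde : d * e = N) :
    s28v_fricke N ⟨qExpand ℚ d jq, jqd_mem_full N hd⟩ = qExpand ℚ e jq := by
  have h := s28w_frickeEquiv_gen N hd ⟨qExpand ℚ d jq, jqd_mem_full N hd⟩ rfl
  have he : N / d = e := by
    rw [← hde]
    exact Nat.mul_div_cancel_left e (Nat.pos_of_ne_zero (NeZero.ne d))
  have h2 : s28v_fricke N ⟨qExpand ℚ d jq, jqd_mem_full N hd⟩ =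
      ((s28w_frickeEquiv N ⟨qExpand ℚ d jq, jqd_mem_full N hd⟩ : s28w_F N) : LaurentSeries ℚ) := rfl
  rw [h2, h]
  exact @qExpand_congr ℚ _ (N / d) e ⟨(NeZero.ne (s28w_co N ⟨d, hd⟩).1)⟩ _ he jq

theorem s28v_fricke_jFull : s28v_fricke N (jFull N) = qExpand ℚ N jq := by
  have h1 : jFull N = ⟨qExpand ℚ 1 jq, jqd_mem_full N (one_dvd N)⟩ := by
    apply Subtype.ext
    show jq = qExpand ℚ 1 jq
    rw [qExpand_one_apply]
  rw [h1]
  exact s28v_fricke_gen N (one_dvd N) (one_mul N)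

theorem s28v_fricke_jFull_mem :
    jFull N ∈ s28v_OAlg ℓ N (s28v_fricke N) (s28v_fricke_mem_Frac ℓ N) := by
  rw [s28v_mem_OAlg_iff, s28v_fricke_jFull]
  exact s28v_jqN_mem_O ℓ N

theorem s28v_redAlg_fricke_jFull :
    (letI := s28v_algLS ℓ;
      s28v_redAlg ℓ N (s28v_fricke N) (s28v_fricke_mem_Frac ℓ N)
        ⟨jFull N, s28v_fricke_jFull_mem ℓ N⟩) = qExpand (ZMod ℓ) N (jqModC (ZMod ℓ)) := by
  rw [s28v_redAlg_apply, ← s28v_red_jqN ℓ N]
  congr 1
  exact Subtype.ext (s28v_fricke_jFull N)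

/-- `aeval` over `ℤ_(ℓ)` into `𝔽_ℓ((q))` is `eval₂` along `C ∘ res`. -/
theorem s28v_aeval_algLS (x : LaurentSeries (ZMod ℓ)) (P : Polynomial (ratLocalizedAt ℓ)) :
    (letI := s28v_algLS ℓ; aeval x P) =
      eval₂ ((HahnSeries.C : ZMod ℓ →+* LaurentSeries (ZMod ℓ)).comp (s28v_resHom ℓ)) x P := by
  letI := s28v_algLS ℓ
  rw [aeval_def]
  rfl

/-- The algebra map `k → k((q))` is `C`, for the instance found by unification. -/
theorem s28v_algebraMap_eq_C (k : Type*) [Field k] (c : k) :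
    algebraMap k (LaurentSeries k) c = HahnSeries.C c := by
  have h1 : algebraMap k (PowerSeries k) c = PowerSeries.C c := by
    simp
  rw [HahnSeries.algebraMap_apply', h1, HahnSeries.ofPowerSeries_C]

/-- If the reduction of `P` mod `ℓ` vanishes, then `C ℓ ∣ P`. -/
theorem s28v_C_dvd_of_map_eq_zero (P : Polynomial (ratLocalizedAt ℓ))
    (h : P.map (s28v_resHom ℓ) = 0) : C ((ℓ : ℕ) : ratLocalizedAt ℓ) ∣ P := by
  rw [C_dvd_iff_dvd_coeff]
  intro i
  rw [s28v_dvd_iff_resHom, ← coeff_map, h, Polynomial.coeff_zero]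

/-- **Residue-basis data at the Fricke cusp** for the abstract purity lemma, from the
characteristic-`ℓ` independence statement (over any field `k` of characteristic `ℓ`) and the
integrality of the generators. -/
theorem s28v_exists_residue_basis (k : Type*) [Field k] [Algebra (ZMod ℓ) k]
    (H5 : ∃ (n : ℕ) (θ : Fin n → LaurentSeries k), dedekindPsi N ≤ n ∧
      (∀ i, θ i ∈ Submonoid.closure (divisorExpansionsC k N)) ∧
      ∀ P : Fin n → Polynomial k,
        ∑ i, aeval (qExpand k N (jqModC k)) (P i) * θ i = 0 → P = 0)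
    (HN2 : ∀ (d : ℕ) [NeZero d] (hd : d ∣ N),
      (⟨qExpand ℚ d jq, jqd_mem_full N hd⟩ : modularFunctionFieldFull N) ∈ chartAlgFin N ℓ) :
    ∃ (n : ℕ) (b : Fin n → ↥(modularFunctionFieldFull N)), dedekindPsi N ≤ n ∧
      (∀ i, b i ∈ chartAlgFin N ℓ) ∧
      ∃ hb : ∀ i, b i ∈ s28v_OAlg ℓ N (s28v_fricke N) (s28v_fricke_mem_Frac ℓ N),
        ∀ P : Fin n → Polynomial (ratLocalizedAt ℓ),
          (letI := s28v_algLS ℓ;
            ∑ i, aeval (s28v_redAlg ℓ N (s28v_fricke N) (s28v_fricke_mem_Frac ℓ N)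
                ⟨jFull N, s28v_fricke_jFull_mem ℓ N⟩) (P i) *
              s28v_redAlg ℓ N (s28v_fricke N) (s28v_fricke_mem_Frac ℓ N) ⟨b i, hb i⟩ = 0) →
          ∀ i, C ((ℓ : ℕ) : ratLocalizedAt ℓ) ∣ P i := by
  obtain ⟨n, θ, hn, hθ, hind⟩ := H5
  set κ : ZMod ℓ →+* k := algebraMap (ZMod ℓ) k with hκ
  -- lifting of monomials
  have hlift : ∀ θ₀ ∈ Submonoid.closure (divisorExpansionsC k N),
      ∃ b : modularFunctionFieldFull N, b ∈ chartAlgFin N ℓ ∧
        ∃ h : s28v_fricke N b ∈ s28v_O ℓ,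
          coeffMap κ (s28v_red ℓ ⟨s28v_fricke N b, h⟩) = θ₀ := by
    intro θ₀ hθ₀
    induction hθ₀ using Submonoid.closure_induction with
    | mem x hx =>
      obtain ⟨d, hd0, hd, rfl⟩ := hx
      obtain ⟨e, he⟩ := hd
      have he0 : e ≠ 0 := by
        rintro rfl
        exact NeZero.ne N (by rw [he, mul_zero])
      haveI : NeZero e := ⟨he0⟩
      have hed : e ∣ N := ⟨d, by rw [he, mul_comm]⟩
      refine ⟨⟨qExpand ℚ e jq, jqd_mem_full N hed⟩, HN2 e hed, ?_⟩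
      have hw : s28v_fricke N ⟨qExpand ℚ e jq, jqd_mem_full N hed⟩ = qExpand ℚ d jq :=
        s28v_fricke_gen N hed (by rw [he, mul_comm])
      have hmem : s28v_fricke N ⟨qExpand ℚ e jq, jqd_mem_full N hed⟩ ∈ s28v_O ℓ := by
        rw [hw]; exact s28v_jqN_mem_O ℓ d
      refine ⟨hmem, ?_⟩
      have : (⟨s28v_fricke N ⟨qExpand ℚ e jq, jqd_mem_full N hed⟩, hmem⟩ : s28v_O ℓ) =
          ⟨qExpand ℚ d jq, s28v_jqN_mem_O ℓ d⟩ := Subtype.ext hw
      rw [this, s28v_red_jqN, coeffMap_qExpand, coeffMap_jqModC]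
    | one =>
      refine ⟨1, Subalgebra.one_mem _, ?_⟩
      have hmem : s28v_fricke N 1 ∈ s28v_O ℓ := by rw [map_one]; exact (s28v_O ℓ).one_mem
      refine ⟨hmem, ?_⟩
      have : (⟨s28v_fricke N 1, hmem⟩ : s28v_O ℓ) = 1 := Subtype.ext (map_one _)
      rw [this, map_one, map_one]
    | mul x y _ _ hx hy =>
      obtain ⟨b, hb, hbO, hbr⟩ := hx
      obtain ⟨b', hb', hbO', hbr'⟩ := hy
      refine ⟨b * b', Subalgebra.mul_mem _ hb hb', ?_⟩
      have hmem : s28v_fricke N (b * b') ∈ s28v_O ℓ := by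
        rw [map_mul]; exact (s28v_O ℓ).mul_mem hbO hbO'
      refine ⟨hmem, ?_⟩
      have : (⟨s28v_fricke N (b * b'), hmem⟩ : s28v_O ℓ) =
          ⟨s28v_fricke N b, hbO⟩ * ⟨s28v_fricke N b', hbO'⟩ := Subtype.ext (map_mul _ _ _)
      rw [this, map_mul, map_mul, hbr, hbr']
  choose b hbB hbO hbr using fun i => hlift (θ i) (hθ i)
  refine ⟨n, b, hn, hbB, hbO, ?_⟩
  intro P hP
  letI := s28v_algLS ℓ
  -- apply `coeffMap κ`
  have hP' := congrArg (coeffMap κ) hP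
  rw [map_zero, map_sum] at hP'
  have hterm : ∀ i, coeffMap κ
      (aeval (s28v_redAlg ℓ N (s28v_fricke N) (s28v_fricke_mem_Frac ℓ N)
          ⟨jFull N, s28v_fricke_jFull_mem ℓ N⟩) (P i) *
        s28v_redAlg ℓ N (s28v_fricke N) (s28v_fricke_mem_Frac ℓ N) ⟨b i, hbO i⟩) =
      aeval (qExpand k N (jqModC k)) ((P i).map (κ.comp (s28v_resHom ℓ))) * θ i := by
    intro i
    rw [map_mul, s28v_redAlg_fricke_jFull, s28v_redAlg_apply, hbr i]
    congr 1
    rw [s28v_aeval_algLS, aeval_def, eval₂_map, hom_eval₂, coeffMap_qExpand, coeffMap_jqModC]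
    congr 1
    ext a : 1
    simp only [RingHom.coe_comp, Function.comp_apply]
    rw [s28v_algebraMap_eq_C, HahnSeries.C_apply, HahnSeries.C_apply, coeffMap_single]
  rw [Finset.sum_congr rfl (fun i _ => hterm i)] at hP'
  have hzero := hind (fun i => (P i).map (κ.comp (s28v_resHom ℓ))) hP'
  intro i
  apply s28v_C_dvd_of_map_eq_zero
  have hi : (P i).map (κ.comp (s28v_resHom ℓ)) = 0 := congrFun hzero i
  rw [← Polynomial.map_map] at hi
  exact (Polynomial.map_eq_zero_iff κ.injective).mp hi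

end Fermat.Agent.Lib.S28
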