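import Fermat.Agent.Lib.S28.VEmb

set_option autoImplicit false

noncomputable section

namespace Fermat.Agent.Lib.S28

open GaloisRep ModularCurve HahnSeries ModularCurve.IgusaScheme

variable (ℓ : ℕ) [Fact ℓ.Prime]

/-! ### Arithmetic of `ℤ_(ℓ)` -/

theorem s28v_natCast_ne_zero : ((ℓ : ℕ) : ratLocalizedAt ℓ) ≠ 0 := by
  intro h
  have := congrArg (Subtype.val) h
  simp at this
  exact (Fact.out : ℓ.Prime).ne_zero this

theorem s28v_resHom_natCast_self : s28v_resHom ℓ (ℓ : ratLocalizedAt ℓ) = 0 := by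
  rw [map_natCast, ZMod.natCast_self]

theorem s28v_dvd_iff_resHom (x : ratLocalizedAt ℓ) :
    (ℓ : ratLocalizedAt ℓ) ∣ x ↔ s28v_resHom ℓ x = 0 := by
  rw [s28v_resHom_eq_zero_iff]
  rfl

theorem s28v_prime_natCast : Prime ((ℓ : ℕ) : ratLocalizedAt ℓ) := by
  refine ⟨s28v_natCast_ne_zero ℓ, ?_, ?_⟩
  · intro hu
    have := hu.map (s28v_resHom ℓ)
    rw [s28v_resHom_natCast_self] at this
    exact not_isUnit_zero this
  · intro a b hab
    rw [s28v_dvd_iff_resHom] at hab ⊢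
    rw [s28v_dvd_iff_resHom]
    rw [map_mul] at hab
    exact mul_eq_zero.mp hab

/-- Finite `ℓ`-multiplicity in `ℤ_(ℓ)`. -/
theorem s28v_finite_mult (r : ratLocalizedAt ℓ) (hr : r ≠ 0) :
    ∃ n : ℕ, ¬ ((ℓ : ℕ) : ratLocalizedAt ℓ) ^ (n + 1) ∣ r := by
  have hrq : (r : ℚ) ≠ 0 := fun h => hr (Subtype.ext h)
  have hℓq : (ℓ : ℚ) ≠ 0 := by exact_mod_cast (Fact.out : ℓ.Prime).ne_zero
  refine ⟨(padicValRat ℓ (r : ℚ)).toNat, ?_⟩
  rintro ⟨y, hy⟩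
  have hy0 : (y : ℚ) ≠ 0 := by
    intro h
    apply hrq
    rw [hy]
    push_cast
    rw [h, mul_zero]
  have h1 : padicValRat ℓ (r : ℚ) =
      ((padicValRat ℓ (r : ℚ)).toNat + 1 : ℕ) + padicValRat ℓ (y : ℚ) := by
    conv_lhs => rw [hy]
    push_cast
    rw [padicValRat.mul (pow_ne_zero _ hℓq) hy0, padicValRat.pow,
      padicValRat.self (Fact.out : ℓ.Prime).one_lt]
    push_cast
    ring
  have h2 := s28v_padicValRat_nonneg ℓ y.2
  have h3 := s28v_padicValRat_nonneg ℓ r.2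
  have h4 : ((padicValRat ℓ (r : ℚ)).toNat : ℤ) = padicValRat ℓ (r : ℚ) := Int.toNat_of_nonneg h3
  push_cast at h1
  omega

/-! ### Algebra packaging for the abstract purity lemma -/

/-- The `ℤ_(ℓ)`-algebra structure on `𝔽_ℓ((q))` (constants via the residue map). -/
@[reducible] def s28v_algLS : Algebra (ratLocalizedAt ℓ) (LaurentSeries (ZMod ℓ)) :=
  ((HahnSeries.C : ZMod ℓ →+* LaurentSeries (ZMod ℓ)).comp (s28v_resHom ℓ)).toAlgebra

theorem s28v_algLS_algebraMap (a : ratLocalizedAt ℓ) :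
    (letI := s28v_algLS ℓ; algebraMap (ratLocalizedAt ℓ) (LaurentSeries (ZMod ℓ)) a) =
      HahnSeries.C (s28v_resHom ℓ a) := rfl

theorem s28v_algLS_natCast_self :
    (letI := s28v_algLS ℓ;
      algebraMap (ratLocalizedAt ℓ) (LaurentSeries (ZMod ℓ)) ((ℓ : ℕ) : ratLocalizedAt ℓ)) = 0 := by
  rw [s28v_algLS_algebraMap, s28v_resHom_natCast_self, map_zero]

variable (N : ℕ) [NeZero N]

/-- The pulled-back Gauss ring as a `ℤ_(ℓ)`-subalgebra of `F`. -/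
def s28v_OAlg (w : ↥(modularFunctionFieldFull N) →+* LaurentSeries ℚ)
    (hw : ∀ x, w x ∈ s28v_Frac ℓ) :
    Subalgebra (ratLocalizedAt ℓ) (modularFunctionFieldFull N) where
  toSubsemiring := (s28v_valSubringOf ℓ N w hw).toSubring.toSubsemiring
  algebraMap_mem' := s28v_algebraMap_mem_valSubringOf ℓ N w hw

theorem s28v_mem_OAlg_iff (w : ↥(modularFunctionFieldFull N) →+* LaurentSeries ℚ)
    (hw : ∀ x, w x ∈ s28v_Frac ℓ) (x : modularFunctionFieldFull N) :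
    x ∈ s28v_OAlg ℓ N w hw ↔ w x ∈ s28v_O ℓ := Iff.rfl

/-- Reduction along `w` as a `ℤ_(ℓ)`-algebra homomorphism. -/
def s28v_redAlg (w : ↥(modularFunctionFieldFull N) →+* LaurentSeries ℚ)
    (hw : ∀ x, w x ∈ s28v_Frac ℓ) :
    letI := s28v_algLS ℓ
    ↥(s28v_OAlg ℓ N w hw) →ₐ[ratLocalizedAt ℓ] LaurentSeries (ZMod ℓ) :=
  letI := s28v_algLS ℓ
  { toFun := fun x => s28v_red ℓ ⟨w x, x.2⟩
    map_one' := by
      have : (⟨w ((1 : s28v_OAlg ℓ N w hw) : modularFunctionFieldFull N), (1 : s28v_OAlg ℓ N w hw).2⟩ :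
          s28v_O ℓ) = 1 := Subtype.ext (by simp)
      rw [this, map_one]
    map_mul' := fun x y => by
      have : (⟨w ((x * y : s28v_OAlg ℓ N w hw) : modularFunctionFieldFull N), (x * y).2⟩ :
          s28v_O ℓ) = ⟨w x, x.2⟩ * ⟨w y, y.2⟩ := Subtype.ext (by simp)
      rw [this, map_mul]
    map_zero' := by
      have : (⟨w ((0 : s28v_OAlg ℓ N w hw) : modularFunctionFieldFull N), (0 : s28v_OAlg ℓ N w hw).2⟩ :
          s28v_O ℓ) = 0 := Subtype.ext (by simp)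
      rw [this, map_zero]
    map_add' := fun x y => by
      have : (⟨w ((x + y : s28v_OAlg ℓ N w hw) : modularFunctionFieldFull N), (x + y).2⟩ :
          s28v_O ℓ) = ⟨w x, x.2⟩ + ⟨w y, y.2⟩ := Subtype.ext (by simp)
      rw [this, map_add]
    commutes' := fun a => by
      show s28v_red ℓ ⟨w (algebraMap (ratLocalizedAt ℓ) (modularFunctionFieldFull N) a), _⟩ =
        HahnSeries.C (s28v_resHom ℓ a)
      rw [← s28v_red_C]
      congr 1
      exact Subtype.ext (s28v_emb_algebraMap ℓ N w a) }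

theorem s28v_redAlg_apply (w : ↥(modularFunctionFieldFull N) →+* LaurentSeries ℚ)
    (hw : ∀ x, w x ∈ s28v_Frac ℓ) (x : s28v_OAlg ℓ N w hw) :
    (letI := s28v_algLS ℓ; s28v_redAlg ℓ N w hw x) = s28v_red ℓ ⟨w x, x.2⟩ := rfl

/-- Kernel statement in the exact shape of the abstract purity lemma (`hdiv'`). -/
theorem s28v_redAlg_eq_zero (w : ↥(modularFunctionFieldFull N) →+* LaurentSeries ℚ)
    (hw : ∀ x, w x ∈ s28v_Frac ℓ) (x : s28v_OAlg ℓ N w hw)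
    (hx : (letI := s28v_algLS ℓ; s28v_redAlg ℓ N w hw x) = 0) :
    ∃ y : s28v_OAlg ℓ N w hw,
      (x : modularFunctionFieldFull N) =
        algebraMap (ratLocalizedAt ℓ) (modularFunctionFieldFull N) ((ℓ : ℕ) : ratLocalizedAt ℓ) * y := by
  rw [s28v_redAlg_apply] at hx
  have h := (s28v_redOf_eq_zero_iff ℓ N w hw ⟨x.1, x.2⟩).mp hx
  obtain ⟨y, hy⟩ := h
  refine ⟨⟨y.1, y.2⟩, ?_⟩
  rw [map_natCast]
  exact hy

/-- Conversely, multiples of `ℓ` reduce to zero. -/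
theorem s28v_redAlg_natCast_mul (w : ↥(modularFunctionFieldFull N) →+* LaurentSeries ℚ)
    (hw : ∀ x, w x ∈ s28v_Frac ℓ) (x y : s28v_OAlg ℓ N w hw)
    (hxy : (x : modularFunctionFieldFull N) = (ℓ : modularFunctionFieldFull N) * y) :
    (letI := s28v_algLS ℓ; s28v_redAlg ℓ N w hw x) = 0 := by
  rw [s28v_redAlg_apply]
  exact (s28v_redOf_eq_zero_iff ℓ N w hw ⟨x.1, x.2⟩).mpr ⟨⟨y.1, y.2⟩, hxy⟩

/-- Values of the standard reduction on the generators. -/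
theorem s28v_incl_jqN_mem (d : ℕ) [NeZero d] (hd : d ∣ N) :
    (⟨qExpand ℚ d jq, jqd_mem_full N hd⟩ : modularFunctionFieldFull N) ∈
      s28v_OAlg ℓ N (s28v_incl N) (s28v_incl_mem_Frac ℓ N) :=
  s28v_jqN_mem_O ℓ d

theorem s28v_redAlg_incl_jqN (d : ℕ) [NeZero d] (hd : d ∣ N) :
    (letI := s28v_algLS ℓ;
      s28v_redAlg ℓ N (s28v_incl N) (s28v_incl_mem_Frac ℓ N)
        ⟨⟨qExpand ℚ d jq, jqd_mem_full N hd⟩, s28v_incl_jqN_mem ℓ N d hd⟩) =
      qExpand (ZMod ℓ) d (jqModC (ZMod ℓ)) := by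
  rw [s28v_redAlg_apply]
  exact s28v_red_jqN ℓ d

theorem s28v_incl_jFull_mem :
    jFull N ∈ s28v_OAlg ℓ N (s28v_incl N) (s28v_incl_mem_Frac ℓ N) :=
  s28v_jq_mem_O ℓ

theorem s28v_redAlg_incl_jFull :
    (letI := s28v_algLS ℓ;
      s28v_redAlg ℓ N (s28v_incl N) (s28v_incl_mem_Frac ℓ N) ⟨jFull N, s28v_incl_jFull_mem ℓ N⟩) =
      jqModC (ZMod ℓ) := by
  rw [s28v_redAlg_apply]
  exact s28v_red_jq ℓ

theorem s28v_incl_jFull_inv_mem :
    (jFull N)⁻¹ ∈ s28v_OAlg ℓ N (s28v_incl N) (s28v_incl_mem_Frac ℓ N) := by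
  rw [s28v_mem_OAlg_iff, map_inv₀]
  exact s28v_jq_inv_mem_O ℓ

theorem s28v_redAlg_incl_jFull_inv :
    (letI := s28v_algLS ℓ;
      s28v_redAlg ℓ N (s28v_incl N) (s28v_incl_mem_Frac ℓ N)
        ⟨(jFull N)⁻¹, s28v_incl_jFull_inv_mem ℓ N⟩) = (jqModC (ZMod ℓ))⁻¹ := by
  rw [s28v_redAlg_apply, ← s28v_red_jq_inv]
  congr 1

/-- The three chart algebras lie in the pulled-back Gauss ring, for any embedding `w` with
`w j, (w j)⁻¹ ∈ O`. -/
theorem s28v_chartAlg_le_OAlg (w : ↥(modularFunctionFieldFull N) →+* LaurentSeries ℚ)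
    (hw : ∀ x, w x ∈ s28v_Frac ℓ) (S : Set (modularFunctionFieldFull N))
    (hS : ∀ s ∈ S, w s ∈ s28v_O ℓ) : chartAlg N ℓ S ≤ s28v_OAlg ℓ N w hw :=
  fun x hx => s28v_chartAlg_le ℓ N w hw S hS x hx

theorem s28v_chartAlgFin_le_incl :
    chartAlgFin N ℓ ≤ s28v_OAlg ℓ N (s28v_incl N) (s28v_incl_mem_Frac ℓ N) :=
  s28v_chartAlg_le_OAlg ℓ N _ _ _ (by
    rintro s rfl
    exact s28v_jq_mem_O ℓ)

theorem s28v_chartAlgInf_le_incl :
    chartAlgInf N ℓ ≤ s28v_OAlg ℓ N (s28v_incl N) (s28v_incl_mem_Frac ℓ N) :=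
  s28v_chartAlg_le_OAlg ℓ N _ _ _ (by
    rintro s rfl
    exact s28v_incl_jFull_inv_mem ℓ N)

theorem s28v_chartAlgMid_le_incl :
    chartAlgMid N ℓ ≤ s28v_OAlg ℓ N (s28v_incl N) (s28v_incl_mem_Frac ℓ N) :=
  s28v_chartAlg_le_OAlg ℓ N _ _ _ (by
    rintro s (rfl | rfl)
    · exact s28v_jq_mem_O ℓ
    · exact s28v_incl_jFull_inv_mem ℓ N)

end Fermat.Agent.Lib.S28
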