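/-
S28 (Igusa), package W (helper1): the spanning input `hspan` of the abstract purity lemma
(`DVal.lean`) from the degree bound W2 (`s28w_exists_relation`).
-/
import Fermat.Agent.Lib.S28.DVal
import Fermat.Agent.Lib.S28.VAlg
import Fermat.Agent.Lib.S28.WDegreeQ

set_option autoImplicit false

noncomputable section

namespace Fermat.Agent.Lib.S28

open GaloisRep ModularCurve ModularCurve.IgusaScheme Polynomial

set_option linter.unusedSectionVars false

/-! ### Abstract: residue independence implies independence -/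

section Abstract

variable {R : Type*} [CommRing R] (l : R)

/-- If the reductions of the `b i` are independent over polynomials in the reduction of `t`
(in the divisibility form of `DVal`), then the `b i` themselves are independent over `R[t]`. -/
theorem s28w_rel_eq_zero (hfin : ∀ r : R, r ≠ 0 → ∃ n : ℕ, ¬ l ^ (n + 1) ∣ r)
    {F : Type*} [Field F] [Algebra R F] (hlF : algebraMap R F l ≠ 0)
    {D' : Type*} [CommRing D'] [Algebra R D']
    (O' : Subalgebra R F) (red' : O' →ₐ[R] D') (t : F) (ht' : t ∈ O')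
    {ι : Type*} [Fintype ι] (b : ι → F) (hb' : ∀ i, b i ∈ O')
    (hind : ∀ P : ι → R[X],
      ∑ i, aeval (red' ⟨t, ht'⟩) (P i) * red' ⟨b i, hb' i⟩ = 0 → ∀ i, C l ∣ P i)
    (P : ι → R[X]) (h : ∑ i, aeval t (P i) * b i = 0) : P = 0 := by
  have key : ∀ a : ℕ, ∀ P : ι → R[X], ∑ i, aeval t (P i) * b i = 0 → ∀ i, (C l) ^ a ∣ P i := by
    intro a
    induction a with
    | zero => intro P _ i; rw [pow_zero]; exact one_dvd _
    | succ a ih =>
      intro P h
      have h' : (∑ i, aeval (⟨t, ht'⟩ : O') (P i) * ⟨b i, hb' i⟩ : O') = 0 := by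
        apply Subtype.ext
        rw [AddSubmonoidClass.coe_finsetSum]
        simp only [Subalgebra.coe_mul, aeval_subalgebra_coe, ZeroMemClass.coe_zero]
        exact h
      have hred : ∑ i, aeval (red' ⟨t, ht'⟩) (P i) * red' ⟨b i, hb' i⟩ = 0 := by
        have h2 := congrArg red' h'
        rw [map_sum, map_zero] at h2
        rw [← h2]
        refine Finset.sum_congr rfl fun i _ => ?_
        rw [map_mul, Polynomial.aeval_algHom_apply]
      choose P' hP' using hind P hred
      have h2 : ∑ i, aeval t (P' i) * b i = 0 := by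
        have h3 : algebraMap R F l * ∑ i, aeval t (P' i) * b i = 0 := by
          rw [Finset.mul_sum, ← h]
          refine Finset.sum_congr rfl fun i _ => ?_
          rw [hP' i, map_mul, aeval_C]
          ring
        exact (mul_eq_zero.mp h3).resolve_left hlF
      intro i
      rw [hP' i, pow_succ']
      exact mul_dvd_mul_left _ (ih P' h2 i)
  funext i
  by_contra hne
  obtain ⟨n, hn⟩ := s28d_exists_not_C_pow_dvd l hfin (Q := P i) hne
  exact hn (key (n + 1) P h i)

end Abstract

/-! ### Clearing denominators -/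

theorem s28w_exists_int_mul (c : ℚ[X]) :
    ∃ (d : ℤ) (P : ℤ[X]), d ≠ 0 ∧ P.map (Int.castRingHom ℚ) = C (d : ℚ) * c := by
  obtain ⟨b, hbM, hb⟩ := IsLocalization.integerNormalization_spec (nonZeroDivisors ℤ) c
  refine ⟨b, IsLocalization.integerNormalization (nonZeroDivisors ℤ) c,
    nonZeroDivisors.ne_zero hbM, ?_⟩
  have e : algebraMap ℤ ℚ = Int.castRingHom ℚ := RingHom.ext_int _ _
  rw [e] at hb
  rw [hb, zsmul_eq_mul, ← map_intCast (C : ℚ →+* ℚ[X])]

theorem s28w_exists_common_int_mul {ι : Type*} [Fintype ι] [DecidableEq ι] (c : ι → ℚ[X]) :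
    ∃ (d : ℤ) (P : ι → ℤ[X]), d ≠ 0 ∧
      ∀ i, (P i).map (Int.castRingHom ℚ) = C (d : ℚ) * c i := by
  choose d P hd hP using fun i => s28w_exists_int_mul (c i)
  refine ⟨∏ i, d i, fun i => C (∏ j ∈ Finset.univ.erase i, d j) * P i,
    Finset.prod_ne_zero_iff.mpr fun i _ => hd i, fun i => ?_⟩
  rw [Polynomial.map_mul, hP i, Polynomial.map_C, ← mul_assoc, ← C_mul]
  congr 2
  rw [eq_intCast, ← Finset.prod_erase_mul _ _ (Finset.mem_univ i)]
  push_cast
  rfl

/-! ### The spanning property -/

variable (ℓ : ℕ) [Fact ℓ.Prime] (N : ℕ) [NeZero N]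

/-- Evaluating an integral polynomial at an element of `F`, over `ℤ_(ℓ)` in `F` and over `ℚ` in
`ℚ((q))`. -/
theorem s28w_coe_aeval_map (t : modularFunctionFieldFull N) (P : ℤ[X]) :
    ((aeval t (P.map (Int.castRingHom (ratLocalizedAt ℓ))) : modularFunctionFieldFull N) :
        LaurentSeries ℚ) = aeval (t : LaurentSeries ℚ) (P.map (Int.castRingHom ℚ)) := by
  rw [aeval_def, aeval_def, eval₂_map, eval₂_map]
  have h := Polynomial.hom_eval₂ P
    ((algebraMap (ratLocalizedAt ℓ) (modularFunctionFieldFull N)).comp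
      (Int.castRingHom (ratLocalizedAt ℓ)))
    (algebraMap (modularFunctionFieldFull N) (LaurentSeries ℚ)) t
  have e : (algebraMap (modularFunctionFieldFull N) (LaurentSeries ℚ)).comp
      ((algebraMap (ratLocalizedAt ℓ) (modularFunctionFieldFull N)).comp
        (Int.castRingHom (ratLocalizedAt ℓ))) =
      (algebraMap ℚ (LaurentSeries ℚ)).comp (Int.castRingHom ℚ) := RingHom.ext_int _ _
  rw [e] at h
  exact h

theorem s28w_algebraMap_natCast_ne_zero :
    algebraMap (ratLocalizedAt ℓ) (modularFunctionFieldFull N) ((ℓ : ℕ) : ratLocalizedAt ℓ) ≠ 0 := by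
  rw [map_natCast]
  exact_mod_cast (Fact.out : ℓ.Prime).ne_zero

/-- **`hspan` of the abstract purity lemma** (`s28d_exists_primitive_mul_mem`) at `t = j`:
`n ≥ ψ(N)` elements of `F` with independent reductions span `F` over `ℚ(j)`. -/
theorem s28w_hspan {D' : Type*} [CommRing D'] [Algebra (ratLocalizedAt ℓ) D']
    (O' : Subalgebra (ratLocalizedAt ℓ) (modularFunctionFieldFull N))
    (red' : O' →ₐ[ratLocalizedAt ℓ] D') (ht' : jFull N ∈ O') {n : ℕ} (hn : dedekindPsi N ≤ n)
    (b : Fin n → modularFunctionFieldFull N) (hb' : ∀ i, b i ∈ O')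
    (hind : ∀ P : Fin n → (ratLocalizedAt ℓ)[X],
      ∑ i, aeval (red' ⟨jFull N, ht'⟩) (P i) * red' ⟨b i, hb' i⟩ = 0 →
        ∀ i, C ((ℓ : ℕ) : ratLocalizedAt ℓ) ∣ P i) (y : modularFunctionFieldFull N) :
    ∃ (Q : (ratLocalizedAt ℓ)[X]) (P : Fin n → (ratLocalizedAt ℓ)[X]), Q ≠ 0 ∧
      aeval (jFull N) Q * y = ∑ i, aeval (jFull N) (P i) * b i := by
  classical
  set bF : Fin (n + 1) → modularFunctionFieldFull N := Fin.snoc b y with hbF
  obtain ⟨c, hc0, hc⟩ := s28w_exists_relation N (n := n + 1) (Nat.lt_succ_of_le hn)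
    (fun i => (bF i : LaurentSeries ℚ)) (fun i => (bF i).2)
  obtain ⟨d, P, hd, hP⟩ := s28w_exists_common_int_mul c
  set Pl : Fin (n + 1) → (ratLocalizedAt ℓ)[X] :=
    fun i => (P i).map (Int.castRingHom (ratLocalizedAt ℓ)) with hPl
  have hrel : ∑ i, aeval (jFull N) (Pl i) * bF i = 0 := by
    apply Subtype.ext
    rw [AddSubmonoidClass.coe_finsetSum]
    have hterm : ∀ i, ((aeval (jFull N) (Pl i) * bF i : modularFunctionFieldFull N) :
        LaurentSeries ℚ) = algebraMap ℚ (LaurentSeries ℚ) (d : ℚ) *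
          (aeval jq (c i) * (bF i : LaurentSeries ℚ)) := by
      intro i
      rw [MulMemClass.coe_mul, s28w_coe_aeval_map, hP i, map_mul, aeval_C, mul_assoc]
      rfl
    rw [Finset.sum_congr rfl (fun i _ => hterm i), ← Finset.mul_sum, hc, mul_zero]
    rfl
  have hPl0 : Pl ≠ 0 := by
    obtain ⟨i, hi⟩ : ∃ i, c i ≠ 0 := by
      by_contra h
      push Not at h
      exact hc0 (funext h)
    intro h0
    have h1 : (P i).map (Int.castRingHom ℚ) = 0 := by
      have e : Int.castRingHom ℚ =
          (algebraMap (ratLocalizedAt ℓ) ℚ).comp (Int.castRingHom (ratLocalizedAt ℓ)) :=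
        RingHom.ext_int _ _
      rw [e, ← Polynomial.map_map]
      show (Pl i).map _ = 0
      rw [h0]
      simp
    rw [hP i] at h1
    rcases mul_eq_zero.mp h1 with h2 | h2
    · exact hd (by simpa using h2)
    · exact hi h2
  rw [Fin.sum_univ_castSucc] at hrel
  simp only [hbF, Fin.snoc_castSucc, Fin.snoc_last] at hrel
  by_cases hlast : Pl (Fin.last n) = 0
  · exfalso
    rw [hlast, map_zero, zero_mul, add_zero] at hrel
    have h0 := s28w_rel_eq_zero ((ℓ : ℕ) : ratLocalizedAt ℓ) (s28v_finite_mult ℓ)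
      (s28w_algebraMap_natCast_ne_zero ℓ N) O' red' (jFull N) ht' b hb' hind
      (fun i => Pl i.castSucc) hrel
    apply hPl0
    funext i
    exact Fin.lastCases hlast (fun i => congrFun h0 i) i
  · refine ⟨-Pl (Fin.last n), fun i => Pl i.castSucc, neg_ne_zero.mpr hlast, ?_⟩
    rw [map_neg, neg_mul]
    exact neg_eq_of_add_eq_zero_left hrel

end Fermat.Agent.Lib.S28
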