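import Mathlib

/-!
# S28, block (K2): integrality descent along a prime element

`A` an integrally closed domain, `l` a prime element of `A`, `s ∈ A` not divisible by `l`,
`y` an element of a field `F ⊇ A`.  If `l • y` and `s • y` are integral over `A`, then so is `y`:
the coefficients `a` of the minimal polynomial of `y` over `Frac A` satisfy
`a·l^k ∈ A` and `a·s^k ∈ A`, hence `a ∈ A`.
-/

set_option autoImplicit false

open Polynomial

namespace Fermat.Agent.Lib.S28

/-- If `a·l^k ∈ A` and `a·s^j ∈ A` with `l` prime and `l ∤ s`, then `a ∈ A`. -/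
theorem s28k_mem_of_mul_pow_mem {A K : Type*} [CommRing A] [IsDomain A] [Field K] [Algebra A K]
    [FaithfulSMul A K] {l s : A} (hl : Prime l) (hs : ¬ l ∣ s) (j : ℕ) :
    ∀ (k : ℕ) (a : K), (∃ u : A, algebraMap A K u = a * (algebraMap A K l) ^ k) →
      (∃ v : A, algebraMap A K v = a * (algebraMap A K s) ^ j) → ∃ w : A, algebraMap A K w = a := by
  have hinj : Function.Injective (algebraMap A K) := FaithfulSMul.algebraMap_injective A K
  have hl0 : algebraMap A K l ≠ 0 := by
    rw [Ne, map_eq_zero_iff _ hinj]; exact hl.ne_zero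
  intro k
  induction k with
  | zero =>
    rintro a ⟨u, hu⟩ -
    exact ⟨u, by simpa using hu⟩
  | succ k ih =>
    rintro a ⟨u, hu⟩ ⟨v, hv⟩
    -- `u * s^j = v * l^(k+1)` in `A`
    have h1 : u * s ^ j = v * l ^ (k + 1) := by
      apply hinj
      rw [map_mul, map_mul, map_pow, map_pow, hu, hv]
      ring
    have h2 : l ∣ u * s ^ j := ⟨v * l ^ k, by rw [h1]; ring⟩
    have h3 : l ∣ u := by
      rcases hl.dvd_or_dvd h2 with h | h
      · exact h
      · exact absurd (hl.dvd_of_dvd_pow h) hs
    obtain ⟨u', rfl⟩ := h3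
    refine ih a ⟨u', ?_⟩ ⟨v, hv⟩
    have h4 : algebraMap A K l * algebraMap A K u' = algebraMap A K l * (a * algebraMap A K l ^ k) := by
      rw [← map_mul, hu]; ring
    exact mul_left_cancel₀ hl0 h4

/-- **(K2)** Integrality descent: `l • y` and `s • y` integral over the integrally closed domain
`A`, `l` prime, `l ∤ s` ⇒ `y` integral over `A`. -/
theorem s28k_isIntegral_of_smul {A F : Type*} [CommRing A] [IsDomain A] [IsIntegrallyClosed A]
    [Field F] [Algebra A F] [FaithfulSMul A F] {l s : A} (hl : Prime l) (hs : ¬ l ∣ s) (y : F)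
    (h1 : IsIntegral A (l • y)) (h2 : IsIntegral A (s • y)) : IsIntegral A y := by
  classical
  let K := FractionRing A
  let _ : Algebra K F := FractionRing.liftAlgebra A F
  have : IsScalarTower A K F := FractionRing.isScalarTower_liftAlgebra A F
  have hinj : Function.Injective (algebraMap A K) := IsFractionRing.injective A K
  have hl0 : algebraMap A K l ≠ 0 := by
    rw [Ne, map_eq_zero_iff _ hinj]; exact hl.ne_zero
  have hs0 : algebraMap A K s ≠ 0 := by
    rw [Ne, map_eq_zero_iff _ hinj]; rintro rfl; exact hs (dvd_zero l)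
  -- `y` is integral over `K`
  have hyK : IsIntegral K y := by
    have h : IsIntegral K ((algebraMap A K l)⁻¹ • (l • y)) := (h1.tower_top).smul _
    rwa [← algebraMap_smul K l y, smul_smul, inv_mul_cancel₀ hl0, one_smul] at h
  set P : K[X] := minpoly K y with hP
  -- the key coefficient identity
  have key : ∀ c : A, algebraMap A K c ≠ 0 → IsIntegral A (c • y) → ∀ i,
      ∃ u : A, algebraMap A K u = P.coeff i * (algebraMap A K c) ^ (P.natDegree - i) := by
    intro c hc0 hc i
    refine ⟨(minpoly A (c • y)).coeff i, ?_⟩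
    have e1 : minpoly K (c • y) = (minpoly A (c • y)).map (algebraMap A K) :=
      minpoly.isIntegrallyClosed_eq_field_fractions' K hc
    have e2 : minpoly K (c • y) = P.scaleRoots (algebraMap A K c) := by
      rw [← algebraMap_smul K c y]
      exact IsIntegrallyClosed.minpoly_smul hc0 hyK
    rw [← coeff_map, ← e1, e2, coeff_scaleRoots]
  have hcoeff : ∀ i, ∃ w : A, algebraMap A K w = P.coeff i := fun i =>
    s28k_mem_of_mul_pow_mem hl hs (P.natDegree - i) (P.natDegree - i) (P.coeff i)
      (key l hl0 h1 i) (key s hs0 h2 i)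
  have hlifts : P ∈ Polynomial.lifts (algebraMap A K) :=
    (Polynomial.lifts_iff_coeff_lifts P).mpr fun i => by
      obtain ⟨w, hw⟩ := hcoeff i
      exact ⟨w, hw⟩
  obtain ⟨Q, hQP, -, hQmonic⟩ :=
    Polynomial.lifts_and_natDegree_eq_and_monic hlifts (minpoly.monic hyK)
  refine ⟨Q, hQmonic, ?_⟩
  have : aeval y (Q.map (algebraMap A K)) = 0 := by rw [hQP]; exact minpoly.aeval K y
  rwa [aeval_map_algebraMap, aeval_def] at this

end Fermat.Agent.Lib.S28
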