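import Fermat.Agent.Lib.S28.VBasis
import Fermat.Agent.Lib.S28.CLead

set_option autoImplicit false

noncomputable section

namespace Fermat.Agent.Lib.S28

open GaloisRep ModularCurve HahnSeries ModularCurve.IgusaScheme Polynomial

variable (ℓ : ℕ) [Fact ℓ.Prime]

/-! ### Transcendence of the reduced `j` (the `htr` hypothesis of the purity lemma) -/

theorem s28v_jqModC_eq_pole (k : Type*) [Field k] :
    jqModC k = s28c_pole 1 (jNum.map (Int.castRingHom k)) := by
  unfold jqModC s28c_pole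
  norm_num

theorem s28v_transcendental_jqModC (k : Type*) [Field k] : Transcendental k (jqModC k) := by
  rw [transcendental_iff_injective, s28v_jqModC_eq_pole]
  refine s28c_aeval_pole_injective 1 le_rfl _ ?_
  rw [← PowerSeries.coeff_zero_eq_constantCoeff_apply, PowerSeries.coeff_map,
    PowerSeries.coeff_zero_eq_constantCoeff_apply, constantCoeff_jNum, map_one]

theorem s28v_transcendental_jqModC_inv (k : Type*) [Field k] :
    Transcendental k (jqModC k)⁻¹ := by
  unfold Transcendental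
  rw [IsAlgebraic.inv_iff]
  exact s28v_transcendental_jqModC k

/-- `htr` in the shape of the abstract purity lemma, for any transcendental reduction. -/
theorem s28v_htr_of_transcendental (x : LaurentSeries (ZMod ℓ))
    (hx : Transcendental (ZMod ℓ) x) (Q : Polynomial (ratLocalizedAt ℓ))
    (hQ : (letI := s28v_algLS ℓ; aeval x Q) = 0) : C ((ℓ : ℕ) : ratLocalizedAt ℓ) ∣ Q := by
  apply s28v_C_dvd_of_map_eq_zero
  rw [s28v_aeval_algLS] at hQ
  have h1 : aeval x (Q.map (s28v_resHom ℓ)) = 0 := by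
    rw [aeval_def, eval₂_map, ← hQ]
    congr 1
    ext a : 1
    simp only [RingHom.coe_comp, Function.comp_apply]
    rw [s28v_algebraMap_eq_C]
  exact (transcendental_iff_injective.mp hx) (by rw [h1, map_zero])

variable (N : ℕ) [NeZero N]

theorem s28v_htr_jFull (Q : Polynomial (ratLocalizedAt ℓ))
    (hQ : (letI := s28v_algLS ℓ;
      aeval (s28v_redAlg ℓ N (s28v_incl N) (s28v_incl_mem_Frac ℓ N)
        ⟨jFull N, s28v_incl_jFull_mem ℓ N⟩) Q) = 0) :
    C ((ℓ : ℕ) : ratLocalizedAt ℓ) ∣ Q := by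
  rw [s28v_redAlg_incl_jFull] at hQ
  exact s28v_htr_of_transcendental ℓ _ (s28v_transcendental_jqModC _) Q hQ

theorem s28v_htr_jFull_inv (Q : Polynomial (ratLocalizedAt ℓ))
    (hQ : (letI := s28v_algLS ℓ;
      aeval (s28v_redAlg ℓ N (s28v_incl N) (s28v_incl_mem_Frac ℓ N)
        ⟨(jFull N)⁻¹, s28v_incl_jFull_inv_mem ℓ N⟩) Q) = 0) :
    C ((ℓ : ℕ) : ratLocalizedAt ℓ) ∣ Q := by
  rw [s28v_redAlg_incl_jFull_inv] at hQ
  exact s28v_htr_of_transcendental ℓ _ (s28v_transcendental_jqModC_inv _) Q hQ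

/-! ### From integrality over `ℤ[j]` inside `ℚ((q))` to membership in the finite chart -/

theorem s28v_mem_chartAlgFin_of_isIntegral (x : modularFunctionFieldFull N)
    (h : IsIntegral ↥(Algebra.adjoin ℤ {jq}) (x : LaurentSeries ℚ)) : x ∈ chartAlgFin N ℓ := by
  rw [mem_chartAlg_iff]
  obtain ⟨p, hpm, hp⟩ := h
  -- the two evaluation maps out of `ℤ[X]`
  let π : Polynomial ℤ →+* ↥(Algebra.adjoin ℤ {jq}) :=
    RingHom.codRestrict (aeval jq : Polynomial ℤ →ₐ[ℤ] LaurentSeries ℚ).toRingHom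
      (Algebra.adjoin ℤ {jq}) (fun c => by
        rw [Algebra.adjoin_singleton_eq_range_aeval]
        exact ⟨c, rfl⟩)
  have hπ : Function.Surjective π := by
    rintro ⟨y, hy⟩
    rw [Algebra.adjoin_singleton_eq_range_aeval] at hy
    obtain ⟨c, hc⟩ := hy
    exact ⟨c, Subtype.ext hc⟩
  let ψ : Polynomial ℤ →+* ↥(Algebra.adjoin (ratLocalizedAt ℓ) {jFull N}) :=
    RingHom.codRestrict (aeval (jFull N) : Polynomial ℤ →ₐ[ℤ] modularFunctionFieldFull N).toRingHom
      (Algebra.adjoin (ratLocalizedAt ℓ) {jFull N}) (fun c => by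
        show aeval (jFull N) c ∈ Algebra.adjoin (ratLocalizedAt ℓ) {jFull N}
        rw [← Polynomial.aeval_map_algebraMap (ratLocalizedAt ℓ)]
        exact Polynomial.aeval_mem_adjoin_singleton _ _)
  obtain ⟨p₁, hp₁⟩ := Polynomial.map_surjective π hπ p
  have hlifts : p ∈ Polynomial.lifts π := (Polynomial.mem_lifts p).mpr ⟨p₁, hp₁⟩
  obtain ⟨pt, hpt, -, hptm⟩ := Polynomial.lifts_and_natDegree_eq_and_monic hlifts hpm
  refine ⟨pt.map ψ, hptm.map ψ, ?_⟩
  -- compare in `ℚ((q))`
  have hinj : Function.Injective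
      (algebraMap (modularFunctionFieldFull N) (LaurentSeries ℚ)) := Subtype.val_injective
  apply hinj
  rw [map_zero, hom_eval₂, eval₂_map]
  rw [← hpt, eval₂_map] at hp
  rw [← hp]
  congr 1
  apply Polynomial.ringHom_ext
  · intro a
    simp [π, ψ]
  · simp [π, ψ]

end Fermat.Agent.Lib.S28
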