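import Fermat.Agent.Lib.S28.MInt

/-!
# S28 (N2, backup): `j(q^d)` is integral over `ℤ[j]` inside `ℚ((q))`
-/

set_option autoImplicit false
open Polynomial
noncomputable section

namespace Fermat.Agent.Lib.S28

section IntOver

variable {E : Type*} [CommRing E]

/-- Explicit form of "`v` is integral over `ℤ[u]`". -/
def s28d_IntOver (u v : E) : Prop :=
  ∃ G : Polynomial (Polynomial ℤ), G.Monic ∧ (G.map (aeval u).toRingHom).eval v = 0

theorem s28d_intOver_map {E' : Type*} [CommRing E'] (φ : E →+* E') {u v : E}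
    (h : s28d_IntOver u v) : s28d_IntOver (φ u) (φ v) := by
  obtain ⟨G, hG, h0⟩ := h
  refine ⟨G, hG, ?_⟩
  have h1 : (aeval (φ u) : Polynomial ℤ →ₐ[ℤ] E').toRingHom =
      φ.comp (aeval u : Polynomial ℤ →ₐ[ℤ] E).toRingHom := by
    apply Polynomial.ringHom_ext
    · intro a; simp
    · simp
  rw [h1, ← Polynomial.map_map, Polynomial.eval_map, Polynomial.eval₂_hom, h0, map_zero]

theorem s28d_intOver_of_map {E' : Type*} [CommRing E'] (φ : E →+* E')
    (hφ : Function.Injective φ) {u v : E} (h : s28d_IntOver (φ u) (φ v)) : s28d_IntOver u v := by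
  obtain ⟨G, hG, h0⟩ := h
  refine ⟨G, hG, hφ ?_⟩
  have h1 : (aeval (φ u) : Polynomial ℤ →ₐ[ℤ] E').toRingHom =
      φ.comp (aeval u : Polynomial ℤ →ₐ[ℤ] E).toRingHom := by
    apply Polynomial.ringHom_ext
    · intro a; simp
    · simp
  rw [h1, ← Polynomial.map_map, Polynomial.eval_map, Polynomial.eval₂_hom] at h0
  rw [map_zero]; exact h0

theorem s28d_intOver_iff (u v : E) :
    s28d_IntOver u v ↔ IsIntegral (Algebra.adjoin ℤ {u}) v := by
  constructor
  · rintro ⟨G, hG, h0⟩
    let U : Algebra.adjoin ℤ {u} := ⟨u, Algebra.subset_adjoin rfl⟩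
    refine ⟨G.map (aeval U : Polynomial ℤ →ₐ[ℤ] Algebra.adjoin ℤ {u}).toRingHom, hG.map _, ?_⟩
    rw [Polynomial.eval₂_map]
    have h1 : (algebraMap (Algebra.adjoin ℤ {u}) E).comp
        (aeval U : Polynomial ℤ →ₐ[ℤ] Algebra.adjoin ℤ {u}).toRingHom =
        (aeval u : Polynomial ℤ →ₐ[ℤ] E).toRingHom := by
      apply Polynomial.ringHom_ext
      · intro a; simp
      · simp [U]
    rw [h1, ← Polynomial.eval_map]
    exact h0
  · rintro ⟨p, hp, h0⟩
    let U : Algebra.adjoin ℤ {u} := ⟨u, Algebra.subset_adjoin rfl⟩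
    have hsurj : Function.Surjective
        (aeval U : Polynomial ℤ →ₐ[ℤ] Algebra.adjoin ℤ {u}).toRingHom := by
      rintro ⟨x, hx⟩
      rw [Algebra.adjoin_singleton_eq_range_aeval] at hx
      obtain ⟨P, rfl⟩ := hx
      refine ⟨P, Subtype.ext ?_⟩
      show ((aeval U P : Algebra.adjoin ℤ {u}) : E) = _
      rw [aeval_subalgebra_coe]
      rfl
    have hl : p ∈ Polynomial.lifts (aeval U : Polynomial ℤ →ₐ[ℤ] Algebra.adjoin ℤ {u}).toRingHom := by
      rw [Polynomial.lifts_iff_coeff_lifts]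
      intro n
      exact hsurj _
    obtain ⟨G, hGp, -, hG⟩ := Polynomial.lifts_and_natDegree_eq_and_monic hl hp
    refine ⟨G, hG, ?_⟩
    have h1 : (algebraMap (Algebra.adjoin ℤ {u}) E).comp
        (aeval U : Polynomial ℤ →ₐ[ℤ] Algebra.adjoin ℤ {u}).toRingHom =
        (aeval u : Polynomial ℤ →ₐ[ℤ] E).toRingHom := by
      apply Polynomial.ringHom_ext
      · intro a; simp
      · simp [U]
    rw [← h1, ← Polynomial.map_map, hGp, Polynomial.eval_map]
    exact h0

theorem s28d_intOver_refl (u : E) : s28d_IntOver u u :=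
  (s28d_intOver_iff u u).mpr
    (isIntegral_algebraMap (x := (⟨u, Algebra.subset_adjoin rfl⟩ : Algebra.adjoin ℤ {u})))

theorem s28d_intOver_trans {u v w : E} (h1 : s28d_IntOver u v) (h2 : s28d_IntOver v w) :
    s28d_IntOver u w := by
  rw [s28d_intOver_iff] at h1 h2 ⊢
  -- `C` = integral closure of `ℤ[u]` in `E`
  let Cl := integralClosure (Algebra.adjoin ℤ {u}) E
  have hv : v ∈ Cl := h1
  have hle : Algebra.adjoin ℤ {v} ≤ Cl.restrictScalars ℤ :=
    Algebra.adjoin_le (Set.singleton_subset_iff.mpr hv)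
  have hw : IsIntegral Cl w := by
    refine h2.map_of_comp_eq (Subalgebra.inclusion hle).toRingHom (RingHom.id E) ?_
    ext x
    rfl
  exact isIntegral_trans (A := Cl) w hw

/-- A root of a monic polynomial whose coefficients are integral is integral. -/
theorem s28d_isIntegral_of_monic_root {A : Type*} [CommRing A] [Algebra A E]
    (Ψ : Polynomial E) (hΨ : Ψ.Monic) (hc : ∀ n, IsIntegral A (Ψ.coeff n)) (z : E)
    (hz : Ψ.eval z = 0) : IsIntegral A z := by
  let Cl := integralClosure A E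
  have hl : Ψ ∈ Polynomial.lifts (algebraMap Cl E) := by
    rw [Polynomial.lifts_iff_coeff_lifts]
    intro n
    exact ⟨⟨Ψ.coeff n, hc n⟩, rfl⟩
  obtain ⟨q, hq, -, hqm⟩ := Polynomial.lifts_and_natDegree_eq_and_monic hl hΨ
  have hw : IsIntegral Cl z := ⟨q, hqm, by rw [← Polynomial.eval_map, hq]; exact hz⟩
  exact isIntegral_trans (A := Cl) z hw

/-- The image of an element integral over `ℤ` is integral over any base ring. -/
theorem s28d_isIntegral_of_int {A B : Type*} [CommRing A] [CommRing B] [Algebra A E]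
    (ψ : B →+* E) {c : B} (hc : IsIntegral ℤ c) : IsIntegral A (ψ c) := by
  obtain ⟨p, hp, h0⟩ := hc
  refine ⟨p.map (Int.castRingHom A), hp.map _, ?_⟩
  rw [Polynomial.eval₂_map]
  have h1 : (algebraMap A E).comp (Int.castRingHom A) = ψ.comp (algebraMap ℤ B) :=
    RingHom.ext_int _ _
  rw [h1, ← Polynomial.hom_eval₂, h0, map_zero]

end IntOver

section PrimeStep

variable {E : Type*} [CommRing E]

/-- Abstract prime step: a monic two-variable polynomial over `B` with coefficients integral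
over `ℤ` and `Φ(x, z) = 0` makes `z` integral over `ℤ[x]`. -/
theorem s28d_intOver_of_poly {B : Type*} [CommRing B] (ψ : B →+* E) (x z : E)
    (Φ : Polynomial (Polynomial B)) (hΦ : Φ.Monic)
    (hint : ∀ n i, IsIntegral ℤ ((Φ.coeff n).coeff i))
    (h0 : (Φ.map (Polynomial.eval₂RingHom ψ x)).eval z = 0) : s28d_IntOver x z := by
  rw [s28d_intOver_iff]
  refine s28d_isIntegral_of_monic_root (Φ.map (Polynomial.eval₂RingHom ψ x)) (hΦ.map _) ?_ _ h0
  intro n
  rw [Polynomial.coeff_map]
  show IsIntegral _ (Polynomial.eval₂ ψ x (Φ.coeff n))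
  rw [Polynomial.eval₂_eq_sum_range]
  refine IsIntegral.sum _ fun i _ => ?_
  refine IsIntegral.mul ?_ ?_
  · exact s28d_isIntegral_of_int ψ (hint n i)
  · have hxi : IsIntegral (Algebra.adjoin ℤ {x}) x :=
      isIntegral_algebraMap (R := Algebra.adjoin ℤ {x})
        (A := E) (x := (⟨x, Algebra.subset_adjoin rfl⟩ : Algebra.adjoin ℤ {x}))
    exact hxi.pow i

open ModularCurve

/-- Prime step over `ℂ`, in the `t`-picture. -/
theorem s28d_intOver_prime_C (r : ℕ) [Fact r.Prime] [NeZero r] :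
    s28d_IntOver (qExpand ℂ r (jqModC ℂ)) (qExpand ℂ r (qExpand ℂ r (jqModC ℂ))) := by
  obtain ⟨Φ, hΦ, hint, h0⟩ := s28m_intHyp r
  exact s28d_intOver_of_poly (algebraMap ℂ (LaurentSeries ℂ)) _ _ Φ hΦ hint h0

theorem s28d_coeffMap_injective {R S : Type*} [CommRing R] [CommRing S] (f : R →+* S)
    (hf : Function.Injective f) : Function.Injective (coeffMap f) := by
  intro x y h
  ext k
  apply hf
  have := congrArg (fun z => z.coeff k) h
  simpa using this

/-- Prime step over `ℚ`. -/
theorem s28d_intOver_prime_Q (r : ℕ) [Fact r.Prime] [NeZero r] :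
    s28d_IntOver jq (qExpand ℚ r jq) := by
  have h1 : s28d_IntOver (jqModC ℂ) (qExpand ℂ r (jqModC ℂ)) :=
    s28d_intOver_of_map (qExpand ℂ r) (qExpand_injective (R := ℂ) r) (s28d_intOver_prime_C r)
  refine s28d_intOver_of_map (coeffMap (algebraMap ℚ ℂ))
    (s28d_coeffMap_injective _ (algebraMap ℚ ℂ).injective) ?_
  have hj : coeffMap (algebraMap ℚ ℂ) jq = jqModC ℂ := coeffMap_jqModC (R := ℚ) (algebraMap ℚ ℂ)
  rw [coeffMap_qExpand, hj]
  exact h1

theorem s28d_intOver_jq_aux : ∀ (d : ℕ) (hd : d ≠ 0),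
    s28d_IntOver jq (@qExpand ℚ _ d ⟨hd⟩ jq) := by
  intro d
  induction d using Nat.strong_induction_on with
  | _ d ih =>
    intro hd0
    haveI : NeZero d := ⟨hd0⟩
    by_cases hd1 : d = 1
    · subst hd1
      rw [qExpand_one_apply]
      exact s28d_intOver_refl jq
    · obtain ⟨e, he⟩ := Nat.minFac_dvd d
      have hr : (Nat.minFac d).Prime := Nat.minFac_prime hd1
      haveI : Fact (Nat.minFac d).Prime := ⟨hr⟩
      haveI : NeZero (Nat.minFac d) := ⟨hr.ne_zero⟩
      have he0 : e ≠ 0 := by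
        rintro rfl
        exact hd0 (by rw [he, mul_zero])
      haveI : NeZero e := ⟨he0⟩
      have helt : e < d := by
        conv_rhs => rw [he]
        exact lt_mul_of_one_lt_left (Nat.pos_of_ne_zero he0) hr.one_lt
      have h1 : s28d_IntOver jq (qExpand ℚ e jq) := ih e helt he0
      have h2 : s28d_IntOver (qExpand ℚ e jq) (qExpand ℚ e (qExpand ℚ (Nat.minFac d) jq)) :=
        s28d_intOver_map (qExpand ℚ e) (s28d_intOver_prime_Q (Nat.minFac d))
      rw [qExpand_qExpand] at h2
      have h3 : qExpand ℚ (e * Nat.minFac d) jq = qExpand ℚ d jq :=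
        qExpand_congr (by rw [mul_comm]; exact he.symm) jq
      rw [h3] at h2
      exact s28d_intOver_trans h1 h2

/-- **(N2)** `j(q^d)` is integral over `ℤ[j]`, explicit form. -/
theorem s28d_intOver_jq (d : ℕ) [NeZero d] : s28d_IntOver jq (qExpand ℚ d jq) :=
  s28d_intOver_jq_aux d (NeZero.ne d)

end PrimeStep

section Concrete

open ModularCurve

/-- From the explicit form to `IsIntegral`, for an arbitrary `ℤ`-algebra instance on `E`
(there are several non-reducibly-defeq ones on Laurent series). -/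
theorem s28d_isIntegral_of_intOver {E : Type*} [CommRing E] [inst : Algebra ℤ E] (u v : E)
    (h : s28d_IntOver u v) : IsIntegral (Algebra.adjoin ℤ {u}) v := by
  have hinst : inst = Ring.toIntAlgebra E := Subsingleton.elim _ _
  subst hinst
  exact (s28d_intOver_iff u v).mp h

/-- **(N2)** in the shape consumed by `s28v_mem_chartAlgFin_of_isIntegral`. -/
theorem s28d_isIntegral_jq (d : ℕ) [NeZero d] :
    IsIntegral ↥(Algebra.adjoin ℤ {jq}) (qExpand ℚ d jq) :=
  s28d_isIntegral_of_intOver jq _ (s28d_intOver_jq d)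

end Concrete

end Fermat.Agent.Lib.S28
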