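import Mathlib
import Fermat.Prelude.Def_GaloisRep_Flat

/-!
# S28: the ring `ℤ_(ℓ) = GaloisRep.ratLocalizedAt ℓ` is a discrete valuation ring
-/

set_option autoImplicit false
noncomputable section

namespace Fermat.Agent.Lib.S28

open GaloisRep

variable (ℓ : ℕ) [Fact ℓ.Prime]

theorem s28d_mem_ratLocalizedAt_iff (x : ℚ) :
    x ∈ ratLocalizedAt ℓ ↔ 0 ≤ padicValRat ℓ x := by
  have hp : ℓ.Prime := Fact.out
  show x.den.Coprime ℓ ↔ _
  rw [padicValRat_def]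
  constructor
  · intro h
    have h1 : ¬ ℓ ∣ x.den := (hp.coprime_iff_not_dvd).mp h.symm
    rw [padicValNat.eq_zero_of_not_dvd h1]
    simp
  · intro h
    by_contra hc
    have h1 : ℓ ∣ x.den := by
      by_contra h2
      exact hc ((hp.coprime_iff_not_dvd).mpr h2).symm
    have h2 : ¬ (ℓ : ℤ) ∣ x.num := by
      intro h3
      have h4 : ℓ ∣ x.num.natAbs := Int.natCast_dvd.mp h3
      have := Nat.dvd_gcd h4 h1
      rw [x.reduced] at this
      exact hp.one_lt.ne' (Nat.dvd_one.mp this)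
    rw [padicValInt.eq_zero_of_not_dvd h2] at h
    have h5 := one_le_padicValNat_of_dvd (p := ℓ) x.den_ne_zero h1
    have : (1 : ℤ) ≤ (padicValNat ℓ x.den : ℤ) := by exact_mod_cast h5
    omega

omit [Fact ℓ.Prime] in
/-- The element `ℓ` of `ℤ_(ℓ)`. -/
theorem s28d_coe_natCast (n : ℕ) : (((n : ratLocalizedAt ℓ)) : ℚ) = n := rfl

theorem s28d_isUnit_of_padicValRat_eq_zero {x : ratLocalizedAt ℓ} (hx : (x : ℚ) ≠ 0)
    (hv : padicValRat ℓ (x : ℚ) = 0) : IsUnit x := by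
  have hmem : (x : ℚ)⁻¹ ∈ ratLocalizedAt ℓ := by
    rw [s28d_mem_ratLocalizedAt_iff, padicValRat.inv, hv]; simp
  refine IsUnit.of_mul_eq_one ⟨(x : ℚ)⁻¹, hmem⟩ (Subtype.ext ?_)
  simp [mul_inv_cancel₀ hx]

theorem s28d_padicValRat_eq_zero_of_isUnit {x : ratLocalizedAt ℓ} (hx : IsUnit x) :
    padicValRat ℓ (x : ℚ) = 0 := by
  obtain ⟨y, hy⟩ := hx.exists_right_inv
  have h1 : (x : ℚ) * (y : ℚ) = 1 := by
    have := congrArg (Subtype.val) hy
    simpa using this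
  have hx0 : (x : ℚ) ≠ 0 := left_ne_zero_of_mul_eq_one h1
  have hy0 : (y : ℚ) ≠ 0 := right_ne_zero_of_mul_eq_one h1
  have h2 : padicValRat ℓ ((x : ℚ) * (y : ℚ)) = padicValRat ℓ x + padicValRat ℓ y :=
    padicValRat.mul hx0 hy0
  rw [h1, padicValRat.one] at h2
  have h3 := (s28d_mem_ratLocalizedAt_iff ℓ x).mp x.2
  have h4 := (s28d_mem_ratLocalizedAt_iff ℓ y).mp y.2
  omega

theorem s28d_hasUnitMulPow : IsDiscreteValuationRing.HasUnitMulPowIrreducibleFactorization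
    (ratLocalizedAt ℓ) := by
  have hp : ℓ.Prime := Fact.out
  have hℓ0 : ((ℓ : ratLocalizedAt ℓ) : ℚ) ≠ 0 := by
    rw [s28d_coe_natCast]; exact_mod_cast hp.ne_zero
  have hvℓ : padicValRat ℓ ((ℓ : ratLocalizedAt ℓ) : ℚ) = 1 := by
    rw [s28d_coe_natCast]; exact padicValRat.self hp.one_lt
  refine ⟨(ℓ : ratLocalizedAt ℓ), ?_, ?_⟩
  · rw [irreducible_iff]
    refine ⟨fun hu => ?_, fun a b hab => ?_⟩
    · have := s28d_padicValRat_eq_zero_of_isUnit ℓ hu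
      omega
    · have h1 : ((ℓ : ratLocalizedAt ℓ) : ℚ) = (a : ℚ) * (b : ℚ) := by
        have := congrArg (Subtype.val) hab
        simpa using this
      have ha0 : (a : ℚ) ≠ 0 := fun h => hℓ0 (by rw [h1, h, zero_mul])
      have hb0 : (b : ℚ) ≠ 0 := fun h => hℓ0 (by rw [h1, h, mul_zero])
      have h2 : padicValRat ℓ ((a : ℚ) * (b : ℚ)) = padicValRat ℓ a + padicValRat ℓ b :=
        padicValRat.mul ha0 hb0
      rw [← h1, hvℓ] at h2
      have h3 := (s28d_mem_ratLocalizedAt_iff ℓ a).mp a.2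
      have h4 := (s28d_mem_ratLocalizedAt_iff ℓ b).mp b.2
      rcases (show padicValRat ℓ (a : ℚ) = 0 ∨ padicValRat ℓ (b : ℚ) = 0 by omega) with h | h
      · exact Or.inl (s28d_isUnit_of_padicValRat_eq_zero ℓ ha0 h)
      · exact Or.inr (s28d_isUnit_of_padicValRat_eq_zero ℓ hb0 h)
  · intro x hx
    have hx0 : (x : ℚ) ≠ 0 := fun h => hx (Subtype.ext h)
    have hv := (s28d_mem_ratLocalizedAt_iff ℓ x).mp x.2
    obtain ⟨n, hn⟩ := Int.eq_ofNat_of_zero_le hv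
    refine ⟨n, ?_⟩
    have hℓq : (ℓ : ℚ) ≠ 0 := by exact_mod_cast hp.ne_zero
    have hvu : padicValRat ℓ ((x : ℚ) / (ℓ : ℚ) ^ n) = 0 := by
      rw [padicValRat.div hx0 (pow_ne_zero _ hℓq), padicValRat.pow,
        padicValRat.self hp.one_lt, hn]
      simp
    have hmem : (x : ℚ) / (ℓ : ℚ) ^ n ∈ ratLocalizedAt ℓ := by
      rw [s28d_mem_ratLocalizedAt_iff, hvu]
    have hu : IsUnit (⟨(x : ℚ) / (ℓ : ℚ) ^ n, hmem⟩ : ratLocalizedAt ℓ) :=
      s28d_isUnit_of_padicValRat_eq_zero ℓ (div_ne_zero hx0 (pow_ne_zero _ hℓq)) hvu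
    refine ⟨hu.unit, Subtype.ext ?_⟩
    simp only [IsUnit.unit_spec, Subring.coe_mul, SubmonoidClass.coe_pow, s28d_coe_natCast]
    field_simp

instance s28d_isDVR : IsDiscreteValuationRing (ratLocalizedAt ℓ) :=
  IsDiscreteValuationRing.ofHasUnitMulPowIrreducibleFactorization (s28d_hasUnitMulPow ℓ)

theorem s28d_not_isUnit_ell : ¬ IsUnit (ℓ : ratLocalizedAt ℓ) := by
  have hp : ℓ.Prime := Fact.out
  intro hu
  have := s28d_padicValRat_eq_zero_of_isUnit ℓ hu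
  rw [s28d_coe_natCast, padicValRat.self hp.one_lt] at this
  omega

theorem s28d_ell_ne_zero : (ℓ : ratLocalizedAt ℓ) ≠ 0 := by
  have hp : ℓ.Prime := Fact.out
  intro h
  have := congrArg (Subtype.val) h
  rw [s28d_coe_natCast] at this
  exact hp.ne_zero (by exact_mod_cast this)

theorem s28d_dvd_iff (x : ratLocalizedAt ℓ) :
    (ℓ : ratLocalizedAt ℓ) ∣ x ↔ (x : ℚ) = 0 ∨ 1 ≤ padicValRat ℓ (x : ℚ) := by
  have hp : ℓ.Prime := Fact.out
  have hℓq : (ℓ : ℚ) ≠ 0 := by exact_mod_cast hp.ne_zero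
  constructor
  · rintro ⟨y, rfl⟩
    by_cases hy : (y : ℚ) = 0
    · left; simp [hy]
    · right
      rw [Subring.coe_mul, s28d_coe_natCast, padicValRat.mul hℓq hy, padicValRat.self hp.one_lt]
      have := (s28d_mem_ratLocalizedAt_iff ℓ y).mp y.2
      omega
  · rintro (h | h)
    · have : x = 0 := Subtype.ext h
      rw [this]; exact dvd_zero _
    · have hx0 : (x : ℚ) ≠ 0 := by
        intro h0; rw [h0, padicValRat.zero] at h; omega
      have hmem : (x : ℚ) / (ℓ : ℚ) ∈ ratLocalizedAt ℓ := by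
        rw [s28d_mem_ratLocalizedAt_iff, padicValRat.div hx0 hℓq, padicValRat.self hp.one_lt]
        omega
      refine ⟨⟨_, hmem⟩, Subtype.ext ?_⟩
      rw [Subring.coe_mul, s28d_coe_natCast]
      field_simp

theorem s28d_prime_ell : Prime (ℓ : ratLocalizedAt ℓ) := by
  have hp : ℓ.Prime := Fact.out
  refine ⟨s28d_ell_ne_zero ℓ, s28d_not_isUnit_ell ℓ, fun a b hab => ?_⟩
  rw [s28d_dvd_iff] at hab ⊢
  rw [s28d_dvd_iff]
  rcases hab with h | h
  · rw [Subring.coe_mul, mul_eq_zero] at h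
    rcases h with h | h
    · exact Or.inl (Or.inl h)
    · exact Or.inr (Or.inl h)
  · by_cases ha : (a : ℚ) = 0
    · exact Or.inl (Or.inl ha)
    by_cases hb : (b : ℚ) = 0
    · exact Or.inr (Or.inl hb)
    rw [Subring.coe_mul, padicValRat.mul ha hb] at h
    have h3 := (s28d_mem_ratLocalizedAt_iff ℓ a).mp a.2
    have h4 := (s28d_mem_ratLocalizedAt_iff ℓ b).mp b.2
    rcases (show 1 ≤ padicValRat ℓ (a : ℚ) ∨ 1 ≤ padicValRat ℓ (b : ℚ) by omega) with h5 | h5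
    · exact Or.inl (Or.inr h5)
    · exact Or.inr (Or.inr h5)

theorem s28d_finite_mult (r : ratLocalizedAt ℓ) (hr : r ≠ 0) :
    ∃ n : ℕ, ¬ (ℓ : ratLocalizedAt ℓ) ^ (n + 1) ∣ r :=
  FiniteMultiplicity.of_not_isUnit (s28d_not_isUnit_ell ℓ) hr

end Fermat.Agent.Lib.S28
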