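/-
S28, package (M) (helper9), part 6: descent of the modular equation to `A = ℤ[ζ] ⊆ ℂ` and transfer
along any ring homomorphism `A →+* k`.
-/
import Fermat.Agent.Lib.S28.MEq

set_option autoImplicit false

namespace Fermat.Agent.Lib.S28

open ModularCurve Polynomial
open Fermat.Agent.Lib.FF

noncomputable section

variable (r : ℕ) [hr : Fact r.Prime]

/-- `A = ℤ[ζ] ⊆ ℂ`, `ζ = exp (2πi/r)`. -/
abbrev s28m_A : Subalgebra ℤ ℂ := Algebra.adjoin ℤ {Complex.exp (2 * Real.pi * Complex.I / r)}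

/-- `ζ` as an element of `A`. -/
def s28m_zetaA0 : s28m_A r :=
  ⟨Complex.exp (2 * Real.pi * Complex.I / r), Algebra.self_mem_adjoin_singleton ℤ _⟩

theorem s28m_zetaA0_pow : s28m_zetaA0 r ^ r = 1 := by
  apply Subtype.ext
  rw [SubmonoidClass.coe_pow]
  show Complex.exp (2 * Real.pi * Complex.I / r) ^ r = 1
  exact (Complex.isPrimitiveRoot_exp r hr.out.ne_zero).pow_eq_one

/-- `ζ` as a unit of `A`. -/
def s28m_zetaA : (s28m_A r)ˣ :=
  Units.mkOfMulEqOne (s28m_zetaA0 r) (s28m_zetaA0 r ^ (r - 1)) (by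
    rw [← pow_succ', Nat.sub_add_cancel hr.out.one_le, s28m_zetaA0_pow])

@[simp] theorem s28m_zetaA_coe : ((s28m_zetaA r : (s28m_A r)ˣ) : s28m_A r) = s28m_zetaA0 r := rfl

/-- The inclusion `A → ℂ`. -/
abbrev s28m_incl : s28m_A r →+* ℂ := (s28m_A r).val.toRingHom

theorem s28m_incl_injective : Function.Injective (s28m_incl r) := Subtype.val_injective

theorem s28m_map_zetaA : Units.map (s28m_incl r : s28m_A r →* ℂ) (s28m_zetaA r) = s28m_zetaC r := by
  apply Units.ext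
  rw [s28m_zetaC_coe]
  rfl

/-- **Modular equation over `A = ℤ[ζ]`.** -/
theorem s28m_modEq_A :
    ∃ Φ : Polynomial (Polynomial (s28m_A r)), Φ.Monic ∧ Φ.natDegree = r + 1 ∧
      Φ.map (s28m_subst (s28m_Xr (B := s28m_A r) r)) = s28m_rhs r (s28m_zetaA r) := by
  obtain ⟨Φ, hm, hd, hΦ⟩ := s28m_modEq_complex r
  -- the right-hand side comes from `A`
  have hrhs : (s28m_rhs r (s28m_zetaA r)).map (coeffMap (s28m_incl r)) = s28m_rhs r (s28m_zetaC r) := by
    rw [s28m_rhs_map, s28m_map_zetaA]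
  -- hence every coefficient of `Φ` has its `q`-expansion in `A`
  have hcoeff : ∀ (k : ℕ) (i : ℕ), (Φ.coeff k).coeff i ∈ (s28m_A r).toSubring := by
    intro k
    refine s28m_qexp_principle r (s28m_A r).toSubring ((Φ.coeff k).natDegree + 1) (Φ.coeff k)
      (Nat.lt_succ_self _) fun n => ?_
    have h1 : s28m_subst (s28m_Xr (B := ℂ) r) (Φ.coeff k)
        = coeffMap (s28m_incl r) ((s28m_rhs r (s28m_zetaA r)).coeff k) := by
      rw [← Polynomial.coeff_map, ← Polynomial.coeff_map, hΦ, hrhs]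
    rw [h1, coeffMap_coeff]
    exact (((s28m_rhs r (s28m_zetaA r)).coeff k).coeff n).2
  -- lift `Φ`
  have hlift : Φ ∈ Polynomial.lifts (mapRingHom (s28m_incl r)) := by
    rw [Polynomial.lifts_iff_coeff_lifts]
    intro k
    have h1 : Φ.coeff k ∈ Polynomial.lifts (s28m_incl r) := by
      rw [Polynomial.lifts_iff_coeff_lifts]
      intro i
      exact ⟨⟨(Φ.coeff k).coeff i, hcoeff k i⟩, rfl⟩
    obtain ⟨q, hq⟩ := (Polynomial.lifts_iff_set_range _).mp h1
    exact ⟨q, by rw [coe_mapRingHom]; exact hq⟩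
  obtain ⟨ΦA, hΦA, hdeg, hmonic⟩ := Polynomial.lifts_and_natDegree_eq_and_monic hlift hm
  refine ⟨ΦA, hmonic, by rw [hdeg, hd], ?_⟩
  have hinj : Function.Injective (Polynomial.map (coeffMap (s28m_incl r)) :
      (LaurentSeries (s28m_A r))[X] → (LaurentSeries ℂ)[X]) :=
    Polynomial.map_injective _ (s28m_coeffMap_injective (s28m_incl_injective r))
  apply hinj
  rw [s28m_map_map_subst, hrhs, ← hΦ]
  have hΦA' : ΦA.map (mapRingHom (s28m_incl r)) = Φ := hΦA
  rw [hΦA']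
  congr 2
  rw [s28m_Xr, coeffMap_qExpand, coeffMap_jqModC]

/-- **Transfer** along a ring homomorphism `ψ : ℤ[ζ] →+* k`. -/
theorem s28m_modEq_of_hom {k : Type*} [CommRing k] [Nontrivial k] (ψ : s28m_A r →+* k) :
    ∃ Φ : Polynomial (Polynomial k), Φ.Monic ∧ Φ.natDegree = r + 1 ∧
      Φ.map (s28m_subst (s28m_Xr (B := k) r))
        = s28m_rhs r (Units.map (ψ : s28m_A r →* k) (s28m_zetaA r)) := by
  obtain ⟨ΦA, hm, hd, hΦ⟩ := s28m_modEq_A r
  have hmk : (ΦA.map (mapRingHom ψ)).Monic := hm.map _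
  refine ⟨ΦA.map (mapRingHom ψ), hmk, ?_, ?_⟩
  · rw [hm.natDegree_map, hd]
  · have := congrArg (Polynomial.map (coeffMap ψ)) hΦ
    rw [s28m_map_map_subst, s28m_rhs_map] at this
    rw [← this]
    congr 2
    rw [s28m_Xr, coeffMap_qExpand, coeffMap_jqModC]

end

end Fermat.Agent.Lib.S28
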