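/-
S28, package (M) (helper9), final: the level-`r` modular equation (`r` prime) over every field
with a primitive `r`-th root of unity.
-/
import Fermat.Agent.Lib.S28.MDescent

set_option autoImplicit false

namespace Fermat.Agent.Lib.S28

open ModularCurve Polynomial

noncomputable section

variable (r : ℕ) [hr : Fact r.Prime]

/-- A ring homomorphism `ℤ[ζ] → k` sending `ζ` to a given primitive `r`-th root of unity. -/
theorem s28m_exists_hom (k : Type*) [Field k] (ζ : k) (hζ : IsPrimitiveRoot ζ r) :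
    ∃ ψ : s28m_A r →+* k, ψ (s28m_zetaA0 r) = ζ := by
  have hpos : 0 < r := hr.out.pos
  set z : ℂ := Complex.exp (2 * Real.pi * Complex.I / r) with hz
  have hzprim : IsPrimitiveRoot z r := Complex.isPrimitiveRoot_exp r hr.out.ne_zero
  have hint : IsIntegral ℤ z := hzprim.isIntegral hpos
  let pb := Algebra.adjoin.powerBasis' hint
  have hmin : minpoly ℤ pb.gen = cyclotomic r ℤ := by
    rw [← Algebra.adjoin.powerBasis'_minpoly_gen hint, ← cyclotomic_eq_minpoly hzprim hpos]
  have hroot : aeval ζ (minpoly ℤ pb.gen) = 0 := by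
    rw [hmin, aeval_def, eval₂_eq_eval_map,
      show algebraMap ℤ k = Int.castRingHom k from rfl, map_cyclotomic_int]
    exact hζ.isRoot_cyclotomic hpos
  refine ⟨(pb.lift ζ hroot).toRingHom, ?_⟩
  have h1 : pb.gen = s28m_zetaA0 r := Algebra.adjoin.powerBasis'_gen hint
  have := pb.lift_gen ζ hroot
  rw [h1] at this
  exact this

/-- **The level-`r` modular equation** over a field with a primitive `r`-th root of unity. -/
theorem s28m_modEq (k : Type*) [Field k] (ζ : kˣ) (hζ : IsPrimitiveRoot (ζ : k) r) :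
    ∃ Φ : Polynomial (Polynomial k), Φ.Monic ∧ Φ.natDegree = r + 1 ∧
      Φ.map (Polynomial.aeval (qExpand k r (jqModC k))).toRingHom
        = (X - C (qExpand k (r * r) (jqModC k))) *
          ∏ b ∈ Finset.range r, (X - C (s28c_twist (ζ ^ b) (jqModC k))) := by
  obtain ⟨ψ, hψ⟩ := s28m_exists_hom r k (ζ : k) hζ
  obtain ⟨Φ, hm, hd, hΦ⟩ := s28m_modEq_of_hom r ψ
  have hu : Units.map (ψ : s28m_A r →* k) (s28m_zetaA r) = ζ := by
    apply Units.ext
    exact hψ
  refine ⟨Φ, hm, hd, ?_⟩
  rw [← s28m_subst_eq_aeval]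
  rw [hΦ, hu, s28m_rhs]
  congr 1

end

end Fermat.Agent.Lib.S28
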