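/-
S28 (Igusa), package (E7) (helper5): the tower bound and the independent monomials,
unconditional form (`k` algebraically closed of characteristic `ℓ ∤ N`).
-/
import Fermat.Agent.Lib.S28.EMonomials
import Fermat.Agent.Lib.S28.TPrimeFinal

set_option autoImplicit false

noncomputable section

namespace Fermat.Agent.Lib.S28

open Module IntermediateField Polynomial HahnSeries ModularCurve

variable (k : Type*) [Field k] [IsAlgClosed k] (ℓ : ℕ) [Fact ℓ.Prime] [CharP k ℓ]

/-- All prime-level inputs at a level `N` prime to the characteristic. -/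
theorem s28e_primeLevelAll (N : ℕ) (hℓN : ¬ ℓ ∣ N) : s28e_PrimeLevelAll k N := by
  intro r m _ _ hr hmr
  haveI : Fact r.Prime := ⟨hr⟩
  have hrl : r ≠ ℓ := by
    rintro rfl
    exact hℓN (Dvd.dvd.trans (Dvd.intro_left m rfl) hmr)
  exact s28t_prime_level_uncond k ℓ r hrl m

/-- `ψ(N) ≤ [k(j(q^d) : d ∣ N) : k(j(q^N))]`. -/
theorem s28e_dedekindPsi_le_finrank_final (N : ℕ) [NeZero N] (hℓN : ¬ ℓ ∣ N) :
    dedekindPsi N ≤ finrank ↥(s28e_base k N) ↥(s28e_top k N) :=
  s28e_dedekindPsi_le_finrank_top k N (s28e_primeLevelAll k ℓ N hℓN)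

/-- **`≥ ψ(N)` monomials in the `j(q^d)`, `d ∣ N`, with no nontrivial `k[j(q^N)]`-linear
relation**, in `k((q))`, `k` algebraically closed of characteristic `ℓ ∤ N`. -/
theorem s28e_exists_monomials_indep_final (N : ℕ) [NeZero N] (hℓN : ¬ ℓ ∣ N) :
    ∃ (n : ℕ) (θ : Fin n → LaurentSeries k), dedekindPsi N ≤ n ∧
      (∀ i, θ i ∈ Submonoid.closure (divisorExpansionsC k N)) ∧
      ∀ P : Fin n → Polynomial k,
        ∑ i, Polynomial.aeval (qExpand k N (jqModC k)) (P i) * θ i = 0 → P = 0 :=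
  s28e_exists_monomials_indep k N (s28e_primeLevelAll k ℓ N hℓN)

/-- Linear-independence form over the field `k(j(q^N))`. -/
theorem s28e_exists_monomials_final (N : ℕ) [NeZero N] (hℓN : ¬ ℓ ∣ N) :
    ∃ (n : ℕ) (θ : Fin n → LaurentSeries k), dedekindPsi N ≤ n ∧
      (∀ i, θ i ∈ Submonoid.closure (divisorExpansionsC k N)) ∧
      LinearIndependent ↥(s28e_base k N) θ :=
  s28e_exists_monomials k N (s28e_primeLevelAll k ℓ N hℓN)

end Fermat.Agent.Lib.S28
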