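import Fermat.Agent.Lib.S28.DMain
import Fermat.Agent.Lib.S28.VTrans

/-!
# S28: Igusa's theorem from the characteristic-`ℓ` independence statement (H5) and the
integrality of the generators (HN2)
-/

set_option autoImplicit false
noncomputable section

namespace Fermat.Agent.Lib.S28

open GaloisRep ModularCurve HahnSeries ModularCurve.IgusaScheme Polynomial
open AlgebraicGeometry CategoryTheory CategoryTheory.Limits

variable (ℓ : ℕ) [Fact ℓ.Prime] (N : ℕ) [NeZero N]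

/-- Purity of `chartAlgFin`, with the independence hypothesis in `ℤ_(ℓ)[X]`-form. -/
theorem s28d_fin_purity_Zl
    (w : ↥(modularFunctionFieldFull N) →+* LaurentSeries ℚ) (hw : ∀ x, w x ∈ s28v_Frac ℓ)
    (hBO' : chartAlgFin N ℓ ≤ s28v_OAlg ℓ N w hw)
    (ht' : jFull N ∈ s28v_OAlg ℓ N w hw)
    {n : ℕ} (hn : dedekindPsi N ≤ n) (b : Fin n → modularFunctionFieldFull N)
    (hbB : ∀ i, b i ∈ chartAlgFin N ℓ) (hb' : ∀ i, b i ∈ s28v_OAlg ℓ N w hw)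
    (hind' : ∀ P : Fin n → (ratLocalizedAt ℓ)[X],
      (letI := s28v_algLS ℓ;
        ∑ i, aeval (s28v_redAlg ℓ N w hw ⟨jFull N, ht'⟩) (P i) *
          s28v_redAlg ℓ N w hw ⟨b i, hb' i⟩ = 0) →
      ∀ i, C ((ℓ : ℕ) : ratLocalizedAt ℓ) ∣ P i) :
    s28d_Pure ℓ N {jFull N} := by
  letI := s28v_algLS ℓ
  intro y hy hyB
  have hindF := s28d_indepF ((ℓ : ℕ) : ratLocalizedAt ℓ) (s28v_finite_mult ℓ)
    (s28d_natCast_F_ne_zero ℓ N) (s28v_OAlg ℓ N w hw) (s28v_redAlg ℓ N w hw) (jFull N) ht' b hb'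
    hind'
  have hspan := s28d_span_of_relation (R := ratLocalizedAt ℓ) (jFull N) b hindF
    (s28d_hrel N hn b)
  refine s28d_mem_of_ell_mul_mem ((ℓ : ℕ) : ratLocalizedAt ℓ) (s28v_prime_natCast ℓ)
    (s28v_finite_mult ℓ) (s28d_natCast_F_ne_zero ℓ N) (s28v_algLS_natCast_self ℓ)
    (s28v_algLS_natCast_self ℓ) (s28d_Ostd ℓ N) (s28v_OAlg ℓ N w hw)
    (s28v_redAlg ℓ N (s28v_incl N) (s28v_incl_mem_Frac ℓ N)) (s28v_redAlg ℓ N w hw)
    (s28v_redAlg_eq_zero ℓ N w hw) (jFull N) (s28v_incl_jFull_mem ℓ N) ht' ?_ b hb' hind' hspan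
    (chartAlgFin N ℓ) (fun x => Iff.rfl) (s28v_chartAlgFin_le_incl ℓ N) hBO' hbB y hy hyB
  intro Q hQ
  rw [s28v_redAlg_incl_jFull] at hQ
  exact s28d_htr_std ℓ Q hQ

/-- **Igusa from (H5) + (HN2).** -/
theorem s28d_isIntegral_of_H5 (k : Type*) [Field k] [Algebra (ZMod ℓ) k]
    (H5 : ∃ (n : ℕ) (θ : Fin n → LaurentSeries k), dedekindPsi N ≤ n ∧
      (∀ i, θ i ∈ Submonoid.closure (divisorExpansionsC k N)) ∧
      ∀ P : Fin n → Polynomial k,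
        ∑ i, aeval (qExpand k N (jqModC k)) (P i) * θ i = 0 → P = 0)
    (HN2 : ∀ (d : ℕ) [NeZero d] (hd : d ∣ N),
      (⟨qExpand ℚ d jq, jqd_mem_full N hd⟩ : modularFunctionFieldFull N) ∈ chartAlgFin N ℓ)
    (K : Type) [Field K] [CharP K ℓ] [Algebra ↥(ratLocalizedAt ℓ) K] :
    IsIntegral (pullback (igusaTo N ℓ)
      (Spec.map (CommRingCat.ofHom (algebraMap ↥(ratLocalizedAt ℓ) K)))) := by
  obtain ⟨n, b, hn, hbB, hb, hind⟩ := s28v_exists_residue_basis ℓ N k H5 HN2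
  have hBO' : chartAlgFin N ℓ ≤
      s28v_OAlg ℓ N (s28v_fricke N) (s28v_fricke_mem_Frac ℓ N) :=
    s28v_chartAlg_le_OAlg ℓ N _ _ _ (by
      rintro s rfl
      rw [s28v_fricke_jFull]
      exact s28v_jqN_mem_O ℓ N)
  exact s28d_isIntegral_of_fin_pure ℓ N
    (s28d_fin_purity_Zl ℓ N (s28v_fricke N) (s28v_fricke_mem_Frac ℓ N) hBO'
      (s28v_fricke_jFull_mem ℓ N) hn b hbB hb hind) K

end Fermat.Agent.Lib.S28
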