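import Fermat.Statements.S28

set_option autoImplicit false
open AlgebraicGeometry CategoryTheory CategoryTheory.Limits ModularCurve ModularCurve.IgusaScheme
open scoped TensorProduct
noncomputable section

namespace Fermat.Agent.Lib.S28

/-- Two irreducible open subsets that cover a space and meet make the space irreducible. -/
theorem s28d_irreducibleSpace_of_two_opens {X : Type*} [TopologicalSpace X] {U V : Set X}
    (hU : IsOpen U) (hV : IsOpen V) (hUi : IsPreirreducible U) (hVi : IsPreirreducible V)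
    (hcov : U ∪ V = Set.univ) (hne : (U ∩ V).Nonempty) : IrreducibleSpace X := by
  have key : ∀ A : Set X, IsOpen A → A.Nonempty → (A ∩ (U ∩ V)).Nonempty := by
    intro A hA ⟨a, ha⟩
    have : a ∈ U ∪ V := hcov ▸ Set.mem_univ a
    obtain ⟨w, hwU, hwV⟩ := hne
    rcases this with h | h
    · obtain ⟨z, hzU, hzA, hzV⟩ := hUi A V hA hV ⟨a, h, ha⟩ ⟨w, hwU, hwV⟩
      exact ⟨z, hzA, hzU, hzV⟩
    · obtain ⟨z, hzV, hzA, hzU⟩ := hVi A U hA hU ⟨a, h, ha⟩ ⟨w, hwV, hwU⟩
      exact ⟨z, hzA, hzU, hzV⟩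
  have : PreirreducibleSpace X := by
    refine PreirreducibleSpace.of_forall_nonempty_inter ?_
    intro A B hA hB hAne hBne
    obtain ⟨a, haA, haU, haV⟩ := key A hA hAne
    obtain ⟨b, hbB, hbU, hbV⟩ := key B hB hBne
    obtain ⟨z, hzU, hzA, hzB⟩ := hUi (A ∩ V) (B ∩ V) (hA.inter hV) (hB.inter hV)
      ⟨a, haU, haA, haV⟩ ⟨b, hbU, hbB, hbV⟩
    exact ⟨z, hzA.1, hzB.1⟩
  have : Nonempty X := let ⟨w, _⟩ := hne; ⟨w⟩
  exact ⟨inferInstance⟩


theorem s28d_isIntegral_pullback_spec (R S T : Type) [CommRing R] [CommRing S] [CommRing T]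
    [Algebra R S] [Algebra R T] (h : IsDomain (S ⊗[R] T))
    (f : Spec (CommRingCat.of S) ⟶ Spec (CommRingCat.of R))
    (hf : f = Spec.map (CommRingCat.ofHom (algebraMap R S)))
    (g : Spec (CommRingCat.of T) ⟶ Spec (CommRingCat.of R))
    (hg : g = Spec.map (CommRingCat.ofHom (algebraMap R T))) :
    IsIntegral (pullback f g) := by
  subst hf hg
  have : IsDomain (CommRingCat.of (S ⊗[R] T)) := h
  exact IsIntegral.of_isIso (pullbackSpecIso R S T).inv

/-- Irreducibility of a scheme `P` covered by two irreducible open subschemes `A`, `B` whose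
images are preimages (under some map `π`) of sets `RA`, `RB`, and a nonempty `C` landing in
both. -/
theorem s28d_irreducibleSpace_of_three {P X A B C : Scheme} (π : P ⟶ X)
    (a : A ⟶ P) (b : B ⟶ P) (c : C ⟶ P) [IsOpenImmersion a] [IsOpenImmersion b]
    [IrreducibleSpace A] [IrreducibleSpace B] [Nonempty C] (RA RB RC : Set X)
    (ha : Set.range a = π ⁻¹' RA) (hb : Set.range b = π ⁻¹' RB) (hc : Set.range c = π ⁻¹' RC)
    (hcov : ∀ x, x ∈ RA ∨ x ∈ RB) (hca : RC ⊆ RA) (hcb : RC ⊆ RB) : IrreducibleSpace P := by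
  have hirrA : IsIrreducible (Set.range a) := by
    rw [← Set.image_univ]
    exact (IrreducibleSpace.isIrreducible_univ _).image _ a.continuous.continuousOn
  have hirrB : IsIrreducible (Set.range b) := by
    rw [← Set.image_univ]
    exact (IrreducibleSpace.isIrreducible_univ _).image _ b.continuous.continuousOn
  refine s28d_irreducibleSpace_of_two_opens a.isOpenEmbedding.isOpen_range
    b.isOpenEmbedding.isOpen_range hirrA.isPreirreducible hirrB.isPreirreducible ?_ ?_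
  · rw [ha, hb, ← Set.preimage_union, Set.eq_univ_iff_forall]
    intro x
    exact hcov _
  · obtain ⟨y⟩ := ‹Nonempty C›
    have hy : c y ∈ Set.range c := ⟨y, rfl⟩
    rw [hc] at hy
    refine ⟨c y, ?_, ?_⟩
    · rw [ha]; exact hca hy
    · rw [hb]; exact hcb hy

variable (N : ℕ) [NeZero N] (ℓ : ℕ) [Fact ℓ.Prime]

set_option quotPrecheck false in
local notation "ℤℓ" => ↥(GaloisRep.ratLocalizedAt ℓ)

theorem s28d_fFin_ιFin_igusaTo :
    (fFin N ℓ ≫ ιFin N ℓ) ≫ igusaTo N ℓ =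
      Spec.map (CommRingCat.ofHom (algebraMap ℤℓ (chartAlgMid N ℓ))) := by
  rw [Category.assoc, ιFin_igusaTo, ← Spec.map_comp, ← CommRingCat.ofHom_comp]
  congr 2

theorem s28d_isIntegral_pullback_igusaTo (K : Type) [Field K] [Algebra ℤℓ K]
    (hFin : IsDomain (chartAlgFin N ℓ ⊗[ℤℓ] K)) (hInf : IsDomain (chartAlgInf N ℓ ⊗[ℤℓ] K))
    (hMid : IsDomain (chartAlgMid N ℓ ⊗[ℤℓ] K)) :
    IsIntegral (pullback (igusaTo N ℓ) (Spec.map (CommRingCat.ofHom (algebraMap ℤℓ K)))) := by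
  set g := Spec.map (CommRingCat.ofHom (algebraMap ℤℓ K)) with hg
  let 𝒰 : (ModularCurve.IgusaScheme N ℓ).OpenCover :=
    Scheme.IsLocallyDirected.openCover (span (fFin N ℓ) (fInf N ℓ))
  let 𝒱 := Scheme.Pullback.openCoverOfLeft 𝒰 (igusaTo N ℓ) g
  have hnone : 𝒰.f none = fFin N ℓ ≫ ιFin N ℓ :=
    (colimit.w (span (fFin N ℓ) (fInf N ℓ)) WalkingSpan.Hom.fst).symm
  have hnone' : 𝒰.f none = fInf N ℓ ≫ ιInf N ℓ :=
    (colimit.w (span (fFin N ℓ) (fInf N ℓ)) WalkingSpan.Hom.snd).symm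
  have hint : ∀ i, IsIntegral (𝒱.X i) := by
    intro i
    rcases i with (_ | _ | _)
    · refine s28d_isIntegral_pullback_spec ℤℓ (chartAlgMid N ℓ) K hMid _ ?_ _ hg
      exact (congrArg (· ≫ igusaTo N ℓ) hnone).trans (s28d_fFin_ιFin_igusaTo N ℓ)
    · refine s28d_isIntegral_pullback_spec ℤℓ (chartAlgFin N ℓ) K hFin _ ?_ _ hg
      exact ιFin_igusaTo N ℓ
    · refine s28d_isIntegral_pullback_spec ℤℓ (chartAlgInf N ℓ) K hInf _ ?_ _ hg
      exact ιInf_igusaTo N ℓ
  have hred : IsReduced (pullback (igusaTo N ℓ) g) := IsReduced.of_openCover _ 𝒱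
  have hrange : ∀ i, Set.range (𝒱.f i) = pullback.fst (igusaTo N ℓ) g ⁻¹' Set.range (𝒰.f i) := by
    intro i
    have := Scheme.Pullback.range_map (𝒰.f i ≫ igusaTo N ℓ) g (igusaTo N ℓ) g (𝒰.f i) (𝟙 _) (𝟙 _)
      (by simp) (by simp)
    have h2 : Set.range (𝒱.f i) = _ := this
    simpa using h2
  have hirr : IrreducibleSpace ↑(pullback (igusaTo N ℓ) g) := by
    have h1 := hint WalkingSpan.left
    have h2 := hint WalkingSpan.right
    have h3 := hint none
    have o1 : IsOpenImmersion (𝒱.f WalkingSpan.left) := 𝒱.map_prop WalkingSpan.left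
    have o2 : IsOpenImmersion (𝒱.f WalkingSpan.right) := 𝒱.map_prop WalkingSpan.right
    refine s28d_irreducibleSpace_of_three (pullback.fst (igusaTo N ℓ) g)
      (𝒱.f WalkingSpan.left) (𝒱.f WalkingSpan.right) (𝒱.f none) _ _ _
      (hrange WalkingSpan.left) (hrange WalkingSpan.right) (hrange none)
      (mem_range_ιFin_or_mem_range_ιInf N ℓ) ?_ ?_
    · rintro _ ⟨y, rfl⟩
      rw [hnone]
      exact ⟨fFin N ℓ y, rfl⟩
    · rintro _ ⟨y, rfl⟩
      rw [hnone']
      exact ⟨fInf N ℓ y, rfl⟩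
  exact isIntegral_of_irreducibleSpace_of_isReduced _

end Fermat.Agent.Lib.S28
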