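import Mathlib
import Fermat.Agent.Lib.S28.DVal
import Fermat.Agent.Lib.S28.KDescent

/-!
# S28: instantiation of the integrality descent (K2) at `A = R[t]`, `t` transcendental
-/

set_option autoImplicit false
open Polynomial
noncomputable section

namespace Fermat.Agent.Lib.S28

section AdjoinPoly

variable {R : Type*} [CommRing R] [IsDomain R] [UniqueFactorizationMonoid R]
  {F : Type*} [Field F] [Algebra R F]

/-- `R[X] ≃ₐ[R] Algebra.adjoin R {t}` for `t` transcendental. -/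
def s28d_adjoinEquiv (t : F) (hinj : Function.Injective (aeval (R := R) t)) :
    R[X] ≃ₐ[R] Algebra.adjoin R {t} :=
  (AlgEquiv.ofInjective (aeval t) hinj).trans
    (Subalgebra.equivOfEq _ _ (Algebra.adjoin_singleton_eq_range_aeval R t).symm)

theorem s28d_adjoinEquiv_coe (t : F) (hinj : Function.Injective (aeval (R := R) t)) (Q : R[X]) :
    ((s28d_adjoinEquiv t hinj Q : Algebra.adjoin R {t}) : F) = aeval t Q := rfl

/-- **K2 at a polynomial ring.** -/
theorem s28d_isIntegral_adjoin_of_mul {ℓ : R} (hℓ : Prime ℓ) (t : F)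
    (hinj : Function.Injective (aeval (R := R) t)) (y : F) {Q : R[X]} (hQ : ¬ C ℓ ∣ Q)
    (h1 : IsIntegral (Algebra.adjoin R {t}) (algebraMap R F ℓ * y))
    (h2 : IsIntegral (Algebra.adjoin R {t}) (aeval t Q * y)) :
    IsIntegral (Algebra.adjoin R {t}) y := by
  set e := s28d_adjoinEquiv t hinj with he
  have : IsDomain (Algebra.adjoin R {t}) := e.toMulEquiv.isDomain_iff.mp inferInstance
  have : IsIntegrallyClosed (Algebra.adjoin R {t}) :=
    IsIntegrallyClosed.of_equiv e.toRingEquiv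
  have hprime : Prime (e (C ℓ)) := (MulEquiv.prime_iff e).mpr
    ((Polynomial.prime_C_iff).mpr hℓ)
  have hnd : ¬ e (C ℓ) ∣ e Q := by
    intro h
    apply hQ
    have := map_dvd e.symm h
    simpa using this
  refine s28k_isIntegral_of_smul hprime hnd y ?_ ?_
  · have : e (C ℓ) • y = algebraMap R F ℓ * y := by
      rw [Subalgebra.smul_def, s28d_adjoinEquiv_coe, aeval_C, smul_eq_mul]
    rw [this]; exact h1
  · have : e Q • y = aeval t Q * y := by
      rw [Subalgebra.smul_def, s28d_adjoinEquiv_coe, smul_eq_mul]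
    rw [this]; exact h2

end AdjoinPoly

section Combined

variable {R : Type*} [CommRing R] [IsDomain R] [UniqueFactorizationMonoid R] (ℓ : R)
  {F : Type*} [Field F] [Algebra R F]
  {D : Type*} [CommRing D] [IsDomain D] [Algebra R D]

/-- If the reduction of `t` is transcendental then `t` is transcendental over `R`. -/
theorem s28d_aeval_injective (hfin : ∀ r : R, r ≠ 0 → ∃ n : ℕ, ¬ ℓ ^ (n + 1) ∣ r)
    (hℓF : algebraMap R F ℓ ≠ 0)
    (O : Subalgebra R F) (red : O →ₐ[R] D) (t : F) (ht : t ∈ O)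
    (htr : ∀ Q : R[X], aeval (red ⟨t, ht⟩) Q = 0 → C ℓ ∣ Q) :
    Function.Injective (aeval (R := R) t) := by
  rw [injective_iff_map_eq_zero]
  have key : ∀ (n : ℕ) (Q : R[X]), ¬ (C ℓ) ^ (n + 1) ∣ Q → aeval t Q ≠ 0 := by
    intro n
    induction n with
    | zero =>
      intro Q hQ h0
      apply hQ
      rw [zero_add, pow_one]
      apply htr
      have h1 : aeval (⟨t, ht⟩ : O) Q = 0 := Subtype.ext (by rw [aeval_subalgebra_coe]; exact h0)
      rw [Polynomial.aeval_algHom_apply, h1, map_zero]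
    | succ n ih =>
      intro Q hQ h0
      have hdvd : C ℓ ∣ Q := by
        apply htr
        have h1 : aeval (⟨t, ht⟩ : O) Q = 0 :=
          Subtype.ext (by rw [aeval_subalgebra_coe]; exact h0)
        rw [Polynomial.aeval_algHom_apply, h1, map_zero]
      obtain ⟨Q₁, rfl⟩ := hdvd
      have hQ₁ : ¬ (C ℓ) ^ (n + 1) ∣ Q₁ := by
        intro hd
        apply hQ
        rw [pow_succ']
        exact mul_dvd_mul_left _ hd
      apply ih Q₁ hQ₁
      rw [map_mul, aeval_C] at h0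
      exact (mul_eq_zero.mp h0).resolve_left hℓF
  intro Q hQ
  by_contra hQ0
  obtain ⟨n, hn⟩ := s28d_exists_not_C_pow_dvd ℓ hfin hQ0
  exact key n Q hn hQ

variable {ι : Type*} [Fintype ι]

/-- **Purity, combined form**: with `B` the integral closure of `R[t]` in `F`,
`y ∈ O` and `ℓ y ∈ B` imply `y ∈ B`. -/
theorem s28d_mem_of_ell_mul_mem
    {D' : Type*} [CommRing D'] [IsDomain D'] [Algebra R D']
    (hℓ : Prime ℓ)
    (hfin : ∀ r : R, r ≠ 0 → ∃ n : ℕ, ¬ ℓ ^ (n + 1) ∣ r)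
    (hℓF : algebraMap R F ℓ ≠ 0) (hℓD : algebraMap R D ℓ = 0) (hℓD' : algebraMap R D' ℓ = 0)
    (O O' : Subalgebra R F) (red : O →ₐ[R] D) (red' : O' →ₐ[R] D')
    (hdiv' : ∀ x : O', red' x = 0 → ∃ y : O', (x : F) = algebraMap R F ℓ * y)
    (t : F) (ht : t ∈ O) (ht' : t ∈ O')
    (htr : ∀ Q : R[X], aeval (red ⟨t, ht⟩) Q = 0 → C ℓ ∣ Q)
    (b : ι → F) (hb' : ∀ i, b i ∈ O')
    (hind : ∀ P : ι → R[X],
      ∑ i, aeval (red' ⟨t, ht'⟩) (P i) * red' ⟨b i, hb' i⟩ = 0 → ∀ i, C ℓ ∣ P i)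
    (hspan : ∀ y : F, ∃ (Q : R[X]) (P : ι → R[X]),
      Q ≠ 0 ∧ aeval t Q * y = ∑ i, aeval t (P i) * b i)
    (B : Subalgebra R F) (hB : ∀ x, x ∈ B ↔ IsIntegral (Algebra.adjoin R {t}) x)
    (hBO : B ≤ O) (hBO' : B ≤ O') (hbB : ∀ i, b i ∈ B)
    (y : F) (hy : y ∈ O) (hyB : algebraMap R F ℓ * y ∈ B) : y ∈ B := by
  have htB : t ∈ B := by
    rw [hB]
    exact isIntegral_algebraMap (x := (⟨t, Algebra.subset_adjoin rfl⟩ : Algebra.adjoin R {t}))
  obtain ⟨Q, hQ, hQy⟩ := s28d_exists_primitive_mul_mem ℓ hfin hℓF hℓD hℓD' O O' red red' hdiv'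
    t ht ht' htr b hb' hind hspan B hBO hBO' htB hbB y hy hyB
  have hinj := s28d_aeval_injective ℓ hfin hℓF O red t ht htr
  rw [hB] at hyB hQy ⊢
  exact s28d_isIntegral_adjoin_of_mul hℓ t hinj y hQ hyB hQy

end Combined

section Span

variable {R : Type*} [CommRing R] (ℓ : R)
  {F : Type*} [Field F] [Algebra R F]
  {D' : Type*} [CommRing D'] [IsDomain D'] [Algebra R D']
  {ι : Type*} [Fintype ι]

/-- Independence of the reductions implies independence over `R[t]` in `F`. -/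
theorem s28d_indepF (hfin : ∀ r : R, r ≠ 0 → ∃ n : ℕ, ¬ ℓ ^ (n + 1) ∣ r)
    (hℓF : algebraMap R F ℓ ≠ 0)
    (O' : Subalgebra R F) (red' : O' →ₐ[R] D') (t : F) (ht' : t ∈ O')
    (b : ι → F) (hb' : ∀ i, b i ∈ O')
    (hind : ∀ P : ι → R[X],
      ∑ i, aeval (red' ⟨t, ht'⟩) (P i) * red' ⟨b i, hb' i⟩ = 0 → ∀ i, C ℓ ∣ P i)
    (P : ι → R[X]) (hP : ∑ i, aeval t (P i) * b i = 0) : ∀ i, P i = 0 := by
  have key : ∀ (n : ℕ) (P : ι → R[X]) (i₀ : ι), ¬ (C ℓ) ^ (n + 1) ∣ P i₀ →
      ∑ i, aeval t (P i) * b i ≠ 0 := by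
    intro n
    induction n with
    | zero =>
      intro P i₀ hn h0
      apply hn
      rw [zero_add, pow_one]
      refine hind P ?_ i₀
      have h1 : ∑ i, aeval (⟨t, ht'⟩ : O') (P i) * (⟨b i, hb' i⟩ : O') = 0 :=
        Subtype.ext (by
          simp only [AddSubmonoidClass.coe_finsetSum, Subalgebra.coe_mul, aeval_subalgebra_coe]
          exact h0)
      have h2 := congrArg red' h1
      rw [map_sum, map_zero] at h2
      rw [← h2]
      refine Finset.sum_congr rfl fun i _ => ?_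
      rw [map_mul, Polynomial.aeval_algHom_apply]
    | succ n ih =>
      intro P i₀ hn h0
      have hdvd : ∀ i, C ℓ ∣ P i := by
        refine hind P ?_
        have h1 : ∑ i, aeval (⟨t, ht'⟩ : O') (P i) * (⟨b i, hb' i⟩ : O') = 0 :=
          Subtype.ext (by
            simp only [AddSubmonoidClass.coe_finsetSum, Subalgebra.coe_mul, aeval_subalgebra_coe]
            exact h0)
        have h2 := congrArg red' h1
        rw [map_sum, map_zero] at h2
        rw [← h2]
        refine Finset.sum_congr rfl fun i _ => ?_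
        rw [map_mul, Polynomial.aeval_algHom_apply]
      choose P₁ hP₁ using hdvd
      have hn₁ : ¬ (C ℓ) ^ (n + 1) ∣ P₁ i₀ := by
        intro hd
        apply hn
        rw [hP₁ i₀, pow_succ']
        exact mul_dvd_mul_left _ hd
      apply ih P₁ i₀ hn₁
      have hrw : ∑ i, aeval t (P i) * b i = algebraMap R F ℓ * ∑ i, aeval t (P₁ i) * b i := by
        rw [Finset.mul_sum]
        refine Finset.sum_congr rfl fun i _ => ?_
        rw [hP₁ i, map_mul, aeval_C]
        ring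
      rw [hrw] at h0
      exact (mul_eq_zero.mp h0).resolve_left hℓF
  intro i₀
  by_contra hne
  obtain ⟨n, hn⟩ := s28d_exists_not_C_pow_dvd ℓ hfin hne
  exact key n P i₀ hn hP

/-- Clearing denominators of a rational polynomial. -/
theorem s28d_exists_int_multiple (s : Finset ℚ[X]) :
    ∃ d : ℤ, d ≠ 0 ∧ ∀ c ∈ s, ∃ c' : ℤ[X], c'.map (algebraMap ℤ ℚ) = (d : ℚ) • c := by
  classical
  obtain ⟨d, hd⟩ := IsLocalization.exist_integer_multiples_of_finset (nonZeroDivisors ℤ)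
    (s.biUnion fun c => c.coeffs)
  refine ⟨(d : ℤ), nonZeroDivisors.coe_ne_zero d, fun c hc => ?_⟩
  have hl : (d : ℚ) • c ∈ Polynomial.lifts (algebraMap ℤ ℚ) := by
    rw [Polynomial.lifts_iff_coeff_lifts]
    intro n
    rw [coeff_smul]
    by_cases h0 : c.coeff n = 0
    · rw [h0, smul_zero]; exact ⟨0, map_zero _⟩
    · have hmem : c.coeff n ∈ s.biUnion fun c => c.coeffs :=
        Finset.mem_biUnion.mpr ⟨c, hc, Polynomial.coeff_mem_coeffs h0⟩
      obtain ⟨z, hz⟩ := hd _ hmem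
      refine ⟨z, ?_⟩
      rw [hz, Algebra.smul_def, smul_eq_mul]
      rfl
  obtain ⟨c', hc'⟩ := (Polynomial.mem_lifts _).mp hl
  exact ⟨c', hc'⟩

/-- Spanning over `R[t]` from the existence of rational relations plus independence. -/
theorem s28d_span_of_relation [CharZero R] [Algebra ℚ F] (t : F) (b : ι → F)
    (hindF : ∀ P : ι → R[X], ∑ i, aeval t (P i) * b i = 0 → ∀ i, P i = 0)
    (hrel : ∀ y : F, ∃ (c₀ : ℚ[X]) (c : ι → ℚ[X]), (c₀ ≠ 0 ∨ ∃ i, c i ≠ 0) ∧
      aeval t c₀ * y + ∑ i, aeval t (c i) * b i = 0) (y : F) :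
    ∃ (Q : R[X]) (P : ι → R[X]), Q ≠ 0 ∧ aeval t Q * y = ∑ i, aeval t (P i) * b i := by
  classical
  obtain ⟨c₀, c, hne, hrel⟩ := hrel y
  obtain ⟨d, hd0, hd⟩ := s28d_exists_int_multiple (insert c₀ (Finset.univ.image c))
  obtain ⟨c₀', hc₀'⟩ := hd c₀ (Finset.mem_insert_self _ _)
  have hc' : ∀ i, ∃ c' : ℤ[X], c'.map (algebraMap ℤ ℚ) = (d : ℚ) • c i := fun i =>
    hd (c i) (Finset.mem_insert_of_mem (Finset.mem_image_of_mem c (Finset.mem_univ i)))
  choose c' hc' using hc'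
  have hdq : (d : ℚ) ≠ 0 := by exact_mod_cast hd0
  -- evaluation of the integer polynomials
  have hev : ∀ (p : ℚ[X]) (p' : ℤ[X]), p'.map (algebraMap ℤ ℚ) = (d : ℚ) • p →
      aeval t (p'.map (algebraMap ℤ R)) = algebraMap ℚ F (d : ℚ) * aeval t p := by
    intro p p' h
    rw [aeval_map_algebraMap, ← Algebra.smul_def, ← map_smul, ← h, aeval_map_algebraMap]
  have hinjZ : Function.Injective (algebraMap ℤ R) := by
    rw [algebraMap_int_eq]; exact Int.cast_injective
  have hmap0 : ∀ (p : ℚ[X]) (p' : ℤ[X]), p'.map (algebraMap ℤ ℚ) = (d : ℚ) • p →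
      p'.map (algebraMap ℤ R) = 0 → p = 0 := by
    intro p p' h h0
    have h1 : p' = 0 := (Polynomial.map_eq_zero_iff hinjZ).mp h0
    rw [h1, Polynomial.map_zero] at h
    exact (smul_eq_zero.mp h.symm).resolve_left hdq
  have hrel2 : aeval t (c₀'.map (algebraMap ℤ R)) * y +
      ∑ i, aeval t ((c' i).map (algebraMap ℤ R)) * b i = 0 := by
    rw [hev c₀ c₀' hc₀']
    have h1 : ∑ i, aeval t ((c' i).map (algebraMap ℤ R)) * b i =
        algebraMap ℚ F (d : ℚ) * ∑ i, aeval t (c i) * b i := by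
      rw [Finset.mul_sum]
      refine Finset.sum_congr rfl fun i _ => ?_
      rw [hev _ _ (hc' i), mul_assoc]
    rw [h1, mul_assoc, ← mul_add, hrel, mul_zero]
  refine ⟨c₀'.map (algebraMap ℤ R), fun i => -(c' i).map (algebraMap ℤ R), ?_, ?_⟩
  · intro h0
    have hc₀ : c₀ = 0 := hmap0 c₀ c₀' hc₀' h0
    rw [h0, map_zero, zero_mul, zero_add] at hrel2
    have hall := hindF _ hrel2
    rcases hne with h | ⟨i, hi⟩
    · exact h hc₀
    · exact hi (hmap0 (c i) (c' i) (hc' i) (hall i))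
  · rw [eq_comm, ← sub_eq_zero, ← neg_eq_zero]
    rw [← hrel2]
    simp only [map_neg, neg_mul, Finset.sum_neg_distrib]
    ring

end Span

end Fermat.Agent.Lib.S28
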