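import Mathlib
import Fermat.Prelude.Def_ModularCurve_LaurentCoeff

/-!
# S28, block (K): from a reduction map with kernel `l·B` to geometric integrality

`R` a commutative ring (think `ℤ_(l)`), `π : R → k₀` a surjection onto a field with kernel
generated by `l`, `B` an `R`-algebra (think: a chart algebra of the Igusa model) with a ring map
`φ : B → k₀((q))` (think: reduction of `q`-expansions mod `l`) compatible with `π` and with kernel
`l·B`.  Then for every field `K` which is an `R`-algebra killing `l`, the ring `B ⊗[R] K` is a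
domain.  The proof embeds `B ⊗[R] K` in `K((q))` by `b ⊗ c ↦ c·φ(b)`; injectivity is coefficientwise
linear independence over a `k₀`-basis of `K`.
-/

set_option autoImplicit false

open TensorProduct

namespace Fermat.Agent.Lib.S28

open ModularCurve

section

variable {R B K k₀ : Type*} [CommRing R] [CommRing B] [Field K] [Field k₀]
  [Algebra R B] [Algebra R K]

/-- The ring map `k₀ → K` induced by `R → K` through the surjection `π : R → k₀`. -/
noncomputable def s28k_iota (π : R →+* k₀) (hπ : Function.Surjective π)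
    (hfac : ∀ r, π r = 0 → algebraMap R K r = 0) : k₀ →+* K :=
  RingHom.liftOfSurjective π hπ ⟨algebraMap R K, fun r hr => hfac r hr⟩

theorem s28k_iota_pi (π : R →+* k₀) (hπ : Function.Surjective π)
    (hfac : ∀ r, π r = 0 → algebraMap R K r = 0) (r : R) :
    s28k_iota π hπ hfac (π r) = algebraMap R K r :=
  RingHom.liftOfRightInverse_comp_apply _ _ _ _ r

/-- The `R`-algebra structure on `K((q))` is through constants. -/
theorem s28k_algebraMap_laurent (r : R) :
    algebraMap R (LaurentSeries K) r = HahnSeries.C (algebraMap R K r) := by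
  rw [HahnSeries.algebraMap_apply', PowerSeries.algebraMap_apply, HahnSeries.ofPowerSeries_C]

/-- Coefficients of `x * C c`. -/
theorem s28k_coeff_mul_C (x : LaurentSeries K) (c : K) (n : ℤ) :
    (x * HahnSeries.C c).coeff n = x.coeff n * c := by
  rw [mul_comm, HahnSeries.C_mul_eq_smul, HahnSeries.coeff_smul, smul_eq_mul, mul_comm]

variable (l : R) (π : R →+* k₀) (hπ : Function.Surjective π)
  (hfac : ∀ r, π r = 0 → algebraMap R K r = 0)
  (φ : B →+* LaurentSeries k₀) (hφ : ∀ r, φ (algebraMap R B r) = HahnSeries.C (π r))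

/-- `B → K((q))`, `b ↦ ι(φ b)`, as an `R`-algebra map. -/
noncomputable def s28k_left : B →ₐ[R] LaurentSeries K where
  __ := (coeffMap (s28k_iota π hπ hfac)).comp φ
  commutes' r := by
    show coeffMap (s28k_iota π hπ hfac) (φ (algebraMap R B r)) = _
    rw [hφ, s28k_algebraMap_laurent, ← s28k_iota_pi π hπ hfac]
    ext n
    simp

theorem s28k_left_apply (b : B) :
    s28k_left π hπ hfac φ hφ b = coeffMap (s28k_iota π hπ hfac) (φ b) := rfl

/-- `K → K((q))`, constants, as an `R`-algebra map. -/
noncomputable def s28k_right : K →ₐ[R] LaurentSeries K where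
  __ := (HahnSeries.C : K →+* LaurentSeries K)
  commutes' r := by
    show HahnSeries.C (algebraMap R K r) = _
    rw [s28k_algebraMap_laurent]

theorem s28k_right_apply (c : K) : (s28k_right (R := R) (K := K)) c = HahnSeries.C c := rfl

/-- The comparison map `B ⊗[R] K → K((q))`, `b ⊗ c ↦ c·ι(φ b)`. -/
noncomputable def s28k_Psi : B ⊗[R] K →ₐ[R] LaurentSeries K :=
  Algebra.TensorProduct.productMap (s28k_left π hπ hfac φ hφ) s28k_right

theorem s28k_Psi_tmul (b : B) (c : K) :
    s28k_Psi π hπ hfac φ hφ (b ⊗ₜ[R] c) =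
      coeffMap (s28k_iota π hπ hfac) (φ b) * HahnSeries.C c := by
  rw [s28k_Psi, Algebra.TensorProduct.productMap_apply_tmul, s28k_left_apply, s28k_right_apply]

theorem s28k_Psi_tmul_coeff (b : B) (c : K) (n : ℤ) :
    (s28k_Psi π hπ hfac φ hφ (b ⊗ₜ[R] c)).coeff n =
      s28k_iota π hπ hfac ((φ b).coeff n) * c := by
  rw [s28k_Psi_tmul, s28k_coeff_mul_C, coeffMap_coeff]

/-- Every element of `B ⊗[R] K` is a finite sum `∑ fᵢ ⊗ eᵢ` over any `k₀`-spanning family `e`
of `K` (here `k₀` acts on `K` through `ι`). -/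
theorem s28k_exists_repr {I : Type*} (e : I → K)
    (hspan : ∀ c : K, ∃ a : I →₀ k₀, c = a.sum fun i x => s28k_iota π hπ hfac x * e i)
    (z : B ⊗[R] K) : ∃ f : I →₀ B, z = f.sum fun i m => m ⊗ₜ[R] e i := by
  classical
  let Θ : (I →₀ B) →ₗ[R] B ⊗[R] K :=
    Finsupp.lsum R fun i => (TensorProduct.mk R B K).flip (e i)
  have hΘ : ∀ f : I →₀ B, Θ f = f.sum fun i m => m ⊗ₜ[R] e i := fun f => by
    simp only [Θ, Finsupp.lsum_apply]
    rfl
  suffices h : LinearMap.range Θ = ⊤ by
    have hz : z ∈ LinearMap.range Θ := by rw [h]; trivial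
    obtain ⟨f, rfl⟩ := hz
    exact ⟨f, hΘ f⟩
  rw [eq_top_iff, ← TensorProduct.span_tmul_eq_top, Submodule.span_le]
  rintro _ ⟨m, c, rfl⟩
  obtain ⟨a, rfl⟩ := hspan c
  rw [Finsupp.sum, TensorProduct.tmul_sum]
  refine Submodule.sum_mem _ fun i _ => ?_
  obtain ⟨r, hr⟩ := hπ (a i)
  refine ⟨Finsupp.single i (r • m), ?_⟩
  rw [hΘ, Finsupp.sum_single_index (by simp), ← hr, s28k_iota_pi, ← Algebra.smul_def,
    TensorProduct.smul_tmul]

/-- The comparison map is injective as soon as `ker φ ⊆ l·B` and `l` dies in `K`. -/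
theorem s28k_Psi_injective (hK : algebraMap R K l = 0)
    (hφker : ∀ b, φ b = 0 → ∃ b', b = algebraMap R B l * b') :
    Function.Injective (s28k_Psi π hπ hfac φ hφ) := by
  classical
  let _ : Algebra k₀ K := (s28k_iota π hπ hfac).toAlgebra
  let bs := Module.Basis.ofVectorSpace k₀ K
  have hsmul : ∀ (a : k₀) (c : K), a • c = s28k_iota π hπ hfac a * c := fun a c => by
    rw [Algebra.smul_def]; rfl
  rw [injective_iff_map_eq_zero]
  intro z hz
  obtain ⟨f, rfl⟩ := s28k_exists_repr π hπ hfac (fun i => bs i) (fun c => ⟨bs.repr c, by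
    conv_lhs => rw [← bs.linearCombination_repr c, Finsupp.linearCombination_apply]
    exact Finsupp.sum_congr fun i _ => hsmul _ _⟩) z
  -- all the `φ (f i)` vanish
  have hvan : ∀ i ∈ f.support, φ (f i) = 0 := by
    intro i hi
    ext n
    have h1 : (s28k_Psi π hπ hfac φ hφ (f.sum fun i m => m ⊗ₜ[R] bs i)).coeff n = 0 := by
      rw [hz]; rfl
    rw [Finsupp.sum, map_sum, HahnSeries.coeff_sum] at h1
    simp only [s28k_Psi_tmul_coeff, ← hsmul] at h1
    exact linearIndependent_iff'.mp bs.linearIndependent f.support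
      (fun i => (φ (f i)).coeff n) h1 i hi
  rw [Finsupp.sum]
  refine Finset.sum_eq_zero fun i hi => ?_
  obtain ⟨b', hb'⟩ := hφker (f i) (hvan i hi)
  rw [hb', ← Algebra.smul_def, TensorProduct.smul_tmul, Algebra.smul_def, hK, zero_mul,
    TensorProduct.tmul_zero]

end

section Main

variable {R B K k₀ : Type*} [CommRing R] [CommRing B] [Field K] [Field k₀]
  [Algebra R B] [Algebra R K]

/-- **(K1)** A reduction map `φ : B → k₀((q))` with kernel `l·B` makes `B ⊗[R] K` a domain for
every field `K` over `R` in which `l = 0`. -/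
theorem s28k_isDomain_tensor (l : R) (π : R →+* k₀) (hπ : Function.Surjective π)
    (hker : ∀ r, π r = 0 → l ∣ r) (hK : algebraMap R K l = 0)
    (φ : B →+* LaurentSeries k₀) (hφ : ∀ r, φ (algebraMap R B r) = HahnSeries.C (π r))
    (hφker : ∀ b, φ b = 0 → ∃ b', b = algebraMap R B l * b') :
    IsDomain (B ⊗[R] K) := by
  have hfac : ∀ r, π r = 0 → algebraMap R K r = 0 := fun r hr => by
    obtain ⟨s, rfl⟩ := hker r hr
    rw [map_mul, hK, zero_mul]
  exact (s28k_Psi_injective l π hπ hfac φ hφ hK hφker).isDomain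
    (s28k_Psi π hπ hfac φ hφ).toRingHom

/-- **(K1')** The same with the factors swapped. -/
theorem s28k_isDomain_tensor' (l : R) (π : R →+* k₀) (hπ : Function.Surjective π)
    (hker : ∀ r, π r = 0 → l ∣ r) (hK : algebraMap R K l = 0)
    (φ : B →+* LaurentSeries k₀) (hφ : ∀ r, φ (algebraMap R B r) = HahnSeries.C (π r))
    (hφker : ∀ b, φ b = 0 → ∃ b', b = algebraMap R B l * b') :
    IsDomain (K ⊗[R] B) := by
  have := s28k_isDomain_tensor l π hπ hker hK φ hφ hφker
  exact (Algebra.TensorProduct.comm R K B).toRingEquiv.injective.isDomain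
    (Algebra.TensorProduct.comm R K B).toRingEquiv.toRingHom

end Main

end Fermat.Agent.Lib.S28
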