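import Fermat.Agent.Lib.S28.DKer
import Fermat.Agent.Lib.S28.DZl
import Fermat.Agent.Lib.S28.VAlg
import Fermat.Agent.Lib.S28.CLead
import Fermat.Agent.Lib.S28.WDegreeQ
import Fermat.Agent.Lib.S28.KTensor

/-!
# S28: purity of the chart algebras (`ℓ·chart = chart ∩ ℓ·O`), concrete assembly
-/

set_option autoImplicit false
noncomputable section

namespace Fermat.Agent.Lib.S28

open GaloisRep ModularCurve HahnSeries ModularCurve.IgusaScheme Polynomial

variable (ℓ : ℕ) [Fact ℓ.Prime]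

/-- `aeval` for the `ℤ_(ℓ)`-algebra structure on `𝔽_ℓ((q))` is `aeval` of the reduced
polynomial. -/
theorem s28d_aeval_algLS (x : LaurentSeries (ZMod ℓ)) (Q : (ratLocalizedAt ℓ)[X]) :
    (letI := s28v_algLS ℓ; aeval x Q) = aeval x (Q.map (s28v_resHom ℓ)) := by
  let _ := s28v_algLS ℓ
  rw [aeval_def, aeval_def, eval₂_map]
  congr 1
  refine RingHom.ext fun a => ?_
  rw [RingHom.comp_apply, algebraMap_laurentSeries_eq_single]
  rfl

theorem s28d_C_dvd_of_map_eq_zero (Q : (ratLocalizedAt ℓ)[X])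
    (h : Q.map (s28v_resHom ℓ) = 0) : C ((ℓ : ℕ) : ratLocalizedAt ℓ) ∣ Q := by
  rw [C_dvd_iff_dvd_coeff]
  intro i
  rw [s28v_dvd_iff_resHom, ← coeff_map, h, Polynomial.coeff_zero]

theorem s28d_jqModC_eq_pole (k : Type*) [Field k] :
    jqModC k = s28c_pole 1 (jNum.map (Int.castRingHom k)) := by
  simp [s28c_pole, jqModC]

theorem s28d_aeval_jqModC_injective (k : Type*) [Field k] :
    Function.Injective (aeval (R := k) (jqModC k)) := by
  rw [s28d_jqModC_eq_pole]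
  refine s28c_aeval_pole_injective 1 le_rfl _ ?_
  rw [← PowerSeries.coeff_zero_eq_constantCoeff, PowerSeries.coeff_map,
    PowerSeries.coeff_zero_eq_constantCoeff, constantCoeff_jNum]
  simp

/-- `htr` at the standard cusp. -/
theorem s28d_htr_std (Q : (ratLocalizedAt ℓ)[X])
    (h : (letI := s28v_algLS ℓ; aeval (jqModC (ZMod ℓ)) Q) = 0) :
    C ((ℓ : ℕ) : ratLocalizedAt ℓ) ∣ Q := by
  rw [s28d_aeval_algLS] at h
  apply s28d_C_dvd_of_map_eq_zero
  exact (injective_iff_map_eq_zero _).mp (s28d_aeval_jqModC_injective (ZMod ℓ)) _ h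

variable (N : ℕ) [NeZero N]

/-- The standard Gauss subalgebra of `F`. -/
abbrev s28d_Ostd : Subalgebra (ratLocalizedAt ℓ) (modularFunctionFieldFull N) :=
  s28v_OAlg ℓ N (s28v_incl N) (s28v_incl_mem_Frac ℓ N)

theorem s28d_natCast_F_ne_zero :
    algebraMap (ratLocalizedAt ℓ) (modularFunctionFieldFull N) ((ℓ : ℕ) : ratLocalizedAt ℓ) ≠ 0 := by
  rw [map_natCast]
  exact_mod_cast (Fact.out : ℓ.Prime).ne_zero

/-- Rational relations among `ψ(N)+1` elements, in the shape of `s28d_span_of_relation`. -/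
theorem s28d_hrel {n : ℕ} (hn : dedekindPsi N ≤ n) (b : Fin n → modularFunctionFieldFull N)
    (y : modularFunctionFieldFull N) :
    ∃ (c₀ : ℚ[X]) (c : Fin n → ℚ[X]), (c₀ ≠ 0 ∨ ∃ i, c i ≠ 0) ∧
      aeval (jFull N) c₀ * y + ∑ i, aeval (jFull N) (c i) * b i = 0 := by
  obtain ⟨c, hc0, hc⟩ := s28w_exists_relation N (n := n + 1) (by omega)
    (Fin.snoc (fun i => ((b i : modularFunctionFieldFull N) : LaurentSeries ℚ))
      ((y : modularFunctionFieldFull N) : LaurentSeries ℚ))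
    (by
      intro i
      refine Fin.lastCases ?_ (fun j => ?_) i
      · simp only [Fin.snoc_last]; exact y.2
      · simp only [Fin.snoc_castSucc]; exact (b j).2)
  refine ⟨c (Fin.last n), fun i => c (Fin.castSucc i), ?_, ?_⟩
  · by_contra hcon
    push Not at hcon
    apply hc0
    funext i
    refine Fin.lastCases ?_ (fun j => ?_) i
    · exact hcon.1
    · exact hcon.2 j
  · apply Subtype.ext
    rw [Fin.sum_univ_castSucc] at hc
    simp only [Fin.snoc_last, Fin.snoc_castSucc] at hc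
    have hj : ((jFull N : modularFunctionFieldFull N) : LaurentSeries ℚ) = jq := rfl
    have hco : ∀ P : ℚ[X], ((aeval (jFull N) P : modularFunctionFieldFull N) : LaurentSeries ℚ) =
        aeval jq P := fun P => by
      rw [← hj]; exact s28w_coe_aeval N (jFull N) P
    push_cast
    simp only [hco]
    rw [add_comm]
    exact hc

/-- **Purity of `chartAlgFin`.**  `w` is a second embedding (Fricke cusp) along which `n ≥ ψ(N)`
elements of `chartAlgFin` have reductions independent over `𝔽_ℓ[red' j]`. -/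
theorem s28d_fin_purity
    (w : ↥(modularFunctionFieldFull N) →+* LaurentSeries ℚ) (hw : ∀ x, w x ∈ s28v_Frac ℓ)
    (hBO' : chartAlgFin N ℓ ≤ s28v_OAlg ℓ N w hw)
    {n : ℕ} (hn : dedekindPsi N ≤ n) (b : Fin n → modularFunctionFieldFull N)
    (hbB : ∀ i, b i ∈ chartAlgFin N ℓ)
    (hind : ∀ P : Fin n → (ZMod ℓ)[X],
      ∑ i, aeval (s28v_red ℓ ⟨w (jFull N), hBO' (subset_chartAlg N ℓ _ rfl)⟩) (P i) *
        s28v_red ℓ ⟨w (b i), hBO' (hbB i)⟩ = 0 → ∀ i, P i = 0)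
    (y : modularFunctionFieldFull N) (hy : y ∈ s28d_Ostd ℓ N)
    (hyB : algebraMap (ratLocalizedAt ℓ) (modularFunctionFieldFull N) ((ℓ : ℕ) : ratLocalizedAt ℓ) * y ∈
      chartAlgFin N ℓ) : y ∈ chartAlgFin N ℓ := by
  letI := s28v_algLS ℓ
  have ht' : jFull N ∈ s28v_OAlg ℓ N w hw := hBO' (subset_chartAlg N ℓ _ rfl)
  have hb' : ∀ i, b i ∈ s28v_OAlg ℓ N w hw := fun i => hBO' (hbB i)
  have hind' : ∀ P : Fin n → (ratLocalizedAt ℓ)[X],
      ∑ i, aeval (s28v_redAlg ℓ N w hw ⟨jFull N, ht'⟩) (P i) *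
        s28v_redAlg ℓ N w hw ⟨b i, hb' i⟩ = 0 →
      ∀ i, C ((ℓ : ℕ) : ratLocalizedAt ℓ) ∣ P i := by
    intro P hP i
    apply s28d_C_dvd_of_map_eq_zero
    refine hind (fun i => (P i).map (s28v_resHom ℓ)) ?_ i
    rw [← hP]
    refine Finset.sum_congr rfl fun i _ => ?_
    rw [s28d_aeval_algLS]
    rfl
  have hindF := s28d_indepF ((ℓ : ℕ) : ratLocalizedAt ℓ) (s28v_finite_mult ℓ)
    (s28d_natCast_F_ne_zero ℓ N) (s28v_OAlg ℓ N w hw) (s28v_redAlg ℓ N w hw) (jFull N) ht' b hb'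
    hind'
  have hspan := s28d_span_of_relation (R := ratLocalizedAt ℓ) (jFull N) b hindF
    (s28d_hrel N hn b)
  refine s28d_mem_of_ell_mul_mem ((ℓ : ℕ) : ratLocalizedAt ℓ) (s28v_prime_natCast ℓ)
    (s28v_finite_mult ℓ) (s28d_natCast_F_ne_zero ℓ N) (s28v_algLS_natCast_self ℓ)
    (s28v_algLS_natCast_self ℓ) (s28d_Ostd ℓ N) (s28v_OAlg ℓ N w hw)
    (s28v_redAlg ℓ N (s28v_incl N) (s28v_incl_mem_Frac ℓ N)) (s28v_redAlg ℓ N w hw)
    (s28v_redAlg_eq_zero ℓ N w hw) (jFull N) (s28v_incl_jFull_mem ℓ N) ht' ?_ b hb' hind' hspan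
    (chartAlgFin N ℓ) (fun x => Iff.rfl) (s28v_chartAlgFin_le_incl ℓ N) hBO' hbB y hy hyB
  intro Q hQ
  rw [s28v_redAlg_incl_jFull] at hQ
  exact s28d_htr_std ℓ Q hQ

/-- Purity statement for a chart. -/
def s28d_Pure (S : Set (modularFunctionFieldFull N)) : Prop :=
  ∀ y : modularFunctionFieldFull N, y ∈ s28d_Ostd ℓ N →
    algebraMap (ratLocalizedAt ℓ) (modularFunctionFieldFull N) ((ℓ : ℕ) : ratLocalizedAt ℓ) * y ∈
      chartAlg N ℓ S → y ∈ chartAlg N ℓ S

/-- Purity of `chartAlgMid` from purity of `chartAlgFin` (localisation at `j`). -/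
theorem s28d_mid_purity (hFin : s28d_Pure ℓ N {jFull N}) :
    s28d_Pure ℓ N {jFull N, (jFull N)⁻¹} := by
  intro y hy hyB
  have hz : algebraMap (ratLocalizedAt ℓ) (modularFunctionFieldFull N) ((ℓ : ℕ) : ratLocalizedAt ℓ) * y ∈
      chartAlg N ℓ (insert (jFull N)⁻¹ {jFull N}) := by
    rw [show insert (jFull N)⁻¹ ({jFull N} : Set (modularFunctionFieldFull N)) =
      {jFull N, (jFull N)⁻¹} from Set.pair_comm _ _]
    exact hyB
  obtain ⟨n, hn⟩ := exists_pow_mul_mem_chartAlg (Set.mem_singleton _) (jFull_ne_zero N) hz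
  have h1 : (jFull N) ^ n * y ∈ chartAlg N ℓ {jFull N} := by
    apply hFin
    · exact mul_mem (pow_mem (s28v_incl_jFull_mem ℓ N) n) hy
    · rw [mul_left_comm]; exact hn
  have h2 : (jFull N) ^ n * y ∈ chartAlg N ℓ {jFull N, (jFull N)⁻¹} :=
    chartAlg_mono N ℓ (sFin_subset N) h1
  have h3 : (jFull N)⁻¹ ∈ chartAlg N ℓ {jFull N, (jFull N)⁻¹} :=
    subset_chartAlg N ℓ _ (by simp)
  have h4 : y = ((jFull N)⁻¹) ^ n * ((jFull N) ^ n * y) := by
    rw [← mul_assoc, ← mul_pow, inv_mul_cancel₀ (jFull_ne_zero N), one_pow, one_mul]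
  rw [h4]
  exact mul_mem (pow_mem h3 n) h2

theorem s28d_transcendental_jqModC_inv (k : Type*) [Field k] :
    Function.Injective (aeval (R := k) (jqModC k)⁻¹) := by
  rw [← transcendental_iff_injective]
  intro h
  have h2 : Transcendental k (jqModC k) := transcendental_iff_injective.mpr
    (s28d_aeval_jqModC_injective k)
  apply h2
  have := h.inv
  rwa [inv_inv] at this

/-- `htr` for `j⁻¹` at the standard cusp. -/
theorem s28d_htr_std_inv (Q : (ratLocalizedAt ℓ)[X])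
    (h : (letI := s28v_algLS ℓ; aeval (jqModC (ZMod ℓ))⁻¹ Q) = 0) :
    C ((ℓ : ℕ) : ratLocalizedAt ℓ) ∣ Q := by
  rw [s28d_aeval_algLS] at h
  apply s28d_C_dvd_of_map_eq_zero
  exact (injective_iff_map_eq_zero _).mp (s28d_transcendental_jqModC_inv (ZMod ℓ)) _ h

/-- Purity of `chartAlgInf` from purity of `chartAlgMid` (K2 with `s = j⁻ⁿ`). -/
theorem s28d_inf_purity (hMid : s28d_Pure ℓ N {jFull N, (jFull N)⁻¹}) :
    s28d_Pure ℓ N {(jFull N)⁻¹} := by
  letI := s28v_algLS ℓ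
  intro y hy hyB
  have h1 : y ∈ chartAlg N ℓ {jFull N, (jFull N)⁻¹} :=
    hMid y hy (chartAlg_mono N ℓ (sInf_subset N) hyB)
  have hz : y ∈ chartAlg N ℓ (insert (jFull N)⁻¹⁻¹ {(jFull N)⁻¹}) := by
    rw [inv_inv]; exact h1
  obtain ⟨n, hn⟩ := exists_pow_mul_mem_chartAlg (Set.mem_singleton _)
    (inv_ne_zero (jFull_ne_zero N)) hz
  have hinj : Function.Injective (aeval (R := ratLocalizedAt ℓ) (jFull N)⁻¹) :=
    s28d_aeval_injective ((ℓ : ℕ) : ratLocalizedAt ℓ) (s28v_finite_mult ℓ)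
      (s28d_natCast_F_ne_zero ℓ N) (s28d_Ostd ℓ N)
      (s28v_redAlg ℓ N (s28v_incl N) (s28v_incl_mem_Frac ℓ N)) (jFull N)⁻¹
      (s28v_incl_jFull_inv_mem ℓ N) (by
        intro Q hQ
        rw [s28v_redAlg_incl_jFull_inv] at hQ
        exact s28d_htr_std_inv ℓ Q hQ)
  have hQ : ¬ C ((ℓ : ℕ) : ratLocalizedAt ℓ) ∣ (X : (ratLocalizedAt ℓ)[X]) ^ n := by
    intro hd
    rw [C_dvd_iff_dvd_coeff] at hd
    have := hd n
    rw [coeff_X_pow_self] at this
    exact (s28v_prime_natCast ℓ).not_isUnit (isUnit_of_dvd_one this)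
  rw [mem_chartAlg_iff] at hyB hn ⊢
  refine s28d_isIntegral_adjoin_of_mul (s28v_prime_natCast ℓ) (jFull N)⁻¹ hinj y hQ hyB ?_
  rw [map_pow, aeval_X]
  exact hn

open scoped TensorProduct in
/-- **Output of block (6)**: a pure chart becomes a domain after any base change to a field
in which `ℓ = 0`. -/
theorem s28d_isDomain_chart_tensor (S : Set (modularFunctionFieldFull N))
    (hS : chartAlg N ℓ S ≤ s28d_Ostd ℓ N) (hpure : s28d_Pure ℓ N S)
    (K : Type*) [Field K] [Algebra (ratLocalizedAt ℓ) K]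
    (hK : algebraMap (ratLocalizedAt ℓ) K ((ℓ : ℕ) : ratLocalizedAt ℓ) = 0) :
    IsDomain (chartAlg N ℓ S ⊗[ratLocalizedAt ℓ] K) := by
  letI := s28v_algLS ℓ
  let φ : chartAlg N ℓ S →+* LaurentSeries (ZMod ℓ) :=
    ((s28v_redAlg ℓ N (s28v_incl N) (s28v_incl_mem_Frac ℓ N)).toRingHom).comp
      (Subalgebra.inclusion hS).toRingHom
  refine s28k_isDomain_tensor ((ℓ : ℕ) : ratLocalizedAt ℓ) (s28v_resHom ℓ)
    (s28v_resHom_surjective ℓ) (fun r hr => (s28v_dvd_iff_resHom ℓ r).mpr hr) hK φ ?_ ?_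
  · intro r
    show s28v_redAlg ℓ N (s28v_incl N) (s28v_incl_mem_Frac ℓ N)
      (Subalgebra.inclusion hS (algebraMap (ratLocalizedAt ℓ) (chartAlg N ℓ S) r)) = _
    rw [AlgHom.commutes, AlgHom.commutes]
    rfl
  · intro b hb
    have hb' : s28v_redAlg ℓ N (s28v_incl N) (s28v_incl_mem_Frac ℓ N)
        (Subalgebra.inclusion hS b) = 0 := hb
    obtain ⟨y, hy⟩ := s28v_redAlg_eq_zero ℓ N _ _ _ hb'
    have hyB : (y : modularFunctionFieldFull N) ∈ chartAlg N ℓ S := by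
      apply hpure y y.2
      have : ((Subalgebra.inclusion hS b : s28d_Ostd ℓ N) : modularFunctionFieldFull N) = b := rfl
      rw [← hy, this]
      exact b.2
    refine ⟨⟨y, hyB⟩, Subtype.ext ?_⟩
    rw [Subalgebra.coe_mul, Subalgebra.coe_algebraMap]
    exact hy

end Fermat.Agent.Lib.S28
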