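import Fermat.Agent.Lib.S28.DKerC
import Fermat.Agent.Lib.S28.DGlue

/-!
# S28: Igusa's theorem from residue independence at a second cusp
-/

set_option autoImplicit false
noncomputable section

namespace Fermat.Agent.Lib.S28

open GaloisRep ModularCurve HahnSeries ModularCurve.IgusaScheme Polynomial
open AlgebraicGeometry CategoryTheory CategoryTheory.Limits
open scoped TensorProduct

variable (ℓ : ℕ) [Fact ℓ.Prime] (N : ℕ) [NeZero N]

/-- All three charts are pure as soon as `chartAlgFin` is. -/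
theorem s28d_isIntegral_of_fin_pure (hFin : s28d_Pure ℓ N {jFull N})
    (K : Type) [Field K] [CharP K ℓ] [Algebra ↥(ratLocalizedAt ℓ) K] :
    IsIntegral (pullback (igusaTo N ℓ)
      (Spec.map (CommRingCat.ofHom (algebraMap ↥(ratLocalizedAt ℓ) K)))) := by
  have hMid := s28d_mid_purity ℓ N hFin
  have hInf := s28d_inf_purity ℓ N hMid
  have hK : algebraMap (ratLocalizedAt ℓ) K ((ℓ : ℕ) : ratLocalizedAt ℓ) = 0 := by
    rw [map_natCast]; exact CharP.cast_eq_zero K ℓ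
  exact s28d_isIntegral_pullback_igusaTo N ℓ K
    (s28d_isDomain_chart_tensor ℓ N _ (s28v_chartAlgFin_le_incl ℓ N) hFin K hK)
    (s28d_isDomain_chart_tensor ℓ N _ (s28v_chartAlgInf_le_incl ℓ N) hInf K hK)
    (s28d_isDomain_chart_tensor ℓ N _ (s28v_chartAlgMid_le_incl ℓ N) hMid K hK)

/-- **Igusa from residue independence.** -/
theorem s28d_isIntegral_of_indep
    (w : ↥(modularFunctionFieldFull N) →+* LaurentSeries ℚ) (hw : ∀ x, w x ∈ s28v_Frac ℓ)
    (hBO' : chartAlgFin N ℓ ≤ s28v_OAlg ℓ N w hw)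
    {n : ℕ} (hn : dedekindPsi N ≤ n) (b : Fin n → modularFunctionFieldFull N)
    (hbB : ∀ i, b i ∈ chartAlgFin N ℓ)
    (hind : ∀ P : Fin n → (ZMod ℓ)[X],
      ∑ i, aeval (s28v_red ℓ ⟨w (jFull N), hBO' (subset_chartAlg N ℓ _ rfl)⟩) (P i) *
        s28v_red ℓ ⟨w (b i), hBO' (hbB i)⟩ = 0 → ∀ i, P i = 0)
    (K : Type) [Field K] [CharP K ℓ] [Algebra ↥(ratLocalizedAt ℓ) K] :
    IsIntegral (pullback (igusaTo N ℓ)
      (Spec.map (CommRingCat.ofHom (algebraMap ↥(ratLocalizedAt ℓ) K)))) :=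
  s28d_isIntegral_of_fin_pure ℓ N
    (fun y hy hyB => s28d_fin_purity ℓ N w hw hBO' hn b hbB hind y hy hyB) K

end Fermat.Agent.Lib.S28
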