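/-
S28 (Igusa), package (E6) (helper5): transport of prime-level data along a field embedding
`f : E →ₐ[k] E` (used with `f = qExpand k m`, i.e. `t ↦ q^m`).
-/
import Mathlib

set_option autoImplicit false

noncomputable section

namespace Fermat.Agent.Lib.S28

open IntermediateField Polynomial

variable {k E : Type*} [Field k] [Field E] [Algebra k E]

/-- The isomorphism `k(y) ≃ k(f y)` induced by an embedding `f`. -/
def s28e_adjoinEquiv (f : E →ₐ[k] E) (y : E) : ↥k⟮y⟯ ≃ₐ[k] ↥k⟮f y⟯ :=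
  (IntermediateField.equivMap k⟮y⟯ f).trans
    (IntermediateField.equivOfEq (by rw [IntermediateField.adjoin_map, Set.image_singleton]))

theorem s28e_adjoinEquiv_coe (f : E →ₐ[k] E) (y : E) (a : ↥k⟮y⟯) :
    ((s28e_adjoinEquiv f y a : ↥k⟮f y⟯) : E) = f (a : E) := rfl

theorem s28e_transport (f : E →ₐ[k] E) (x y : E) (n : ℕ) (P₁ : Polynomial ↥k⟮y⟯)
    (hm : P₁.Monic) (hirr : Irreducible P₁) (hdeg : P₁.natDegree = n) (hsep : P₁.Separable)
    (hx : aeval x P₁ = 0) (hsplit : (P₁.map (algebraMap ↥k⟮y⟯ E)).Splits) :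
    ∃ P : Polynomial ↥k⟮f y⟯, P.Monic ∧ Irreducible P ∧ P.natDegree = n ∧ P.Separable ∧
      aeval (f x) P = 0 ∧ (P.map (algebraMap ↥k⟮f y⟯ E)).Splits ∧
      ∀ a ∈ P.rootSet E, a ∈ f.fieldRange := by
  set σ := s28e_adjoinEquiv f y with hσ
  have hcomp : (algebraMap ↥k⟮f y⟯ E).comp (σ : ↥k⟮y⟯ →+* ↥k⟮f y⟯)
      = (f : E →+* E).comp (algebraMap ↥k⟮y⟯ E) := by
    ext a
    rfl
  have hmap : (P₁.map (σ : ↥k⟮y⟯ →+* ↥k⟮f y⟯)).map (algebraMap ↥k⟮f y⟯ E)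
      = (P₁.map (algebraMap ↥k⟮y⟯ E)).map (f : E →+* E) := by
    rw [Polynomial.map_map, Polynomial.map_map, hcomp]
  have hP0 : P₁ ≠ 0 := hm.ne_zero
  refine ⟨P₁.map (σ : ↥k⟮y⟯ →+* ↥k⟮f y⟯), hm.map _, ?_, ?_, hsep.map, ?_, ?_, ?_⟩
  · have h := (MulEquiv.irreducible_iff (Polynomial.mapEquiv σ.toRingEquiv) (x := P₁)).2 hirr
    exact h
  · rw [Polynomial.natDegree_map, hdeg]
  · rw [Polynomial.aeval_def, Polynomial.eval₂_map, hcomp]
    have h := Polynomial.hom_eval₂ P₁ (algebraMap ↥k⟮y⟯ E) (f : E →+* E) x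
    rw [Polynomial.aeval_def] at hx
    rw [hx, map_zero] at h
    exact h.symm
  · rw [hmap]
    exact hsplit.map _
  · intro a ha
    rw [Polynomial.mem_rootSet'] at ha
    obtain ⟨-, ha⟩ := ha
    have hroot : ((P₁.map (algebraMap ↥k⟮y⟯ E)).map (f : E →+* E)).IsRoot a := by
      rw [← hmap, Polynomial.IsRoot.def, Polynomial.eval_map_algebraMap]
      exact ha
    have h0 : P₁.map (algebraMap ↥k⟮y⟯ E) ≠ 0 :=
      (Polynomial.map_ne_zero_iff (algebraMap ↥k⟮y⟯ E).injective).2 hP0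
    obtain ⟨b, hb⟩ := hsplit.mem_range_of_isRoot h0 hroot
    exact ⟨b, hb⟩

/-- `s28e_transport` with the images of `x`, `y` named. -/
theorem s28e_transport' (f : E →ₐ[k] E) (x y x' y' : E) (hx' : f x = x') (hy' : f y = y')
    (n : ℕ) (P₁ : Polynomial ↥k⟮y⟯)
    (hm : P₁.Monic) (hirr : Irreducible P₁) (hdeg : P₁.natDegree = n) (hsep : P₁.Separable)
    (hx : aeval x P₁ = 0) (hsplit : (P₁.map (algebraMap ↥k⟮y⟯ E)).Splits) :
    ∃ P : Polynomial ↥k⟮y'⟯, P.Monic ∧ Irreducible P ∧ P.natDegree = n ∧ P.Separable ∧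
      aeval x' P = 0 ∧ (P.map (algebraMap ↥k⟮y'⟯ E)).Splits ∧
      ∀ a ∈ P.rootSet E, a ∈ f.fieldRange := by
  subst hx' hy'
  exact s28e_transport f x y n P₁ hm hirr hdeg hsep hx hsplit

end Fermat.Agent.Lib.S28
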