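/-
S28 (Igusa), package (E6') (helper5): the prime-level input in the `t`-picture (`m = 1`) implies
the prime-level input for every `m` (transport along `t ↦ q^m`).
-/
import Fermat.Agent.Lib.S28.EConc
import Fermat.Agent.Lib.S28.ETransport

set_option autoImplicit false

noncomputable section

namespace Fermat.Agent.Lib.S28

open Module IntermediateField Polynomial HahnSeries ModularCurve

variable (k : Type*) [Field k]

/-- **Prime-level input, `t`-picture**: `j(t)` has degree `r + 1` over `k(j(t^r))`, with separable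
minimal polynomial which splits in `k((t))`. -/
def s28e_PrimeLevelT (r : ℕ) [NeZero r] : Prop :=
  ∃ P : Polynomial ↥(IntermediateField.adjoin k {qExpand k r (jqModC k)}),
    P.Monic ∧ Irreducible P ∧ P.natDegree = r + 1 ∧ P.Separable ∧
    Polynomial.aeval (jqModC k) P = 0 ∧
    (P.map (algebraMap _ (LaurentSeries k))).Splits

theorem s28e_primeLevel_of_T (r m : ℕ) [NeZero r] [NeZero m] (h : s28e_PrimeLevelT k r) :
    s28e_PrimeLevel k r m := by
  obtain ⟨P₁, hm, hirr, hdeg, hsep, hx, hsplit⟩ := h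
  obtain ⟨P, h1, h2, h3, h4, h5, h6, h7⟩ :=
    s28e_transport' (qExpandAlgHomC k m) (jqModC k) (qExpand k r (jqModC k))
      (qExpand k m (jqModC k)) (qExpand k (m * r) (jqModC k)) rfl
      (qExpand_qExpand r m (jqModC k)) (r + 1) P₁ hm hirr hdeg hsep hx hsplit
  exact ⟨P, h1, h2, h3, h4, h5, h6, fun a ha => h7 a ha⟩

theorem s28e_primeLevelAll_of_T (N : ℕ)
    (h : ∀ (r : ℕ) [NeZero r], r.Prime → r ∣ N → s28e_PrimeLevelT k r) :
    s28e_PrimeLevelAll k N := by
  intro r m _ _ hr hmr
  exact s28e_primeLevel_of_T k r m (h r hr (Dvd.dvd.trans (Dvd.intro_left m rfl) hmr))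

/-- Transport from `m = 1` in the literal shape `s28e_PrimeLevel k r 1`. -/
theorem s28e_primeLevel_of_one (r m : ℕ) [NeZero r] [NeZero m] (h : s28e_PrimeLevel k r 1) :
    s28e_PrimeLevel k r m := by
  obtain ⟨P₁, hm, hirr, hdeg, hsep, hx, hsplit, -⟩ := h
  have hx' : qExpandAlgHomC k m (qExpand k 1 (jqModC k)) = qExpand k m (jqModC k) := by
    rw [qExpand_one_apply]
    rfl
  have hy' : qExpandAlgHomC k m (qExpand k (1 * r) (jqModC k))
      = qExpand k (m * r) (jqModC k) := by
    have h1 : qExpand k (1 * r) (jqModC k) = qExpand k r (jqModC k) :=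
      qExpand_congr (one_mul r) _
    rw [h1]
    exact qExpand_qExpand r m (jqModC k)
  obtain ⟨P, h1, h2, h3, h4, h5, h6, h7⟩ :=
    s28e_transport' (qExpandAlgHomC k m) (qExpand k 1 (jqModC k))
      (qExpand k (1 * r) (jqModC k))
      (qExpand k m (jqModC k)) (qExpand k (m * r) (jqModC k)) hx' hy'
      (r + 1) P₁ hm hirr hdeg hsep hx hsplit
  exact ⟨P, h1, h2, h3, h4, h5, h6, fun a ha => h7 a ha⟩

theorem s28e_primeLevelAll_of_one (N : ℕ)
    (h : ∀ (r : ℕ) [NeZero r], r.Prime → r ∣ N → s28e_PrimeLevel k r 1) :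
    s28e_PrimeLevelAll k N := by
  intro r m _ _ hr hmr
  exact s28e_primeLevel_of_one k r m (h r hr (Dvd.dvd.trans (Dvd.intro_left m rfl) hmr))

end Fermat.Agent.Lib.S28
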