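import Mathlib
import Fermat.Prelude.Def_GaloisRep_Flat

/-!
# S28, block (K3): the base ring `ℤ_(ℓ) = GaloisRep.ratLocalizedAt ℓ`

`ℤ_(ℓ)` (a subring of `ℚ` in the Prelude) is the localisation of `ℤ` at the prime `(ℓ)`, hence a
discrete valuation ring, and `ℓ` is a prime element of it.
-/

set_option autoImplicit false

namespace Fermat.Agent.Lib.S28

variable (ℓ : ℕ) [hℓ : Fact ℓ.Prime]

set_option quotPrecheck false in
local notation "ℤℓ" => ↥(GaloisRep.ratLocalizedAt ℓ)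

omit hℓ in
theorem s28k_mem_ratLocalizedAt (x : ℚ) :
    x ∈ GaloisRep.ratLocalizedAt ℓ ↔ x.den.Coprime ℓ := Iff.rfl

instance s28k_isPrime_span : (Ideal.span {(ℓ : ℤ)}).IsPrime :=
  (Ideal.span_singleton_prime (by exact_mod_cast hℓ.out.ne_zero)).mpr
    (Nat.prime_iff_prime_int.mp hℓ.out)

omit hℓ in
theorem s28k_coe_algebraMap_int (n : ℤ) : ((algebraMap ℤ ℤℓ n : ℤℓ) : ℚ) = (n : ℚ) := by
  rw [eq_intCast (algebraMap ℤ ℤℓ) n, Subring.coe_intCast]

theorem s28k_mem_primeCompl_iff (y : ℤ) :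
    y ∈ (Ideal.span {(ℓ : ℤ)}).primeCompl ↔ ¬ (ℓ : ℤ) ∣ y := by
  rw [Ideal.mem_primeCompl_iff, Ideal.mem_span_singleton]

theorem s28k_coprime_of_not_dvd {y : ℤ} (hy : ¬ (ℓ : ℤ) ∣ y) : y.natAbs.Coprime ℓ := by
  rw [Nat.coprime_comm, Nat.Prime.coprime_iff_not_dvd hℓ.out]
  intro h
  exact hy (Int.natCast_dvd.mpr h)

instance s28k_isLocalization_atPrime : IsLocalization.AtPrime ℤℓ (Ideal.span {(ℓ : ℤ)}) where
  map_units := by
    rintro ⟨y, hy⟩
    rw [s28k_mem_primeCompl_iff] at hy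
    have hy0 : y ≠ 0 := by rintro rfl; exact hy (dvd_zero _)
    have hmem : ((y : ℚ))⁻¹ ∈ GaloisRep.ratLocalizedAt ℓ := by
      rw [s28k_mem_ratLocalizedAt, Rat.inv_intCast_den, if_neg hy0]
      exact s28k_coprime_of_not_dvd ℓ hy
    refine IsUnit.of_mul_eq_one ⟨_, hmem⟩ (Subtype.ext ?_)
    rw [Subring.coe_mul, s28k_coe_algebraMap_int, Subring.coe_one]
    exact mul_inv_cancel₀ (by exact_mod_cast hy0)
  surj := by
    rintro ⟨z, hz⟩
    rw [s28k_mem_ratLocalizedAt] at hz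
    have hden : ((z.den : ℕ) : ℤ) ∈ (Ideal.span {(ℓ : ℤ)}).primeCompl := by
      rw [s28k_mem_primeCompl_iff]
      intro h
      have h' : ℓ ∣ z.den := by exact_mod_cast h
      have := Nat.eq_one_of_dvd_coprimes hz h' dvd_rfl
      exact hℓ.out.one_lt.ne' this
    refine ⟨(z.num, ⟨_, hden⟩), Subtype.ext ?_⟩
    rw [Subring.coe_mul, s28k_coe_algebraMap_int, s28k_coe_algebraMap_int]
    push_cast
    exact Rat.mul_den_eq_num z
  exists_of_eq := by
    intro x y h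
    refine ⟨1, ?_⟩
    have h' := congrArg (Subtype.val) h
    rw [s28k_coe_algebraMap_int, s28k_coe_algebraMap_int] at h'
    rw [Int.cast_injective h']

instance s28k_isDiscreteValuationRing : IsDiscreteValuationRing ℤℓ :=
  IsLocalization.AtPrime.isDiscreteValuationRing_of_dedekind_domain ℤ
    (P := Ideal.span {(ℓ : ℤ)})
    (by
      rw [Ne, Ideal.span_singleton_eq_bot]
      exact_mod_cast hℓ.out.ne_zero) ℤℓ

/-- `ℓ` is a prime element of `ℤ_(ℓ)`. -/
theorem s28k_prime_ell : Prime ((ℓ : ℕ) : ℤℓ) := by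
  have h1 : (Ideal.span {(ℓ : ℤ)}).map (algebraMap ℤ ℤℓ) = IsLocalRing.maximalIdeal ℤℓ :=
    IsLocalization.AtPrime.map_eq_maximalIdeal (Ideal.span {(ℓ : ℤ)}) ℤℓ
  have h2 : (Ideal.span {((ℓ : ℕ) : ℤℓ)}).IsPrime := by
    have : Ideal.span {((ℓ : ℕ) : ℤℓ)} = IsLocalRing.maximalIdeal ℤℓ := by
      rw [← h1, Ideal.map_span, Set.image_singleton]
      simp
    rw [this]
    exact (IsLocalRing.maximalIdeal.isMaximal ℤℓ).isPrime
  refine (Ideal.span_singleton_prime ?_).mp h2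
  intro h
  have h' := congrArg (Subtype.val) h
  rw [Subring.coe_natCast, Subring.coe_zero] at h'
  exact hℓ.out.ne_zero (by exact_mod_cast h')

end Fermat.Agent.Lib.S28
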