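import Mathlib
import Fermat.Prelude.Def_ModularCurve_IgusaScheme
import Fermat.Agent.Lib.S28.KBase
import Fermat.Agent.Lib.S28.KDescent
import Fermat.Agent.Lib.S28.KTensor

/-!
# S28, block (K4): the polynomial rings `ℤ_(ℓ)[j]`, `ℤ_(ℓ)[j⁻¹]` inside the function field

`j = jFull N` is transcendental over `ℤ_(ℓ)`; hence `Algebra.adjoin ℤ_(ℓ) {t}` (`t = j` or `j⁻¹`)
is a polynomial ring over a DVR: integrally closed, and `ℓ` is a prime element of it.  Together
with the descent lemma (K2) this gives the membership criterion for the chart algebras.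
-/

set_option autoImplicit false

open Polynomial ModularCurve ModularCurve.IgusaScheme

namespace Fermat.Agent.Lib.S28

/-- `jq` is transcendental over `ℚ` (pole order). -/
theorem s28k_transcendental_jq : Transcendental ℚ jq := by
  rw [transcendental_iff]
  intro p hp
  by_contra hp0
  have hsm : ∀ (c : ℚ) (x : LaurentSeries ℚ) (n : ℤ),
      (algebraMap ℚ (LaurentSeries ℚ) c * x).coeff n = c * x.coeff n := by
    intro c x n
    rw [s28k_algebraMap_laurent, HahnSeries.C_mul_eq_smul, HahnSeries.coeff_smul, smul_eq_mul]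
    rfl
  have h1 : (aeval jq p).coeff (-(p.natDegree : ℤ)) = p.leadingCoeff := by
    rw [aeval_def, eval₂_eq_sum_range, HahnSeries.coeff_sum, Finset.sum_range_succ]
    rw [Finset.sum_eq_zero, zero_add, hsm, coeff_jq_pow_self, mul_one, leadingCoeff]
    intro i hi
    rw [hsm, coeff_jq_pow_of_lt, mul_zero]
    have := Finset.mem_range.mp hi
    omega
  rw [hp, HahnSeries.coeff_zero] at h1
  exact hp0 (leadingCoeff_eq_zero.mp h1.symm)

theorem s28k_transcendental_jq_inv : Transcendental ℚ jq⁻¹ :=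
  fun h => s28k_transcendental_jq (IsAlgebraic.inv_iff.mp h)

variable (N : ℕ) [NeZero N] (ℓ : ℕ) [hℓ : Fact ℓ.Prime]

set_option quotPrecheck false in
local notation "ℤℓ" => ↥(GaloisRep.ratLocalizedAt ℓ)

set_option quotPrecheck false in
local notation "F" => ↥(modularFunctionFieldFull N)

omit [NeZero N] hℓ in
/-- The structure map `ℤ_(ℓ) → F ⊆ ℚ((q))` is through constants. -/
theorem s28k_coe_algebraMap (r : ℤℓ) :
    ((algebraMap ℤℓ F r : F) : LaurentSeries ℚ) = HahnSeries.C (r : ℚ) := by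
  have h1 : algebraMap ℤℓ F r = algebraMap ℚ F (algebraMap ℤℓ ℚ r) := rfl
  have h2 : algebraMap ℤℓ ℚ r = (r : ℚ) := rfl
  rw [h1, h2, eq_ratCast (algebraMap ℚ F)]
  have h3 : (((r : ℚ) : F) : LaurentSeries ℚ) = (((r : ℚ) : ℚ) : LaurentSeries ℚ) := by
    norm_cast
  rw [h3, ← map_ratCast (HahnSeries.C : ℚ →+* LaurentSeries ℚ)]
  simp

omit [NeZero N] hℓ in
/-- An element of `F` whose `q`-expansion is transcendental over `ℚ` is transcendental over
`ℤ_(ℓ)`. -/
theorem s28k_transcendental_of_coe {t : F} (ht : Transcendental ℚ (t : LaurentSeries ℚ)) :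
    Transcendental ℤℓ t := by
  rw [transcendental_iff]
  intro p hp
  have hinj : Function.Injective (algebraMap ℤℓ ℚ) := Subtype.val_injective
  apply Polynomial.map_injective _ hinj
  rw [Polynomial.map_zero]
  apply transcendental_iff.mp ht
  let ι : F →+* LaurentSeries ℚ := algebraMap F (LaurentSeries ℚ)
  have h1 : ι (aeval t p) = 0 := by rw [hp, map_zero]
  rw [aeval_def, hom_eval₂] at h1
  rw [aeval_def, eval₂_map, ← h1]
  congr 1
  refine RingHom.ext fun r => ?_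
  show algebraMap ℚ (LaurentSeries ℚ) (r : ℚ) = ((algebraMap ℤℓ F r : F) : LaurentSeries ℚ)
  rw [s28k_coe_algebraMap, s28k_algebraMap_laurent]
  rfl

omit hℓ in
theorem s28k_transcendental_jFull : Transcendental ℤℓ (jFull N) :=
  s28k_transcendental_of_coe N ℓ (by rw [coe_jFull]; exact s28k_transcendental_jq)

omit hℓ in
theorem s28k_transcendental_jFull_inv : Transcendental ℤℓ (jFull N)⁻¹ :=
  s28k_transcendental_of_coe N ℓ (by
    have : (((jFull N)⁻¹ : F) : LaurentSeries ℚ) = jq⁻¹ := by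
      rw [← coe_jFull N]; norm_cast
    rw [this]; exact s28k_transcendental_jq_inv)

section Adjoin

omit [NeZero N] in
/-- `ℤ_(ℓ)[t]` is integrally closed for transcendental `t`. -/
theorem s28k_isIntegrallyClosed_adjoin {t : F} (ht : Transcendental ℤℓ t) :
    IsIntegrallyClosed ↥(Algebra.adjoin ℤℓ {t}) := by
  have := ht.uniqueFactorizationMonoid_adjoin
  exact UniqueFactorizationMonoid.instIsIntegrallyClosed

omit [NeZero N] in
/-- `ℓ` is a prime element of `ℤ_(ℓ)[t]` for transcendental `t`. -/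
theorem s28k_prime_adjoin {t : F} (ht : Transcendental ℤℓ t) :
    Prime (algebraMap ℤℓ ↥(Algebra.adjoin ℤℓ {t}) ((ℓ : ℕ) : ℤℓ)) := by
  have h : Prime (C ((ℓ : ℕ) : ℤℓ)) := Polynomial.prime_C_iff.mpr (s28k_prime_ell ℓ)
  have h2 := (MulEquiv.prime_iff (Polynomial.algEquivOfTranscendental ℤℓ t ht)).mpr h
  rwa [← Polynomial.algebraMap_eq, AlgEquiv.commutes] at h2

/-- **Membership criterion for the chart algebra** (K2 applied to `A = ℤ_(ℓ)[t]`):
if `ℓ·y` and `s·y` lie in the chart algebra for some `s ∈ ℤ_(ℓ)[t]` not divisible by `ℓ`,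
then `y` lies in the chart algebra. -/
theorem s28k_mem_chartAlg_of_mul_mem {t : F} (ht : Transcendental ℤℓ t) (y : F)
    (s : ↥(Algebra.adjoin ℤℓ {t}))
    (hs : ¬ algebraMap ℤℓ ↥(Algebra.adjoin ℤℓ {t}) ((ℓ : ℕ) : ℤℓ) ∣ s)
    (h1 : algebraMap ℤℓ F ((ℓ : ℕ) : ℤℓ) * y ∈ chartAlg N ℓ {t})
    (h2 : (s : F) * y ∈ chartAlg N ℓ {t}) : y ∈ chartAlg N ℓ {t} := by
  rw [mem_chartAlg_iff] at h1 h2 ⊢
  have := s28k_isIntegrallyClosed_adjoin N ℓ ht
  refine s28k_isIntegral_of_smul (s28k_prime_adjoin N ℓ ht) hs y ?_ ?_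
  · rw [Algebra.smul_def]
    exact h1
  · rw [Algebra.smul_def]
    exact h2

/-- The same criterion in the shape produced by `s28d_exists_primitive_mul_mem` (DVal):
`ℓ·y ∈ chart`, `Q(t)·y ∈ chart` with `Q ∈ ℤ_(ℓ)[X]` not divisible by `ℓ` ⇒ `y ∈ chart`. -/
theorem s28k_mem_chartAlg_of_aeval_mul_mem {t : F} (ht : Transcendental ℤℓ t) (y : F)
    (Q : Polynomial ℤℓ) (hQ : ¬ C ((ℓ : ℕ) : ℤℓ) ∣ Q)
    (h1 : algebraMap ℤℓ F ((ℓ : ℕ) : ℤℓ) * y ∈ chartAlg N ℓ {t})
    (h2 : aeval t Q * y ∈ chartAlg N ℓ {t}) : y ∈ chartAlg N ℓ {t} := by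
  let e := Polynomial.algEquivOfTranscendental ℤℓ t ht
  refine s28k_mem_chartAlg_of_mul_mem N ℓ ht y (e Q) ?_ h1 ?_
  · intro h
    apply hQ
    have h3 : e (C ((ℓ : ℕ) : ℤℓ)) = algebraMap ℤℓ ↥(Algebra.adjoin ℤℓ {t}) ((ℓ : ℕ) : ℤℓ) := by
      rw [← Polynomial.algebraMap_eq, AlgEquiv.commutes]
    rw [← h3] at h
    exact (map_dvd_iff e).mp h
  · have h4 : ((e Q : ↥(Algebra.adjoin ℤℓ {t})) : F) = aeval t Q := by
      rw [Polynomial.algEquivOfTranscendental_apply]
      exact (Subalgebra.aeval_coe (Algebra.adjoin ℤℓ {t})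
        ⟨t, Algebra.self_mem_adjoin_singleton ℤℓ t⟩ Q).symm
    rw [h4]
    exact h2

end Adjoin

end Fermat.Agent.Lib.S28
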