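import Fermat.Agent.Lib.S28.LFinal
import Fermat.Agent.Lib.S28.KChart

/-!
# S28, block (K5): purity on the chart `Fin` implies purity on `Mid` and `Inf`

The purity interface `s28l_KerIface` (an element of the chart whose reduction mod `ℓ` vanishes is
`ℓ` times an element of the chart) is needed from the valuation machinery only for the chart
`chartAlgFin`:

* `Fin ⇒ Mid`: `Mid` is the localisation of `Fin` at `j` (Prelude `exists_pow_mul_mem_chartAlg`);
* `Mid ⇒ Inf`: for `b ∈ Inf` with `red b = 0` we get `y = b/ℓ ∈ Mid`, so `(j⁻¹)^n·y ∈ Inf` for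
  some `n`; together with `ℓ·y ∈ Inf` the integrality descent (K2) over `ℤ_(ℓ)[j⁻¹]` gives
  `y ∈ Inf`.
-/

set_option autoImplicit false
open AlgebraicGeometry CategoryTheory CategoryTheory.Limits ModularCurve ModularCurve.IgusaScheme
open scoped TensorProduct
noncomputable section

namespace Fermat.Agent.Lib.S28

open GaloisRep HahnSeries Polynomial

variable (ℓ : ℕ) [Fact ℓ.Prime] (N : ℕ) [NeZero N]

/-- Multiples of `ℓ` inside the standard Gauss ring reduce to zero (in `algebraMap` form). -/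
theorem s28k_red_eq_zero_of_eq_mul
    (x y : s28v_OAlg ℓ N (s28v_incl N) (s28v_incl_mem_Frac ℓ N))
    (hxy : (x : modularFunctionFieldFull N) =
      algebraMap (ratLocalizedAt ℓ) (modularFunctionFieldFull N) ((ℓ : ℕ) : ratLocalizedAt ℓ) * y) :
    (letI := s28v_algLS ℓ; s28v_redAlg ℓ N (s28v_incl N) (s28v_incl_mem_Frac ℓ N) x) = 0 := by
  refine s28v_redAlg_natCast_mul ℓ N _ _ x y ?_
  rw [hxy, map_natCast]

/-- `¬ C ℓ ∣ X^n` in `ℤ_(ℓ)[X]`. -/
theorem s28k_not_C_dvd_X_pow (n : ℕ) :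
    ¬ (C ((ℓ : ℕ) : ratLocalizedAt ℓ) ∣ (X ^ n : Polynomial (ratLocalizedAt ℓ))) := by
  intro h
  have h1 := (Polynomial.C_dvd_iff_dvd_coeff _ _).mp h n
  rw [Polynomial.coeff_X_pow, if_pos rfl] at h1
  exact (s28k_prime_ell ℓ).not_isUnit (isUnit_of_dvd_one h1)

/-- **Purity on `Fin` implies purity on `Mid`.** -/
theorem s28k_kerIface_mid
    (hFin : s28l_KerIface ℓ N (chartAlgFin N ℓ) (s28v_chartAlgFin_le_incl ℓ N)) :
    s28l_KerIface ℓ N (chartAlgMid N ℓ) (s28v_chartAlgMid_le_incl ℓ N) := by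
  intro b hb
  set O₀ := s28v_OAlg ℓ N (s28v_incl N) (s28v_incl_mem_Frac ℓ N) with hO₀
  have hj0 : jFull N ≠ 0 := jFull_ne_zero N
  -- `j^n * b ∈ Fin`
  have hbmem : (b : modularFunctionFieldFull N) ∈
      chartAlg N ℓ (insert (jFull N)⁻¹ {jFull N}) := by
    rw [show insert (jFull N)⁻¹ ({jFull N} : Set (modularFunctionFieldFull N)) =
      {jFull N, (jFull N)⁻¹} from Set.pair_comm _ _]
    exact b.2
  obtain ⟨n, hn⟩ := exists_pow_mul_mem_chartAlg (Set.mem_singleton _) hj0 hbmem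
  -- `b = ℓ * y` with `y ∈ O₀`
  obtain ⟨y, hy⟩ := s28v_redAlg_eq_zero ℓ N _ _
    ⟨(b : modularFunctionFieldFull N), s28v_chartAlgMid_le_incl ℓ N b.2⟩ hb
  -- hence `red (j^n * b) = 0`
  have hjO : jFull N ∈ O₀ := s28v_incl_jFull_mem ℓ N
  have hred : (letI := s28v_algLS ℓ; s28v_redAlg ℓ N (s28v_incl N) (s28v_incl_mem_Frac ℓ N)
      ⟨jFull N ^ n * (b : modularFunctionFieldFull N), s28v_chartAlgFin_le_incl ℓ N hn⟩) = 0 := by
    refine s28k_red_eq_zero_of_eq_mul ℓ N _ (⟨jFull N, hjO⟩ ^ n * y) ?_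
    show jFull N ^ n * (b : modularFunctionFieldFull N) = _
    rw [show (b : modularFunctionFieldFull N) = _ from hy]
    push_cast
    ring
  obtain ⟨c, hc⟩ := hFin ⟨jFull N ^ n * (b : modularFunctionFieldFull N), hn⟩ hred
  -- `b = ℓ * (c * (j⁻¹)^n)`
  have hcMid : (c : modularFunctionFieldFull N) ∈ chartAlgMid N ℓ :=
    chartAlg_mono N ℓ (sFin_subset N) c.2
  have hjinv : (jFull N)⁻¹ ∈ chartAlgMid N ℓ := subset_chartAlg N ℓ _ (by simp)
  refine ⟨⟨(c : modularFunctionFieldFull N) * (jFull N)⁻¹ ^ n,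
    mul_mem hcMid (pow_mem hjinv n)⟩, ?_⟩
  have hc' : jFull N ^ n * (b : modularFunctionFieldFull N) =
      algebraMap (ratLocalizedAt ℓ) (modularFunctionFieldFull N) ((ℓ : ℕ) : ratLocalizedAt ℓ) *
        (c : modularFunctionFieldFull N) := hc
  show (b : modularFunctionFieldFull N) = _ * ((c : modularFunctionFieldFull N) * (jFull N)⁻¹ ^ n)
  have hjn : jFull N ^ n ≠ 0 := pow_ne_zero n hj0
  rw [← mul_assoc, ← hc', inv_pow]
  field_simp

/-- **Purity on `Mid` implies purity on `Inf`** (integrality descent over `ℤ_(ℓ)[j⁻¹]`). -/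
theorem s28k_kerIface_inf
    (hMid : s28l_KerIface ℓ N (chartAlgMid N ℓ) (s28v_chartAlgMid_le_incl ℓ N)) :
    s28l_KerIface ℓ N (chartAlgInf N ℓ) (s28v_chartAlgInf_le_incl ℓ N) := by
  intro b hb
  have hbMid : (b : modularFunctionFieldFull N) ∈ chartAlgMid N ℓ :=
    chartAlg_mono N ℓ (sInf_subset N) b.2
  obtain ⟨y, hy⟩ := hMid ⟨(b : modularFunctionFieldFull N), hbMid⟩ hb
  have hy' : (b : modularFunctionFieldFull N) =
      algebraMap (ratLocalizedAt ℓ) (modularFunctionFieldFull N) ((ℓ : ℕ) : ratLocalizedAt ℓ) *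
        (y : modularFunctionFieldFull N) := hy
  -- `(j⁻¹)^n * y ∈ Inf`
  have hymem : (y : modularFunctionFieldFull N) ∈
      chartAlg N ℓ (insert (jFull N)⁻¹⁻¹ {(jFull N)⁻¹}) := by
    rw [inv_inv]; exact y.2
  obtain ⟨n, hn⟩ := exists_pow_mul_mem_chartAlg (Set.mem_singleton _)
    (inv_ne_zero (jFull_ne_zero N)) hymem
  have hyInf : (y : modularFunctionFieldFull N) ∈ chartAlg N ℓ {(jFull N)⁻¹} := by
    refine s28k_mem_chartAlg_of_aeval_mul_mem N ℓ (s28k_transcendental_jFull_inv N ℓ)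
      (y : modularFunctionFieldFull N) (X ^ n) (s28k_not_C_dvd_X_pow ℓ n) ?_ ?_
    · rw [← hy']; exact b.2
    · rw [map_pow, aeval_X]; exact hn
  exact ⟨⟨(y : modularFunctionFieldFull N), hyInf⟩, hy'⟩

/-- **S28 modulo purity on the single chart `Fin`.** -/
theorem s28k_isIntegral_of_fin
    (hFin : s28l_KerIface ℓ N (chartAlgFin N ℓ) (s28v_chartAlgFin_le_incl ℓ N))
    (K : Type) [Field K] [CharP K ℓ] [Algebra (ratLocalizedAt ℓ) K] :
    IsIntegral (pullback (igusaTo N ℓ)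
      (Spec.map (CommRingCat.ofHom (algebraMap (ratLocalizedAt ℓ) K)))) :=
  s28l_isIntegral ℓ N hFin (s28k_kerIface_inf ℓ N (s28k_kerIface_mid ℓ N hFin))
    (s28k_kerIface_mid ℓ N hFin) K

end Fermat.Agent.Lib.S28
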