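import Fermat.Agent.Lib.S28.KTensor
import Fermat.Agent.Lib.S28.VAlg
import Fermat.Agent.Lib.S28.DGlue

/-!
# S28: final instantiation layer (lead)

`s28l_isDomain_chart`: for a chart algebra `B` inside the standard Gauss ring, the purity statement
"`red b = 0 → b ∈ ℓ·B`" makes `B ⊗[ℤ_(ℓ)] K` a domain for every field `K` of characteristic `ℓ`
(instantiation of helper7's K1 at helper6's reduction map), and `s28l_isIntegral` feeds the three
charts into helper4's scheme glue.
-/

set_option autoImplicit false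
open AlgebraicGeometry CategoryTheory CategoryTheory.Limits ModularCurve ModularCurve.IgusaScheme
open scoped TensorProduct
noncomputable section

namespace Fermat.Agent.Lib.S28

open GaloisRep HahnSeries

variable (ℓ : ℕ) [Fact ℓ.Prime] (N : ℕ) [NeZero N]

/-- Purity interface for a chart `B` contained in the standard Gauss ring: an element of `B` whose
reduction vanishes is `ℓ` times an element of `B`. -/
def s28l_KerIface (B : Subalgebra (ratLocalizedAt ℓ) (modularFunctionFieldFull N))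
    (hB : B ≤ s28v_OAlg ℓ N (s28v_incl N) (s28v_incl_mem_Frac ℓ N)) : Prop :=
  ∀ b : B,
    (letI := s28v_algLS ℓ;
      s28v_redAlg ℓ N (s28v_incl N) (s28v_incl_mem_Frac ℓ N) ⟨(b : modularFunctionFieldFull N), hB b.2⟩) = 0 →
    ∃ b' : B, (b : modularFunctionFieldFull N) =
      algebraMap (ratLocalizedAt ℓ) (modularFunctionFieldFull N) ((ℓ : ℕ) : ratLocalizedAt ℓ) *
        (b' : modularFunctionFieldFull N)

/-- The reduction map restricted to a chart. -/
def s28l_redChart (B : Subalgebra (ratLocalizedAt ℓ) (modularFunctionFieldFull N))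
    (hB : B ≤ s28v_OAlg ℓ N (s28v_incl N) (s28v_incl_mem_Frac ℓ N)) :
    B →+* LaurentSeries (ZMod ℓ) :=
  letI := s28v_algLS ℓ
  (s28v_redAlg ℓ N (s28v_incl N) (s28v_incl_mem_Frac ℓ N)).toRingHom.comp
    (Subalgebra.inclusion hB).toRingHom

theorem s28l_redChart_apply (B : Subalgebra (ratLocalizedAt ℓ) (modularFunctionFieldFull N))
    (hB : B ≤ s28v_OAlg ℓ N (s28v_incl N) (s28v_incl_mem_Frac ℓ N)) (b : B) :
    s28l_redChart ℓ N B hB b =
      (letI := s28v_algLS ℓ;
        s28v_redAlg ℓ N (s28v_incl N) (s28v_incl_mem_Frac ℓ N)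
          ⟨(b : modularFunctionFieldFull N), hB b.2⟩) := rfl

theorem s28l_redChart_algebraMap (B : Subalgebra (ratLocalizedAt ℓ) (modularFunctionFieldFull N))
    (hB : B ≤ s28v_OAlg ℓ N (s28v_incl N) (s28v_incl_mem_Frac ℓ N)) (a : ratLocalizedAt ℓ) :
    s28l_redChart ℓ N B hB (algebraMap (ratLocalizedAt ℓ) B a) = HahnSeries.C (s28v_resHom ℓ a) := by
  letI := s28v_algLS ℓ
  have h := (s28v_redAlg ℓ N (s28v_incl N) (s28v_incl_mem_Frac ℓ N)).commutes a
  rw [s28v_algLS_algebraMap] at h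
  rw [← h]
  rfl

/-- **K1 instantiated**: purity on a chart makes its base change to any field of characteristic
`ℓ` a domain. -/
theorem s28l_isDomain_chart (B : Subalgebra (ratLocalizedAt ℓ) (modularFunctionFieldFull N))
    (hB : B ≤ s28v_OAlg ℓ N (s28v_incl N) (s28v_incl_mem_Frac ℓ N))
    (hker : s28l_KerIface ℓ N B hB)
    (K : Type) [Field K] [CharP K ℓ] [Algebra (ratLocalizedAt ℓ) K] :
    IsDomain (B ⊗[ratLocalizedAt ℓ] K) := by
  refine s28k_isDomain_tensor ((ℓ : ℕ) : ratLocalizedAt ℓ) (s28v_resHom ℓ)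
    (s28v_resHom_surjective ℓ) ?_ ?_ (s28l_redChart ℓ N B hB)
    (s28l_redChart_algebraMap ℓ N B hB) ?_
  · intro r hr
    exact (s28v_dvd_iff_resHom ℓ r).mpr hr
  · rw [map_natCast]
    exact CharP.cast_eq_zero K ℓ
  · intro b hb
    rw [s28l_redChart_apply] at hb
    obtain ⟨b', hb'⟩ := hker b hb
    refine ⟨b', Subtype.ext ?_⟩
    rw [hb']
    rfl

/-- **Final assembly modulo purity on the three charts.** -/
theorem s28l_isIntegral
    (hFin : s28l_KerIface ℓ N (chartAlgFin N ℓ) (s28v_chartAlgFin_le_incl ℓ N))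
    (hInf : s28l_KerIface ℓ N (chartAlgInf N ℓ) (s28v_chartAlgInf_le_incl ℓ N))
    (hMid : s28l_KerIface ℓ N (chartAlgMid N ℓ) (s28v_chartAlgMid_le_incl ℓ N))
    (K : Type) [Field K] [CharP K ℓ] [Algebra (ratLocalizedAt ℓ) K] :
    IsIntegral (pullback (igusaTo N ℓ)
      (Spec.map (CommRingCat.ofHom (algebraMap (ratLocalizedAt ℓ) K)))) :=
  s28d_isIntegral_pullback_igusaTo N ℓ K
    (s28l_isDomain_chart ℓ N _ _ hFin K) (s28l_isDomain_chart ℓ N _ _ hInf K)
    (s28l_isDomain_chart ℓ N _ _ hMid K)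

end Fermat.Agent.Lib.S28
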