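/-
S28, package (M) (helper9): integral form of the modular equation — body of helper2's hypothesis
`s28n_IntHyp r` for every prime `r` — `j(q^{r²})` is a root of a monic polynomial over
`𝓞[j(q^r)]` with algebraic-integer coefficients.
-/
import Fermat.Agent.Lib.S28.MDescent

set_option autoImplicit false

namespace Fermat.Agent.Lib.S28

open ModularCurve Polynomial

noncomputable section

variable (r : ℕ) [hr : Fact r.Prime]

theorem s28m_isIntegral_of_mem_A (x : ℂ) (hx : x ∈ s28m_A r) : IsIntegral ℤ x := by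
  have hζ : IsIntegral ℤ (Complex.exp (2 * Real.pi * Complex.I / r)) :=
    (Complex.isPrimitiveRoot_exp r hr.out.ne_zero).isIntegral hr.out.pos
  have hle : s28m_A r ≤ integralClosure ℤ ℂ :=
    Algebra.adjoin_le (by
      intro y hy
      rw [Set.mem_singleton_iff] at hy
      subst hy
      exact hζ)
  exact hle hx

/-- **Integral modular equation** (the body of helper2's `s28n_IntHyp r`). -/
theorem s28m_intHyp :
    ∃ Φ : Polynomial (Polynomial ℂ), Φ.Monic ∧ (∀ n i, IsIntegral ℤ ((Φ.coeff n).coeff i)) ∧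
      (Φ.map (aeval (qExpand ℂ r (jqModC ℂ))).toRingHom).eval
        (qExpand ℂ r (qExpand ℂ r (jqModC ℂ))) = 0 := by
  obtain ⟨ΦA, hm, hd, hΦ⟩ := s28m_modEq_A r
  refine ⟨ΦA.map (mapRingHom (s28m_incl r)), hm.map _, ?_, ?_⟩
  · intro n i
    rw [Polynomial.coeff_map, coe_mapRingHom, Polynomial.coeff_map]
    exact s28m_isIntegral_of_mem_A r _ ((ΦA.coeff n).coeff i).2
  · have h1 := congrArg (Polynomial.map (coeffMap (s28m_incl r))) hΦ
    rw [s28m_map_map_subst, s28m_rhs_map] at h1
    have h2 : coeffMap (s28m_incl r) (s28m_Xr (B := s28m_A r) r) = qExpand ℂ r (jqModC ℂ) := by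
      rw [s28m_Xr, coeffMap_qExpand, coeffMap_jqModC]
    rw [h2, s28m_subst_eq_aeval] at h1
    rw [h1, s28m_rhs, qExpand_qExpand, Polynomial.eval_mul, Polynomial.eval_sub, Polynomial.eval_X,
      Polynomial.eval_C, sub_self, zero_mul]

end

end Fermat.Agent.Lib.S28
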