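/-
S28 (N1) (helper2): the ring hom `ℤ[e^{2πi/r}] → k`, `e^{2πi/r} ↦ ζ`, for a primitive `r`-th root
of unity `ζ` of a field `k` (literal form requested by helper9; general form `s28n_exists_psi`).
-/
import Mathlib
import Fermat.Agent.Lib.S28.NDescent

set_option autoImplicit false

namespace Fermat.Agent.Lib.S28

theorem s28n_exists_hom (k : Type*) [Field k] (r : ℕ) (hr : 0 < r) (ζ : k)
    (hζ : IsPrimitiveRoot ζ r) :
    ∃ ψ : ↥(Algebra.adjoin ℤ ({Complex.exp (2 * Real.pi * Complex.I / r)} : Set ℂ)) →+* k,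
      ψ ⟨Complex.exp (2 * Real.pi * Complex.I / r), Algebra.self_mem_adjoin_singleton ℤ _⟩ = ζ :=
  s28n_exists_psi hr (Complex.isPrimitiveRoot_exp r (Nat.pos_iff_ne_zero.mp hr)) hζ

end Fermat.Agent.Lib.S28
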