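/-
S28 (N2) (helper2, prefix `s28n_`): **integrality of `j(q^d)` over `ℤ[j]`.**

`s28n_isIntegral (hyp : ∀ r prime, s28n_IntHyp r) (d) : IsIntegral ↥(Algebra.adjoin ℤ {jq}) (qExpand ℚ d jq)`.

`s28n_IntHyp r` (analytic input, implied by the modular equation `s28n_MEa r`): a monic
`Φ ∈ ℂ[X][Y]` with algebraic-integer coefficients and `Φ(J(q^r); J(q^{r²})) = 0`.
-/
import Mathlib
import Fermat.Agent.Lib.S28.NModEq

set_option autoImplicit false

open Polynomial ModularCurve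

namespace Fermat.Agent.Lib.S28

section Abstract

variable {S : Type*} [CommRing S] [Algebra ℤ S]

/-- the evaluation hom `ℤ[X] → S`, `X ↦ T`. -/
noncomputable abbrev s28n_ev (T : S) : ℤ[X] →+* S := (aeval T : ℤ[X] →ₐ[ℤ] S).toRingHom

theorem s28n_ev_comp {S' : Type*} [CommRing S'] [Algebra ℤ S'] (φ : S →+* S') (T : S) :
    φ.comp (s28n_ev T) = s28n_ev (φ T) := by
  refine Polynomial.ringHom_ext' (RingHom.ext_int _ _) ?_
  simp [s28n_ev]

/-- (L1) polynomial form ⇒ integrality over `ℤ[T]`. -/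
theorem s28n_isIntegral_of_poly (T x : S) (p : Polynomial (Polynomial ℤ)) (hp : p.Monic)
    (h : p.eval₂ (s28n_ev T) x = 0) : IsIntegral ↥(Algebra.adjoin ℤ ({T} : Set S)) x := by
  let g : ℤ[X] →+* ↥(Algebra.adjoin ℤ ({T} : Set S)) :=
    ((aeval T : ℤ[X] →ₐ[ℤ] S).codRestrict (Algebra.adjoin ℤ ({T} : Set S))
      (fun f => aeval_mem_adjoin_singleton ℤ T)).toRingHom
  refine ⟨p.map g, hp.map g, ?_⟩
  rw [Polynomial.eval₂_map]
  have : (algebraMap ↥(Algebra.adjoin ℤ ({T} : Set S)) S).comp g = s28n_ev T := by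
    ext f <;> simp [g, s28n_ev]
  rw [this, h]

/-- (L1') integrality over `ℤ[T]` ⇒ polynomial form. -/
theorem s28n_poly_of_isIntegral (T x : S) (h : IsIntegral ↥(Algebra.adjoin ℤ ({T} : Set S)) x) :
    ∃ p : Polynomial (Polynomial ℤ), p.Monic ∧ p.eval₂ (s28n_ev T) x = 0 := by
  obtain ⟨P, hP, hPx⟩ := h
  let g : ℤ[X] →+* ↥(Algebra.adjoin ℤ ({T} : Set S)) :=
    ((aeval T : ℤ[X] →ₐ[ℤ] S).codRestrict (Algebra.adjoin ℤ ({T} : Set S))
      (fun f => aeval_mem_adjoin_singleton ℤ T)).toRingHom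
  have hg : Function.Surjective g := by
    rintro ⟨y, hy⟩
    rw [Algebra.adjoin_singleton_eq_range_aeval] at hy
    obtain ⟨f, rfl⟩ := hy
    exact ⟨f, Subtype.ext rfl⟩
  have hlifts : P ∈ Polynomial.lifts g :=
    (Polynomial.lifts_iff_coeff_lifts _).mpr fun n => hg _
  obtain ⟨p, hpP, -, hpm⟩ := Polynomial.lifts_and_natDegree_eq_and_monic hlifts hP
  refine ⟨p, hpm, ?_⟩
  have : (algebraMap ↥(Algebra.adjoin ℤ ({T} : Set S)) S).comp g = s28n_ev T := by
    ext f <;> simp [g, s28n_ev]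
  rw [← this, ← Polynomial.eval₂_map, hpP, hPx]

variable {R : Type*} [CommRing R] [Algebra R S]

omit [Algebra ℤ S] in
/-- (G) a root of a monic polynomial with `R`-integral coefficients is `R`-integral. -/
theorem s28n_isIntegral_of_monic_root (Ψ : Polynomial S) (hΨ : Ψ.Monic)
    (hc : ∀ n, IsIntegral R (Ψ.coeff n)) (x : S) (hx : Ψ.eval x = 0) : IsIntegral R x := by
  have hlifts : Ψ ∈ Polynomial.lifts (algebraMap ↥(integralClosure R S) S) :=
    (Polynomial.lifts_iff_coeff_lifts _).mpr fun n => ⟨⟨Ψ.coeff n, hc n⟩, rfl⟩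
  obtain ⟨Ψ', hΨ', -, hΨ'm⟩ := Polynomial.lifts_and_natDegree_eq_and_monic hlifts hΨ
  have hint : IsIntegral ↥(integralClosure R S) x := by
    refine ⟨Ψ', hΨ'm, ?_⟩
    rw [← Polynomial.eval_map, hΨ', hx]
  exact isIntegral_trans x hint

/-- (H) integer polynomial expressions in an `R`-integral element are `R`-integral. -/
theorem s28n_isIntegral_ev (T' : S) (hT' : IsIntegral R T') (f : ℤ[X]) :
    IsIntegral R (s28n_ev T' f) := by
  induction f using Polynomial.induction_on with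
  | C a =>
    have : s28n_ev T' (C a) = algebraMap R S (a : R) := by simp [s28n_ev]
    rw [this]
    exact isIntegral_algebraMap
  | add p q hp hq =>
    rw [map_add]
    exact hp.add hq
  | monomial n a h =>
    have : s28n_ev T' (C a * X ^ (n + 1)) = s28n_ev T' (C a * X ^ n) * T' := by
      simp [s28n_ev, pow_succ, mul_assoc]
    rw [this]
    exact h.mul hT'

end Abstract

/-- (L2) transitivity: `T'` integral over `ℤ[T]`, `x` integral over `ℤ[T']` ⇒ `x` integral over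
`ℤ[T]`. -/
theorem s28n_isIntegral_trans {S : Type*} [CommRing S] [Algebra ℤ S] (T T' x : S)
    (hT' : IsIntegral ↥(Algebra.adjoin ℤ ({T} : Set S)) T')
    (hx : IsIntegral ↥(Algebra.adjoin ℤ ({T'} : Set S)) x) :
    IsIntegral ↥(Algebra.adjoin ℤ ({T} : Set S)) x := by
  obtain ⟨p, hp, hpx⟩ := s28n_poly_of_isIntegral T' x hx
  refine s28n_isIntegral_of_monic_root (p.map (s28n_ev T')) (hp.map _) (fun n => ?_) x ?_
  · rw [Polynomial.coeff_map]
    exact s28n_isIntegral_ev T' hT' _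
  · rw [Polynomial.eval_map, hpx]

/-- **Analytic input for integrality**: a monic `Φ ∈ ℂ[X][Y]` with algebraic-integer coefficients
and `Φ(J(q^r); J(q^{r²})) = 0`. -/
def s28n_IntHyp (r : ℕ) [NeZero r] : Prop :=
  ∃ Φ : Polynomial (Polynomial ℂ), Φ.Monic ∧ (∀ n i, IsIntegral ℤ ((Φ.coeff n).coeff i)) ∧
    (Φ.map (aeval (qExpand ℂ r (jqModC ℂ))).toRingHom).eval
      (qExpand ℂ r (qExpand ℂ r (jqModC ℂ))) = 0

section StepA

/-- `qExpand` commutes with evaluation of complex polynomials. -/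
theorem s28n_qExpand_comp_aeval (r : ℕ) [NeZero r] (T : LaurentSeries ℂ) :
    (qExpand ℂ r).comp (aeval T : ℂ[X] →ₐ[ℂ] LaurentSeries ℂ).toRingHom =
      (aeval (qExpand ℂ r T) : ℂ[X] →ₐ[ℂ] LaurentSeries ℂ).toRingHom := by
  refine Polynomial.ringHom_ext (fun a => ?_) ?_
  · simp only [RingHom.coe_comp, Function.comp_apply, AlgHom.toRingHom_eq_coe, RingHom.coe_coe,
      aeval_C]
    rw [s28n_algebraMap_eq_single, qExpand_single, mul_zero]
  · simp

/-- (H') complex polynomials with algebraic-integer coefficients, evaluated at an `R`-integral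
element, are `R`-integral. -/
theorem s28n_isIntegral_aeval {R : Type*} [CommRing R] [Algebra R (LaurentSeries ℂ)]
    (T : LaurentSeries ℂ) (hT : IsIntegral R T) (f : ℂ[X]) (hf : ∀ i, IsIntegral ℤ (f.coeff i)) :
    IsIntegral R (aeval T f) := by
  rw [aeval_eq_sum_range]
  refine IsIntegral.sum _ fun i _ => ?_
  rw [Algebra.smul_def]
  refine IsIntegral.mul ?_ (hT.pow i)
  obtain ⟨P, hP, hPx⟩ := hf i
  refine ⟨P.map (algebraMap ℤ R), hP.map _, ?_⟩
  rw [Polynomial.eval₂_map]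
  have : (algebraMap R (LaurentSeries ℂ)).comp (algebraMap ℤ R) =
      (algebraMap ℂ (LaurentSeries ℂ)).comp (algebraMap ℤ ℂ) := RingHom.ext_int _ _
  rw [this, ← Polynomial.hom_eval₂, hPx, map_zero]

theorem s28n_primeStep (r : ℕ) [NeZero r] (h : s28n_IntHyp r) :
    ∃ p : Polynomial (Polynomial ℤ), p.Monic ∧
      p.eval₂ (s28n_ev (jqModC ℤ)) (qExpand ℤ r (jqModC ℤ)) = 0 := by
  obtain ⟨Φ, hΦm, hΦi, hΦ⟩ := h
  set T : LaurentSeries ℂ := jqModC ℂ with hT
  set Ψ : Polynomial (LaurentSeries ℂ) :=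
    Φ.map (aeval T : ℂ[X] →ₐ[ℂ] LaurentSeries ℂ).toRingHom with hΨ
  -- (i) `V T` is a root of `Ψ`
  have hroot : Ψ.eval (qExpand ℂ r T) = 0 := by
    apply qExpand_injective (R := ℂ) r
    rw [map_zero, hΨ, Polynomial.eval_map, Polynomial.hom_eval₂, s28n_qExpand_comp_aeval,
      ← Polynomial.eval_map]
    exact hΦ
  -- (ii),(iii) hence `V T` is integral over `ℤ[T]`
  have hTint : IsIntegral ↥(Algebra.adjoin ℤ ({T} : Set (LaurentSeries ℂ))) T := by
    have : T = algebraMap ↥(Algebra.adjoin ℤ ({T} : Set (LaurentSeries ℂ))) (LaurentSeries ℂ)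
        ⟨T, Algebra.subset_adjoin (Set.mem_singleton T)⟩ := rfl
    rw [this]
    exact isIntegral_algebraMap
  have hint : IsIntegral ↥(Algebra.adjoin ℤ ({T} : Set (LaurentSeries ℂ))) (qExpand ℂ r T) := by
    refine s28n_isIntegral_of_monic_root Ψ (hΦm.map _) (fun n => ?_) _ hroot
    rw [hΨ, Polynomial.coeff_map]
    exact s28n_isIntegral_aeval T hTint (Φ.coeff n) (hΦi n)
  -- (iv) polynomial form over `ℂ((q))`
  obtain ⟨p, hp, hpx⟩ := s28n_poly_of_isIntegral T (qExpand ℂ r T) hint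
  -- (v) descend to `ℤ((q))`
  refine ⟨p, hp, ?_⟩
  apply s28n_coeffMap_injective (φ := Int.castRingHom ℂ) Int.cast_injective
  rw [map_zero, Polynomial.hom_eval₂, s28n_ev_comp, coeffMap_qExpand, coeffMap_jqModC]
  exact hpx

/-- `j(q^r)` is integral over `ℤ[j]`, over any coefficient ring. -/
theorem s28n_isIntegral_prime (r : ℕ) [NeZero r] (h : s28n_IntHyp r) (B : Type*) [CommRing B] :
    IsIntegral ↥(Algebra.adjoin ℤ ({jqModC B} : Set (LaurentSeries B)))
      (qExpand B r (jqModC B)) := by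
  obtain ⟨p, hp, hpx⟩ := s28n_primeStep r h
  refine s28n_isIntegral_of_poly _ _ p hp ?_
  have := congrArg (coeffMap (Int.castRingHom B)) hpx
  rw [map_zero, Polynomial.hom_eval₂, s28n_ev_comp, coeffMap_qExpand, coeffMap_jqModC] at this
  exact this

end StepA

section StepB

/-- **(N2) `j(q^d)` is integral over `ℤ[j]`** in `ℚ((q))`, for every `d ≥ 1`, given the analytic
input at all primes. -/
theorem s28n_isIntegral_aux (hyp : ∀ r : ℕ, r.Prime → ∀ hr : NeZero r, @s28n_IntHyp r hr) :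
    ∀ d : ℕ, ∀ hd : d ≠ 0,
      IsIntegral ↥(Algebra.adjoin ℤ ({jq} : Set (LaurentSeries ℚ))) (@qExpand ℚ _ d ⟨hd⟩ jq) := by
  intro d
  induction d using Nat.recOnMul with
  | zero => intro hd; exact absurd rfl hd
  | one =>
    intro hd
    have h1 : @qExpand ℚ _ 1 ⟨hd⟩ jq = jq := qExpand_one_apply jq
    rw [h1]
    have : jq = algebraMap ↥(Algebra.adjoin ℤ ({jq} : Set (LaurentSeries ℚ))) (LaurentSeries ℚ)
        ⟨jq, Algebra.subset_adjoin (Set.mem_singleton jq)⟩ := rfl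
    rw [this]
    exact isIntegral_algebraMap
  | prime p hp =>
    intro hd
    have : NeZero p := ⟨hd⟩
    exact s28n_isIntegral_prime p (hyp p hp _) ℚ
  | mul a b iha ihb =>
    intro hd
    have ha : a ≠ 0 := fun h => hd (by rw [h, zero_mul])
    have hb : b ≠ 0 := fun h => hd (by rw [h, mul_zero])
    have : NeZero a := ⟨ha⟩
    have : NeZero b := ⟨hb⟩
    obtain ⟨p, hp, hpx⟩ := s28n_poly_of_isIntegral jq (qExpand ℚ b jq) (ihb hb)
    have h2 := congrArg (qExpand ℚ a) hpx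
    rw [map_zero, Polynomial.hom_eval₂, s28n_ev_comp, qExpand_qExpand] at h2
    have h3 : IsIntegral ↥(Algebra.adjoin ℤ ({qExpand ℚ a jq} : Set (LaurentSeries ℚ)))
        (qExpand ℚ (a * b) jq) := s28n_isIntegral_of_poly _ _ p hp h2
    exact s28n_isIntegral_trans jq (qExpand ℚ a jq) _ (iha ha) h3

theorem s28n_isIntegral (hyp : ∀ r : ℕ, r.Prime → ∀ hr : NeZero r, @s28n_IntHyp r hr)
    (d : ℕ) [NeZero d] :
    IsIntegral ↥(Algebra.adjoin ℤ ({jq} : Set (LaurentSeries ℚ))) (qExpand ℚ d jq) :=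
  s28n_isIntegral_aux hyp d (NeZero.ne d)

end StepB

section FromMEa

/-- The modular equation over `ℂ` gives the integrality input. -/
theorem s28n_IntHyp_of_MEa (r : ℕ) [NeZero r] (h : s28n_MEa r) : s28n_IntHyp r := by
  obtain ⟨ζ, hζ, Φ, hmonic, -, hΦ⟩ := h
  have hr : 0 < r := Nat.pos_of_ne_zero (NeZero.ne r)
  set A := Algebra.adjoin ℤ ({(ζ : ℂ)} : Set ℂ) with hA
  have hmem : (ζ : ℂ) ∈ A := Algebra.subset_adjoin (Set.mem_singleton _)
  let ι : ↥A →+* ℂ := A.val.toRingHom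
  have hζr : (ζ : ℂ) ^ r = 1 := hζ.pow_eq_one
  let zA : (↥A)ˣ :=
    { val := ⟨ζ, hmem⟩
      inv := ⟨(ζ : ℂ) ^ (r - 1), pow_mem hmem _⟩
      val_inv := by
        apply Subtype.ext
        show (ζ : ℂ) * (ζ : ℂ) ^ (r - 1) = 1
        rw [← pow_succ', Nat.sub_add_cancel hr, hζr]
      inv_val := by
        apply Subtype.ext
        show (ζ : ℂ) ^ (r - 1) * (ζ : ℂ) = 1
        rw [← pow_succ, Nat.sub_add_cancel hr, hζr] }
  have hzA : Units.map (ι : ↥A →* ℂ) zA = ζ := Units.ext rfl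
  have hrhs : s28n_rhs r ζ = (s28n_rhs r zA).map (coeffMap ι) := by
    rw [s28n_rhs_map, hzA]
  refine ⟨Φ, hmonic, fun n i => ?_, ?_⟩
  · have h1 : aeval (qExpand ℂ r (jqModC ℂ)) (Φ.coeff n) =
        coeffMap ι ((s28n_rhs r zA).coeff n) := by
      have := congrArg (fun p => Polynomial.coeff p n) hΦ
      simp only [Polynomial.coeff_map] at this
      rw [hrhs, Polynomial.coeff_map] at this
      exact this
    have h2 : ∀ i, (Φ.coeff n).coeff i ∈ ι.range := by
      apply s28n_qexp_principle ι.range (qExpand ℂ r (jqModC ℂ)) r hr ?_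
        (s28n_T_pow_lead ℂ r) (s28n_T_pow_low ℂ r) (Φ.coeff n).natDegree (Φ.coeff n) le_rfl
      · intro m
        rw [h1, coeffMap_coeff]
        exact ⟨_, rfl⟩
      · intro i m
        obtain ⟨c, hc⟩ := s28n_T_pow_int ℂ r i m
        rw [hc]
        exact ⟨(c : ↥A), by simp⟩
    obtain ⟨a, ha⟩ := h2 i
    rw [← ha]
    exact adjoin_le_integralClosure (hζ.isIntegral hr) a.2
  · rw [hΦ, s28n_rhs, Polynomial.eval_mul, Polynomial.eval_sub, Polynomial.eval_X,
      Polynomial.eval_C, sub_self, zero_mul]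

/-- (N2), from the modular equations over `ℂ` at all primes. -/
theorem s28n_isIntegral_of_MEa (hyp : ∀ r : ℕ, r.Prime → ∀ hr : NeZero r, @s28n_MEa r hr)
    (d : ℕ) [NeZero d] :
    IsIntegral ↥(Algebra.adjoin ℤ ({jq} : Set (LaurentSeries ℚ))) (qExpand ℚ d jq) :=
  s28n_isIntegral (fun r hr hne => @s28n_IntHyp_of_MEa r hne (hyp r hr hne)) d

end FromMEa

end Fermat.Agent.Lib.S28
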