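import Fermat.Agent.Lib.S28.VO
import Fermat.Prelude.Def_ModularCurve_X0ModL

set_option autoImplicit false

noncomputable section

namespace Fermat.Agent.Lib.S28

open GaloisRep ModularCurve HahnSeries ModularCurve.IgusaScheme

variable (ℓ : ℕ) [Fact ℓ.Prime]

/-! ### Generators -/

theorem s28v_iota_jqN (d : ℕ) [NeZero d] :
    s28v_iota ℓ (qExpand (ratLocalizedAt ℓ) d (jqModC (ratLocalizedAt ℓ))) = qExpand ℚ d jq := by
  unfold s28v_iota
  rw [coeffMap_qExpand, coeffMap_jqModC, jqModC_rat]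

theorem s28v_rho_jqN (d : ℕ) [NeZero d] :
    s28v_rho ℓ (qExpand (ratLocalizedAt ℓ) d (jqModC (ratLocalizedAt ℓ))) =
      qExpand (ZMod ℓ) d (jqModC (ZMod ℓ)) := by
  unfold s28v_rho
  rw [coeffMap_qExpand, coeffMap_jqModC]

theorem s28v_iota_jq : s28v_iota ℓ (jqModC (ratLocalizedAt ℓ)) = jq := by
  unfold s28v_iota
  rw [coeffMap_jqModC, jqModC_rat]

theorem s28v_rho_jq : s28v_rho ℓ (jqModC (ratLocalizedAt ℓ)) = jqModC (ZMod ℓ) := by
  unfold s28v_rho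
  rw [coeffMap_jqModC]

theorem s28v_jqN_mem_O (d : ℕ) [NeZero d] : qExpand ℚ d jq ∈ s28v_O ℓ := by
  rw [← s28v_iota_jqN ℓ d]; exact s28v_iota_mem_O ℓ _

theorem s28v_jq_mem_O : jq ∈ s28v_O ℓ := by
  rw [← s28v_iota_jq ℓ]; exact s28v_iota_mem_O ℓ _

theorem s28v_red_jqN (d : ℕ) [NeZero d] :
    s28v_red ℓ ⟨qExpand ℚ d jq, s28v_jqN_mem_O ℓ d⟩ = qExpand (ZMod ℓ) d (jqModC (ZMod ℓ)) := by
  rw [← s28v_rho_jqN ℓ d, ← s28v_red_iota ℓ]
  congr 1
  exact Subtype.ext (s28v_iota_jqN ℓ d).symm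

theorem s28v_red_jq : s28v_red ℓ ⟨jq, s28v_jq_mem_O ℓ⟩ = jqModC (ZMod ℓ) := by
  rw [← s28v_rho_jq ℓ, ← s28v_red_iota ℓ]
  congr 1
  exact Subtype.ext (s28v_iota_jq ℓ).symm

/-- Inverses of integral series with nonzero reduction lie in `O`. -/
theorem s28v_inv_iota_mem_O (P : LaurentSeries (ratLocalizedAt ℓ)) (hP : s28v_rho ℓ P ≠ 0) :
    (s28v_iota ℓ P)⁻¹ ∈ s28v_O ℓ := by
  have hP0 : s28v_iota ℓ P ≠ 0 := by
    intro h
    apply hP
    have : P = 0 := s28v_iota_injective ℓ (by rw [h, map_zero])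
    rw [this, map_zero]
  exact ⟨1, P, hP, by rw [mul_inv_cancel₀ hP0, map_one]⟩

theorem s28v_red_inv_iota (P : LaurentSeries (ratLocalizedAt ℓ)) (hP : s28v_rho ℓ P ≠ 0) :
    s28v_red ℓ ⟨(s28v_iota ℓ P)⁻¹, s28v_inv_iota_mem_O ℓ P hP⟩ = (s28v_rho ℓ P)⁻¹ := by
  have hP0 : s28v_iota ℓ P ≠ 0 := by
    intro h
    apply hP
    have : P = 0 := s28v_iota_injective ℓ (by rw [h, map_zero])
    rw [this, map_zero]
  rw [s28v_red_eq ℓ _ 1 P hP (by
    show s28v_iota ℓ P * (s28v_iota ℓ P)⁻¹ = s28v_iota ℓ 1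
    rw [mul_inv_cancel₀ hP0, map_one]), map_one, one_div]

theorem s28v_jq_inv_mem_O : jq⁻¹ ∈ s28v_O ℓ := by
  rw [← s28v_iota_jq ℓ]
  exact s28v_inv_iota_mem_O ℓ _ (by rw [s28v_rho_jq]; exact jqModC_ne_zero_of_nontrivial _)

theorem s28v_red_jq_inv : s28v_red ℓ ⟨jq⁻¹, s28v_jq_inv_mem_O ℓ⟩ = (jqModC (ZMod ℓ))⁻¹ := by
  have h := s28v_red_inv_iota ℓ (jqModC (ratLocalizedAt ℓ))
    (by rw [s28v_rho_jq]; exact jqModC_ne_zero_of_nontrivial _)
  have e : (s28v_rho ℓ (jqModC (ratLocalizedAt ℓ)))⁻¹ = (jqModC (ZMod ℓ))⁻¹ := by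
    rw [s28v_rho_jq]
  rw [← e, ← h]
  congr 1
  apply Subtype.ext
  show jq⁻¹ = (s28v_iota ℓ (jqModC (ratLocalizedAt ℓ)))⁻¹
  rw [s28v_iota_jq]

/-- Constants. -/
theorem s28v_C_mem_O (a : ratLocalizedAt ℓ) : (HahnSeries.C (a : ℚ) : LaurentSeries ℚ) ∈ s28v_O ℓ := by
  have : (HahnSeries.C (a : ℚ) : LaurentSeries ℚ) = s28v_iota ℓ (HahnSeries.C a) := by
    unfold s28v_iota
    rw [HahnSeries.C_apply, HahnSeries.C_apply, coeffMap_single]
    rfl
  rw [this]; exact s28v_iota_mem_O ℓ _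

theorem s28v_red_C (a : ratLocalizedAt ℓ) :
    s28v_red ℓ ⟨HahnSeries.C (a : ℚ), s28v_C_mem_O ℓ a⟩ = HahnSeries.C (s28v_resHom ℓ a) := by
  have h1 : (HahnSeries.C (a : ℚ) : LaurentSeries ℚ) = s28v_iota ℓ (HahnSeries.C a) := by
    unfold s28v_iota
    rw [HahnSeries.C_apply, HahnSeries.C_apply, coeffMap_single]
    rfl
  have h2 : s28v_rho ℓ (HahnSeries.C a) = HahnSeries.C (s28v_resHom ℓ a) := by
    unfold s28v_rho
    rw [HahnSeries.C_apply, HahnSeries.C_apply, coeffMap_single]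
  rw [← h2, ← s28v_red_iota ℓ]
  congr 1
  exact Subtype.ext h1

/-! ### The function field lies in the fraction field -/

variable (N : ℕ) [NeZero N]

theorem s28v_full_le_Frac {x : LaurentSeries ℚ} (hx : x ∈ modularFunctionFieldFull N) :
    x ∈ s28v_Frac ℓ := by
  let FI : IntermediateField ℚ (LaurentSeries ℚ) :=
    (s28v_Frac ℓ).toIntermediateField (fun c => by
      rw [eq_ratCast (algebraMap ℚ (LaurentSeries ℚ)) c]
      exact SubfieldClass.ratCast_mem _ c)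
  have hle : modularFunctionFieldFull N ≤ FI := by
    rw [modularFunctionFieldFull, IntermediateField.adjoin_le_iff]
    rintro y ⟨d, hd, -, rfl⟩
    show qExpand ℚ d jq ∈ s28v_Frac ℓ
    exact s28v_O_le_Frac ℓ (s28v_jqN_mem_O ℓ d)
  exact hle hx

/-- The Gauss valuation subring of the modular function field. -/
def s28v_valSubring : ValuationSubring (modularFunctionFieldFull N) where
  toSubring := (s28v_O ℓ).comap (algebraMap (modularFunctionFieldFull N) (LaurentSeries ℚ))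
  mem_or_inv_mem' := by
    intro x
    by_cases hx : x = 0
    · left
      subst hx
      show ((0 : modularFunctionFieldFull N) : LaurentSeries ℚ) ∈ s28v_O ℓ
      simp
    · have hx0 : (x : LaurentSeries ℚ) ≠ 0 := fun h => hx (Subtype.ext h)
      rcases s28v_mem_or_inv_mem ℓ (s28v_full_le_Frac ℓ N x.2) hx0 with h | ⟨h, -⟩
      · left; exact h
      · right
        show ((x⁻¹ : modularFunctionFieldFull N) : LaurentSeries ℚ) ∈ s28v_O ℓ
        rw [IntermediateField.coe_inv]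
        exact h

theorem s28v_mem_valSubring_iff (x : modularFunctionFieldFull N) :
    x ∈ s28v_valSubring ℓ N ↔ (x : LaurentSeries ℚ) ∈ s28v_O ℓ := Iff.rfl

end Fermat.Agent.Lib.S28
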