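import Fermat.Agent.Lib.S28.VChart

set_option autoImplicit false

noncomputable section

namespace Fermat.Agent.Lib.S28

open GaloisRep ModularCurve HahnSeries ModularCurve.IgusaScheme

variable (ℓ : ℕ) [Fact ℓ.Prime] (N : ℕ) [NeZero N]

/-- The Gauss valuation subring of the modular function field pulled back along an embedding
`w : F → ℚ((q))` whose image lies in the fraction field of the `ℓ`-integral series. -/
def s28v_valSubringOf (w : ↥(modularFunctionFieldFull N) →+* LaurentSeries ℚ)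
    (hw : ∀ x, w x ∈ s28v_Frac ℓ) : ValuationSubring (modularFunctionFieldFull N) where
  toSubring := (s28v_O ℓ).comap w
  mem_or_inv_mem' := by
    intro x
    by_cases hx : x = 0
    · left
      subst hx
      show w 0 ∈ s28v_O ℓ
      rw [map_zero]; exact (s28v_O ℓ).zero_mem
    · have hx0 : w x ≠ 0 := fun h => hx ((map_eq_zero w).mp h)
      rcases s28v_mem_or_inv_mem ℓ (hw x) hx0 with h | ⟨h, -⟩
      · left; exact h
      · right
        show w x⁻¹ ∈ s28v_O ℓ
        rw [map_inv₀]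
        exact h

theorem s28v_mem_valSubringOf_iff (w : ↥(modularFunctionFieldFull N) →+* LaurentSeries ℚ)
    (hw : ∀ x, w x ∈ s28v_Frac ℓ) (x : modularFunctionFieldFull N) :
    x ∈ s28v_valSubringOf ℓ N w hw ↔ w x ∈ s28v_O ℓ := Iff.rfl

/-- The standard embedding. -/
def s28v_incl : ↥(modularFunctionFieldFull N) →+* LaurentSeries ℚ :=
  algebraMap (modularFunctionFieldFull N) (LaurentSeries ℚ)

theorem s28v_incl_apply (x : modularFunctionFieldFull N) : s28v_incl N x = (x : LaurentSeries ℚ) :=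
  rfl

theorem s28v_incl_mem_Frac (x : modularFunctionFieldFull N) : s28v_incl N x ∈ s28v_Frac ℓ :=
  s28v_full_le_Frac ℓ N x.2

/-- Any ring embedding of `F` into `ℚ((q))` is the identity on `ℤ_(ℓ)`-constants. -/
theorem s28v_emb_algebraMap (w : ↥(modularFunctionFieldFull N) →+* LaurentSeries ℚ)
    (a : ratLocalizedAt ℓ) :
    w (algebraMap (ratLocalizedAt ℓ) (modularFunctionFieldFull N) a) = HahnSeries.C (a : ℚ) := by
  have h1 : algebraMap (ratLocalizedAt ℓ) (modularFunctionFieldFull N) a =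
      algebraMap ℚ (modularFunctionFieldFull N) (a : ℚ) := rfl
  rw [h1, RingHom.map_rat_algebraMap, ModularCurve.algebraMap_apply_eq_single, HahnSeries.C_apply]

theorem s28v_algebraMap_mem_valSubringOf (w : ↥(modularFunctionFieldFull N) →+* LaurentSeries ℚ)
    (hw : ∀ x, w x ∈ s28v_Frac ℓ) (a : ratLocalizedAt ℓ) :
    algebraMap (ratLocalizedAt ℓ) (modularFunctionFieldFull N) a ∈ s28v_valSubringOf ℓ N w hw := by
  rw [s28v_mem_valSubringOf_iff, s28v_emb_algebraMap]
  exact s28v_C_mem_O ℓ a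

/-- Integral closure: an element of `F` integral over `ℤ_(ℓ)[S]` with `w S ⊆ O` has `w x ∈ O`. -/
theorem s28v_mem_of_isIntegral (w : ↥(modularFunctionFieldFull N) →+* LaurentSeries ℚ)
    (hw : ∀ x, w x ∈ s28v_Frac ℓ) (S : Set (modularFunctionFieldFull N))
    (hS : ∀ s ∈ S, w s ∈ s28v_O ℓ) (x : modularFunctionFieldFull N)
    (hx : IsIntegral (Algebra.adjoin (ratLocalizedAt ℓ) S) x) : w x ∈ s28v_O ℓ := by
  set V := s28v_valSubringOf ℓ N w hw with hV
  have hle : ∀ y ∈ Algebra.adjoin (ratLocalizedAt ℓ) S, y ∈ V := by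
    intro y hy
    induction hy using Algebra.adjoin_induction with
    | mem y hy => exact hS y hy
    | algebraMap a => exact s28v_algebraMap_mem_valSubringOf ℓ N w hw a
    | add y z _ _ hy hz => exact V.add_mem _ _ hy hz
    | mul y z _ _ hy hz => exact V.mul_mem _ _ hy hz
  let φ : Algebra.adjoin (ratLocalizedAt ℓ) S →+* V :=
    { toFun := fun y => ⟨y.1, hle y.1 y.2⟩
      map_one' := rfl
      map_mul' := fun _ _ => rfl
      map_zero' := rfl
      map_add' := fun _ _ => rfl }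
  have hx' : IsIntegral V x := by
    have := hx.map_of_comp_eq φ (RingHom.id (modularFunctionFieldFull N)) (by ext; rfl)
    simpa using this
  obtain ⟨y, hy⟩ := IsIntegrallyClosed.isIntegral_iff.mp hx'
  rw [← hy]
  exact y.2

/-- The chart algebras lie in the pulled-back Gauss ring. -/
theorem s28v_chartAlg_le (w : ↥(modularFunctionFieldFull N) →+* LaurentSeries ℚ)
    (hw : ∀ x, w x ∈ s28v_Frac ℓ) (S : Set (modularFunctionFieldFull N))
    (hS : ∀ s ∈ S, w s ∈ s28v_O ℓ) (x : modularFunctionFieldFull N)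
    (hx : x ∈ chartAlg N ℓ S) : w x ∈ s28v_O ℓ :=
  s28v_mem_of_isIntegral ℓ N w hw S hS x ((mem_chartAlg_iff N ℓ).mp hx)

/-- Reduction along an embedding, on the pulled-back Gauss ring. -/
def s28v_redOf (w : ↥(modularFunctionFieldFull N) →+* LaurentSeries ℚ)
    (hw : ∀ x, w x ∈ s28v_Frac ℓ) :
    ↥(s28v_valSubringOf ℓ N w hw) →+* LaurentSeries (ZMod ℓ) :=
  (s28v_red ℓ).comp
    (RingHom.codRestrict (w.comp (s28v_valSubringOf ℓ N w hw).subtype) (s28v_O ℓ) (fun x => x.2))

theorem s28v_redOf_apply (w : ↥(modularFunctionFieldFull N) →+* LaurentSeries ℚ)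
    (hw : ∀ x, w x ∈ s28v_Frac ℓ) (x : s28v_valSubringOf ℓ N w hw) :
    s28v_redOf ℓ N w hw x = s28v_red ℓ ⟨w x, x.2⟩ := rfl

theorem s28v_redOf_algebraMap (w : ↥(modularFunctionFieldFull N) →+* LaurentSeries ℚ)
    (hw : ∀ x, w x ∈ s28v_Frac ℓ) (a : ratLocalizedAt ℓ) :
    s28v_redOf ℓ N w hw ⟨algebraMap (ratLocalizedAt ℓ) (modularFunctionFieldFull N) a,
      s28v_algebraMap_mem_valSubringOf ℓ N w hw a⟩ = HahnSeries.C (s28v_resHom ℓ a) := by
  rw [s28v_redOf_apply, ← s28v_red_C]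
  congr 1
  exact Subtype.ext (s28v_emb_algebraMap ℓ N w a)

/-- Kernel of the reduction along an embedding: `ℓ` times the pulled-back Gauss ring. -/
theorem s28v_redOf_eq_zero_iff (w : ↥(modularFunctionFieldFull N) →+* LaurentSeries ℚ)
    (hw : ∀ x, w x ∈ s28v_Frac ℓ) (x : s28v_valSubringOf ℓ N w hw) :
    s28v_redOf ℓ N w hw x = 0 ↔
      ∃ y : s28v_valSubringOf ℓ N w hw,
        (x : modularFunctionFieldFull N) = (ℓ : modularFunctionFieldFull N) * y := by
  rw [s28v_redOf_apply, s28v_red_eq_zero_iff]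
  constructor
  · rintro ⟨g, hg⟩
    have hℓ0 : ((ℓ : ℕ) : modularFunctionFieldFull N) ≠ 0 := by
      exact_mod_cast (Fact.out : ℓ.Prime).ne_zero
    have hgw : w x = ((ℓ : ℕ) : LaurentSeries ℚ) * (g : LaurentSeries ℚ) := by
      have := congrArg Subtype.val hg
      simpa using this
    have hy : w ((ℓ : modularFunctionFieldFull N)⁻¹ * x) = (g : LaurentSeries ℚ) := by
      rw [map_mul, map_inv₀, map_natCast, hgw, ← mul_assoc, inv_mul_cancel₀, one_mul]
      rw [← map_natCast w]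
      exact fun h => hℓ0 ((map_eq_zero w).mp h)
    refine ⟨⟨(ℓ : modularFunctionFieldFull N)⁻¹ * x, ?_⟩, ?_⟩
    · rw [s28v_mem_valSubringOf_iff, hy]; exact g.2
    · show (x : modularFunctionFieldFull N) = _ * ((ℓ : modularFunctionFieldFull N)⁻¹ * x)
      rw [← mul_assoc, mul_inv_cancel₀ hℓ0, one_mul]
  · rintro ⟨y, hy⟩
    refine ⟨⟨w y, y.2⟩, Subtype.ext ?_⟩
    show w x = (((ℓ : s28v_O ℓ)) : LaurentSeries ℚ) * w y
    rw [hy, map_mul, map_natCast]
    simp

end Fermat.Agent.Lib.S28
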