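import Fermat.Agent.Lib.S28.VRes
import Fermat.Prelude.Def_ModularCurve_LaurentCoeff
import Fermat.Prelude.Thm_ModularCurve_coeffMap_qExpand

set_option autoImplicit false

noncomputable section

namespace Fermat.Agent.Lib.S28

open GaloisRep ModularCurve HahnSeries

variable (ℓ : ℕ) [Fact ℓ.Prime]

/-- Coefficientwise inclusion `ℤ_(ℓ)((q)) → ℚ((q))`. -/
def s28v_iota : LaurentSeries (ratLocalizedAt ℓ) →+* LaurentSeries ℚ :=
  coeffMap (ratLocalizedAt ℓ).subtype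

/-- Coefficientwise reduction `ℤ_(ℓ)((q)) → 𝔽_ℓ((q))`. -/
def s28v_rho : LaurentSeries (ratLocalizedAt ℓ) →+* LaurentSeries (ZMod ℓ) :=
  coeffMap (s28v_resHom ℓ)

@[simp] theorem s28v_iota_coeff (P : LaurentSeries (ratLocalizedAt ℓ)) (n : ℤ) :
    (s28v_iota ℓ P).coeff n = ((P.coeff n : ratLocalizedAt ℓ) : ℚ) := rfl

@[simp] theorem s28v_rho_coeff (P : LaurentSeries (ratLocalizedAt ℓ)) (n : ℤ) :
    (s28v_rho ℓ P).coeff n = s28v_resHom ℓ (P.coeff n) := rfl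

theorem s28v_iota_injective : Function.Injective (s28v_iota ℓ) := by
  intro P Q h
  ext n
  have := congrArg (fun f => f.coeff n) h
  simpa using this

theorem s28v_exists_iota_eq (f : LaurentSeries ℚ) (h : ∀ n, f.coeff n ∈ ratLocalizedAt ℓ) :
    ∃ P, s28v_iota ℓ P = f := by
  refine ⟨⟨fun n => ⟨f.coeff n, h n⟩, ?_⟩, ?_⟩
  · have : Function.support (fun n => (⟨f.coeff n, h n⟩ : ratLocalizedAt ℓ)) = f.support := by
      ext n
      simp [Subtype.ext_iff]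
    rw [this]
    exact f.isPWO_support
  · ext n
    rfl

theorem s28v_natCast_laurent_zmod : ((ℓ : ℕ) : LaurentSeries (ZMod ℓ)) = 0 := by
  rw [← map_natCast (HahnSeries.C : ZMod ℓ →+* LaurentSeries (ZMod ℓ)) ℓ, ZMod.natCast_self, map_zero]

theorem s28v_rho_eq_zero_iff (P : LaurentSeries (ratLocalizedAt ℓ)) :
    s28v_rho ℓ P = 0 ↔ ∃ P', P = (ℓ : LaurentSeries (ratLocalizedAt ℓ)) * P' := by
  constructor
  · intro h
    have hℓ0 : (ℓ : ℚ) ≠ 0 := by exact_mod_cast (Fact.out : ℓ.Prime).ne_zero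
    have hc : ∀ n, ∃ y : ratLocalizedAt ℓ, P.coeff n = (ℓ : ratLocalizedAt ℓ) * y := by
      intro n
      have := congrArg (fun f => f.coeff n) h
      simp only [s28v_rho_coeff, HahnSeries.coeff_zero] at this
      exact (s28v_resHom_eq_zero_iff ℓ _).mp this
    have hmem : ∀ n, ((HahnSeries.C ((ℓ : ℚ)⁻¹) : LaurentSeries ℚ) * s28v_iota ℓ P).coeff n ∈
        ratLocalizedAt ℓ := by
      intro n
      obtain ⟨y, hy⟩ := hc n
      rw [HahnSeries.C_mul_eq_smul, HahnSeries.coeff_smul, s28v_iota_coeff, hy]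
      have : (ℓ : ℚ)⁻¹ • (((ℓ : ratLocalizedAt ℓ) * y : ratLocalizedAt ℓ) : ℚ) = (y : ℚ) := by
        rw [smul_eq_mul]
        push_cast
        field_simp
      rw [this]
      exact y.2
    obtain ⟨P', hP'⟩ := s28v_exists_iota_eq ℓ _ hmem
    refine ⟨P', s28v_iota_injective ℓ ?_⟩
    rw [map_mul, hP', map_natCast, ← mul_assoc]
    have : ((ℓ : ℕ) : LaurentSeries ℚ) * HahnSeries.C ((ℓ : ℚ)⁻¹) = 1 := by
      rw [← map_natCast (HahnSeries.C : ℚ →+* LaurentSeries ℚ) ℓ, ← map_mul,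
        mul_inv_cancel₀ hℓ0, map_one]
    rw [this, one_mul]
  · rintro ⟨P', rfl⟩
    rw [map_mul, map_natCast, s28v_natCast_laurent_zmod, zero_mul]

theorem s28v_padicValRat_nonneg {x : ℚ} (hx : x ∈ ratLocalizedAt ℓ) : 0 ≤ padicValRat ℓ x := by
  have hc : x.den.Coprime ℓ := hx
  have hnd : ¬ ℓ ∣ x.den := by
    intro h
    have h1 : ℓ ∣ Nat.gcd x.den ℓ := Nat.dvd_gcd h dvd_rfl
    rw [hc] at h1
    exact (Fact.out : ℓ.Prime).one_lt.ne' (Nat.dvd_one.mp h1)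
  unfold padicValRat
  rw [padicValNat.eq_zero_of_not_dvd hnd]
  simp

/-- Content extraction: a nonzero `ℓ`-integral series is `ℓ^a` times a series with nonzero
reduction. -/
theorem s28v_exists_content (P : LaurentSeries (ratLocalizedAt ℓ)) (hP : P ≠ 0) :
    ∃ (a : ℕ) (P' : LaurentSeries (ratLocalizedAt ℓ)),
      P = (ℓ : LaurentSeries (ratLocalizedAt ℓ)) ^ a * P' ∧ s28v_rho ℓ P' ≠ 0 := by
  obtain ⟨n₀, hn₀⟩ : ∃ n₀, P.coeff n₀ ≠ 0 := by
    by_contra hcon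
    push Not at hcon
    exact hP (HahnSeries.ext (funext hcon))
  have key : ∀ k : ℕ, ∀ P : LaurentSeries (ratLocalizedAt ℓ), P.coeff n₀ ≠ 0 →
      padicValRat ℓ ((P.coeff n₀ : ratLocalizedAt ℓ) : ℚ) = k →
      ∃ (a : ℕ) (P' : LaurentSeries (ratLocalizedAt ℓ)),
        P = (ℓ : LaurentSeries (ratLocalizedAt ℓ)) ^ a * P' ∧ s28v_rho ℓ P' ≠ 0 := by
    intro k
    induction k with
    | zero =>
      intro P hP0 hk
      by_cases hρ : s28v_rho ℓ P = 0
      · exfalso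
        obtain ⟨P₁, rfl⟩ := (s28v_rho_eq_zero_iff ℓ P).mp hρ
        have hcoef : (((ℓ : LaurentSeries (ratLocalizedAt ℓ)) * P₁).coeff n₀) =
            (ℓ : ratLocalizedAt ℓ) * P₁.coeff n₀ := by
          rw [← map_natCast (HahnSeries.C : ratLocalizedAt ℓ →+* LaurentSeries (ratLocalizedAt ℓ)) ℓ,
            HahnSeries.C_mul_eq_smul, HahnSeries.coeff_smul, smul_eq_mul]
        rw [hcoef] at hP0 hk
        have h1 : P₁.coeff n₀ ≠ 0 := fun h => hP0 (by rw [h, mul_zero])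
        have h1q : ((P₁.coeff n₀ : ratLocalizedAt ℓ) : ℚ) ≠ 0 := fun h => h1 (Subtype.ext h)
        have hℓq : (ℓ : ℚ) ≠ 0 := by exact_mod_cast (Fact.out : ℓ.Prime).ne_zero
        have : padicValRat ℓ ((((ℓ : ratLocalizedAt ℓ) * P₁.coeff n₀ : ratLocalizedAt ℓ)) : ℚ) =
            1 + padicValRat ℓ ((P₁.coeff n₀ : ratLocalizedAt ℓ) : ℚ) := by
          push_cast
          rw [padicValRat.mul hℓq h1q, padicValRat.self (Fact.out : ℓ.Prime).one_lt]
        rw [this] at hk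
        have := s28v_padicValRat_nonneg ℓ (P₁.coeff n₀).2
        simp at hk
        omega
      · exact ⟨0, P, by simp, hρ⟩
    | succ k ih =>
      intro P hP0 hk
      by_cases hρ : s28v_rho ℓ P = 0
      · obtain ⟨P₁, rfl⟩ := (s28v_rho_eq_zero_iff ℓ P).mp hρ
        have hcoef : (((ℓ : LaurentSeries (ratLocalizedAt ℓ)) * P₁).coeff n₀) =
            (ℓ : ratLocalizedAt ℓ) * P₁.coeff n₀ := by
          rw [← map_natCast (HahnSeries.C : ratLocalizedAt ℓ →+* LaurentSeries (ratLocalizedAt ℓ)) ℓ,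
            HahnSeries.C_mul_eq_smul, HahnSeries.coeff_smul, smul_eq_mul]
        rw [hcoef] at hP0 hk
        have h1 : P₁.coeff n₀ ≠ 0 := fun h => hP0 (by rw [h, mul_zero])
        have h1q : ((P₁.coeff n₀ : ratLocalizedAt ℓ) : ℚ) ≠ 0 := fun h => h1 (Subtype.ext h)
        have hℓq : (ℓ : ℚ) ≠ 0 := by exact_mod_cast (Fact.out : ℓ.Prime).ne_zero
        have : padicValRat ℓ ((((ℓ : ratLocalizedAt ℓ) * P₁.coeff n₀ : ratLocalizedAt ℓ)) : ℚ) =
            1 + padicValRat ℓ ((P₁.coeff n₀ : ratLocalizedAt ℓ) : ℚ) := by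
          push_cast
          rw [padicValRat.mul hℓq h1q, padicValRat.self (Fact.out : ℓ.Prime).one_lt]
        rw [this] at hk
        have hk' : padicValRat ℓ ((P₁.coeff n₀ : ratLocalizedAt ℓ) : ℚ) = k := by
          push_cast at hk; omega
        obtain ⟨a, P', hP', hρ'⟩ := ih P₁ h1 hk'
        exact ⟨a + 1, P', by rw [hP', pow_succ]; ring, hρ'⟩
      · exact ⟨0, P, by simp, hρ⟩
  have hnn := s28v_padicValRat_nonneg ℓ (P.coeff n₀).2
  obtain ⟨k, hk⟩ := Int.eq_ofNat_of_zero_le hnn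
  exact key k P hn₀ hk

end Fermat.Agent.Lib.S28
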