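import Fermat.Agent.Lib.S28.VGauss

set_option autoImplicit false

noncomputable section

namespace Fermat.Agent.Lib.S28

open GaloisRep ModularCurve HahnSeries

variable (ℓ : ℕ) [Fact ℓ.Prime]

/-- The Gauss valuation ring inside `ℚ((q))`: quotients `P/Q` of `ℓ`-integral series with
`Q` nonzero modulo `ℓ`. -/
def s28v_O : Subring (LaurentSeries ℚ) where
  carrier := {f | ∃ P Q : LaurentSeries (ratLocalizedAt ℓ),
    s28v_rho ℓ Q ≠ 0 ∧ s28v_iota ℓ Q * f = s28v_iota ℓ P}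
  mul_mem' := by
    rintro f g ⟨P, Q, hQ, h⟩ ⟨P', Q', hQ', h'⟩
    refine ⟨P * P', Q * Q', ?_, ?_⟩
    · rw [map_mul]; exact mul_ne_zero hQ hQ'
    · rw [map_mul, map_mul, ← h, ← h']; ring
  one_mem' := ⟨1, 1, by rw [map_one]; exact one_ne_zero, by simp⟩
  add_mem' := by
    rintro f g ⟨P, Q, hQ, h⟩ ⟨P', Q', hQ', h'⟩
    refine ⟨P * Q' + P' * Q, Q * Q', ?_, ?_⟩
    · rw [map_mul]; exact mul_ne_zero hQ hQ'
    · rw [map_mul, map_add, map_mul, map_mul, ← h, ← h']; ring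
  zero_mem' := ⟨0, 1, by rw [map_one]; exact one_ne_zero, by simp⟩
  neg_mem' := by
    rintro f ⟨P, Q, hQ, h⟩
    exact ⟨-P, Q, hQ, by rw [map_neg, ← h]; ring⟩

theorem s28v_mem_O_iff {f : LaurentSeries ℚ} : f ∈ s28v_O ℓ ↔
    ∃ P Q : LaurentSeries (ratLocalizedAt ℓ),
      s28v_rho ℓ Q ≠ 0 ∧ s28v_iota ℓ Q * f = s28v_iota ℓ P := Iff.rfl

theorem s28v_iota_mem_O (P : LaurentSeries (ratLocalizedAt ℓ)) : s28v_iota ℓ P ∈ s28v_O ℓ :=
  ⟨P, 1, by rw [map_one]; exact one_ne_zero, by simp⟩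

/-- The reduction of an element of the Gauss ring (as a function). -/
def s28v_redFun (f : s28v_O ℓ) : LaurentSeries (ZMod ℓ) :=
  s28v_rho ℓ f.2.choose / s28v_rho ℓ f.2.choose_spec.choose

theorem s28v_redFun_eq (f : s28v_O ℓ) (P Q : LaurentSeries (ratLocalizedAt ℓ))
    (hQ : s28v_rho ℓ Q ≠ 0) (h : s28v_iota ℓ Q * (f : LaurentSeries ℚ) = s28v_iota ℓ P) :
    s28v_redFun ℓ f = s28v_rho ℓ P / s28v_rho ℓ Q := by
  unfold s28v_redFun
  set P₀ := f.2.choose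
  set Q₀ := f.2.choose_spec.choose
  have hQ₀ : s28v_rho ℓ Q₀ ≠ 0 := f.2.choose_spec.choose_spec.1
  have h₀ : s28v_iota ℓ Q₀ * (f : LaurentSeries ℚ) = s28v_iota ℓ P₀ :=
    f.2.choose_spec.choose_spec.2
  have hcross : Q * P₀ = Q₀ * P := by
    apply s28v_iota_injective ℓ
    rw [map_mul, map_mul, ← h₀, ← h]
    ring
  have := congrArg (s28v_rho ℓ) hcross
  rw [map_mul, map_mul] at this
  rw [div_eq_div_iff hQ₀ hQ]
  rw [mul_comm (s28v_rho ℓ P₀), this]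
  ring

/-- The reduction homomorphism `O → 𝔽_ℓ((q))`. -/
def s28v_red : s28v_O ℓ →+* LaurentSeries (ZMod ℓ) where
  toFun := s28v_redFun ℓ
  map_one' := by
    rw [s28v_redFun_eq ℓ 1 1 1 (by rw [map_one]; exact one_ne_zero) (by simp)]
    simp
  map_zero' := by
    rw [s28v_redFun_eq ℓ 0 0 1 (by rw [map_one]; exact one_ne_zero) (by simp)]
    simp
  map_mul' := by
    intro f g
    obtain ⟨P, Q, hQ, h⟩ := f.2
    obtain ⟨P', Q', hQ', h'⟩ := g.2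
    rw [s28v_redFun_eq ℓ f P Q hQ h, s28v_redFun_eq ℓ g P' Q' hQ' h',
      s28v_redFun_eq ℓ (f * g) (P * P') (Q * Q')
        (by rw [map_mul]; exact mul_ne_zero hQ hQ')
        (by
          rw [Subring.coe_mul, map_mul, map_mul, ← h, ← h']; ring)]
    rw [map_mul, map_mul, mul_div_mul_comm]
  map_add' := by
    intro f g
    obtain ⟨P, Q, hQ, h⟩ := f.2
    obtain ⟨P', Q', hQ', h'⟩ := g.2
    rw [s28v_redFun_eq ℓ f P Q hQ h, s28v_redFun_eq ℓ g P' Q' hQ' h',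
      s28v_redFun_eq ℓ (f + g) (P * Q' + P' * Q) (Q * Q')
        (by rw [map_mul]; exact mul_ne_zero hQ hQ')
        (by
          rw [Subring.coe_add, map_mul, map_add, map_mul, map_mul, ← h, ← h']; ring)]
    rw [map_add, map_mul, map_mul, map_mul, div_add_div _ _ hQ hQ', mul_comm (s28v_rho ℓ P')]

theorem s28v_red_eq (f : s28v_O ℓ) (P Q : LaurentSeries (ratLocalizedAt ℓ))
    (hQ : s28v_rho ℓ Q ≠ 0) (h : s28v_iota ℓ Q * (f : LaurentSeries ℚ) = s28v_iota ℓ P) :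
    s28v_red ℓ f = s28v_rho ℓ P / s28v_rho ℓ Q :=
  s28v_redFun_eq ℓ f P Q hQ h

theorem s28v_red_iota (P : LaurentSeries (ratLocalizedAt ℓ)) :
    s28v_red ℓ ⟨s28v_iota ℓ P, s28v_iota_mem_O ℓ P⟩ = s28v_rho ℓ P := by
  rw [s28v_red_eq ℓ _ P 1 (by rw [map_one]; exact one_ne_zero) (by simp)]
  simp

/-- Kernel of the reduction: exactly `ℓ·O`. -/
theorem s28v_red_eq_zero_iff (f : s28v_O ℓ) :
    s28v_red ℓ f = 0 ↔ ∃ g : s28v_O ℓ, f = (ℓ : s28v_O ℓ) * g := by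
  constructor
  · intro h0
    obtain ⟨P, Q, hQ, h⟩ := f.2
    rw [s28v_red_eq ℓ f P Q hQ h, div_eq_zero_iff] at h0
    rcases h0 with h0 | h0
    · obtain ⟨P₁, rfl⟩ := (s28v_rho_eq_zero_iff ℓ P).mp h0
      have hℓ0 : (ℓ : ℚ) ≠ 0 := by exact_mod_cast (Fact.out : ℓ.Prime).ne_zero
      have hinv : ((ℓ : ℕ) : LaurentSeries ℚ) * HahnSeries.C ((ℓ : ℚ)⁻¹) = 1 := by
        rw [← map_natCast (HahnSeries.C : ℚ →+* LaurentSeries ℚ) ℓ, ← map_mul,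
          mul_inv_cancel₀ hℓ0, map_one]
      have hg : HahnSeries.C ((ℓ : ℚ)⁻¹) * (f : LaurentSeries ℚ) ∈ s28v_O ℓ := by
        refine ⟨P₁, Q, hQ, ?_⟩
        rw [← mul_assoc, mul_comm (s28v_iota ℓ Q), mul_assoc, h, map_mul, map_natCast,
          ← mul_assoc, mul_comm (HahnSeries.C ((ℓ : ℚ)⁻¹)), hinv, one_mul]
      refine ⟨⟨_, hg⟩, Subtype.ext ?_⟩
      show (f : LaurentSeries ℚ) = ((ℓ : s28v_O ℓ) : LaurentSeries ℚ) *
        (HahnSeries.C ((ℓ : ℚ)⁻¹) * (f : LaurentSeries ℚ))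
      rw [show (((ℓ : s28v_O ℓ)) : LaurentSeries ℚ) = ((ℓ : ℕ) : LaurentSeries ℚ) from by simp,
        ← mul_assoc, hinv, one_mul]
    · exact absurd h0 hQ
  · rintro ⟨g, rfl⟩
    rw [map_mul, map_natCast, s28v_natCast_laurent_zmod, zero_mul]

/-- The field of fractions of the `ℓ`-integral series inside `ℚ((q))`. -/
def s28v_Frac : Subfield (LaurentSeries ℚ) where
  carrier := {f | ∃ P Q : LaurentSeries (ratLocalizedAt ℓ),
    Q ≠ 0 ∧ s28v_iota ℓ Q * f = s28v_iota ℓ P}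
  mul_mem' := by
    rintro f g ⟨P, Q, hQ, h⟩ ⟨P', Q', hQ', h'⟩
    refine ⟨P * P', Q * Q', mul_ne_zero hQ hQ', ?_⟩
    rw [map_mul, map_mul, ← h, ← h']; ring
  one_mem' := ⟨1, 1, one_ne_zero, by simp⟩
  add_mem' := by
    rintro f g ⟨P, Q, hQ, h⟩ ⟨P', Q', hQ', h'⟩
    refine ⟨P * Q' + P' * Q, Q * Q', mul_ne_zero hQ hQ', ?_⟩
    rw [map_mul, map_add, map_mul, map_mul, ← h, ← h']; ring
  zero_mem' := ⟨0, 1, one_ne_zero, by simp⟩
  neg_mem' := by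
    rintro f ⟨P, Q, hQ, h⟩
    exact ⟨-P, Q, hQ, by rw [map_neg, ← h]; ring⟩
  inv_mem' := by
    rintro f ⟨P, Q, hQ, h⟩
    by_cases hf : f = 0
    · subst hf
      exact ⟨0, 1, one_ne_zero, by simp⟩
    · have hP : P ≠ 0 := by
        rintro rfl
        rw [map_zero] at h
        rcases mul_eq_zero.mp h with h1 | h1
        · exact hQ (s28v_iota_injective ℓ (by rw [h1, map_zero]))
        · exact hf h1
      refine ⟨Q, P, hP, ?_⟩
      rw [← h, mul_assoc, mul_inv_cancel₀ hf, mul_one]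

theorem s28v_iota_mem_Frac (P : LaurentSeries (ratLocalizedAt ℓ)) : s28v_iota ℓ P ∈ s28v_Frac ℓ :=
  ⟨P, 1, one_ne_zero, by simp⟩

theorem s28v_O_le_Frac : (s28v_O ℓ : Set (LaurentSeries ℚ)) ⊆ s28v_Frac ℓ := by
  rintro f ⟨P, Q, hQ, h⟩
  exact ⟨P, Q, fun h0 => hQ (by rw [h0, map_zero]), h⟩

/-- Valuation-ring dichotomy on the fraction field: a nonzero `f` lies in `O`, or `f⁻¹` lies in
`O` with zero reduction. -/
theorem s28v_mem_or_inv_mem {f : LaurentSeries ℚ} (hf : f ∈ s28v_Frac ℓ) (hf0 : f ≠ 0) :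
    f ∈ s28v_O ℓ ∨ ∃ h : f⁻¹ ∈ s28v_O ℓ, s28v_red ℓ ⟨f⁻¹, h⟩ = 0 := by
  obtain ⟨P, Q, hQ, h⟩ := hf
  have hP : P ≠ 0 := by
    rintro rfl
    rw [map_zero] at h
    rcases mul_eq_zero.mp h with h1 | h1
    · exact hQ (s28v_iota_injective ℓ (by rw [h1, map_zero]))
    · exact hf0 h1
  obtain ⟨a, P', rfl, hP'⟩ := s28v_exists_content ℓ P hP
  obtain ⟨b, Q', rfl, hQ'⟩ := s28v_exists_content ℓ Q hQ
  have hℓ0 : ((ℓ : ℕ) : LaurentSeries ℚ) ≠ 0 := by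
    rw [← map_natCast (HahnSeries.C : ℚ →+* LaurentSeries ℚ) ℓ]
    intro h0
    have := (map_eq_zero_iff (HahnSeries.C : ℚ →+* LaurentSeries ℚ) HahnSeries.C_injective).mp h0
    exact (Fact.out : ℓ.Prime).ne_zero (by exact_mod_cast this)
  simp only [map_mul, map_pow, map_natCast] at h
  rcases Nat.lt_or_ge a b with hab | hba
  · right
    obtain ⟨c, rfl⟩ := Nat.exists_eq_add_of_lt hab
    have hrel : s28v_iota ℓ P' * f⁻¹ =
        s28v_iota ℓ ((ℓ : LaurentSeries (ratLocalizedAt ℓ)) ^ (c + 1) * Q') := by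
      have ha : ((ℓ : ℕ) : LaurentSeries ℚ) ^ a ≠ 0 := pow_ne_zero _ hℓ0
      apply mul_left_cancel₀ ha
      apply mul_left_cancel₀ hf0
      simp only [map_mul, map_pow, map_natCast]
      have e1 : f * (((ℓ : ℕ) : LaurentSeries ℚ) ^ a * (s28v_iota ℓ P' * f⁻¹)) =
          ((ℓ : ℕ) : LaurentSeries ℚ) ^ a * s28v_iota ℓ P' * (f * f⁻¹) := by ring
      rw [e1, mul_inv_cancel₀ hf0, mul_one, ← h]
      rw [show a + c + 1 = a + (c + 1) from by ring, _root_.pow_add]; ring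
    have hmem : f⁻¹ ∈ s28v_O ℓ := ⟨_, P', hP', hrel⟩
    refine ⟨hmem, ?_⟩
    rw [s28v_red_eq ℓ ⟨f⁻¹, hmem⟩ _ P' hP' hrel, map_mul, map_pow, map_natCast,
      s28v_natCast_laurent_zmod, zero_pow (Nat.succ_ne_zero c), zero_mul, zero_div]
  · left
    obtain ⟨c, rfl⟩ := Nat.exists_eq_add_of_le hba
    refine ⟨(ℓ : LaurentSeries (ratLocalizedAt ℓ)) ^ c * P', Q', hQ', ?_⟩
    have hb : ((ℓ : ℕ) : LaurentSeries ℚ) ^ b ≠ 0 := pow_ne_zero _ hℓ0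
    apply mul_left_cancel₀ hb
    simp only [map_mul, map_pow, map_natCast]
    rw [← mul_assoc, h, _root_.pow_add]; ring

end Fermat.Agent.Lib.S28
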