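import Mathlib
import Fermat.Prelude.Def_ModularCurve_IgusaScheme
import Fermat.Prelude.Def_ModularCurve_JqCoeff

set_option autoImplicit false

noncomputable section

namespace Fermat.Agent.Lib.S28

open GaloisRep

variable (ℓ : ℕ) [Fact ℓ.Prime]

theorem s28v_mem_ratLoc_iff {x : ℚ} : x ∈ ratLocalizedAt ℓ ↔ x.den.Coprime ℓ := Iff.rfl

theorem s28v_den_ne_zero {x : ℚ} (hx : x ∈ ratLocalizedAt ℓ) : ((x.den : ℕ) : ZMod ℓ) ≠ 0 := by
  intro h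
  rw [ZMod.natCast_eq_zero_iff] at h
  have hc : x.den.Coprime ℓ := hx
  have h1 : ℓ ∣ Nat.gcd x.den ℓ := Nat.dvd_gcd h dvd_rfl
  rw [hc] at h1
  exact (Fact.out : ℓ.Prime).one_lt.ne' (Nat.dvd_one.mp h1)

/-- The residue homomorphism `ℤ_(ℓ) → 𝔽_ℓ`. -/
def s28v_resHom : ratLocalizedAt ℓ →+* ZMod ℓ where
  toFun x := ((x : ℚ) : ZMod ℓ)
  map_one' := by simp
  map_mul' x y := Rat.cast_mul_of_ne_zero (s28v_den_ne_zero ℓ x.2) (s28v_den_ne_zero ℓ y.2)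
  map_zero' := by simp
  map_add' x y := Rat.cast_add_of_ne_zero (s28v_den_ne_zero ℓ x.2) (s28v_den_ne_zero ℓ y.2)

theorem s28v_resHom_apply (x : ratLocalizedAt ℓ) : s28v_resHom ℓ x = ((x : ℚ) : ZMod ℓ) := rfl

theorem s28v_int_mem (n : ℤ) : (n : ℚ) ∈ ratLocalizedAt ℓ := by
  show ((n : ℚ)).den.Coprime ℓ
  simp

theorem s28v_nat_mem (n : ℕ) : (n : ℚ) ∈ ratLocalizedAt ℓ := by
  show ((n : ℚ)).den.Coprime ℓ
  simp

theorem s28v_resHom_int (n : ℤ) : s28v_resHom ℓ ⟨(n : ℚ), s28v_int_mem ℓ n⟩ = (n : ZMod ℓ) := by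
  rw [s28v_resHom_apply]; simp

theorem s28v_resHom_surjective : Function.Surjective (s28v_resHom ℓ) := by
  intro n
  haveI : NeZero ℓ := ⟨(Fact.out : ℓ.Prime).ne_zero⟩
  refine ⟨⟨((n.val : ℕ) : ℚ), s28v_nat_mem ℓ _⟩, ?_⟩
  rw [s28v_resHom_apply]
  show (((n.val : ℕ) : ℚ) : ZMod ℓ) = n
  rw [Rat.cast_natCast, ZMod.natCast_zmod_val]

theorem s28v_coe_natCast (n : ℕ) : (((n : ratLocalizedAt ℓ)) : ℚ) = (n : ℚ) := by
  simp

/-- The kernel of the residue homomorphism is `ℓ·ℤ_(ℓ)`. -/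
theorem s28v_resHom_eq_zero_iff (x : ratLocalizedAt ℓ) :
    s28v_resHom ℓ x = 0 ↔ ∃ y : ratLocalizedAt ℓ, x = (ℓ : ratLocalizedAt ℓ) * y := by
  constructor
  · intro h
    rw [s28v_resHom_apply, Rat.cast_def, div_eq_zero_iff] at h
    rcases h with h | h
    · have hdvd : (ℓ : ℤ) ∣ (x : ℚ).num := (ZMod.intCast_zmod_eq_zero_iff_dvd _ _).mp h
      obtain ⟨m, hm⟩ := hdvd
      have hy : (Rat.divInt m ((x : ℚ).den : ℤ)) ∈ ratLocalizedAt ℓ := by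
        show (Rat.divInt m ((x : ℚ).den : ℤ)).den.Coprime ℓ
        have hc : (x : ℚ).den.Coprime ℓ := x.2
        have hd : (Rat.divInt m ((x : ℚ).den : ℤ)).den ∣ (x : ℚ).den :=
          Int.natCast_dvd_natCast.mp (Rat.den_dvd m ((x : ℚ).den : ℤ))
        exact Nat.Coprime.coprime_dvd_left hd hc
      refine ⟨⟨_, hy⟩, Subtype.ext ?_⟩
      show (x : ℚ) = ((ℓ : ratLocalizedAt ℓ) : ℚ) * (Rat.divInt m ((x : ℚ).den : ℤ))
      rw [s28v_coe_natCast]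
      have hden : ((x : ℚ).den : ℚ) ≠ 0 := by exact_mod_cast (x : ℚ).den_nz
      have hx : (x : ℚ) = ((x : ℚ).num : ℚ) / ((x : ℚ).den : ℚ) := (Rat.num_div_den _).symm
      rw [Rat.divInt_eq_div]
      conv_lhs => rw [hx, hm]
      push_cast
      ring
    · exact absurd h (s28v_den_ne_zero ℓ x.2)
  · rintro ⟨y, rfl⟩
    rw [map_mul, map_natCast]
    simp

end Fermat.Agent.Lib.S28
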