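/-
S28 (Igusa), package W (helper1), glue: the Fricke-cusp instantiation of helper6's valuation
package V along the Fricke embedding of W1.
-/
import Fermat.Agent.Lib.S28.VAlg
import Fermat.Agent.Lib.S28.WDegreeQ

set_option autoImplicit false

noncomputable section

namespace Fermat.Agent.Lib.S28

open GaloisRep ModularCurve HahnSeries ModularCurve.IgusaScheme

set_option linter.unusedSectionVars false

variable (ℓ : ℕ) [Fact ℓ.Prime] (N : ℕ) [NeZero N]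

/-- The Fricke embedding `F → ℚ((q))`, typed on `modularFunctionFieldFull N`. -/
abbrev s28w_w : ↥(modularFunctionFieldFull N) →+* LaurentSeries ℚ := s28w_frickeHom N

theorem s28w_w_mem_full (x : modularFunctionFieldFull N) :
    s28w_w N x ∈ modularFunctionFieldFull N := s28w_frickeHom_mem N x

theorem s28w_hw (x : modularFunctionFieldFull N) : s28w_w N x ∈ s28v_Frac ℓ :=
  s28v_full_le_Frac ℓ N (s28w_w_mem_full N x)

omit [NeZero N] in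
theorem s28w_neZero_div {d : ℕ} (hd : d ∣ N) [NeZero N] : NeZero (N / d) :=
  ⟨(Nat.div_pos (Nat.le_of_dvd (Nat.pos_of_ne_zero (NeZero.ne N)) hd)
    (Nat.pos_of_dvd_of_pos hd (Nat.pos_of_ne_zero (NeZero.ne N)))).ne'⟩

/-- **Fricke on generators**: `w (j(q^d)) = j(q^(N/d))`. -/
theorem s28w_w_gen {d : ℕ} [NeZero d] (hd : d ∣ N) [NeZero (N / d)] :
    s28w_w N ⟨qExpand ℚ d jq, jqd_mem_full N hd⟩ = qExpand ℚ (N / d) jq := by
  have h := s28w_frickeEquiv_gen N hd ⟨qExpand ℚ d jq, jqd_mem_full N hd⟩ rfl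
  exact h

theorem s28w_w_jFull : s28w_w N (jFull N) = qExpand ℚ N jq := by
  have : NeZero (N / 1) := s28w_neZero_div N (one_dvd N)
  have h := s28w_w_gen N (d := 1) (one_dvd N)
  have e : (⟨qExpand ℚ 1 jq, jqd_mem_full N (one_dvd N)⟩ : modularFunctionFieldFull N) =
      jFull N := Subtype.ext (qExpand_one_apply jq)
  rw [e] at h
  rw [h]
  exact qExpand_congr (Nat.div_one N) jq

theorem s28w_w_jN :
    s28w_w N ⟨qExpand ℚ N jq, jqd_mem_full N dvd_rfl⟩ = jq := by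
  have : NeZero (N / N) := s28w_neZero_div N dvd_rfl
  rw [s28w_w_gen N (d := N) dvd_rfl,
    qExpand_congr (Nat.div_self (Nat.pos_of_ne_zero (NeZero.ne N))) jq, qExpand_one_apply]

/-! ### Membership in the pulled-back Gauss ring and reduction values -/

/-- Inverses of the generators lie in the Gauss ring. -/
theorem s28w_jqN_inv_mem_O (d : ℕ) [NeZero d] : (qExpand ℚ d jq)⁻¹ ∈ s28v_O ℓ := by
  rw [← s28v_iota_jqN ℓ d]
  exact s28v_inv_iota_mem_O ℓ _ (by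
    rw [s28v_rho_jqN]
    exact fun h => jqModC_ne_zero_of_nontrivial (ZMod ℓ)
      ((map_eq_zero (qExpand (ZMod ℓ) d)).mp h))

theorem s28w_red_jqN_inv (d : ℕ) [NeZero d] :
    s28v_red ℓ ⟨(qExpand ℚ d jq)⁻¹, s28w_jqN_inv_mem_O ℓ d⟩ =
      (qExpand (ZMod ℓ) d (jqModC (ZMod ℓ)))⁻¹ := by
  have hne : s28v_rho ℓ (qExpand (ratLocalizedAt ℓ) d (jqModC (ratLocalizedAt ℓ))) ≠ 0 := by
    rw [s28v_rho_jqN]
    exact fun h => jqModC_ne_zero_of_nontrivial (ZMod ℓ)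
      ((map_eq_zero (qExpand (ZMod ℓ) d)).mp h)
  have h := s28v_red_inv_iota ℓ (qExpand (ratLocalizedAt ℓ) d (jqModC (ratLocalizedAt ℓ))) hne
  rw [s28v_rho_jqN] at h
  rw [← h]
  congr 1
  apply Subtype.ext
  show (qExpand ℚ d jq)⁻¹ = (s28v_iota ℓ _)⁻¹
  rw [s28v_iota_jqN]

theorem s28w_gen_mem_OAlg {d : ℕ} [NeZero d] (hd : d ∣ N) :
    (⟨qExpand ℚ d jq, jqd_mem_full N hd⟩ : modularFunctionFieldFull N) ∈
      s28v_OAlg ℓ N (s28w_w N) (s28w_hw ℓ N) := by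
  have : NeZero (N / d) := s28w_neZero_div N hd
  rw [s28v_mem_OAlg_iff, s28w_w_gen N hd]
  exact s28v_jqN_mem_O ℓ (N / d)

/-- **Reduction at the Fricke cusp on generators**: `red' (j(q^d)) = J(q^(N/d))`. -/
theorem s28w_redAlg_gen {d : ℕ} [NeZero d] (hd : d ∣ N) [NeZero (N / d)] :
    (letI := s28v_algLS ℓ;
      s28v_redAlg ℓ N (s28w_w N) (s28w_hw ℓ N)
        ⟨⟨qExpand ℚ d jq, jqd_mem_full N hd⟩, s28w_gen_mem_OAlg ℓ N hd⟩) =
      qExpand (ZMod ℓ) (N / d) (jqModC (ZMod ℓ)) := by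
  rw [s28v_redAlg_apply, ← s28v_red_jqN ℓ (N / d)]
  congr 1
  exact Subtype.ext (s28w_w_gen N hd)

theorem s28w_jFull_mem_OAlg :
    jFull N ∈ s28v_OAlg ℓ N (s28w_w N) (s28w_hw ℓ N) := by
  rw [s28v_mem_OAlg_iff, s28w_w_jFull]
  exact s28v_jqN_mem_O ℓ N

/-- `red' j = J(q^N)`. -/
theorem s28w_redAlg_jFull :
    (letI := s28v_algLS ℓ;
      s28v_redAlg ℓ N (s28w_w N) (s28w_hw ℓ N) ⟨jFull N, s28w_jFull_mem_OAlg ℓ N⟩) =
      qExpand (ZMod ℓ) N (jqModC (ZMod ℓ)) := by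
  rw [s28v_redAlg_apply, ← s28v_red_jqN ℓ N]
  congr 1
  exact Subtype.ext (s28w_w_jFull N)

theorem s28w_jFull_inv_mem_OAlg :
    (jFull N)⁻¹ ∈ s28v_OAlg ℓ N (s28w_w N) (s28w_hw ℓ N) := by
  rw [s28v_mem_OAlg_iff, map_inv₀, s28w_w_jFull]
  exact s28w_jqN_inv_mem_O ℓ N

/-- `red' j⁻¹ = J(q^N)⁻¹`. -/
theorem s28w_redAlg_jFull_inv :
    (letI := s28v_algLS ℓ;
      s28v_redAlg ℓ N (s28w_w N) (s28w_hw ℓ N) ⟨(jFull N)⁻¹, s28w_jFull_inv_mem_OAlg ℓ N⟩) =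
      (qExpand (ZMod ℓ) N (jqModC (ZMod ℓ)))⁻¹ := by
  rw [s28v_redAlg_apply, ← s28w_red_jqN_inv ℓ N]
  congr 1
  apply Subtype.ext
  show s28w_w N (jFull N)⁻¹ = _
  rw [map_inv₀, s28w_w_jFull]

theorem s28w_jN_mem_OAlg :
    (⟨qExpand ℚ N jq, jqd_mem_full N dvd_rfl⟩ : modularFunctionFieldFull N) ∈
      s28v_OAlg ℓ N (s28w_w N) (s28w_hw ℓ N) := s28w_gen_mem_OAlg ℓ N dvd_rfl

/-- `red' (j(q^N)) = J`. -/
theorem s28w_redAlg_jN :
    (letI := s28v_algLS ℓ;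
      s28v_redAlg ℓ N (s28w_w N) (s28w_hw ℓ N)
        ⟨⟨qExpand ℚ N jq, jqd_mem_full N dvd_rfl⟩, s28w_jN_mem_OAlg ℓ N⟩) =
      jqModC (ZMod ℓ) := by
  rw [s28v_redAlg_apply, ← s28v_red_jq ℓ]
  congr 1
  exact Subtype.ext (s28w_w_jN N)

/-! ### The three chart algebras lie in the Fricke Gauss ring -/

theorem s28w_chartAlgFin_le :
    chartAlgFin N ℓ ≤ s28v_OAlg ℓ N (s28w_w N) (s28w_hw ℓ N) :=
  s28v_chartAlg_le_OAlg ℓ N _ _ _ (by
    rintro s rfl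
    exact s28w_jFull_mem_OAlg ℓ N)

theorem s28w_chartAlgInf_le :
    chartAlgInf N ℓ ≤ s28v_OAlg ℓ N (s28w_w N) (s28w_hw ℓ N) :=
  s28v_chartAlg_le_OAlg ℓ N _ _ _ (by
    rintro s rfl
    exact s28w_jFull_inv_mem_OAlg ℓ N)

theorem s28w_chartAlgMid_le :
    chartAlgMid N ℓ ≤ s28v_OAlg ℓ N (s28w_w N) (s28w_hw ℓ N) :=
  s28v_chartAlg_le_OAlg ℓ N _ _ _ (by
    rintro s (rfl | rfl)
    · exact s28w_jFull_mem_OAlg ℓ N
    · exact s28w_jFull_inv_mem_OAlg ℓ N)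

/-! ### Lifting monomials in the `J(q^d)` to `F` through the Fricke reduction -/

/-- The generators `j(q^d)`, `d ∣ N`, as a subset of `F`. -/
def s28w_gensF : Set ↥(modularFunctionFieldFull N) :=
  {x | (x : LaurentSeries ℚ) ∈ divisorExpansions N}

theorem s28w_gen_mem_gensF {d : ℕ} [NeZero d] (hd : d ∣ N) :
    (⟨qExpand ℚ d jq, jqd_mem_full N hd⟩ : modularFunctionFieldFull N) ∈ s28w_gensF N :=
  mem_divisorExpansions N hd

/-- Every monomial in the `J(q^d)` (`d ∣ N`) over a field `k ⊇ 𝔽_ℓ` is the Fricke reduction of a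
monomial in the `j(q^d)`. -/
theorem s28w_exists_lift_closure {k : Type*} [Field k] (φ : ZMod ℓ →+* k)
    (θ : LaurentSeries k) (hθ : θ ∈ Submonoid.closure (divisorExpansionsC k N)) :
    ∃ b : modularFunctionFieldFull N, b ∈ Submonoid.closure (s28w_gensF N) ∧
      ∃ hb : b ∈ s28v_OAlg ℓ N (s28w_w N) (s28w_hw ℓ N),
        coeffMap φ (letI := s28v_algLS ℓ;
          s28v_redAlg ℓ N (s28w_w N) (s28w_hw ℓ N) ⟨b, hb⟩) = θ := by
  letI := s28v_algLS ℓ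
  induction hθ using Submonoid.closure_induction with
  | mem x hx =>
    obtain ⟨d, hne, hd, rfl⟩ := hx
    have hd' : N / d ∣ N := Nat.div_dvd_of_dvd hd
    have : NeZero (N / d) := s28w_neZero_div N hd
    have : NeZero (N / (N / d)) := s28w_neZero_div N hd'
    refine ⟨⟨qExpand ℚ (N / d) jq, jqd_mem_full N hd'⟩,
      Submonoid.subset_closure (s28w_gen_mem_gensF N hd'), s28w_gen_mem_OAlg ℓ N hd', ?_⟩
    rw [s28w_redAlg_gen ℓ N hd', coeffMap_qExpand, coeffMap_jqModC]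
    exact qExpand_congr (Nat.div_div_self hd (NeZero.ne N)) _
  | one =>
    refine ⟨1, one_mem _, one_mem _, ?_⟩
    have e : (⟨1, one_mem _⟩ : s28v_OAlg ℓ N (s28w_w N) (s28w_hw ℓ N)) = 1 := rfl
    rw [e, map_one, map_one]
  | mul x y _ _ hx hy =>
    obtain ⟨b₁, hb₁, hO₁, e₁⟩ := hx
    obtain ⟨b₂, hb₂, hO₂, e₂⟩ := hy
    refine ⟨b₁ * b₂, mul_mem hb₁ hb₂, mul_mem hO₁ hO₂, ?_⟩
    have e : (⟨b₁ * b₂, mul_mem hO₁ hO₂⟩ : s28v_OAlg ℓ N (s28w_w N) (s28w_hw ℓ N)) =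
        ⟨b₁, hO₁⟩ * ⟨b₂, hO₂⟩ := rfl
    rw [e, map_mul, map_mul, e₁, e₂]

end Fermat.Agent.Lib.S28
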